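import Mathlib
import Fermat.Prelude.Def_ModularCurve_HeckeModule
import Fermat.Prelude.Def_GaloisRep_Residual
import Fermat.Agent.S22.HeckeDefs

/-!
# S29 (wave 5): shared definitions

* `GQ` : the absolute Galois group of `ℚ` (automorphisms of `AlgebraicClosure ℚ`);
* `Jtors N n` : the `n`-torsion of `J₀(N)(ℚ̄)` (the prelude's `Pic0.torsion`), a `ZMod n`-module;
* `heckeTors N n ℓ` : the prelude Hecke operator `heckeOperatorBar N ℓ` on `Jtors N n`;
* `IsPE ψ` : an additive character of `Γ₀(N)` killing the elements of trace `±2` and the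
  elements of finite order;  `peHoms N A` the group of such characters.
-/

set_option autoImplicit false

open scoped MatrixGroups

namespace Fermat.Agent.S29

open ModularCurve AlgebraicCurve

/-- the absolute Galois group of `ℚ` -/
abbrev GQ : Type := AlgebraicClosure ℚ ≃ₐ[ℚ] AlgebraicClosure ℚ

/-- the `n`-torsion of `J₀(N)(ℚ̄)` -/
abbrev Jtors (N n : ℕ) : Type :=
  ↥(Pic0.torsion (AlgebraicClosure ℚ) (modularFunctionFieldBar N) n)

theorem heckeOperatorBar_mem_torsion (N n : ℕ) [NeZero N] (ℓ : Nat.Primes) {x : JZero N}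
    (hx : x ∈ Pic0.torsion (AlgebraicClosure ℚ) (modularFunctionFieldBar N) n) :
    heckeOperatorBar N ℓ x ∈ Pic0.torsion (AlgebraicClosure ℚ) (modularFunctionFieldBar N) n := by
  rw [Pic0.mem_torsion] at hx ⊢
  rw [← map_zsmul, hx, map_zero]

/-- the Hecke operator `T_ℓ` on the `n`-torsion of `J₀(N)(ℚ̄)` -/
noncomputable def heckeTors (N n : ℕ) [NeZero N] (ℓ : Nat.Primes) :
    Module.End (ZMod n) (Jtors N n) :=
  AddMonoidHom.toZModLinearMap n
    { toFun := fun x => ⟨heckeOperatorBar N ℓ (x : JZero N),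
        heckeOperatorBar_mem_torsion N n ℓ x.2⟩
      map_zero' := Subtype.ext (map_zero _)
      map_add' := fun x y => Subtype.ext (map_add (heckeOperatorBar N ℓ) (x : JZero N) y) }

@[simp] theorem coe_heckeTors (N n : ℕ) [NeZero N] (ℓ : Nat.Primes) (x : Jtors N n) :
    ((heckeTors N n ℓ x : Jtors N n) : JZero N) = heckeOperatorBar N ℓ (x : JZero N) := rfl

/-- `ψ` kills the elements of trace `±2` (parabolic elements and `±1`) and the elements of
finite order (elliptic elements and `±1`). -/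
def IsPE {N : ℕ} {A : Type*} [AddCommGroup A] (ψ : Additive (S22.Gam N) →+ A) : Prop :=
  ∀ γ : S22.Gam N,
    ((((γ : SL(2, ℤ)) : Matrix (Fin 2) (Fin 2) ℤ).trace ^ 2 = 4) ∨ IsOfFinOrder γ) →
      ψ (Additive.ofMul γ) = 0

/-- the group of additive characters of `Γ₀(N)` killing parabolic and finite-order elements -/
def peHoms (N : ℕ) (A : Type*) [AddCommGroup A] : AddSubgroup (Additive (S22.Gam N) →+ A) where
  carrier := {ψ | IsPE ψ}
  zero_mem' := fun _ _ => rfl
  add_mem' := by
    intro ψ χ hψ hχ γ hγ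
    show ψ (Additive.ofMul γ) + χ (Additive.ofMul γ) = 0
    rw [hψ γ hγ, hχ γ hγ, add_zero]
  neg_mem' := by
    intro ψ hψ γ hγ
    show -ψ (Additive.ofMul γ) = 0
    rw [hψ γ hγ, neg_zero]

theorem mem_peHoms {N : ℕ} {A : Type*} [AddCommGroup A] {ψ : Additive (S22.Gam N) →+ A} :
    ψ ∈ peHoms N A ↔ IsPE ψ := Iff.rfl

end Fermat.Agent.S29
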