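import Mathlib

/-!
# Burnside's theorem on irreducible matrix algebras

A subalgebra of `End K V` (`V` finite-dimensional over an algebraically closed field `K`)
with no nontrivial invariant subspace is all of `End K V`.  Proof: Schur's lemma plus
Mathlib's Jacobson density theorem.
-/

set_option autoImplicit false

namespace Fermat.Agent.S29.QuadBurnside

open Module

variable {K V : Type*} [Field K] [AddCommGroup V] [Module K V]



/-- Schur's lemma: an endomorphism commuting with an irreducible algebra is a scalar. -/
theorem schur [IsAlgClosed K] [FiniteDimensional K V] [Nontrivial V]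
    (A : Subalgebra K (Module.End K V))
    (hirr : ∀ W : Submodule K V, (∀ a ∈ A, ∀ x ∈ W, a x ∈ W) → W = ⊥ ∨ W = ⊤)
    (φ : Module.End K V) (hφ : ∀ a ∈ A, ∀ x, φ (a x) = a (φ x)) :
    ∃ c : K, ∀ v, φ v = c • v := by
  obtain ⟨c, hc⟩ := Module.End.exists_eigenvalue φ
  refine ⟨c, fun v => ?_⟩
  have hW : Module.End.eigenspace φ c = ⊤ := by
    refine (hirr _ ?_).resolve_left hc
    intro a ha x hx
    rw [Module.End.mem_eigenspace_iff] at hx ⊢
    rw [hφ a ha, hx, map_smul]
  have : v ∈ Module.End.eigenspace φ c := hW ▸ Submodule.mem_top
  exact Module.End.mem_eigenspace_iff.mp this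



/-- **Burnside's theorem.** -/
theorem burnside [IsAlgClosed K] [FiniteDimensional K V]
    (A : Subalgebra K (Module.End K V))
    (hirr : ∀ W : Submodule K V, (∀ a ∈ A, ∀ x ∈ W, a x ∈ W) → W = ⊥ ∨ W = ⊤) : A = ⊤ := by
  rcases subsingleton_or_nontrivial V with hV | hV
  · rw [eq_top_iff]
    intro f _
    have : f = 0 := LinearMap.ext fun v => Subsingleton.elim _ _
    rw [this]; exact A.zero_mem
  -- `V` is a simple `A`-module
  have hsimple : IsSimpleModule A V := by
    refine { exists_pair_ne := ⟨⊥, ⊤, bot_ne_top⟩, eq_bot_or_eq_top := fun N => ?_ }
    let W : Submodule K V :=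
      { carrier := N
        add_mem' := N.add_mem
        zero_mem' := N.zero_mem
        smul_mem' := fun c x hx => by
          have h := N.smul_mem (algebraMap K A c) hx
          have e : (algebraMap K A c) • x = c • x := by
            show ((algebraMap K A c : A) : Module.End K V) x = c • x
            simp [Algebra.algebraMap_eq_smul_one] 
          rw [e] at h; exact h }
    have hW : ∀ a ∈ A, ∀ x ∈ W, a x ∈ W := fun a ha x hx => N.smul_mem ⟨a, ha⟩ hx
    rcases hirr W hW with h | h
    · left; ext x; constructor
      · intro hx; have : x ∈ W := hx; rw [h] at this; simpa using this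
      · intro hx; rw [Submodule.mem_bot] at hx; rw [hx]; exact N.zero_mem
    · right; ext x; constructor
      · intro _; trivial
      · intro _; have : x ∈ W := by rw [h]; trivial
        exact this
  have hss : IsSemisimpleModule A V := inferInstance
  rw [eq_top_iff]
  intro f _
  -- `f` is linear over `End_A V`, which consists of scalars
  have hschur : ∀ φ : Module.End A V, ∃ c : K, ∀ v, φ v = c • v := by
    intro φ
    let φ' : Module.End K V :=
      { toFun := φ
        map_add' := φ.map_add
        map_smul' := fun c x => by
          have h := φ.map_smul (algebraMap K A c) x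
          have e : ∀ y : V, (algebraMap K A c) • y = c • y := by
            intro y
            show ((algebraMap K A c : A) : Module.End K V) y = c • y
            simp [Algebra.algebraMap_eq_smul_one]
          rw [e, e] at h
          simp [h] }
    exact schur A hirr φ' (fun a ha x => φ.map_smul ⟨a, ha⟩ x)
  let F : Module.End (Module.End A V) V :=
    { toFun := f
      map_add' := f.map_add
      map_smul' := fun φ v => by
        obtain ⟨c, hc⟩ := hschur φ
        show f (φ v) = φ (f v)
        rw [hc, hc, map_smul] }
  let b := Module.finBasis K V
  classical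
  obtain ⟨r, hr⟩ := jacobson_density F (Finset.univ.image b)
  have : f = (r : Module.End K V) := by
    refine b.ext fun i => ?_
    have := hr (b i) (Finset.mem_image_of_mem _ (Finset.mem_univ i))
    exact this
  rw [this]; exact r.2

end Fermat.Agent.S29.QuadBurnside
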