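import Mathlib
import Fermat.Agent.S29.QuadBurnside

/-!
# The quadratic lemma

Let `K` be an algebraically closed field (any characteristic), `G` a group, `δ : G → Kˣ` a
character and `ρ` a finite-dimensional irreducible representation of `G` on `V` such that
`ρ g + δ g • ρ g⁻¹` is a scalar `t g` for every `g`.  Then `dim V ≤ 2`.
-/

set_option autoImplicit false
set_option linter.unusedSimpArgs false

namespace Fermat.Agent.S29.QuadDim

open Matrix

section Abstract

variable {K A : Type*} [Field K] [Ring A] [Algebra K A] {d : ℕ}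

/-- The abstract core: there is no "anti-involution with scalar trace" on `M_d(K)` for
`d ≥ 3`, even through a surjection. -/
theorem no_antiinvolution (hd : 3 ≤ d)
    (R : A →ₐ[K] Matrix (Fin d) (Fin d) K) (hR : Function.Surjective R)
    (T : A →ₗ[K] K) (J : A →ₗ[K] Matrix (Fin d) (Fin d) K)
    (h1 : ∀ a, R a + J a = T a • (1 : Matrix (Fin d) (Fin d) K))
    (h2 : ∀ a b, J (a * b) = J b * J a) : False := by
  let i0 : Fin d := ⟨0, by omega⟩
  let i1 : Fin d := ⟨1, by omega⟩
  let i2 : Fin d := ⟨2, by omega⟩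
  have h01 : i0 ≠ i1 := by simp [i0, i1, Fin.ext_iff]
  have h02 : i0 ≠ i2 := by simp [i0, i2, Fin.ext_iff]
  have h12 : i1 ≠ i2 := by simp [i1, i2, Fin.ext_iff]
  have hJ : ∀ a, J a = T a • (1 : Matrix (Fin d) (Fin d) K) - R a := fun a => by
    rw [← h1 a]; abel
  -- kernel of `R` is killed by `J`
  have hker : ∀ u, R u = 0 → J u = 0 := by
    intro u hu
    have hJu : J u = T u • (1 : Matrix (Fin d) (Fin d) K) := by rw [hJ u, hu, sub_zero]
    by_cases hT : T u = 0
    · rw [hJu, hT, zero_smul]
    exfalso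
    obtain ⟨b, hb⟩ := hR (Matrix.single i0 i1 (1 : K))
    have hub : R (u * b) = 0 := by rw [map_mul, hu, zero_mul]
    have e1 : J (u * b) = T (u * b) • (1 : Matrix (Fin d) (Fin d) K) := by
      rw [hJ (u * b), hub, sub_zero]
    have e2 : J (u * b) = T u • J b := by
      rw [h2, hJu, Matrix.mul_smul, Matrix.mul_one]
    have e3 : T u • J b = T (u * b) • (1 : Matrix (Fin d) (Fin d) K) := by rw [← e2, e1]
    have e4 := congrFun (congrFun e3 i0) i1
    rw [hJ b, hb] at e4
    simp [Matrix.one_apply, h01, Matrix.single_apply, hT] at e4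
  have hker' : ∀ u v, R u = R v → J u = J v := by
    intro u v huv
    have := hker (u - v) (by rw [map_sub, huv, sub_self])
    rw [map_sub, sub_eq_zero] at this
    exact this
  obtain ⟨a0, ha0⟩ := hR (Matrix.single i0 i0 (1 : K))
  obtain ⟨a1, ha1⟩ := hR (Matrix.single i1 i1 (1 : K))
  obtain ⟨c, hc⟩ := hR (Matrix.single i0 i1 (1 : K))
  obtain ⟨c', hc'⟩ := hR (Matrix.single i1 i0 (1 : K))
  -- `T a0 = 0`
  have hT0 : T a0 = 0 := by
    have h : J (a0 * a1) = 0 := hker _ (by
      rw [map_mul, ha0, ha1, Matrix.single_mul_single_of_ne _ _ _ _ h01]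
      )
    rw [h2, hJ a0, hJ a1, ha0, ha1] at h
    have e11 := congrFun (congrFun h i1) i1
    have e22 := congrFun (congrFun h i2) i2
    simp [Matrix.mul_apply, Matrix.sub_apply, Matrix.one_apply, Matrix.single_apply,
      Finset.sum_sub_distrib, sub_mul, mul_sub, h01, h02, h12, h01.symm, h02.symm, h12.symm,
      Finset.sum_ite_eq, Finset.sum_ite_eq'] at e11 e22
    rcases e22 with h' | h'
    · rw [h'] at e11; simpa using e11
    · exact h'
  have hJa0 : J a0 = - Matrix.single i0 i0 (1 : K) := by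
    rw [hJ a0, hT0, ha0, zero_smul, zero_sub]
  -- `T c = 0` and `T c' = 0`
  have hTnil : ∀ (x : A) (i j : Fin d), i ≠ j → R x = Matrix.single i j (1 : K) → T x = 0 := by
    intro x i j hij hx
    have h : J (x * x) = 0 := hker _ (by
      rw [map_mul, hx, Matrix.single_mul_single_of_ne _ _ _ _ hij.symm])
    rw [h2, hJ x, hx] at h
    -- pick an index different from `i` and `j`
    obtain ⟨k, hki, hkj⟩ : ∃ k : Fin d, k ≠ i ∧ k ≠ j := by
      by_cases hi0 : i0 ≠ i ∧ i0 ≠ j
      · exact ⟨i0, hi0.1, hi0.2⟩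
      by_cases hi1 : i1 ≠ i ∧ i1 ≠ j
      · exact ⟨i1, hi1.1, hi1.2⟩
      refine ⟨i2, ?_, ?_⟩
      · rintro rfl
        rcases not_and_or.mp hi0 with h' | h' <;> rcases not_and_or.mp hi1 with h'' | h''
        · exact h02 (not_not.mp h')
        · exact h02 (not_not.mp h')
        · exact h12 (not_not.mp h'')
        · exact h01 ((not_not.mp h').trans (not_not.mp h'').symm)
      · rintro rfl
        rcases not_and_or.mp hi0 with h' | h' <;> rcases not_and_or.mp hi1 with h'' | h''
        · exact h01 ((not_not.mp h').trans (not_not.mp h'').symm)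
        · exact h12 (not_not.mp h'')
        · exact h02 (not_not.mp h')
        · exact h02 (not_not.mp h')
    have ekk := congrFun (congrFun h k) k
    simp [Matrix.mul_apply, Matrix.sub_apply, Matrix.one_apply, Matrix.single_apply,
      Finset.sum_sub_distrib, sub_mul, mul_sub, hki, hkj, hki.symm, hkj.symm,
      Finset.sum_ite_eq, Finset.sum_ite_eq'] at ekk
    exact ekk
  have hJc : J c = - Matrix.single i0 i1 (1 : K) := by
    rw [hJ c, hTnil c i0 i1 h01 hc, hc, zero_smul, zero_sub]
  have hJc' : J c' = - Matrix.single i1 i0 (1 : K) := by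
    rw [hJ c', hTnil c' i1 i0 h01.symm hc', hc', zero_smul, zero_sub]
  have hcc : J (c * c') = J a0 := hker' _ _ (by
    rw [map_mul, hc, hc', ha0, Matrix.single_mul_single_same, mul_one])
  rw [h2, hJc, hJc', hJa0, neg_mul_neg, Matrix.single_mul_single_same, mul_one] at hcc
  have e := congrFun (congrFun hcc i1) i1
  simp [Matrix.single_apply, h01, h01.symm] at e

end Abstract

section Main

variable {K G V : Type*} [Field K] [IsAlgClosed K] [Group G] [AddCommGroup V] [Module K V]
  [FiniteDimensional K V]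

/-- **The quadratic lemma.**  An irreducible finite-dimensional representation `ρ` of a group
over an algebraically closed field such that `ρ g + δ g • ρ g⁻¹` is a scalar for all `g`
(`δ` a character) has dimension at most `2`. -/
theorem finrank_le_two (ρ : G →* Module.End K V) (δ : G →* Kˣ) (t : G → K)
    (hq : ∀ g, ρ g + (δ g : K) • ρ g⁻¹ = t g • (1 : Module.End K V))
    (hirr : ∀ W : Submodule K V, (∀ g, ∀ x ∈ W, ρ g x ∈ W) → W = ⊥ ∨ W = ⊤) :
    Module.finrank K V ≤ 2 := by
  by_contra hlt
  have hd : 3 ≤ Module.finrank K V := by omega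
  let b := Module.finBasis K V
  let Φ : Module.End K V ≃ₐ[K] Matrix (Fin (Module.finrank K V)) (Fin (Module.finrank K V)) K :=
    LinearMap.toMatrixAlgEquiv b
  let R₀ : MonoidAlgebra K G →ₐ[K] Module.End K V := MonoidAlgebra.lift K (Module.End K V) G ρ
  -- Burnside: `R₀` is surjective
  have hsurj : Function.Surjective R₀ := by
    have hrange : R₀.range = ⊤ := by
      refine Fermat.Agent.S29.QuadBurnside.burnside R₀.range (fun W hW => hirr W fun g x hx => ?_)
      refine hW (ρ g) ⟨MonoidAlgebra.of K G g, ?_⟩ x hx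
      exact MonoidAlgebra.lift_of ρ g
    intro f
    have : f ∈ R₀.range := hrange ▸ Algebra.mem_top
    exact this
  -- the anti-homomorphism `g ↦ δ g • ρ g⁻¹`
  let τ : G →* (Module.End K V)ᵐᵒᵖ :=
    { toFun := fun g => MulOpposite.op ((δ g : K) • ρ g⁻¹)
      map_one' := by simp
      map_mul' := fun g h => by
        rw [← MulOpposite.op_mul]
        congr 1
        rw [map_mul, _root_.mul_inv_rev, map_mul, Units.val_mul, smul_mul_smul_comm, mul_comm] }
  let J₁ : MonoidAlgebra K G →ₐ[K] (Module.End K V)ᵐᵒᵖ :=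
    MonoidAlgebra.lift K (Module.End K V)ᵐᵒᵖ G τ
  let J₀ : MonoidAlgebra K G →ₗ[K] Module.End K V :=
    (MulOpposite.opLinearEquiv K).symm.toLinearMap.comp J₁.toLinearMap
  have hJ₀ : ∀ a, J₀ a = MulOpposite.unop (J₁ a) := fun a => rfl
  have hJmul : ∀ a c, J₀ (a * c) = J₀ c * J₀ a := by
    intro a c
    rw [hJ₀, hJ₀, hJ₀, map_mul, MulOpposite.unop_mul]
  have hscal : ∀ a : MonoidAlgebra K G, ∃ s : K, R₀ a + J₀ a = s • (1 : Module.End K V) := by
    intro a
    induction a using MonoidAlgebra.induction_on with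
    | of g =>
      refine ⟨t g, ?_⟩
      rw [hJ₀]
      have e1 : R₀ (MonoidAlgebra.of K G g) = ρ g := MonoidAlgebra.lift_of ρ g
      have e2 : J₁ (MonoidAlgebra.of K G g) = τ g := MonoidAlgebra.lift_of τ g
      rw [e1, e2]
      exact hq g
    | add x y hx hy =>
      obtain ⟨s, hs⟩ := hx
      obtain ⟨s', hs'⟩ := hy
      refine ⟨s + s', ?_⟩
      rw [map_add, map_add, add_smul, ← hs, ← hs']; abel
    | smul r x hx =>
      obtain ⟨s, hs⟩ := hx
      refine ⟨r * s, ?_⟩
      rw [map_smul, map_smul, ← smul_add, hs, smul_smul]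
  let i0 : Fin (Module.finrank K V) := ⟨0, by omega⟩
  let T : MonoidAlgebra K G →ₗ[K] K :=
    { toFun := fun a => (Φ (R₀ a) + Φ (J₀ a)) i0 i0
      map_add' := fun x y => by
        simp only [map_add, Matrix.add_apply]; ring
      map_smul' := fun r x => by
        simp only [map_smul, Matrix.add_apply, Matrix.smul_apply, smul_eq_mul, RingHom.id_apply]
        ring }
  refine no_antiinvolution hd (Φ.toAlgHom.comp R₀) (Φ.surjective.comp hsurj) T
    (Φ.toLinearMap.comp J₀) ?_ ?_
  · intro a
    obtain ⟨s, hs⟩ := hscal a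
    have h := congrArg Φ hs
    rw [map_add, map_smul, map_one] at h
    have hT : T a = s := by
      show (Φ (R₀ a) + Φ (J₀ a)) i0 i0 = s
      rw [h]; simp
    rw [hT]
    exact h
  · intro a c
    show Φ (J₀ (a * c)) = Φ (J₀ c) * Φ (J₀ a)
    rw [hJmul, map_mul]

end Main

end Fermat.Agent.S29.QuadDim
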