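import Mathlib
import Fermat.Agent.S29.QuadDim

/-!
# The quadratic lemma: characteristic polynomials and the two-dimensional representation

Continuation of `QuadDim`.  If `ρ g + δ g • ρ g⁻¹ = t g` (scalar) for all `g` then

* an irreducible two-dimensional `ρ` has `charpoly (ρ g) = X² - t g X + δ g` for every `g`;
* over an algebraically closed field, any nonzero finite-dimensional such `ρ` yields a
  matrix representation `ρ' : G →* M₂(K)` with these characteristic polynomials, trivial on
  every `g` with `ρ g = 1` and `δ g = 1`.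
-/

set_option autoImplicit false
set_option linter.unusedSimpArgs false

namespace Fermat.Agent.S29.QuadCharpoly

open Polynomial Matrix

section TwoByTwo

variable {K : Type*} [Field K]

/-- Cayley–Hamilton for `2 × 2` matrices. -/
theorem cayley_two (M : Matrix (Fin 2) (Fin 2) K) :
    M * M - M.trace • M + M.det • (1 : Matrix (Fin 2) (Fin 2) K) = 0 := by
  ext i j
  fin_cases i <;> fin_cases j <;>
    simp [Matrix.mul_apply, Matrix.trace_fin_two, Matrix.det_fin_two, Fin.sum_univ_two] <;> ring

/-- A `2 × 2` matrix satisfying `M² - t M + d = 0` is scalar or has trace `t` and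
determinant `d`. -/
theorem trace_det_of_quad (M : Matrix (Fin 2) (Fin 2) K) (t d : K)
    (h : M * M - t • M + d • (1 : Matrix (Fin 2) (Fin 2) K) = 0) :
    (M.trace = t ∧ M.det = d) ∨ ∃ c : K, M = c • (1 : Matrix (Fin 2) (Fin 2) K) := by
  have hc := cayley_two M
  have e : (M.trace - t) • M = (M.det - d) • (1 : Matrix (Fin 2) (Fin 2) K) := by
    have : (M.trace - t) • M - (M.det - d) • (1 : Matrix (Fin 2) (Fin 2) K)
        = (M * M - t • M + d • (1 : Matrix (Fin 2) (Fin 2) K))
          - (M * M - M.trace • M + M.det • (1 : Matrix (Fin 2) (Fin 2) K)) := by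
      simp only [sub_smul]; abel
    rw [h, hc, sub_zero] at this
    exact sub_eq_zero.mp this
  by_cases ht : M.trace = t
  · left
    refine ⟨ht, ?_⟩
    rw [ht, sub_self, zero_smul] at e
    have e00 := congrFun (congrFun e 0) 0
    simp at e00
    exact (sub_eq_zero.mp e00.symm)
  · right
    refine ⟨(M.det - d) / (M.trace - t), ?_⟩
    have hne : M.trace - t ≠ 0 := sub_ne_zero.mpr ht
    calc M = (M.trace - t)⁻¹ • ((M.trace - t) • M) := by rw [smul_smul, inv_mul_cancel₀ hne, one_smul]
      _ = ((M.det - d) / (M.trace - t)) • (1 : Matrix (Fin 2) (Fin 2) K) := by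
          rw [e, smul_smul, div_eq_inv_mul]

end TwoByTwo

section Irred

variable {K G V : Type*} [Field K] [Group G] [AddCommGroup V] [Module K V]

theorem quad_rel (ρ : G →* Module.End K V) (δ : G →* Kˣ) (t : G → K)
    (hq : ∀ g, ρ g + (δ g : K) • ρ g⁻¹ = t g • (1 : Module.End K V)) (g : G) :
    ρ g * ρ g - t g • ρ g + (δ g : K) • (1 : Module.End K V) = 0 := by
  have h := congrArg (fun x => x * ρ g) (hq g)
  simp only [add_mul, smul_mul_assoc, one_mul] at h
  rw [← map_mul ρ g⁻¹ g, inv_mul_cancel, map_one] at h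
  rw [← h]; abel

/-- In an irreducible two-dimensional representation with `ρ g + δ g • ρ g⁻¹ = t g`, the
characteristic polynomial of every `ρ g` is `X² - t g X + δ g`. -/
theorem charpoly_of_finrank_two [FiniteDimensional K V] (ρ : G →* Module.End K V) (δ : G →* Kˣ) (t : G → K)
    (hq : ∀ g, ρ g + (δ g : K) • ρ g⁻¹ = t g • (1 : Module.End K V))
    (hirr : ∀ W : Submodule K V, (∀ g, ∀ x ∈ W, ρ g x ∈ W) → W = ⊥ ∨ W = ⊤)
    (h2 : Module.finrank K V = 2) (g : G) :
    (ρ g).charpoly = X ^ 2 - C (t g) * X + C (δ g : K) := by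
  let b : Module.Basis (Fin 2) K V := Module.finBasisOfFinrankEq K V h2
  let Φ : Module.End K V ≃ₐ[K] Matrix (Fin 2) (Fin 2) K := LinearMap.toMatrixAlgEquiv b
  have hΦ : ∀ f : Module.End K V, Φ f = LinearMap.toMatrix b b f := fun f => rfl
  have hrel : ∀ g, Φ (ρ g) * Φ (ρ g) - t g • Φ (ρ g) + (δ g : K) • (1 : Matrix (Fin 2) (Fin 2) K)
      = 0 := by
    intro g
    have := congrArg Φ (quad_rel ρ δ t hq g)
    simpa [map_add, map_sub, map_mul, map_smul] using this
  have hdich : ∀ g, ((Φ (ρ g)).trace = t g ∧ (Φ (ρ g)).det = (δ g : K)) ∨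
      ∃ c : K, Φ (ρ g) = c • (1 : Matrix (Fin 2) (Fin 2) K) := fun g =>
    trace_det_of_quad _ _ _ (hrel g)
  -- some element is not scalar
  have hns : ∃ h : G, ∀ c : K, Φ (ρ h) ≠ c • (1 : Matrix (Fin 2) (Fin 2) K) := by
    by_contra hall
    push Not at hall
    have hscal : ∀ h : G, ∃ c : K, ρ h = c • (1 : Module.End K V) := by
      intro h
      obtain ⟨c, hc⟩ := hall h
      refine ⟨c, Φ.injective ?_⟩
      rw [hc, map_smul, map_one]
    have hinv : ∀ g, ∀ x ∈ Submodule.span K {b 0}, ρ g x ∈ Submodule.span K {b 0} := by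
      intro g x hx
      obtain ⟨c, hc⟩ := hscal g
      rw [hc]
      simpa using Submodule.smul_mem _ c hx
    have hfr : Module.finrank K (Submodule.span K {b 0}) = 1 :=
      finrank_span_singleton (b.ne_zero 0)
    rcases hirr _ hinv with h | h
    · rw [h] at hfr; simp at hfr
    · rw [h, finrank_top, h2] at hfr; omega
  obtain ⟨h, hh⟩ := hns
  have hnsd : ∀ x : G, (∀ c : K, Φ (ρ x) ≠ c • (1 : Matrix (Fin 2) (Fin 2) K)) →
      (Φ (ρ x)).trace = t x ∧ (Φ (ρ x)).det = (δ x : K) := by
    intro x hx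
    rcases hdich x with h' | ⟨c, hc⟩
    · exact h'
    · exact absurd hc (hx c)
  have key : (Φ (ρ g)).trace = t g ∧ (Φ (ρ g)).det = (δ g : K) := by
    rcases hdich g with h' | ⟨c, hc⟩
    · exact h'
    · -- scalar case
      have hρg : ρ g = c • (1 : Module.End K V) := Φ.injective (by rw [hc, map_smul, map_one])
      have hgh : Φ (ρ (g * h)) = c • Φ (ρ h) := by
        rw [map_mul, hρg, smul_mul_assoc, one_mul, map_smul]
      have hδh : (δ h : K) ≠ 0 := (δ h).ne_zero
      have hδg : (δ g : K) ≠ 0 := (δ g).ne_zero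
      have hc0 : c ≠ 0 := by
        rintro rfl
        have := hrel g
        rw [hc] at this
        have e00 := congrFun (congrFun this 0) 0
        simp at e00
      have hgh_ns : ∀ c' : K, Φ (ρ (g * h)) ≠ c' • (1 : Matrix (Fin 2) (Fin 2) K) := by
        intro c' hc'
        rw [hgh] at hc'
        refine hh (c⁻¹ * c') ?_
        calc Φ (ρ h) = c⁻¹ • (c • Φ (ρ h)) := by rw [smul_smul, inv_mul_cancel₀ hc0, one_smul]
          _ = (c⁻¹ * c') • (1 : Matrix (Fin 2) (Fin 2) K) := by rw [hc', smul_smul]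
      obtain ⟨-, hdh⟩ := hnsd h hh
      obtain ⟨-, hdgh⟩ := hnsd (g * h) hgh_ns
      rw [hgh, Matrix.det_smul, hdh, map_mul, Units.val_mul] at hdgh
      simp only [Fintype.card_fin] at hdgh
      have hc2 : c ^ 2 = (δ g : K) := mul_right_cancel₀ hδh hdgh
      have hr := hrel g
      rw [hc] at hr
      have e00 := congrFun (congrFun hr 0) 0
      simp at e00
      have htg : t g = 2 * c := by
        have : c * (2 * c - t g) = 0 := by rw [← hc2] at e00; linear_combination e00
        rcases mul_eq_zero.mp this with h0 | h0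
        · exact absurd h0 hc0
        · linear_combination -h0
      refine ⟨?_, ?_⟩
      · rw [hc, htg]; simp [Matrix.trace_fin_two]; ring
      · rw [hc, ← hc2]; simp [Matrix.det_fin_two]
        try ring
  have hcp : (ρ g).charpoly = (Φ (ρ g)).charpoly := by
    rw [hΦ, LinearMap.charpoly_toMatrix]
  rw [hcp, Matrix.charpoly_fin_two, key.1, key.2]

end Irred

section Exists

variable {K G V : Type*} [Field K] [IsAlgClosed K] [Group G] [AddCommGroup V] [Module K V]
  [FiniteDimensional K V]

/-- Restriction of a representation to an invariant subspace. -/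
def restrictRep (ρ : G →* Module.End K V) (U : Submodule K V)
    (hU : ∀ g, ∀ x ∈ U, ρ g x ∈ U) : G →* Module.End K U where
  toFun g := (ρ g).restrict (hU g)
  map_one' := by
    ext x
    simp
  map_mul' g h := by
    ext x
    simp

theorem restrictRep_apply (ρ : G →* Module.End K V) (U : Submodule K V)
    (hU : ∀ g, ∀ x ∈ U, ρ g x ∈ U) (g : G) (x : U) :
    ((restrictRep ρ U hU g x : U) : V) = ρ g x := rfl

/-- **The two-dimensional representation.**  Over an algebraically closed field, a nonzero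
finite-dimensional representation `ρ` with `ρ g + δ g • ρ g⁻¹ = t g` for all `g` yields a
homomorphism `ρ' : G →* M₂(K)` with `charpoly (ρ' g) = X² - t g X + δ g` for all `g`, trivial
on every `g` with `ρ g = 1` and `δ g = 1`. -/
theorem exists_two_dim [Nontrivial V] (ρ : G →* Module.End K V) (δ : G →* Kˣ) (t : G → K)
    (hq : ∀ g, ρ g + (δ g : K) • ρ g⁻¹ = t g • (1 : Module.End K V)) :
    ∃ ρ' : G →* Matrix (Fin 2) (Fin 2) K,
      (∀ g, (ρ' g).charpoly = X ^ 2 - C (t g) * X + C (δ g : K)) ∧
      (∀ g, ρ g = 1 → (δ g : K) = 1 → ρ' g = 1) := by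
  classical
  -- a minimal nonzero invariant subspace
  have hex : ∃ n : ℕ, ∃ U : Submodule K V, U ≠ ⊥ ∧ (∀ g, ∀ x ∈ U, ρ g x ∈ U) ∧
      Module.finrank K U = n :=
    ⟨_, ⊤, top_ne_bot, fun _ _ _ => Submodule.mem_top, rfl⟩
  obtain ⟨U, hU0, hU, hUn⟩ := Nat.find_spec hex
  have hmin : ∀ U' : Submodule K V, U' ≠ ⊥ → (∀ g, ∀ x ∈ U', ρ g x ∈ U') →
      Module.finrank K U ≤ Module.finrank K U' := by
    intro U' h0 hinv
    rw [hUn]
    exact Nat.find_min' hex ⟨U', h0, hinv, rfl⟩
  let ρU := restrictRep ρ U hU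
  have hqU : ∀ g, ρU g + (δ g : K) • ρU g⁻¹ = t g • (1 : Module.End K U) := by
    intro g
    ext x
    have := congrArg (fun f : Module.End K V => f (x : V)) (hq g)
    simpa [ρU, restrictRep_apply] using this
  have hirrU : ∀ W : Submodule K U, (∀ g, ∀ x ∈ W, ρU g x ∈ W) → W = ⊥ ∨ W = ⊤ := by
    intro W hW
    by_cases hW0 : W = ⊥
    · exact Or.inl hW0
    right
    have hmap0 : W.map U.subtype ≠ ⊥ := by
      intro h
      apply hW0
      rw [eq_bot_iff]
      intro x hx
      have hx' : (x : V) ∈ W.map U.subtype := ⟨x, hx, rfl⟩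
      rw [h, Submodule.mem_bot] at hx'
      rw [Submodule.mem_bot]
      exact Subtype.ext hx'
    have hinv : ∀ g, ∀ x ∈ W.map U.subtype, ρ g x ∈ W.map U.subtype := by
      rintro g _ ⟨x, hx, rfl⟩
      exact ⟨ρU g x, hW g x hx, rfl⟩
    have h1 := hmin _ hmap0 hinv
    have h2 : Module.finrank K (W.map U.subtype) = Module.finrank K W :=
      LinearEquiv.finrank_eq (Submodule.equivMapOfInjective _ U.subtype_injective W).symm
    rw [h2] at h1
    exact Submodule.eq_top_of_finrank_eq (le_antisymm (Submodule.finrank_le W) h1)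
  have hle : Module.finrank K U ≤ 2 := Fermat.Agent.S29.QuadDim.finrank_le_two ρU δ t hqU hirrU
  have hpos : 0 < Module.finrank K U := by
    rw [Module.finrank_pos_iff_exists_ne_zero]
    obtain ⟨x, hx, hx0⟩ := (Submodule.ne_bot_iff U).mp hU0
    exact ⟨⟨x, hx⟩, fun h => hx0 (congrArg Subtype.val h)⟩
  have hker : ∀ g, ρ g = 1 → ρU g = 1 := by
    intro g hg
    ext x
    simp [ρU, restrictRep_apply, hg]
  rcases (show Module.finrank K U = 2 ∨ Module.finrank K U = 1 by omega) with h2 | h1
  · -- dimension two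
    let b : Module.Basis (Fin 2) K U := Module.finBasisOfFinrankEq K U h2
    let Φ : Module.End K U ≃ₐ[K] Matrix (Fin 2) (Fin 2) K := LinearMap.toMatrixAlgEquiv b
    refine ⟨(Φ : Module.End K U →* Matrix (Fin 2) (Fin 2) K).comp ρU, ?_, ?_⟩
    · intro g
      have hcp : (ρU g).charpoly = (LinearMap.toMatrix b b (ρU g)).charpoly := by
        rw [LinearMap.charpoly_toMatrix]
      have := charpoly_of_finrank_two ρU δ t hqU hirrU h2 g
      rw [hcp] at this
      exact this
    · intro g hg _
      show Φ (ρU g) = 1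
      rw [hker g hg, map_one]
  · -- dimension one
    let b : Module.Basis (Fin 1) K U := Module.finBasisOfFinrankEq K U h1
    let Φ : Module.End K U ≃ₐ[K] Matrix (Fin 1) (Fin 1) K := LinearMap.toMatrixAlgEquiv b
    let ψ : G → K := fun g => Φ (ρU g) 0 0
    have hψ1 : ψ 1 = 1 := by
      show Φ (ρU 1) 0 0 = 1
      rw [map_one, map_one]; simp
    have hψmul : ∀ g h, ψ (g * h) = ψ g * ψ h := by
      intro g h
      show Φ (ρU (g * h)) 0 0 = Φ (ρU g) 0 0 * Φ (ρU h) 0 0
      rw [map_mul, map_mul, Matrix.mul_apply]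
      simp
    have hψt : ∀ g, ψ g + (δ g : K) * ψ g⁻¹ = t g := by
      intro g
      have := congrArg (fun f => Φ f 0 0) (hqU g)
      simpa [map_add, map_smul, ψ] using this
    have hψinv : ∀ g, ψ g * ψ g⁻¹ = 1 := by
      intro g
      rw [← hψmul, mul_inv_cancel, hψ1]
    let ρ' : G →* Matrix (Fin 2) (Fin 2) K :=
      { toFun := fun g => Matrix.diagonal ![ψ g, (δ g : K) * ψ g⁻¹]
        map_one' := by
          ext i j
          fin_cases i <;> fin_cases j <;> simp [hψ1]
        map_mul' := fun g h => by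
          rw [Matrix.diagonal_mul_diagonal]
          congr 1
          ext i
          fin_cases i
          · simp [hψmul]
          · simp [hψmul, _root_.mul_inv_rev]
            ring }
    refine ⟨ρ', ?_, ?_⟩
    · intro g
      show (Matrix.diagonal ![ψ g, (δ g : K) * ψ g⁻¹]).charpoly = _
      rw [Matrix.charpoly_fin_two]
      have htr : (Matrix.diagonal ![ψ g, (δ g : K) * ψ g⁻¹]).trace = t g := by
        rw [Matrix.trace_fin_two]; simp [hψt]
      have hdet : (Matrix.diagonal ![ψ g, (δ g : K) * ψ g⁻¹]).det = (δ g : K) := by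
        rw [Matrix.det_fin_two]; simp
        rw [← mul_assoc, mul_comm (ψ g), mul_assoc, hψinv, mul_one]
      rw [htr, hdet]
    · intro g hg hδ
      have hg1 : ψ g = 1 := by
        show Φ (ρU g) 0 0 = 1
        rw [hker g hg, map_one]; simp
      have hg2 : ψ g⁻¹ = 1 := by
        have := hψinv g
        rw [hg1, one_mul] at this
        exact this
      show Matrix.diagonal ![ψ g, (δ g : K) * ψ g⁻¹] = 1
      rw [hg1, hg2, hδ]
      ext i j
      fin_cases i <;> fin_cases j <;> simp

end Exists

end Fermat.Agent.S29.QuadCharpoly
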