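import Mathlib
import Fermat.Agent.S29.Defs
import Fermat.Agent.S29.QuadCharpoly

/-!
# The assembly of the residual representation

`residualRep_of_inputs`: an abstract module `V` over `ZMod p` with an action of the absolute
Galois group of `ℚ` and commuting operators `T ℓ`, such that every vector has a stabiliser
containing the fixing group of a finite extension, inertia acts trivially and the
Eichler–Shimura relation `s² - T ℓ s + ℓ = 0` holds at the primes `ℓ ∤ N p`, together with a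
nonzero eigenvector in `k₀ ⊗ V` for the Hecke eigenvalues of `g`, the mod `p` cyclotomic
character and the weak Chebotarev statement, yields a two-dimensional residual representation
over the algebraically closed field `k₀` attached to `g` and unramified outside `N p`.

Steps: the span `W` of the Galois orbit of the eigenvector is finite-dimensional, Galois-stable,
contained in the eigenspace, and Galois acts on it through a finite level
(`exists_stable_finite`); on `W` every Frobenius element satisfies `s + ℓ s⁻¹ = a_ℓ`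
(`restr_quad`); by weak Chebotarev every element acts as a power of a Frobenius element, so
`τ + δ(τ) τ⁻¹` is a scalar for every `τ` (`dickson`); the quadratic lemma
(`QuadCharpoly.exists_two_dim`) then gives the representation.
-/

set_option autoImplicit false
set_option linter.style.haveILetI false

open scoped TensorProduct

namespace Fermat.Agent.S29.AsmCore

local notation "Qb" => AlgebraicClosure ℚ

/-- **Dickson.**  If `H + d H⁻¹ = a` is a scalar then so is `H ^ i + d ^ i H⁻¹ ^ i` for all `i`. -/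
theorem dickson {K R : Type*} [CommRing K] [Ring R] [Algebra K R] (H H' : R) (hH : H * H' = 1)
    (hH' : H' * H = 1) (a d : K) (h : H + d • H' = a • (1 : R)) :
    ∀ i : ℕ, ∃ c : K, H ^ i + d ^ i • H' ^ i = c • (1 : R) := by
  have key : ∀ i : ℕ, H ^ (i + 2) + d ^ (i + 2) • H' ^ (i + 2) =
      (H + d • H') * (H ^ (i + 1) + d ^ (i + 1) • H' ^ (i + 1)) - d • (H ^ i + d ^ i • H' ^ i) := by
    intro i
    have e1 : H * H' ^ (i + 1) = H' ^ i := by rw [pow_succ', ← mul_assoc, hH, one_mul]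
    have e2 : H' * H ^ (i + 1) = H ^ i := by rw [pow_succ', ← mul_assoc, hH', one_mul]
    have e3 : H * H ^ (i + 1) = H ^ (i + 2) := by rw [← pow_succ']
    have e4 : H' * H' ^ (i + 1) = H' ^ (i + 2) := by rw [← pow_succ']
    have e5 : d * d ^ (i + 1) = d ^ (i + 2) := by ring
    have e6 : d * d ^ i = d ^ (i + 1) := by ring
    rw [add_mul, mul_add, mul_add, e3, mul_smul_comm, e1, smul_mul_assoc, e2, smul_mul_assoc,
      mul_smul_comm, e4, smul_smul, smul_add, smul_smul, e5, e6]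
    abel
  have both : ∀ i : ℕ, (∃ c : K, H ^ i + d ^ i • H' ^ i = c • (1 : R)) ∧
      ∃ c : K, H ^ (i + 1) + d ^ (i + 1) • H' ^ (i + 1) = c • (1 : R) := by
    intro i
    induction i with
    | zero =>
      refine ⟨⟨2, ?_⟩, ⟨a, ?_⟩⟩
      · rw [pow_zero, pow_zero, pow_zero, one_smul, two_smul]
      · rw [zero_add, pow_one, pow_one, pow_one, h]
    | succ n ih =>
      obtain ⟨⟨c0, h0⟩, ⟨c1, h1⟩⟩ := ih
      refine ⟨⟨c1, h1⟩, ⟨a * c1 - d * c0, ?_⟩⟩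
      rw [key n, h, h1, h0, smul_mul_smul_comm, mul_one, smul_smul, sub_smul]
  exact fun i => (both i).1

section Span

variable {A : Type*} [CommRing A] {k₀ : Type*} [Field k₀] [Algebra A k₀]
  {V : Type*} [AddCommGroup V] [Module A V]

/-- Base change of a representation on an `A`-module to `k₀ ⊗[A] V`. -/
noncomputable def baseRep (k₀ : Type*) [Field k₀] [Algebra A k₀] (r : GQ →* Module.End A V) :
    GQ →* Module.End k₀ (k₀ ⊗[A] V) where
  toFun σ := (r σ).baseChange k₀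
  map_one' := by rw [map_one, LinearMap.baseChange_one]
  map_mul' σ τ := by rw [map_mul, LinearMap.baseChange_mul]

theorem baseRep_apply (r : GQ →* Module.End A V) (σ : GQ) :
    baseRep k₀ r σ = (r σ).baseChange k₀ := rfl

theorem baseRep_tmul (r : GQ →* Module.End A V) (σ : GQ) (a : k₀) (x : V) :
    baseRep k₀ r σ (a ⊗ₜ[A] x) = a ⊗ₜ[A] r σ x := rfl

/-- Every vector of `k₀ ⊗ V` is fixed by the fixing group of a finite normal extension. -/
theorem exists_normal_fixing (r : GQ →* Module.End A V)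
    (hopen : ∀ x : V, ∃ L : IntermediateField ℚ Qb, FiniteDimensional ℚ L ∧
      ∀ σ : GQ, (∀ y ∈ L, σ y = y) → r σ x = x) (v : k₀ ⊗[A] V) :
    ∃ L : IntermediateField ℚ Qb, FiniteDimensional ℚ L ∧ Normal ℚ L ∧
      ∀ σ : GQ, (∀ y ∈ L, σ y = y) → baseRep k₀ r σ v = v := by
  have h1 : ∃ L : IntermediateField ℚ Qb, FiniteDimensional ℚ L ∧
      ∀ σ : GQ, (∀ y ∈ L, σ y = y) → baseRep k₀ r σ v = v := by
    induction v using TensorProduct.induction_on with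
    | zero => exact ⟨⊥, inferInstance, fun σ _ => map_zero _⟩
    | tmul a x =>
      obtain ⟨L, hL, hfix⟩ := hopen x
      exact ⟨L, hL, fun σ hσ => by rw [baseRep_tmul, hfix σ hσ]⟩
    | add x y hx hy =>
      obtain ⟨L₁, hL₁, h₁⟩ := hx
      obtain ⟨L₂, hL₂, h₂⟩ := hy
      refine ⟨L₁ ⊔ L₂, IntermediateField.finiteDimensional_sup L₁ L₂, fun σ hσ => ?_⟩
      rw [map_add, h₁ σ (fun y hy => hσ y (le_sup_left (a := L₁) (b := L₂) hy)),
        h₂ σ (fun y hy => hσ y (le_sup_right (a := L₁) (b := L₂) hy))]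
  obtain ⟨L, hL, hfix⟩ := h1
  have halg : Algebra.IsAlgebraic ℚ Qb := AlgebraicClosure.isAlgebraic ℚ
  have hcl : IsAlgClosure ℚ Qb := ⟨AlgebraicClosure.isAlgClosed ℚ, halg⟩
  have hnormal : Normal ℚ Qb := IsAlgClosure.normal ℚ Qb
  refine ⟨IntermediateField.normalClosure ℚ L Qb, normalClosure.is_finiteDimensional ℚ L Qb,
    normalClosure.normal ℚ L Qb, fun σ hσ => ?_⟩
  exact hfix σ (fun y hy => hσ y (L.le_normalClosure hy))

/-- **The span of the orbit.**  A vector of a `GQ`-module fixed by the fixing group of a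
finite normal extension lies in a finite-dimensional Galois-stable subspace (the smallest one)
on which Galois acts through a finite level. -/
theorem exists_stable_finite {K : Type*} [Field K] {M : Type*} [AddCommGroup M] [Module K M]
    (R : GQ →* Module.End K M) (v : M)
    (hv : ∃ L : IntermediateField ℚ Qb, FiniteDimensional ℚ L ∧ Normal ℚ L ∧
      ∀ σ : GQ, (∀ y ∈ L, σ y = y) → R σ v = v) :
    ∃ W : Submodule K M, v ∈ W ∧ FiniteDimensional K W ∧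
      (∀ σ : GQ, ∀ x ∈ W, R σ x ∈ W) ∧
      (∀ U : Submodule K M, v ∈ U → (∀ σ : GQ, ∀ x ∈ U, R σ x ∈ U) → W ≤ U) ∧
      ∃ L : IntermediateField ℚ Qb, FiniteDimensional ℚ L ∧
        ∀ σ : GQ, (∀ y ∈ L, σ y = y) → ∀ x ∈ W, R σ x = x := by
  classical
  obtain ⟨L, hL, hN, hfix⟩ := hv
  have hcomm : ∀ (τ : GQ) (y : L), ((τ.restrictNormal L y : L) : Qb) = τ (y : Qb) :=
    fun τ y => AlgEquiv.restrictNormal_commutes τ L y
  have hmem : ∀ (τ : GQ) (y : Qb), y ∈ L → τ y ∈ L := by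
    intro τ y hy
    rw [← hcomm τ ⟨y, hy⟩]
    exact (τ.restrictNormal L ⟨y, hy⟩).2
  have hdep : ∀ σ τ : GQ, (∀ y ∈ L, σ y = τ y) → R σ v = R τ v := by
    intro σ τ h
    have h1 : R τ v = R σ (R (σ⁻¹ * τ) v) := by
      rw [← Module.End.mul_apply, ← map_mul, mul_inv_cancel_left]
    rw [h1, hfix (σ⁻¹ * τ) (fun y hy => by
      rw [AlgEquiv.mul_apply, ← h y hy]
      exact σ.symm_apply_apply y)]
  have hfin : (Set.range fun σ : GQ => R σ v).Finite := by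
    let g : (L ≃ₐ[ℚ] L) → M := fun τ =>
      if h : ∃ σ : GQ, σ.restrictNormal L = τ then R h.choose v else 0
    refine (Set.finite_range g).subset ?_
    rintro _ ⟨σ, rfl⟩
    refine ⟨σ.restrictNormal L, ?_⟩
    have hex : ∃ σ' : GQ, σ'.restrictNormal L = σ.restrictNormal L := ⟨σ, rfl⟩
    change (if h : ∃ σ' : GQ, σ'.restrictNormal L = σ.restrictNormal L then
      R h.choose v else 0) = _
    rw [dif_pos hex]
    apply hdep
    intro y hy
    rw [← hcomm hex.choose ⟨y, hy⟩, hex.choose_spec, hcomm σ ⟨y, hy⟩]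
  refine ⟨Submodule.span K (Set.range fun σ : GQ => R σ v), ?_, ?_, ?_, ?_, ?_⟩
  · refine Submodule.subset_span ⟨1, ?_⟩
    change R 1 v = v
    rw [map_one, Module.End.one_apply]
  · exact FiniteDimensional.span_of_finite K hfin
  · intro σ x hx
    induction hx using Submodule.span_induction with
    | mem x hx =>
      obtain ⟨τ, rfl⟩ := hx
      refine Submodule.subset_span ⟨σ * τ, ?_⟩
      change R (σ * τ) v = _
      rw [map_mul, Module.End.mul_apply]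
    | zero => rw [map_zero]; exact Submodule.zero_mem _
    | add x y _ _ hx hy => rw [map_add]; exact Submodule.add_mem _ hx hy
    | smul c x _ hx => rw [map_smul]; exact Submodule.smul_mem _ c hx
  · intro U hv hU
    refine Submodule.span_le.mpr ?_
    rintro _ ⟨σ, rfl⟩
    exact hU σ v hv
  · refine ⟨L, hL, fun σ hσ x hx => ?_⟩
    induction hx using Submodule.span_induction with
    | mem x hx =>
      obtain ⟨τ, rfl⟩ := hx
      change R σ (R τ v) = R τ v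
      have h1 : R σ (R τ v) = R τ (R (τ⁻¹ * σ * τ) v) := by
        rw [← Module.End.mul_apply, ← Module.End.mul_apply, ← map_mul, ← map_mul,
          mul_assoc, mul_inv_cancel_left]
      rw [h1, hfix (τ⁻¹ * σ * τ) (fun y hy => by
        rw [AlgEquiv.mul_apply, AlgEquiv.mul_apply, hσ (τ y) (hmem τ y hy)]
        exact τ.symm_apply_apply y)]
    | zero => rw [map_zero]
    | add x y _ _ hx hy => rw [map_add, hx, hy]
    | smul c x _ hx => rw [map_smul, hx]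

end Span

section Restrict

variable {K G M : Type*} [Field K] [Group G] [AddCommGroup M] [Module K M]

/-- Restriction of a representation to a stable subspace. -/
def restr (R : G →* Module.End K M) (W : Submodule K M) (hW : ∀ g, ∀ x ∈ W, R g x ∈ W) :
    G →* Module.End K W where
  toFun g := (R g).restrict (hW g)
  map_one' := by
    ext x
    simp
  map_mul' g h := by
    ext x
    simp

theorem restr_apply (R : G →* Module.End K M) (W : Submodule K M)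
    (hW : ∀ g, ∀ x ∈ W, R g x ∈ W) (g : G) (x : W) :
    ((restr R W hW g x : W) : M) = R g x := rfl

theorem restr_eq_one (R : G →* Module.End K M) (W : Submodule K M)
    (hW : ∀ g, ∀ x ∈ W, R g x ∈ W) (g : G) (h : ∀ x ∈ W, R g x = x) : restr R W hW g = 1 := by
  ext x
  rw [restr_apply, h x x.2]
  rfl

end Restrict

section Quadratic

variable {N : ℕ} {g : CuspForm (CongruenceSubgroup.Gamma0 N) 2} {p : ℕ}
  {k₀ : Type*} [Field k₀] {M : Type*} [AddCommGroup M] [Module k₀ M]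

variable (N g p) in
/-- The simultaneous eigenspace of the operators `T ℓ`, `ℓ ∤ N p`, for the eigenvalues
`φ₀ (a_ℓ)`. -/
def eigenspace (φ₀ : integralClosure ℤ ℂ →+* k₀) (T : Nat.Primes → Module.End k₀ M) :
    Submodule k₀ M where
  carrier := {x | ∀ (ℓ : ℕ) (hℓ : ℓ.Prime), ¬ ℓ ∣ N * p → ∀ a : integralClosure ℤ ℂ,
    (a : ℂ) = ModularFormClass.qCoeff g ℓ → T ⟨ℓ, hℓ⟩ x = φ₀ a • x}
  zero_mem' := fun ℓ hℓ _ a _ => by rw [map_zero, smul_zero]
  add_mem' := fun {x y} hx hy ℓ hℓ h a ha => by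
    rw [map_add, hx ℓ hℓ h a ha, hy ℓ hℓ h a ha, smul_add]
  smul_mem' := fun c x hx ℓ hℓ h a ha => by
    rw [map_smul, hx ℓ hℓ h a ha, smul_comm]

/-- The eigenspace is Galois-stable. -/
theorem eigenspace_stable (φ₀ : integralClosure ℤ ℂ →+* k₀)
    (R : GQ →* Module.End k₀ M) (T : Nat.Primes → Module.End k₀ M)
    (hTR : ∀ (ℓ : Nat.Primes) (σ : GQ), T ℓ * R σ = R σ * T ℓ) (σ : GQ)
    (x : M) (hx : x ∈ eigenspace N g p φ₀ T) :
    R σ x ∈ eigenspace N g p φ₀ T := by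
  intro ℓ hℓ h a ha
  have h1 : T ⟨ℓ, hℓ⟩ (R σ x) = R σ (T ⟨ℓ, hℓ⟩ x) := by
    rw [← Module.End.mul_apply, ← Module.End.mul_apply, hTR ⟨ℓ, hℓ⟩ σ]
  rw [h1, hx ℓ hℓ h a ha, map_smul]

/-- The Eichler–Shimura relation in the form `s + ℓ s⁻¹ = a` on a Galois-stable subspace of
the eigenspace. -/
theorem restr_quad (φ₀ : integralClosure ℤ ℂ →+* k₀)
    (R : GQ →* Module.End k₀ M) (T : Nat.Primes → Module.End k₀ M)
    (hTR : ∀ (ℓ : Nat.Primes) (σ : GQ), T ℓ * R σ = R σ * T ℓ)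
    (W : Submodule k₀ M) (hW : ∀ σ, ∀ x ∈ W, R σ x ∈ W)
    (hWE : W ≤ eigenspace N g p φ₀ T)
    {ℓ : ℕ} (hℓ : ℓ.Prime) (hℓNp : ¬ ℓ ∣ N * p) (s : GQ)
    (hES : R s * R s - T ⟨ℓ, hℓ⟩ * R s + (ℓ : k₀) • (1 : Module.End k₀ M) = 0)
    (a : integralClosure ℤ ℂ) (ha : (a : ℂ) = ModularFormClass.qCoeff g ℓ) :
    restr R W hW s + (ℓ : k₀) • restr R W hW s⁻¹ = φ₀ a • (1 : Module.End k₀ W) := by
  ext x
  have hxE : ((restr R W hW s⁻¹ x : W) : M) ∈ eigenspace N g p φ₀ T :=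
    hWE (restr R W hW s⁻¹ x).2
  have h1 : R s ((restr R W hW s⁻¹ x : W) : M) = x := by
    rw [restr_apply, ← Module.End.mul_apply, ← map_mul, mul_inv_cancel, map_one,
      Module.End.one_apply]
  have h2 := congrArg (fun f : Module.End k₀ M => f ((restr R W hW s⁻¹ x : W) : M)) hES
  simp only [LinearMap.add_apply, LinearMap.sub_apply, Module.End.mul_apply,
    LinearMap.smul_apply, Module.End.one_apply, LinearMap.zero_apply] at h2
  have h3 : T ⟨ℓ, hℓ⟩ (R s ((restr R W hW s⁻¹ x : W) : M)) =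
      φ₀ a • R s ((restr R W hW s⁻¹ x : W) : M) :=
    eigenspace_stable φ₀ R T hTR s _ hxE ℓ hℓ hℓNp a ha
  rw [h3, h1, sub_add_eq_add_sub, sub_eq_zero] at h2
  rw [LinearMap.add_apply, LinearMap.smul_apply, LinearMap.smul_apply, Module.End.one_apply,
    Submodule.coe_add, Submodule.coe_smul, Submodule.coe_smul, restr_apply]
  exact h2

end Quadratic

section Main

open Polynomial

/-- `c • 1 = c' • 1` on a nontrivial module forces `c = c'`. -/
theorem smul_one_injective {K W : Type*} [Field K] [AddCommGroup W] [Module K W] [Nontrivial W]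
    {c c' : K} (h : c • (1 : Module.End K W) = c' • (1 : Module.End K W)) : c = c' := by
  obtain ⟨w, hw⟩ := exists_ne (0 : W)
  have h1 := congrArg (fun f : Module.End K W => f w) h
  simp only [LinearMap.smul_apply, Module.End.one_apply] at h1
  exact smul_left_injective K hw h1

/-- Packaging of a matrix representation as a residual representation. -/
theorem residualRep_of_matrix {N : ℕ} {g : CuspForm (CongruenceSubgroup.Gamma0 N) 2} {p : ℕ}
    {k₀ : Type} [Field k₀] (φ₀ : integralClosure ℤ ℂ →+* k₀)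
    (ρ' : GQ →* Matrix (Fin 2) (Fin 2) k₀)
    (hfl : ∃ L : IntermediateField ℚ Qb, FiniteDimensional ℚ L ∧
      ∀ σ : GQ, (∀ y ∈ L, σ y = y) → ρ' σ = 1)
    (hatt : ∀ ℓ : ℕ, ℓ.Prime → ¬ ℓ ∣ N → (ℓ : k₀) ≠ 0 →
      ∀ A : ValuationSubring Qb, A.LiesOverPrime ℓ → ∀ σ : GQ, A.IsFrobeniusAt σ ℓ →
        ∃ a : integralClosure ℤ ℂ, (a : ℂ) = ModularFormClass.qCoeff g ℓ ∧
          (ρ' σ).charpoly = X ^ 2 - C (φ₀ a) * X + C ((ℓ : k₀)))
    (hunr : ∀ ℓ : ℕ, ℓ.Prime → ¬ ℓ ∣ N * p → ∀ A : ValuationSubring Qb, A.LiesOverPrime ℓ →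
      ∀ σ ∈ A.inertiaSubgroupIn ℚ, ρ' σ = 1) :
    ∃ ρ : ResidualGaloisRep k₀, ρ.IsAttachedTo g φ₀ ∧
      ∀ ℓ : ℕ, ℓ.Prime → ¬ ℓ ∣ N * p → ρ.IsUnramifiedAt ℓ := by
  obtain ⟨L, hL, hLfix⟩ := hfl
  let ρ'' : GQ →* Module.End k₀ (Fin 2 → k₀) :=
    { toFun := fun σ => Matrix.toLin' (ρ' σ)
      map_one' := by rw [map_one, Matrix.toLin'_one]; rfl
      map_mul' := fun σ τ => by rw [map_mul, Matrix.toLin'_mul]; rfl }
  have hρ'' : ∀ σ, ρ'' σ = Matrix.toLin' (ρ' σ) := fun σ => rfl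
  have hone : ∀ σ, ρ' σ = 1 → ρ'' σ = 1 := by
    intro σ h
    rw [hρ'', h, Matrix.toLin'_one]
    rfl
  refine ⟨{ V := Fin 2 → k₀
            finrank_eq := Module.finrank_fin_fun k₀
            ρ := ρ''
            factorsThroughFiniteLevel := ⟨L, hL, fun σ hσ => hone σ (hLfix σ hσ)⟩ }, ?_, ?_⟩
  · intro ℓ hℓ hℓN hℓk A hA σ hσ
    obtain ⟨a, ha, hc⟩ := hatt ℓ hℓ hℓN hℓk A hA σ hσ
    refine ⟨a, ha, ?_⟩
    change LinearMap.charpoly (ρ'' σ) = _
    rw [hρ'', Matrix.charpoly_toLin', hc]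
  · intro ℓ hℓ hℓNp A hA σ hσ
    exact hone σ (hunr ℓ hℓ hℓNp A hA σ hσ)

/-- **The assembly, abstract form.**  A `GQ`-module `M` over the algebraically closed field
`k₀` of characteristic `p` with commuting operators `T ℓ`, a nonzero eigenvector `v` fixed by
an open subgroup, the Eichler–Shimura relation and trivial inertia away from `N p`, a
cyclotomic character and weak Chebotarev give the residual representation attached to `g`. -/
theorem residualRep_of_module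
    {N : ℕ} {g : CuspForm (CongruenceSubgroup.Gamma0 N) 2} {p : ℕ} [Fact p.Prime]
    {k₀ : Type} [Field k₀] [Algebra (ZMod p) k₀] [IsAlgClosed k₀]
    (φ₀ : integralClosure ℤ ℂ →+* k₀)
    {M : Type} [AddCommGroup M] [Module k₀ M]
    (R : GQ →* Module.End k₀ M) (T : Nat.Primes → Module.End k₀ M)
    (hTR : ∀ (ℓ : Nat.Primes) (σ : GQ), T ℓ * R σ = R σ * T ℓ)
    (hunr : ∀ ℓ : ℕ, ℓ.Prime → ¬ ℓ ∣ N * p → ∀ A : ValuationSubring Qb, A.LiesOverPrime ℓ →
      ∀ σ ∈ A.inertiaSubgroupIn ℚ, R σ = 1)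
    (hES : ∀ (ℓ : ℕ) (hℓ : ℓ.Prime), ¬ ℓ ∣ N * p → ∀ A : ValuationSubring Qb,
      A.LiesOverPrime ℓ → ∀ s : GQ, A.IsFrobeniusAt s ℓ →
        R s * R s - T ⟨ℓ, hℓ⟩ * R s + (ℓ : k₀) • (1 : Module.End k₀ M) = 0)
    (v : M) (hv0 : v ≠ 0)
    (hvfix : ∃ L : IntermediateField ℚ Qb, FiniteDimensional ℚ L ∧ Normal ℚ L ∧
      ∀ σ : GQ, (∀ y ∈ L, σ y = y) → R σ v = v)
    (hveig : ∀ (ℓ : ℕ) (hℓ : ℓ.Prime), ¬ ℓ ∣ N * p →
      ∃ a : integralClosure ℤ ℂ, (a : ℂ) = ModularFormClass.qCoeff g ℓ ∧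
        T ⟨ℓ, hℓ⟩ v = φ₀ a • v)
    (hcyc : ∃ ω : GQ →* (ZMod p)ˣ, GaloisFactorsThroughFiniteLevel ω ∧
      ∀ ℓ : ℕ, ℓ.Prime → ℓ ≠ p → ∀ A : ValuationSubring Qb, A.LiesOverPrime ℓ →
        (∀ σ ∈ A.inertiaSubgroupIn ℚ, ω σ = 1) ∧
        ∀ s : GQ, A.IsFrobeniusAt s ℓ → ((ω s : (ZMod p)ˣ) : ZMod p) = (ℓ : ZMod p))
    (hcheb : ∀ {G : Type} [Monoid G] (ρ : GQ →* G), GaloisFactorsThroughFiniteLevel ρ →
      ∀ (S : Finset ℕ) (σ : GQ), ∃ (ℓ : ℕ) (A : ValuationSubring Qb) (s : GQ) (i : ℕ),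
        ℓ.Prime ∧ ℓ ∉ S ∧ A.LiesOverPrime ℓ ∧ A.IsFrobeniusAt s ℓ ∧ ρ σ = ρ s ^ i)
    (hNp : N * p ≠ 0) :
    ∃ ρ : ResidualGaloisRep k₀, ρ.IsAttachedTo g φ₀ ∧
      ∀ ℓ : ℕ, ℓ.Prime → ¬ ℓ ∣ N * p → ρ.IsUnramifiedAt ℓ := by
  classical
  have hp : p.Prime := Fact.out
  obtain ⟨ω, ⟨Lω, hLω, hLωfix⟩, hω⟩ := hcyc
  -- `v` lies in the eigenspace
  have hvE : v ∈ eigenspace N g p φ₀ T := by
    intro ℓ hℓ h a ha
    obtain ⟨a', ha', h'⟩ := hveig ℓ hℓ h
    have : a = a' := Subtype.ext (ha.trans ha'.symm)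
    rw [this]
    exact h'
  -- the span of the orbit
  obtain ⟨W, hvW, hWfin, hWst, hWmin, L₁, hL₁, hL₁fix⟩ := exists_stable_finite R v hvfix
  have hWE : W ≤ eigenspace N g p φ₀ T :=
    hWmin _ hvE (fun σ x hx => eigenspace_stable φ₀ R T hTR σ x hx)
  have hnt : Nontrivial W := ⟨⟨⟨v, hvW⟩, 0, fun h => hv0 (congrArg Subtype.val h)⟩⟩
  -- the representation on `W` and the cyclotomic character with values in `k₀`
  let ρW : GQ →* Module.End k₀ W := restr R W hWst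
  let δ : GQ →* k₀ˣ := (Units.map (algebraMap (ZMod p) k₀ : ZMod p →* k₀)).comp ω
  have hδval : ∀ σ : GQ,
      ((δ σ : k₀ˣ) : k₀) = algebraMap (ZMod p) k₀ ((ω σ : (ZMod p)ˣ) : ZMod p) := fun σ => rfl
  have hδone : ∀ σ : GQ, ω σ = 1 → δ σ = 1 := by
    intro σ h
    change Units.map _ (ω σ) = 1
    rw [h, map_one]
  have hndvd : ∀ ℓ : ℕ, ℓ.Prime → ¬ ℓ ∣ N * p → ℓ ≠ p := by
    rintro ℓ _ h rfl
    exact h (dvd_mul_left _ _)
  have hδfrob : ∀ ℓ : ℕ, ℓ.Prime → ¬ ℓ ∣ N * p → ∀ A : ValuationSubring Qb,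
      A.LiesOverPrime ℓ → ∀ s : GQ, A.IsFrobeniusAt s ℓ → ((δ s : k₀ˣ) : k₀) = (ℓ : k₀) := by
    intro ℓ hℓ h A hA s hs
    rw [hδval, (hω ℓ hℓ (hndvd ℓ hℓ h) A hA).2 s hs, map_natCast]
  -- the quadratic relation at Frobenius elements
  have hfrob : ∀ (ℓ : ℕ) (hℓ : ℓ.Prime), ¬ ℓ ∣ N * p → ∀ A : ValuationSubring Qb,
      A.LiesOverPrime ℓ → ∀ s : GQ, A.IsFrobeniusAt s ℓ →
      ∀ a : integralClosure ℤ ℂ, (a : ℂ) = ModularFormClass.qCoeff g ℓ →
        ρW s + (ℓ : k₀) • ρW s⁻¹ = φ₀ a • (1 : Module.End k₀ W) :=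
    fun ℓ hℓ h A hA s hs a ha =>
      restr_quad φ₀ R T hTR W hWst hWE hℓ h s (hES ℓ hℓ h A hA s hs) a ha
  -- finite level of the pair
  have hfl : GaloisFactorsThroughFiniteLevel (ρW.prod δ) := by
    refine ⟨L₁ ⊔ Lω, IntermediateField.finiteDimensional_sup L₁ Lω, fun σ hσ => ?_⟩
    have h1 : ρW σ = 1 := restr_eq_one _ W hWst σ
      (hL₁fix σ (fun y hy => hσ y (le_sup_left (a := L₁) (b := Lω) hy)))
    have h2 : δ σ = 1 := hδone σ
      (hLωfix σ (fun y hy => hσ y (le_sup_right (a := L₁) (b := Lω) hy)))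
    rw [MonoidHom.prod_apply, h1, h2]
    rfl
  -- the quadratic relation everywhere
  have hq : ∀ τ : GQ, ∃ c : k₀,
      ρW τ + ((δ τ : k₀ˣ) : k₀) • ρW τ⁻¹ = c • (1 : Module.End k₀ W) := by
    intro τ
    obtain ⟨ℓ, A, s, i, hℓ, hℓS, hA, hs, hpow⟩ := hcheb (ρW.prod δ) hfl (N * p).primeFactors τ
    have hℓNp : ¬ ℓ ∣ N * p := fun hd => hℓS (Nat.mem_primeFactors.mpr ⟨hℓ, hd, hNp⟩)
    obtain ⟨a, ha, -⟩ := hveig ℓ hℓ hℓNp
    have hrel := hfrob ℓ hℓ hℓNp A hA s hs a ha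
    have hρ : ρW τ = ρW s ^ i := congrArg Prod.fst hpow
    have hδ : δ τ = δ s ^ i := congrArg Prod.snd hpow
    have hinv1 : ρW s * ρW s⁻¹ = 1 := by rw [← map_mul, mul_inv_cancel, map_one]
    have hinv2 : ρW s⁻¹ * ρW s = 1 := by rw [← map_mul, inv_mul_cancel, map_one]
    obtain ⟨c, hc⟩ := dickson (ρW s) (ρW s⁻¹) hinv1 hinv2 (φ₀ a) (ℓ : k₀) hrel i
    refine ⟨c, ?_⟩
    have hinv : ρW τ⁻¹ = ρW s⁻¹ ^ i := by
      have e1 : ρW τ⁻¹ * ρW τ = 1 := by rw [← map_mul, inv_mul_cancel, map_one]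
      have e2 : ρW s ^ i * ρW s⁻¹ ^ i = 1 := by
        rw [← map_pow, ← map_pow, ← map_mul, inv_pow, mul_inv_cancel, map_one]
      calc ρW τ⁻¹ = ρW τ⁻¹ * (ρW s ^ i * ρW s⁻¹ ^ i) := by rw [e2, mul_one]
        _ = (ρW τ⁻¹ * ρW τ) * ρW s⁻¹ ^ i := by rw [hρ, mul_assoc]
        _ = ρW s⁻¹ ^ i := by rw [e1, one_mul]
    rw [hρ, hinv, hδ, Units.val_pow_eq_pow_val, hδfrob ℓ hℓ hℓNp A hA s hs]
    exact hc
  choose t ht using hq
  -- the values of `t` at Frobenius elements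
  have htfrob : ∀ (ℓ : ℕ) (hℓ : ℓ.Prime), ¬ ℓ ∣ N * p → ∀ A : ValuationSubring Qb,
      A.LiesOverPrime ℓ → ∀ s : GQ, A.IsFrobeniusAt s ℓ →
      ∀ a : integralClosure ℤ ℂ, (a : ℂ) = ModularFormClass.qCoeff g ℓ → t s = φ₀ a := by
    intro ℓ hℓ h A hA s hs a ha
    have h1 := ht s
    rw [hδfrob ℓ hℓ h A hA s hs, hfrob ℓ hℓ h A hA s hs a ha] at h1
    exact (smul_one_injective h1).symm
  obtain ⟨ρ', hchar, htriv⟩ := QuadCharpoly.exists_two_dim ρW δ t ht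
  obtain ⟨L, hL, hLfix⟩ := hfl
  have hρ'one : ∀ σ : GQ, ρW σ = 1 → δ σ = 1 → ρ' σ = 1 := by
    intro σ h1 h2
    exact htriv σ h1 (by rw [h2]; rfl)
  refine residualRep_of_matrix φ₀ (p := p) ρ' ⟨L, hL, fun σ hσ => ?_⟩ ?_ ?_
  · have h := hLfix σ hσ
    rw [MonoidHom.prod_apply] at h
    exact hρ'one σ (congrArg Prod.fst h) (congrArg Prod.snd h)
  · intro ℓ hℓ hℓN hℓk A hA σ hσ
    have hℓp : ℓ ≠ p := by
      intro hℓp
      apply hℓk
      rw [hℓp, ← map_natCast (algebraMap (ZMod p) k₀), ZMod.natCast_self, map_zero]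
    have hℓNp : ¬ ℓ ∣ N * p := fun hd =>
      (hℓ.dvd_mul.mp hd).elim hℓN (fun h => hℓp ((Nat.prime_dvd_prime_iff_eq hℓ hp).mp h))
    obtain ⟨a, ha, -⟩ := hveig ℓ hℓ hℓNp
    refine ⟨a, ha, ?_⟩
    rw [hchar σ, htfrob ℓ hℓ hℓNp A hA σ hσ a ha, hδfrob ℓ hℓ hℓNp A hA σ hσ]
  · intro ℓ hℓ hℓNp A hA σ hσ
    have h1 : ρW σ = 1 := restr_eq_one _ W hWst σ (fun x _ => by
      rw [hunr ℓ hℓ hℓNp A hA σ hσ]
      rfl)
    have h2 : δ σ = 1 := hδone σ ((hω ℓ hℓ (hndvd ℓ hℓ hℓNp) A hA).1 σ hσ)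
    exact hρ'one σ h1 h2

/-- **The assembly** (the interface statement of the wave-5 plan): a `GQ`-module `V` over
`ZMod p` with commuting operators `T ℓ`, open stabilisers, trivial inertia and the
Eichler–Shimura relation away from `N p`, an eigenvector in `k₀ ⊗ V` for the Hecke eigenvalues
of `g`, a cyclotomic character and weak Chebotarev give the residual representation attached to
`g` over the algebraically closed field `k₀`. -/
theorem residualRep_of_inputs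
    {N : ℕ} {g : CuspForm (CongruenceSubgroup.Gamma0 N) 2} {p : ℕ} [Fact p.Prime]
    {k₀ : Type} [Field k₀] [Algebra (ZMod p) k₀] [IsAlgClosed k₀]
    (φ₀ : integralClosure ℤ ℂ →+* k₀)
    {V : Type} [AddCommGroup V] [Module (ZMod p) V]
    (r : GQ →* Module.End (ZMod p) V) (T : Nat.Primes → Module.End (ZMod p) V)
    (hTr : ∀ (ℓ : Nat.Primes) (σ : GQ), T ℓ * r σ = r σ * T ℓ)
    (hopen : ∀ x : V, ∃ L : IntermediateField ℚ Qb, FiniteDimensional ℚ L ∧
      ∀ σ : GQ, (∀ y ∈ L, σ y = y) → r σ x = x)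
    (hunr : ∀ ℓ : ℕ, ℓ.Prime → ¬ ℓ ∣ N * p → ∀ A : ValuationSubring Qb, A.LiesOverPrime ℓ →
      ∀ σ ∈ A.inertiaSubgroupIn ℚ, r σ = 1)
    (hES : ∀ (ℓ : ℕ) (hℓ : ℓ.Prime), ¬ ℓ ∣ N * p → ∀ A : ValuationSubring Qb,
      A.LiesOverPrime ℓ → ∀ s : GQ, A.IsFrobeniusAt s ℓ →
        r s * r s - T ⟨ℓ, hℓ⟩ * r s + (ℓ : ZMod p) • (1 : Module.End (ZMod p) V) = 0)
    (heig : ∃ v : k₀ ⊗[ZMod p] V, v ≠ 0 ∧ ∀ (ℓ : ℕ) (hℓ : ℓ.Prime), ¬ ℓ ∣ N * p →
      ∃ a : integralClosure ℤ ℂ, (a : ℂ) = ModularFormClass.qCoeff g ℓ ∧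
        (T ⟨ℓ, hℓ⟩).baseChange k₀ v = φ₀ a • v)
    (hcyc : ∃ ω : GQ →* (ZMod p)ˣ, GaloisFactorsThroughFiniteLevel ω ∧
      ∀ ℓ : ℕ, ℓ.Prime → ℓ ≠ p → ∀ A : ValuationSubring Qb, A.LiesOverPrime ℓ →
        (∀ σ ∈ A.inertiaSubgroupIn ℚ, ω σ = 1) ∧
        ∀ s : GQ, A.IsFrobeniusAt s ℓ → ((ω s : (ZMod p)ˣ) : ZMod p) = (ℓ : ZMod p))
    (hcheb : ∀ {M : Type} [Monoid M] (ρ : GQ →* M), GaloisFactorsThroughFiniteLevel ρ →
      ∀ (S : Finset ℕ) (σ : GQ), ∃ (ℓ : ℕ) (A : ValuationSubring Qb) (s : GQ) (i : ℕ),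
        ℓ.Prime ∧ ℓ ∉ S ∧ A.LiesOverPrime ℓ ∧ A.IsFrobeniusAt s ℓ ∧ ρ σ = ρ s ^ i)
    (hNp : N * p ≠ 0) :
    ∃ ρ : ResidualGaloisRep k₀, ρ.IsAttachedTo g φ₀ ∧
      ∀ ℓ : ℕ, ℓ.Prime → ¬ ℓ ∣ N * p → ρ.IsUnramifiedAt ℓ := by
  obtain ⟨v, hv0, hveig⟩ := heig
  refine residualRep_of_module (N := N) (g := g) (p := p) φ₀ (baseRep k₀ r)
    (fun ℓ => (T ℓ).baseChange k₀) ?_ ?_ ?_ v hv0 (exists_normal_fixing r hopen v) hveig
    hcyc hcheb hNp
  · intro ℓ σ
    rw [baseRep_apply, ← LinearMap.baseChange_mul, ← LinearMap.baseChange_mul, hTr ℓ σ]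
  · intro ℓ hℓ hℓNp A hA σ hσ
    rw [baseRep_apply, hunr ℓ hℓ hℓNp A hA σ hσ, LinearMap.baseChange_one]
  · intro ℓ hℓ hℓNp A hA s hs
    have h1 := congrArg (fun f => LinearMap.baseChange k₀ f) (hES ℓ hℓ hℓNp A hA s hs)
    simp only [LinearMap.baseChange_add, LinearMap.baseChange_sub, LinearMap.baseChange_mul,
      LinearMap.baseChange_smul, LinearMap.baseChange_one, LinearMap.baseChange_zero] at h1
    have h2 : ((ℓ : ZMod p)) • (1 : Module.End k₀ (k₀ ⊗[ZMod p] V)) =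
        (ℓ : k₀) • (1 : Module.End k₀ (k₀ ⊗[ZMod p] V)) := by
      rw [← algebraMap_smul k₀ ((ℓ : ZMod p)) (1 : Module.End k₀ (k₀ ⊗[ZMod p] V)),
        map_natCast]
    rw [h2] at h1
    exact h1

end Main

end Fermat.Agent.S29.AsmCore
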