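import Mathlib

/-!
# Reduction of eigen-characters

Let `Γ` be a finitely generated group and `w : Γ → ℂ` a nonzero additive character which is a
simultaneous eigenvector of a family of transfer-type operators
`(T_i ψ)(γ) = ∑ x, ψ (t i γ x)`.  Then the eigenvalues are algebraic integers and, for every ring
homomorphism `φ` from the ring of algebraic integers to a field `k`, there is a nonzero additive
character `Γ → k` with eigenvalues `φ (a i)` (`exists_eigen_hom`).  No commutativity of the
operators and no structure theory of lattices is used: one scales `w` into a valuation subring of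
`ℂ` dominating the localisation of the algebraic integers at `ker φ`, reduces, and descends the
solution of the resulting linear system from the residue field to `k`.

`exists_fp_decomposition` expands an additive character with values in a field of characteristic
`p` in `𝔽_p`-coordinates.
-/

set_option autoImplicit false

namespace Fermat.Agent.S29.EigenRed

open IsLocalRing

/-- A valuation subring dominating the localisation of a subring at a prime. -/
theorem exists_valuationSubring_of_prime {F : Type*} [Field F] (O : Subring F) (P : Ideal O)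
    [P.IsPrime] :
    ∃ V : ValuationSubring F, O ≤ V.toSubring ∧
      ∀ x : O, V.valuation (x : F) < 1 ↔ x ∈ P := by
  obtain ⟨V, hle, hloc⟩ := (LocalSubring.ofPrime O P).exists_le_valuationSubring
  have hO : O ≤ (LocalSubring.ofPrime O P).toSubring := LocalSubring.le_ofPrime O P
  refine ⟨V, hO.trans hle, fun x => ?_⟩
  have h1 : x ∈ P ↔ algebraMap O (LocalSubring.ofPrime O P).toSubring x ∈
      maximalIdeal (LocalSubring.ofPrime O P).toSubring :=
    (IsLocalization.AtPrime.to_map_mem_maximal_iff _ P x).symm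
  rw [h1, mem_maximalIdeal, mem_nonunits_iff]
  have h2 : V.valuation (x : F) < 1 ↔
      (⟨(x : F), hle (hO x.2)⟩ : V) ∈ maximalIdeal V :=
    (V.valuation_lt_one_iff ⟨(x : F), hle (hO x.2)⟩).symm
  rw [h2, mem_maximalIdeal, mem_nonunits_iff, not_iff_not]
  constructor
  · intro h
    exact hloc.map_nonunit (algebraMap O (LocalSubring.ofPrime O P).toSubring x) h
  · intro h
    exact h.map (Subring.inclusion hle)

/-- A (possibly infinite) homogeneous linear system with coefficients in a field `K` that has a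
nonzero solution in a `K`-vector space has a nonzero solution in `K`. -/
theorem exists_solution_of_extension {K L Γ : Type*} [Field K] [AddCommGroup L] [Module K L]
    (E : Set (Γ →₀ K)) (ψ : Γ → L) (hψ : ψ ≠ 0)
    (hE : ∀ e ∈ E, Finsupp.linearCombination K ψ e = 0) :
    ∃ ψ' : Γ → K, ψ' ≠ 0 ∧ ∀ e ∈ E, Finsupp.linearCombination K ψ' e = 0 := by
  classical
  have hU : Submodule.span K E < ⊤ := by
    rw [lt_top_iff_ne_top]
    intro htop
    apply hψ
    funext γ
    have h1 : Submodule.span K E ≤ LinearMap.ker (Finsupp.linearCombination K ψ) :=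
      Submodule.span_le.mpr hE
    have h2 : Finsupp.single γ (1 : K) ∈ LinearMap.ker (Finsupp.linearCombination K ψ) :=
      h1 (htop ▸ Submodule.mem_top)
    simpa using h2
  obtain ⟨f, hf0, hf⟩ := Submodule.exists_le_ker_of_lt_top _ hU
  have hf1 : ∀ (γ : Γ) (b : K), f (Finsupp.single γ b) = b * f (Finsupp.single γ 1) := by
    intro γ b
    have : Finsupp.single γ b = b • Finsupp.single γ (1 : K) := by
      rw [Finsupp.smul_single, smul_eq_mul, mul_one]
    rw [this, map_smul, smul_eq_mul]
  refine ⟨fun γ => f (Finsupp.single γ 1), ?_, ?_⟩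
  · intro h0
    apply hf0
    apply Finsupp.lhom_ext
    intro a b
    have := congrFun h0 a
    simp only [Pi.zero_apply] at this
    rw [hf1, this, mul_zero, LinearMap.zero_apply]
  · intro e he
    have h1 : f e = 0 := hf (Submodule.subset_span he)
    rw [← h1]
    conv_rhs => rw [← Finsupp.sum_single e]
    rw [Finsupp.linearCombination_apply, map_finsuppSum]
    apply Finsupp.sum_congr
    intro γ _
    rw [smul_eq_mul, hf1 γ (e γ)]

/-- Core of the transfer: the coefficient maps factor through a common subfield `K`. -/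
theorem exists_solution_transfer_aux {O K L k Γ : Type*} [CommRing O] [Field K] [Field L]
    [Field k] (c : O →+* K) (ιL : K →+* L) (ιk : K →+* k)
    (E : Set (Γ →₀ O)) (Z : Set Γ) (ψL : Γ → L) (hψL : ψL ≠ 0)
    (hE : ∀ e ∈ E, (e.sum fun γ a => ιL (c a) * ψL γ) = 0) (hZ : ∀ γ ∈ Z, ψL γ = 0) :
    ∃ ψ : Γ → k, ψ ≠ 0 ∧ (∀ e ∈ E, (e.sum fun γ a => ιk (c a) * ψ γ) = 0) ∧
      ∀ γ ∈ Z, ψ γ = 0 := by
  classical
  let _ : Module K L := Module.compHom L ιL
  have hsmul : ∀ (a : K) (x : L), a • x = ιL a * x := fun _ _ => rfl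
  let EK : Set (Γ →₀ K) :=
    (fun e : Γ →₀ O => e.mapRange c (map_zero c)) '' E ∪
      {e | ∃ γ ∈ Z, e = Finsupp.single γ 1}
  have hEK : ∀ e ∈ EK, Finsupp.linearCombination K ψL e = 0 := by
    rintro _ (⟨e, he, rfl⟩ | ⟨γ, hγ, rfl⟩)
    · rw [Finsupp.linearCombination_apply]
      change ((Finsupp.mapRange c (map_zero c) e).sum fun i a => a • ψL i) = 0
      rw [Finsupp.sum_mapRange_index (h := fun i a => a • ψL i) (fun i => zero_smul K (ψL i))]
      rw [← hE e he]
      apply Finsupp.sum_congr
      intro γ _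
      rw [hsmul]
    · rw [Finsupp.linearCombination_single, one_smul]
      exact hZ γ hγ
  obtain ⟨ψK, hψK0, hψK⟩ := exists_solution_of_extension EK ψL hψL hEK
  refine ⟨fun γ => ιk (ψK γ), ?_, ?_, ?_⟩
  · intro h0
    apply hψK0
    funext γ
    have := congrFun h0 γ
    exact ιk.injective (by simpa using this)
  · intro e he
    have h1 := hψK (e.mapRange c (map_zero c)) (Or.inl ⟨e, he, rfl⟩)
    rw [Finsupp.linearCombination_apply,
      Finsupp.sum_mapRange_index (h := fun i a => a • ψK i) (fun i => zero_smul K (ψK i))] at h1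
    have h2 := congrArg ιk h1
    rw [map_finsuppSum, map_zero] at h2
    rw [← h2]
    apply Finsupp.sum_congr
    intro γ _
    rw [smul_eq_mul, map_mul]
  · intro γ hγ
    have h1 := hψK (Finsupp.single γ 1) (Or.inr ⟨γ, hγ, rfl⟩)
    rw [Finsupp.linearCombination_single, one_smul] at h1
    change ιk (ψK γ) = 0
    rw [h1, map_zero]

/-- Transfer of nonzero solutions of a homogeneous linear system between two fields receiving
the coefficient ring with the same kernel. -/
theorem exists_solution_transfer {O L k Γ : Type*} [CommRing O] [Field L] [Field k]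
    (r : O →+* L) (φ : O →+* k) (hker : ∀ x : O, r x = 0 ↔ φ x = 0)
    (E : Set (Γ →₀ O)) (Z : Set Γ) (ψL : Γ → L) (hψL : ψL ≠ 0)
    (hE : ∀ e ∈ E, (e.sum fun γ c => r c * ψL γ) = 0) (hZ : ∀ γ ∈ Z, ψL γ = 0) :
    ∃ ψ : Γ → k, ψ ≠ 0 ∧ (∀ e ∈ E, (e.sum fun γ c => φ c * ψ γ) = 0) ∧ ∀ γ ∈ Z, ψ γ = 0 := by
  classical
  have hprime : (RingHom.ker φ).IsPrime := RingHom.ker_isPrime φ
  obtain ⟨ιL, hιL⟩ : ∃ ιL : FractionRing (O ⧸ RingHom.ker φ) →+* L, ∀ x : O,
      ιL (algebraMap (O ⧸ RingHom.ker φ) _ (Ideal.Quotient.mk _ x)) = r x := by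
    have H : ∀ a ∈ RingHom.ker φ, r a = 0 := fun a ha => (hker a).mpr (RingHom.mem_ker.mp ha)
    have hinj : Function.Injective (Ideal.Quotient.lift (RingHom.ker φ) r H) :=
      RingHom.lift_injective_of_ker_le_ideal _ H
        (fun a ha => RingHom.mem_ker.mpr ((hker a).mp (RingHom.mem_ker.mp ha)))
    exact ⟨IsFractionRing.lift hinj, fun x => by
      rw [IsFractionRing.lift_algebraMap, Ideal.Quotient.lift_mk]⟩
  obtain ⟨ιk, hιk⟩ : ∃ ιk : FractionRing (O ⧸ RingHom.ker φ) →+* k, ∀ x : O,
      ιk (algebraMap (O ⧸ RingHom.ker φ) _ (Ideal.Quotient.mk _ x)) = φ x :=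
    ⟨IsFractionRing.lift (RingHom.kerLift_injective φ), fun x => by
      rw [IsFractionRing.lift_algebraMap, RingHom.kerLift_mk]⟩
  have key := exists_solution_transfer_aux
    ((algebraMap (O ⧸ RingHom.ker φ) (FractionRing (O ⧸ RingHom.ker φ))).comp
      (Ideal.Quotient.mk _)) ιL ιk E Z ψL hψL
    (fun e he => by simpa only [RingHom.comp_apply, hιL] using hE e he) hZ
  simpa only [RingHom.comp_apply, hιk] using key

/-- **Reduction of a linear system.**  `O` a subring of a field `F`, `φ : O →+* k` a ring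
homomorphism to a field.  A homogeneous linear system with coefficients in `O` having a nonzero
solution `w` in `F` whose values lie in a finitely generated `O`-submodule has a nonzero solution
over `k` (coefficients mapped by `φ`), vanishing wherever `w` vanishes. -/
theorem exists_reduction {F : Type*} [Field F] (O : Subring F) {k : Type*} [Field k]
    (φ : O →+* k) {Γ : Type*} (E : Set (Γ →₀ O)) (w : Γ → F) (hw : w ≠ 0)
    (hfg : ∃ S : Finset Γ, ∀ γ, w γ ∈ Submodule.span O (w '' (S : Set Γ)))
    (hE : ∀ e ∈ E, (e.sum fun γ c => (c : F) * w γ) = 0) :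
    ∃ ψ : Γ → k, ψ ≠ 0 ∧ (∀ e ∈ E, (e.sum fun γ c => φ c * ψ γ) = 0) ∧
      ∀ γ, w γ = 0 → ψ γ = 0 := by
  classical
  have hprime : (RingHom.ker φ).IsPrime := RingHom.ker_isPrime φ
  obtain ⟨V, hOV, hV⟩ := exists_valuationSubring_of_prime O (RingHom.ker φ)
  obtain ⟨S, hS⟩ := hfg
  have hSne : ∃ s ∈ S, w s ≠ 0 := by
    by_contra hcon
    push Not at hcon
    apply hw
    funext γ
    have hbot : Submodule.span O (w '' (S : Set Γ)) = ⊥ := by
      rw [Submodule.span_eq_bot]
      rintro _ ⟨s, hs, rfl⟩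
      exact hcon s hs
    have h := hS γ
    rw [hbot] at h
    simpa using h
  obtain ⟨s₁, hs₁, hs₁0⟩ := hSne
  obtain ⟨s₀, hs₀, hmax⟩ := Finset.exists_max_image S (fun s => V.valuation (w s)) ⟨s₁, hs₁⟩
  have hs₀0 : w s₀ ≠ 0 := by
    intro h0
    have h := hmax s₁ hs₁
    rw [h0, map_zero] at h
    exact hs₁0 ((V.valuation.zero_iff).mp (le_antisymm h zero_le))
  have hval0 : V.valuation (w s₀) ≠ 0 := fun h => hs₀0 ((V.valuation.zero_iff).mp h)
  have hint : ∀ γ, w γ / w s₀ ∈ V := by
    intro γ
    have key : ∀ x ∈ Submodule.span O (w '' (S : Set Γ)), x / w s₀ ∈ V := by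
      intro x hx
      induction hx using Submodule.span_induction with
      | mem x hx =>
        obtain ⟨s, hs, rfl⟩ := hx
        rw [← V.valuation_le_one_iff, map_div₀]
        exact (div_le_one₀ (zero_lt_iff.mpr hval0)).mpr (hmax s hs)
      | zero => rw [zero_div]; exact V.zero_mem
      | add x y _ _ hx hy => rw [add_div]; exact V.add_mem _ _ hx hy
      | smul c x _ hx =>
        have : c • x / w s₀ = (c : F) * (x / w s₀) := by
          rw [Subring.smul_def, smul_eq_mul, mul_div_assoc]
        rw [this]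
        exact V.mul_mem _ _ (hOV c.2) hx
    exact key _ (hS γ)
  -- the reduced solution over the residue field of `V`
  let w' : Γ → V := fun γ => ⟨w γ / w s₀, hint γ⟩
  have hw' : ∀ γ, ((w' γ : V) : F) = w γ / w s₀ := fun _ => rfl
  have hψV0 : (fun γ => residue V (w' γ)) ≠ 0 := by
    intro h0
    have h1 : residue V (w' s₀) = 0 := congrFun h0 s₀
    have h2 : w' s₀ = 1 := Subtype.ext (div_self hs₀0)
    rw [h2, map_one] at h1
    exact one_ne_zero h1
  have hker : ∀ x : O, ((residue V).comp (Subring.inclusion hOV)) x = 0 ↔ φ x = 0 := by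
    intro x
    rw [← RingHom.mem_ker (f := φ), ← hV x, RingHom.comp_apply, residue_eq_zero_iff]
    exact V.valuation_lt_one_iff (Subring.inclusion hOV x)
  refine exists_solution_transfer ((residue V).comp (Subring.inclusion hOV)) φ hker E
    {γ | w γ = 0} (fun γ => residue V (w' γ)) hψV0 ?_ ?_
  · intro e he
    have h1 : ∀ γ ∈ e.support, ((residue V).comp (Subring.inclusion hOV)) (e γ) *
        residue V (w' γ) = residue V (Subring.inclusion hOV (e γ) * w' γ) := by
      intro γ _
      rw [map_mul]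
      rfl
    rw [Finsupp.sum, Finset.sum_congr rfl h1, ← map_sum]
    have h2 : ∑ γ ∈ e.support, Subring.inclusion hOV (e γ) * w' γ = 0 := by
      apply Subtype.ext
      have h3 := hE e he
      rw [Finsupp.sum] at h3
      have h4 : ((∑ γ ∈ e.support, Subring.inclusion hOV (e γ) * w' γ : V) : F) =
          ∑ γ ∈ e.support, ((e γ : F) * w γ) / w s₀ := by
        rw [← V.subtype_apply, map_sum]
        apply Finset.sum_congr rfl
        intro γ _
        rw [V.subtype_apply, mul_div_assoc]
        rfl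
      rw [h4, ← Finset.sum_div, h3, zero_div]
      rfl
    rw [h2, map_zero]
  · intro γ hγ
    have : w' γ = 0 := Subtype.ext (by rw [hw', hγ, zero_div]; rfl)
    rw [this, map_zero]

/-- The additive map `e ↦ ∑ f (e γ) * u γ`. -/
noncomputable def lc {O R Γ : Type*} [Semiring O] [Semiring R] (f : O →+* R) (u : Γ → R) :
    (Γ →₀ O) →+ R :=
  Finsupp.liftAddHom fun γ => (AddMonoidHom.mulRight (u γ)).comp f.toAddMonoidHom

theorem lc_apply {O R Γ : Type*} [Semiring O] [Semiring R] (f : O →+* R) (u : Γ → R)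
    (e : Γ →₀ O) : lc f u e = e.sum fun γ c => f c * u γ := rfl

theorem lc_single {O R Γ : Type*} [Semiring O] [Semiring R] (f : O →+* R) (u : Γ → R)
    (γ : Γ) (c : O) : lc f u (Finsupp.single γ c) = f c * u γ := by
  rw [lc_apply, Finsupp.sum_single_index (by rw [map_zero, zero_mul])]

/-- **Eigen-homomorphisms reduce.**  `Γ` a finitely generated group, `w : Γ → ℂ` a nonzero
additive character which is an eigenvector of a family of transfer-type operators
`(T_i ψ)(γ) = ∑ x, ψ (t i γ x)` with eigenvalues `a i`.  Then the `a i` are algebraic integers and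
for every ring homomorphism `φ` from the algebraic integers to a field `k` there is a nonzero
additive character `ψ : Γ → k` with eigenvalues `φ (a i)`, vanishing wherever `w` vanishes. -/
theorem exists_eigen_hom {Γ : Type*} [Group Γ] (S : Finset Γ)
    (hS : Subgroup.closure (S : Set Γ) = ⊤) {I : Type*} {X : I → Type*} [∀ i, Fintype (X i)]
    (t : ∀ i, Γ → X i → Γ) (w : Γ → ℂ) (hw : w ≠ 0)
    (hadd : ∀ γ γ', w (γ * γ') = w γ + w γ') (a : I → ℂ)
    (heig : ∀ i γ, ∑ x, w (t i γ x) = a i * w γ) {k : Type*} [Field k]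
    (φ : integralClosure ℤ ℂ →+* k) :
    ∃ ã : I → integralClosure ℤ ℂ, (∀ i, (ã i : ℂ) = a i) ∧
      ∃ ψ : Γ → k, ψ ≠ 0 ∧ (∀ γ γ', ψ (γ * γ') = ψ γ + ψ γ') ∧
        (∀ i γ, ∑ x, ψ (t i γ x) = φ (ã i) * ψ γ) ∧ ∀ γ, w γ = 0 → ψ γ = 0 := by
  classical
  have hw1 : w 1 = 0 := by
    have := hadd 1 1
    rw [mul_one] at this
    linear_combination -this
  have hwinv : ∀ γ, w γ⁻¹ = -w γ := by
    intro γ
    have := hadd γ γ⁻¹
    rw [mul_inv_cancel, hw1] at this
    linear_combination -this
  -- values lie in the `ℤ`-span of the values on `S`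
  have hspanZ : ∀ γ, w γ ∈ Submodule.span ℤ (w '' (S : Set Γ)) := by
    intro γ
    have hγ : γ ∈ Subgroup.closure (S : Set Γ) := hS ▸ Subgroup.mem_top γ
    induction hγ using Subgroup.closure_induction with
    | mem x hx => exact Submodule.subset_span ⟨x, hx, rfl⟩
    | one => rw [hw1]; exact Submodule.zero_mem _
    | mul x y _ _ hx hy => rw [hadd]; exact Submodule.add_mem _ hx hy
    | inv x _ hx => rw [hwinv]; exact Submodule.neg_mem _ hx
  have hne : Submodule.span ℤ (w '' (S : Set Γ)) ≠ ⊥ := by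
    intro hbot
    apply hw
    funext γ
    have h := hspanZ γ
    rw [hbot] at h
    simpa using h
  -- integrality of the eigenvalues
  have hint : ∀ i, IsIntegral ℤ (a i) := by
    intro i
    refine isIntegral_of_smul_mem_submodule (Submodule.span ℤ (w '' (S : Set Γ))) hne
      (Submodule.fg_span (Set.toFinite _)) (a i) ?_
    intro n hn
    induction hn using Submodule.span_induction with
    | mem x hx =>
      obtain ⟨s, _, rfl⟩ := hx
      rw [smul_eq_mul, ← heig i s]
      exact Submodule.sum_mem _ fun x _ => hspanZ _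
    | zero => rw [smul_zero]; exact Submodule.zero_mem _
    | add x y _ _ hx hy => rw [smul_add]; exact Submodule.add_mem _ hx hy
    | smul c x _ hx => rw [smul_comm]; exact Submodule.smul_mem _ _ hx
  let ã : I → integralClosure ℤ ℂ := fun i => ⟨a i, hint i⟩
  refine ⟨ã, fun _ => rfl, ?_⟩
  let O : Subring ℂ := (integralClosure ℤ ℂ).toSubring
  let φ' : O →+* k := φ
  let ã' : I → O := ã
  let E : Set (Γ →₀ O) :=
    {e | ∃ γ γ', e = Finsupp.single (γ * γ') 1 - Finsupp.single γ 1 - Finsupp.single γ' 1} ∪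
    {e | ∃ i γ, e = ∑ x, Finsupp.single (t i γ x) (1 : O) - Finsupp.single γ (ã' i)}
  have hfg : ∃ S : Finset Γ, ∀ γ, w γ ∈ Submodule.span O (w '' (S : Set Γ)) :=
    ⟨S, fun γ => Submodule.span_le_restrictScalars ℤ O _ (hspanZ γ)⟩
  have hE : ∀ e ∈ E, (e.sum fun γ c => (c : ℂ) * w γ) = 0 := by
    rintro _ (⟨γ, γ', rfl⟩ | ⟨i, γ, rfl⟩)
    · change lc O.subtype w _ = 0
      rw [map_sub, map_sub, lc_single, lc_single, lc_single, map_one,
        one_mul, one_mul, one_mul, hadd]
      ring
    · change lc O.subtype w _ = 0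
      rw [map_sub, map_sum, lc_single]
      simp only [lc_single, map_one, one_mul]
      rw [heig]
      exact sub_self _
  obtain ⟨ψ, hψ0, hψE, hψZ⟩ := exists_reduction O φ' E w hw hfg hE
  refine ⟨ψ, hψ0, ?_, ?_, hψZ⟩
  · intro γ γ'
    have h := hψE _ (Or.inl ⟨γ, γ', rfl⟩)
    change lc φ' ψ _ = 0 at h
    rw [map_sub, map_sub, lc_single, lc_single, lc_single, map_one,
      one_mul, one_mul, one_mul] at h
    linear_combination h
  · intro i γ
    have h := hψE _ (Or.inr ⟨i, γ, rfl⟩)
    change lc φ' ψ _ = 0 at h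
    rw [map_sub, map_sum, lc_single] at h
    simp only [lc_single, map_one, one_mul] at h
    exact sub_eq_zero.mp h

/-- **`𝔽_p`-coordinates of an additive character.**  An additive character `ψ : Γ → k` of a
finitely generated group into a field of characteristic `p` is a combination
`ψ = ∑ j, χ j • c j` of `𝔽_p`-valued additive characters `χ j` with `𝔽_p`-linearly independent
coefficients `c j ∈ k`; in particular `ψ γ = 0` iff all `χ j γ = 0`. -/
theorem exists_fp_decomposition {Γ : Type*} [Group Γ] (S : Finset Γ)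
    (hS : Subgroup.closure (S : Set Γ) = ⊤) (p : ℕ) [Fact p.Prime] {k : Type*} [Field k]
    [CharP k p] (ψ : Γ → k) (hadd : ∀ γ γ', ψ (γ * γ') = ψ γ + ψ γ') :
    letI : Algebra (ZMod p) k := ZMod.algebra k p
    ∃ (d : ℕ) (c : Fin d → k) (χ : Fin d → Γ → ZMod p),
      LinearIndependent (ZMod p) c ∧ (∀ j γ γ', χ j (γ * γ') = χ j γ + χ j γ') ∧
      (∀ γ, ψ γ = ∑ j, algebraMap (ZMod p) k (χ j γ) * c j) ∧
      (∀ γ, ψ γ = 0 ↔ ∀ j, χ j γ = 0) := by
  classical
  let _ : Algebra (ZMod p) k := ZMod.algebra k p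
  have hψ1 : ψ 1 = 0 := by
    have := hadd 1 1
    rw [mul_one] at this
    linear_combination -this
  have hψinv : ∀ γ, ψ γ⁻¹ = -ψ γ := by
    intro γ
    have := hadd γ γ⁻¹
    rw [mul_inv_cancel, hψ1] at this
    linear_combination -this
  let M : Submodule (ZMod p) k := Submodule.span (ZMod p) (ψ '' (S : Set Γ))
  have hmem : ∀ γ, ψ γ ∈ M := by
    intro γ
    have hγ : γ ∈ Subgroup.closure (S : Set Γ) := hS ▸ Subgroup.mem_top γ
    induction hγ using Subgroup.closure_induction with
    | mem x hx => exact Submodule.subset_span ⟨x, hx, rfl⟩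
    | one => rw [hψ1]; exact Submodule.zero_mem _
    | mul x y _ _ hx hy => rw [hadd]; exact Submodule.add_mem _ hx hy
    | inv x _ hx => rw [hψinv]; exact Submodule.neg_mem _ hx
  have : Module.Finite (ZMod p) M := Module.Finite.span_of_finite (ZMod p) (Set.toFinite _)
  let b := Module.finBasis (ZMod p) M
  have hrepr : ∀ γ, ψ γ = ∑ j, algebraMap (ZMod p) k (b.repr ⟨ψ γ, hmem γ⟩ j) * (b j : k) := by
    intro γ
    have h1 := b.sum_repr ⟨ψ γ, hmem γ⟩
    have h2 : M.subtype (∑ i, (b.repr ⟨ψ γ, hmem γ⟩) i • b i) = ψ γ := by rw [h1]; rfl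
    rw [map_sum] at h2
    refine h2.symm.trans ?_
    apply Finset.sum_congr rfl
    intro j _
    rw [map_smul, Submodule.subtype_apply, Algebra.smul_def]
  have hli : LinearIndependent (ZMod p) (fun j => (b j : k)) :=
    b.linearIndependent.map' M.subtype (Submodule.ker_subtype M)
  refine ⟨_, fun j => (b j : k), fun j γ => b.repr ⟨ψ γ, hmem γ⟩ j, hli, ?_, hrepr, ?_⟩
  · intro j γ γ'
    have : (⟨ψ (γ * γ'), hmem (γ * γ')⟩ : M) = ⟨ψ γ, hmem γ⟩ + ⟨ψ γ', hmem γ'⟩ :=
      Subtype.ext (hadd γ γ')
    change b.repr ⟨ψ (γ * γ'), hmem (γ * γ')⟩ j = _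
    rw [this, map_add]
    rfl
  · intro γ
    constructor
    · intro h0 j
      have : (⟨ψ γ, hmem γ⟩ : M) = 0 := Subtype.ext h0
      change b.repr ⟨ψ γ, hmem γ⟩ j = 0
      rw [this, map_zero]
      rfl
    · intro h0
      rw [hrepr γ]
      apply Finset.sum_eq_zero
      intro j _
      have h0j : b.repr ⟨ψ γ, hmem γ⟩ j = 0 := h0 j
      rw [h0j, map_zero, zero_mul]

end Fermat.Agent.S29.EigenRed
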