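import Fermat.Agent.S29.BettiPeriod
import Fermat.Agent.S29.EigenRed

/-!
# Wave 5, package B: the Betti eigenvector mod `p`

`Betti.exists_eigenHom`: for a normalised eigenform `g` on `Γ₀(N)` and a ring homomorphism
`φ : ℤ̄ → k` there is a nonzero additive character `ψ : Γ₀(N) → k`, killing the parabolic and
the finite-order elements, which is an eigenvector of every transfer Hecke operator `T_ℓ`
(`ℓ ∤ N`) with eigenvalue `φ (a_ℓ(g))`.

Glue of `BettiPeriod` (the complex period eigen-character, from the S21/S22/S23 libraries) and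
`EigenRed.exists_eigen_hom` (reduction along a valuation ring of `ℂ`, helper4).
-/

set_option autoImplicit false
set_option linter.style.haveILetI false
set_option linter.unusedSectionVars false
set_option linter.unusedVariables false

open scoped MatrixGroups
open ModularCurve ModularCurve.Period

namespace Fermat.Agent.S29

/-- (B) the Betti eigenvector mod `p` -/
theorem Betti.exists_eigenHom {N : ℕ} [NeZero N]
    {g : CuspForm (CongruenceSubgroup.Gamma0 N) 2} (hg : g.IsNormalizedEigenform)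
    {p : ℕ} (hp : p.Prime) {k : Type} [Field k] [CharP k p]
    (φ : integralClosure ℤ ℂ →+* k) :
    ∃ ψ : Additive (S22.Gam N) →+ k, ψ ≠ 0 ∧ IsPE ψ ∧
      ∀ (ℓ : ℕ) [Fact ℓ.Prime] (hℓN : ¬ ℓ ∣ N),
        ∃ a : integralClosure ℤ ℂ, (a : ℂ) = ModularFormClass.qCoeff g ℓ ∧
          ∀ γ : S22.Gam N, ∑ x : OnePoint (ZMod ℓ), ψ (Additive.ofMul (S22.gamT hℓN γ x))
            = φ a * ψ (Additive.ofMul γ) := by
  classical
  obtain ⟨S, hS⟩ := S22.exists_finset_closure N
  -- the index type of the operators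
  let I : Type := {ℓ : ℕ // ℓ.Prime ∧ ¬ ℓ ∣ N}
  let X : I → Type := fun i => OnePoint (ZMod i.1)
  haveI hfact : ∀ i : I, Fact i.1.Prime := fun i => ⟨i.2.1⟩
  letI instX : ∀ i : I, Fintype (X i) := fun i => inferInstanceAs (Fintype (OnePoint (ZMod i.1)))
  let t : ∀ i : I, S22.Gam N → X i → S22.Gam N := fun i γ x => S22.gamT i.2.2 γ x
  let w : S22.Gam N → ℂ := fun γ => periodMap N g (Additive.ofMul γ)
  have hw : w ≠ 0 := by
    intro h
    apply Betti.periodMap_ne_zero hg.ne_zero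
    refine AddMonoidHom.ext fun γ => ?_
    exact congrFun h (Additive.toMul γ)
  have hadd : ∀ γ γ', w (γ * γ') = w γ + w γ' := fun γ γ' => by
    show periodMap N g (Additive.ofMul (γ * γ')) = _
    rw [ofMul_mul, map_add]
  obtain ⟨pml, hpml⟩ := Fermat.Agent.S21.existsPeriodMapLinear (N := N)
  have heig : ∀ (i : I) γ, ∑ x, w (t i γ x) = ModularFormClass.qCoeff g i.1 * w γ := by
    intro i γ
    have h1 := Betti.periodMap_heckeT i.2.2 g γ
    rw [Betti.heckeTLin_eigen hg i.2.1 i.2.2, ← hpml, map_smul, hpml] at h1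
    exact h1.symm
  obtain ⟨ã, hã, ψ₀, hψ₀, hψadd, hψeig, hψker⟩ :=
    EigenRed.exists_eigen_hom S hS t w hw hadd (fun i : I => ModularFormClass.qCoeff g i.1)
      heig φ
  let ψ : Additive (S22.Gam N) →+ k :=
    AddMonoidHom.mk' (fun γ => ψ₀ (Additive.toMul γ)) (fun a b => hψadd _ _)
  refine ⟨ψ, ?_, ?_, ?_⟩
  · intro h
    apply hψ₀
    funext γ
    exact DFunLike.congr_fun h (Additive.ofMul γ)
  · intro γ hγ
    exact hψker γ (Betti.isPE_periodMap g γ hγ)
  · intro ℓ _ hℓN
    refine ⟨ã ⟨ℓ, Fact.out, hℓN⟩, hã ⟨ℓ, Fact.out, hℓN⟩, fun γ => ?_⟩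
    exact hψeig ⟨ℓ, Fact.out, hℓN⟩ γ

end Fermat.Agent.S29
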