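import Mathlib
import Fermat.Prelude.Def_EllipticCurve_FrobeniusTrace
import Fermat.Prelude.Def_FLTPrelim_Ramification
import Fermat.Prelude.Def_GaloisRep_Residual
import Fermat.Agent.S29.Defs

/-!
# The cyclotomic character of `Gal(Qbar/ℚ)` against the prelude's Frobenius / inertia predicates

For every modulus `m ≥ 1`:

* `cyclo m : GQ →* (ZMod m)ˣ` (Mathlib's `modularCyclotomicCharacter` on `AlgebraicClosure ℚ`),
  `cyclo_spec`, `cyclo_eq_of_forall`;
* `cyclo_frobenius` : value `ℓ` at every Frobenius lift at a prime `ℓ ∤ m`;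
* `cyclo_inertia` : trivial on inertia at `ℓ ∤ m`;
* `cyclo_finite_level` : factors through a number field;
* `cycloRing R m : GQ →* Rˣ` for a ring of characteristic `m`, with the same three facts
  (`cycloRing_frobenius`, `cycloRing_inertia`, `cycloRing_finite_level`);
* `unitsMap_cyclo` : compatibility in the modulus;
* the `p`-adic character `cycloAdic p : GQ →* ℤ_[p]ˣ` with the same three facts;
* `Fermat.Agent.S29.Cyc.exists_cyclotomic` : the statement of the wave-5 interface, and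
  `Cyc.exists_cyclotomic_prime` : the `hcyc` hypothesis of the assembly.
-/

set_option autoImplicit false

open scoped Pointwise

namespace Fermat.Agent.S29.CycloChar

noncomputable section

local notation "Qb" => AlgebraicClosure ℚ
local notation "GQ" => (AlgebraicClosure ℚ ≃ₐ[ℚ] AlgebraicClosure ℚ)

/-! ### Roots of unity modulo a valuation ring -/

/-- A root of unity has valuation one. -/
theorem valuation_eq_one_of_pow_eq_one (A : ValuationSubring Qb) {m : ℕ} (hm : m ≠ 0) {ζ : Qb}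
    (hζ : ζ ^ m = 1) : A.valuation ζ = 1 := by
  have h : A.valuation ζ ^ m = 1 := by rw [← map_pow, hζ, map_one]
  rcases lt_trichotomy (A.valuation ζ) 1 with h1 | h1 | h1
  · exact absurd h (pow_lt_one' h1 hm).ne
  · exact h1
  · exact absurd h (one_lt_pow' h1 hm).ne' 

/-- Integers have valuation at most one. -/
theorem valuation_intCast_le_one (A : ValuationSubring Qb) (n : ℤ) : A.valuation (n : Qb) ≤ 1 := by
  rw [A.valuation_le_one_iff]
  exact intCast_mem A n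

/-- If a prime `ℓ` is a non-unit of `A` and `ℓ ∤ m`, then `m` is a unit of `A`. -/
theorem valuation_natCast_eq_one (A : ValuationSubring Qb) {ℓ : ℕ} (hℓ : ℓ.Prime)
    (hA : A.LiesOverPrime ℓ) {m : ℕ} (hℓm : ¬ ℓ ∣ m) : A.valuation (m : Qb) = 1 := by
  have hle : A.valuation (m : Qb) ≤ 1 := by
    have := valuation_intCast_le_one A (m : ℤ)
    rwa [Int.cast_natCast] at this
  refine le_antisymm hle ?_
  by_contra hcon
  rw [not_le] at hcon
  have hl : A.valuation (ℓ : Qb) < 1 := hA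
  have hcop : Nat.Coprime ℓ m := (Nat.Prime.coprime_iff_not_dvd hℓ).mpr hℓm
  have hbez : (ℓ : ℤ) * Nat.gcdA ℓ m + (m : ℤ) * Nat.gcdB ℓ m = 1 := by
    have := Nat.gcd_eq_gcd_ab ℓ m
    rw [hcop.gcd_eq_one] at this
    exact_mod_cast this.symm
  have h1 : (1 : Qb) = (ℓ : Qb) * (Nat.gcdA ℓ m : Qb) + (m : Qb) * (Nat.gcdB ℓ m : Qb) := by
    exact_mod_cast congrArg (fun z : ℤ => (z : Qb)) hbez.symm
  have h2 : A.valuation (1 : Qb) < 1 := by
    rw [h1]
    refine lt_of_le_of_lt (A.valuation.map_add _ _) (max_lt ?_ ?_)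
    · rw [map_mul]
      calc A.valuation (ℓ : Qb) * A.valuation ((Nat.gcdA ℓ m : ℤ) : Qb)
          ≤ A.valuation (ℓ : Qb) * 1 := by
            gcongr
            exact valuation_intCast_le_one A _
        _ = A.valuation (ℓ : Qb) := mul_one _
        _ < 1 := hl
    · rw [map_mul]
      calc A.valuation (m : Qb) * A.valuation ((Nat.gcdB ℓ m : ℤ) : Qb)
          ≤ A.valuation (m : Qb) * 1 := by
            gcongr
            exact valuation_intCast_le_one A _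
        _ = A.valuation (m : Qb) := mul_one _
        _ < 1 := hcon
  rw [map_one] at h2
  exact lt_irrefl _ h2

/-- An `m`-th root of unity congruent to `1` modulo the maximal ideal of a valuation ring of
residue characteristic prime to `m` is `1`. -/
theorem eq_one_of_valuation_sub_one_lt (A : ValuationSubring Qb) {ℓ : ℕ} (hℓ : ℓ.Prime)
    (hA : A.LiesOverPrime ℓ) {m : ℕ} (hℓm : ¬ ℓ ∣ m) {ξ : Qb} (hξ : ξ ^ m = 1)
    (h : A.valuation (ξ - 1) < 1) : ξ = 1 := by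
  by_contra hne
  have hm0 : m ≠ 0 := fun h0 => hℓm (h0 ▸ dvd_zero ℓ)
  have hξ1 : A.valuation ξ = 1 := valuation_eq_one_of_pow_eq_one A hm0 hξ
  -- every power of `ξ` is congruent to `1`
  have hpow : ∀ i : ℕ, A.valuation (ξ ^ i - 1) < 1 := by
    intro i
    induction i with
    | zero => simp
    | succ i ih =>
      have : ξ ^ (i + 1) - 1 = ξ * (ξ ^ i - 1) + (ξ - 1) := by ring
      rw [this]
      refine lt_of_le_of_lt (A.valuation.map_add _ _) (max_lt ?_ h)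
      rw [map_mul, hξ1, one_mul]
      exact ih
  -- the geometric sum vanishes
  have hgeom : ∑ i ∈ Finset.range m, ξ ^ i = 0 := by
    have h1 : (∑ i ∈ Finset.range m, ξ ^ i) * (ξ - 1) = 0 := by
      rw [geom_sum_mul, hξ, sub_self]
    rcases mul_eq_zero.mp h1 with h2 | h2
    · exact h2
    · exact absurd (sub_eq_zero.mp h2) hne
  have hm : (m : Qb) = - ∑ i ∈ Finset.range m, (ξ ^ i - 1) := by
    rw [Finset.sum_sub_distrib, hgeom]
    simp
  have hlt : A.valuation (m : Qb) < 1 := by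
    rw [hm, Valuation.map_neg]
    exact Valuation.map_sum_lt _ one_ne_zero (fun i _ => hpow i)
  rw [valuation_natCast_eq_one A hℓ hA hℓm] at hlt
  exact lt_irrefl _ hlt

/-- **`μ_m` injects into the residue field** of a valuation ring of residue characteristic prime
to `m`: two `m`-th roots of unity which are congruent are equal. -/
theorem eq_of_valuation_sub_lt (A : ValuationSubring Qb) {ℓ : ℕ} (hℓ : ℓ.Prime)
    (hA : A.LiesOverPrime ℓ) {m : ℕ} (hℓm : ¬ ℓ ∣ m) {ζ ζ' : Qb} (hζ : ζ ^ m = 1)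
    (hζ' : ζ' ^ m = 1) (h : A.valuation (ζ - ζ') < 1) : ζ = ζ' := by
  have hm0 : m ≠ 0 := fun h0 => hℓm (h0 ▸ dvd_zero ℓ)
  have hζ'0 : ζ' ≠ 0 := by
    rintro rfl
    rw [zero_pow hm0] at hζ'
    exact zero_ne_one hζ'
  have hv : A.valuation ζ' = 1 := valuation_eq_one_of_pow_eq_one A hm0 hζ'
  have h1 : ζ / ζ' = 1 := by
    refine eq_one_of_valuation_sub_one_lt A hℓ hA hℓm (by rw [div_pow, hζ, hζ', div_one]) ?_
    have : ζ / ζ' - 1 = (ζ - ζ') / ζ' := by field_simp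
    rw [this, map_div₀, hv, div_one]
    exact h
  exact (div_eq_one_iff_eq hζ'0).mp h1

/-! ### The character -/

theorem card_rootsOfUnity (m : ℕ) [NeZero m] : Nat.card (rootsOfUnity m Qb) = m :=
  HasEnoughRootsOfUnity.natCard_rootsOfUnity Qb m

/-- The mod `m` cyclotomic character of the absolute Galois group of `ℚ`. -/
def cyclo (m : ℕ) [NeZero m] : GQ →* (ZMod m)ˣ where
  toFun σ := modularCyclotomicCharacter Qb (card_rootsOfUnity m) (σ : Qb ≃+* Qb)
  map_one' := map_one (modularCyclotomicCharacter Qb (card_rootsOfUnity m))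
  map_mul' σ τ := map_mul (modularCyclotomicCharacter Qb (card_rootsOfUnity m))
    (σ : Qb ≃+* Qb) (τ : Qb ≃+* Qb)

theorem cyclo_apply (m : ℕ) [NeZero m] (σ : GQ) :
    cyclo m σ = modularCyclotomicCharacter Qb (card_rootsOfUnity m) (σ : Qb ≃+* Qb) := rfl

/-- The defining property of `cyclo`. -/
theorem cyclo_spec (m : ℕ) [NeZero m] (σ : GQ) {ζ : Qb} (hζ : ζ ^ m = 1) :
    σ ζ = ζ ^ ((cyclo m σ : (ZMod m)ˣ) : ZMod m).val := by
  have hm0 : m ≠ 0 := NeZero.ne m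
  have hu : IsUnit ζ := IsUnit.of_pow_eq_one hζ hm0
  have hmem : hu.unit ∈ rootsOfUnity m Qb := by
    rw [mem_rootsOfUnity]
    apply Units.ext
    simpa using hζ
  have h := modularCyclotomicCharacter.spec Qb (card_rootsOfUnity m) (σ : Qb ≃+* Qb) hmem
  exact h

theorem exists_primitiveRoot (m : ℕ) [NeZero m] : ∃ ζ : Qb, IsPrimitiveRoot ζ m :=
  HasEnoughRootsOfUnity.exists_primitiveRoot Qb m

/-- Uniqueness: if `σ` raises one primitive `m`-th root of unity to the `c`-th power, then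
`cyclo m σ = c`. -/
theorem cyclo_eq_of_primitive (m : ℕ) [NeZero m] (σ : GQ) {ζ : Qb} (hζ : IsPrimitiveRoot ζ m)
    {c : ℕ} (h : σ ζ = ζ ^ c) : ((cyclo m σ : (ZMod m)ˣ) : ZMod m) = (c : ZMod m) := by
  have h1 := cyclo_spec m σ hζ.pow_eq_one
  rw [h] at h1
  have hu : IsUnit ζ := hζ.isUnit (NeZero.ne m)
  have h2 : c ≡ ((cyclo m σ : (ZMod m)ˣ) : ZMod m).val [MOD m] := by
    have h1' : hu.unit ^ c = hu.unit ^ ((cyclo m σ : (ZMod m)ˣ) : ZMod m).val :=
      Units.ext (by simpa using h1)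
    have := (pow_eq_pow_iff_modEq (x := hu.unit)).mp h1'
    rwa [← orderOf_units, IsUnit.unit_spec, ← hζ.eq_orderOf] at this
  have h3 := (ZMod.natCast_eq_natCast_iff _ _ _).mpr h2
  rw [h3, ZMod.natCast_zmod_val]

/-- Uniqueness, quantified over all `m`-th roots of unity. -/
theorem cyclo_eq_of_forall (m : ℕ) [NeZero m] (σ : GQ) {c : ℕ}
    (h : ∀ ζ : Qb, ζ ^ m = 1 → σ ζ = ζ ^ c) :
    ((cyclo m σ : (ZMod m)ˣ) : ZMod m) = (c : ZMod m) := by
  obtain ⟨ζ, hζ⟩ := exists_primitiveRoot m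
  exact cyclo_eq_of_primitive m σ hζ (h ζ hζ.pow_eq_one)

theorem cyclo_eq_one_of_primitive (m : ℕ) [NeZero m] (σ : GQ) {ζ : Qb} (hζ : IsPrimitiveRoot ζ m)
    (h : σ ζ = ζ) : cyclo m σ = 1 := by
  apply Units.ext
  have := cyclo_eq_of_primitive m σ hζ (c := 1) (by rw [h, pow_one])
  rw [this, Nat.cast_one, Units.val_one]

theorem cyclo_eq_one_iff (m : ℕ) [NeZero m] (σ : GQ) :
    cyclo m σ = 1 ↔ ∀ ζ : Qb, ζ ^ m = 1 → σ ζ = ζ := by
  constructor
  · intro h ζ hζ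
    have h1 := cyclo_spec m σ hζ
    rw [h, Units.val_one] at h1
    rcases Nat.lt_or_ge 1 m with hm | hm
    · have : Fact (1 < m) := ⟨hm⟩
      rw [ZMod.val_one, pow_one] at h1
      exact h1
    · have hm1 : m = 1 := le_antisymm hm (Nat.pos_of_ne_zero (NeZero.ne m))
      subst hm1
      have hζ1 : ζ = 1 := by simpa using hζ
      rw [hζ1, map_one]
  · intro h
    obtain ⟨ζ, hζ⟩ := exists_primitiveRoot m
    exact cyclo_eq_one_of_primitive m σ hζ (h ζ hζ.pow_eq_one)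

/-! ### Frobenius lifts and inertia -/

/-- A Frobenius lift at `ℓ` acts on every element of the valuation ring as the `ℓ`-th power
modulo the maximal ideal. -/
theorem valuation_frobenius_sub_pow_lt (A : ValuationSubring Qb) {ℓ : ℕ} {s : GQ}
    (hs : A.IsFrobeniusAt s ℓ) {x : Qb} (hx : x ∈ A) : A.valuation (s x - x ^ ℓ) < 1 := by
  obtain ⟨hdec, hfrob⟩ := hs
  have h := hfrob (IsLocalRing.residue A ⟨x, hx⟩)
  rw [← IsLocalRing.ResidueField.residue_smul, ← map_pow, ← sub_eq_zero, ← map_sub,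
    IsLocalRing.residue_eq_zero_iff, A.valuation_lt_one_iff] at h
  exact h

/-- An element of the inertia group acts trivially on every element of the valuation ring
modulo the maximal ideal. -/
theorem valuation_inertia_sub_lt (A : ValuationSubring Qb) {σ : GQ}
    (hσ : σ ∈ A.inertiaSubgroupIn ℚ) {x : Qb} (hx : x ∈ A) : A.valuation (σ x - x) < 1 := by
  obtain ⟨τ, hτ, rfl⟩ := hσ
  have h1 : MulSemiringAction.toRingAut (A.decompositionSubgroup ℚ) (IsLocalRing.ResidueField A) τ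
      = 1 := hτ
  have h := congrArg (fun e : RingAut (IsLocalRing.ResidueField A) =>
    e (IsLocalRing.residue A ⟨x, hx⟩)) h1
  replace h : τ • IsLocalRing.residue A ⟨x, hx⟩ = IsLocalRing.residue A ⟨x, hx⟩ := h
  rw [← IsLocalRing.ResidueField.residue_smul, ← sub_eq_zero, ← map_sub,
    IsLocalRing.residue_eq_zero_iff, A.valuation_lt_one_iff] at h
  exact h

theorem mem_of_pow_eq_one (A : ValuationSubring Qb) {m : ℕ} (hm : m ≠ 0) {ζ : Qb}
    (hζ : ζ ^ m = 1) : ζ ∈ A := by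
  rw [← A.valuation_le_one_iff, valuation_eq_one_of_pow_eq_one A hm hζ]

/-- A Frobenius lift at `ℓ ∤ m` raises every `m`-th root of unity to the `ℓ`-th power. -/
theorem frobenius_apply_root (A : ValuationSubring Qb) {ℓ : ℕ} (hℓ : ℓ.Prime)
    (hA : A.LiesOverPrime ℓ) {m : ℕ} (hℓm : ¬ ℓ ∣ m) {s : GQ} (hs : A.IsFrobeniusAt s ℓ)
    {ζ : Qb} (hζ : ζ ^ m = 1) : s ζ = ζ ^ ℓ := by
  have hm0 : m ≠ 0 := fun h0 => hℓm (h0 ▸ dvd_zero ℓ)
  refine eq_of_valuation_sub_lt A hℓ hA hℓm ?_ ?_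
    (valuation_frobenius_sub_pow_lt A hs (mem_of_pow_eq_one A hm0 hζ))
  · rw [← map_pow, hζ, map_one]
  · rw [← pow_mul, mul_comm, pow_mul, hζ, one_pow]

/-- Inertia at `ℓ ∤ m` fixes every `m`-th root of unity. -/
theorem inertia_apply_root (A : ValuationSubring Qb) {ℓ : ℕ} (hℓ : ℓ.Prime)
    (hA : A.LiesOverPrime ℓ) {m : ℕ} (hℓm : ¬ ℓ ∣ m) {σ : GQ}
    (hσ : σ ∈ A.inertiaSubgroupIn ℚ) {ζ : Qb} (hζ : ζ ^ m = 1) : σ ζ = ζ := by
  have hm0 : m ≠ 0 := fun h0 => hℓm (h0 ▸ dvd_zero ℓ)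
  refine eq_of_valuation_sub_lt A hℓ hA hℓm ?_ hζ
    (valuation_inertia_sub_lt A hσ (mem_of_pow_eq_one A hm0 hζ))
  rw [← map_pow, hζ, map_one]

/-- **(CY1)** The cyclotomic character takes the value `ℓ` at every Frobenius lift at `ℓ ∤ m`. -/
theorem cyclo_frobenius (m : ℕ) [NeZero m] {ℓ : ℕ} (hℓ : ℓ.Prime) (hℓm : ¬ ℓ ∣ m)
    (A : ValuationSubring Qb) (hA : A.LiesOverPrime ℓ) {s : GQ} (hs : A.IsFrobeniusAt s ℓ) :
    ((cyclo m s : (ZMod m)ˣ) : ZMod m) = (ℓ : ZMod m) :=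
  cyclo_eq_of_forall m s (fun _ hζ => frobenius_apply_root A hℓ hA hℓm hs hζ)

/-- **(CY2)** The cyclotomic character is trivial on inertia at `ℓ ∤ m`. -/
theorem cyclo_inertia (m : ℕ) [NeZero m] {ℓ : ℕ} (hℓ : ℓ.Prime) (hℓm : ¬ ℓ ∣ m)
    (A : ValuationSubring Qb) (hA : A.LiesOverPrime ℓ) {σ : GQ}
    (hσ : σ ∈ A.inertiaSubgroupIn ℚ) : cyclo m σ = 1 :=
  (cyclo_eq_one_iff m σ).mpr (fun _ hζ => inertia_apply_root A hℓ hA hℓm hσ hζ)

/-- **(CY3)** The cyclotomic character factors through a number field. -/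
theorem cyclo_finite_level (m : ℕ) [NeZero m] :
    ∃ L : IntermediateField ℚ Qb, FiniteDimensional ℚ L ∧
      ∀ σ : GQ, (∀ x ∈ L, σ x = x) → cyclo m σ = 1 := by
  obtain ⟨ζ, hζ⟩ := exists_primitiveRoot m
  refine ⟨IntermediateField.adjoin ℚ {ζ}, ?_, ?_⟩
  · have hint : IsIntegral ℚ ζ :=
      (hζ.isIntegral (Nat.pos_of_ne_zero (NeZero.ne m))).tower_top
    exact IntermediateField.adjoin.finiteDimensional hint
  · intro σ hσ
    exact cyclo_eq_one_of_primitive m σ hζ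
      (hσ ζ (IntermediateField.mem_adjoin_simple_self ℚ ζ))

/-! ### Compatibility in the modulus -/

/-- **(CY5)** `cyclo` is compatible with reduction of the modulus. -/
theorem unitsMap_cyclo {m m' : ℕ} [NeZero m] [NeZero m'] (h : m ∣ m') (σ : GQ) :
    ZMod.unitsMap h (cyclo m' σ) = cyclo m σ := by
  apply Units.ext
  rw [ZMod.unitsMap_def, Units.coe_map]
  have h1 : ((cyclo m σ : (ZMod m)ˣ) : ZMod m)
      = ((((cyclo m' σ : (ZMod m')ˣ) : ZMod m').val : ℕ) : ZMod m) := by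
    refine cyclo_eq_of_forall m σ (fun ζ hζ => ?_)
    have hζ' : ζ ^ m' = 1 := by
      obtain ⟨d, rfl⟩ := h
      rw [pow_mul, hζ, one_pow]
    exact cyclo_spec m' σ hζ'
  rw [h1]
  simp

/-! ### Ring-valued form -/

/-- The cyclotomic character with values in the units of a ring of characteristic `m`
(e.g. a field of characteristic `p`, `m = p`). -/
def cycloRing (R : Type*) [Ring R] (m : ℕ) [NeZero m] [CharP R m] : GQ →* Rˣ :=
  (Units.map ((ZMod.castHom (dvd_refl m) R : ZMod m →+* R) : ZMod m →* R)).comp (cyclo m)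

theorem cycloRing_apply (R : Type*) [Ring R] (m : ℕ) [NeZero m] [CharP R m] (σ : GQ) :
    ((cycloRing R m σ : Rˣ) : R) = ZMod.castHom (dvd_refl m) R ((cyclo m σ : (ZMod m)ˣ) : ZMod m) :=
  rfl

/-- **(CY4a)** `cycloRing` takes the value `ℓ` at every Frobenius lift at `ℓ ∤ m`. -/
theorem cycloRing_frobenius (R : Type*) [Ring R] (m : ℕ) [NeZero m] [CharP R m] {ℓ : ℕ}
    (hℓ : ℓ.Prime) (hℓm : ¬ ℓ ∣ m) (A : ValuationSubring Qb) (hA : A.LiesOverPrime ℓ) {s : GQ}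
    (hs : A.IsFrobeniusAt s ℓ) : ((cycloRing R m s : Rˣ) : R) = (ℓ : R) := by
  rw [cycloRing_apply, cyclo_frobenius m hℓ hℓm A hA hs, map_natCast]

/-- **(CY4b)** `cycloRing` is trivial on inertia at `ℓ ∤ m`. -/
theorem cycloRing_inertia (R : Type*) [Ring R] (m : ℕ) [NeZero m] [CharP R m] {ℓ : ℕ}
    (hℓ : ℓ.Prime) (hℓm : ¬ ℓ ∣ m) (A : ValuationSubring Qb) (hA : A.LiesOverPrime ℓ) {σ : GQ}
    (hσ : σ ∈ A.inertiaSubgroupIn ℚ) : cycloRing R m σ = 1 := by
  unfold cycloRing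
  rw [MonoidHom.comp_apply, cyclo_inertia m hℓ hℓm A hA hσ, map_one]

/-- **(CY4c)** `cycloRing` factors through a number field. -/
theorem cycloRing_finite_level (R : Type*) [Ring R] (m : ℕ) [NeZero m] [CharP R m] :
    ∃ L : IntermediateField ℚ Qb, FiniteDimensional ℚ L ∧
      ∀ σ : GQ, (∀ x ∈ L, σ x = x) → cycloRing R m σ = 1 := by
  obtain ⟨L, hL, h⟩ := cyclo_finite_level m
  refine ⟨L, hL, fun σ hσ => ?_⟩
  unfold cycloRing
  rw [MonoidHom.comp_apply, h σ hσ, map_one]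

/-! ### The `p`-adic cyclotomic character -/

section Adic

variable (p : ℕ) [Fact p.Prime]

/-- The `p`-adic cyclotomic character of the absolute Galois group of `ℚ`. -/
def cycloAdic : GQ →* ℤ_[p]ˣ where
  toFun σ := cyclotomicCharacter Qb p (σ : Qb ≃+* Qb)
  map_one' := map_one (cyclotomicCharacter Qb p)
  map_mul' σ τ := map_mul (cyclotomicCharacter Qb p) (σ : Qb ≃+* Qb) (τ : Qb ≃+* Qb)

/-- The reduction of `cycloAdic` modulo `p ^ n` is `cyclo (p ^ n)`. -/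
theorem toZModPow_cycloAdic (n : ℕ) (σ : GQ) :
    PadicInt.toZModPow n ((cycloAdic p σ : ℤ_[p]ˣ) : ℤ_[p])
      = ((cyclo (p ^ n) σ : (ZMod (p ^ n))ˣ) : ZMod (p ^ n)) :=
  cyclotomicCharacter.toZModPow p (σ : Qb ≃+* Qb)

/-- The `p`-adic cyclotomic character takes the value `ℓ` at every Frobenius lift at `ℓ ≠ p`. -/
theorem cycloAdic_frobenius {ℓ : ℕ} (hℓ : ℓ.Prime) (hℓp : ℓ ≠ p) (A : ValuationSubring Qb)
    (hA : A.LiesOverPrime ℓ) {s : GQ} (hs : A.IsFrobeniusAt s ℓ) :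
    ((cycloAdic p s : ℤ_[p]ˣ) : ℤ_[p]) = (ℓ : ℤ_[p]) := by
  refine PadicInt.ext_of_toZModPow.mp (fun n => ?_)
  have hℓn : ¬ ℓ ∣ p ^ n := fun h =>
    hℓp ((Nat.prime_dvd_prime_iff_eq hℓ (Fact.out : p.Prime)).mp (hℓ.dvd_of_dvd_pow h))
  rw [toZModPow_cycloAdic, cyclo_frobenius (p ^ n) hℓ hℓn A hA hs, map_natCast]

/-- The `p`-adic cyclotomic character is trivial on inertia at `ℓ ≠ p`. -/
theorem cycloAdic_inertia {ℓ : ℕ} (hℓ : ℓ.Prime) (hℓp : ℓ ≠ p) (A : ValuationSubring Qb)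
    (hA : A.LiesOverPrime ℓ) {σ : GQ} (hσ : σ ∈ A.inertiaSubgroupIn ℚ) : cycloAdic p σ = 1 := by
  apply Units.ext
  refine PadicInt.ext_of_toZModPow.mp (fun n => ?_)
  have hℓn : ¬ ℓ ∣ p ^ n := fun h =>
    hℓp ((Nat.prime_dvd_prime_iff_eq hℓ (Fact.out : p.Prime)).mp (hℓ.dvd_of_dvd_pow h))
  rw [toZModPow_cycloAdic, cyclo_inertia (p ^ n) hℓ hℓn A hA hσ, Units.val_one, Units.val_one,
    map_one]

/-- Continuity of the `p`-adic cyclotomic character: modulo `p ^ n` it factors through a number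
field. -/
theorem cycloAdic_finite_level (n : ℕ) :
    ∃ L : IntermediateField ℚ Qb, FiniteDimensional ℚ L ∧
      ∀ σ : GQ, (∀ x ∈ L, σ x = x) →
        PadicInt.toZModPow n ((cycloAdic p σ : ℤ_[p]ˣ) : ℤ_[p]) = 1 := by
  obtain ⟨L, hL, h⟩ := cyclo_finite_level (p ^ n)
  refine ⟨L, hL, fun σ hσ => ?_⟩
  rw [toZModPow_cycloAdic, h σ hσ, Units.val_one]

/-- Ideal form of `cycloAdic_finite_level`. -/
theorem cycloAdic_finite_level' (n : ℕ) :
    ∃ L : IntermediateField ℚ Qb, FiniteDimensional ℚ L ∧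
      ∀ σ : GQ, (∀ x ∈ L, σ x = x) →
        ((cycloAdic p σ : ℤ_[p]ˣ) : ℤ_[p]) - 1 ∈ Ideal.span {(p : ℤ_[p]) ^ n} := by
  obtain ⟨L, hL, h⟩ := cycloAdic_finite_level p n
  refine ⟨L, hL, fun σ hσ => ?_⟩
  rw [← PadicInt.ker_toZModPow, RingHom.mem_ker, map_sub, h σ hσ, map_one, sub_self]

end Adic

end

end Fermat.Agent.S29.CycloChar

namespace Fermat.Agent.S29

local notation "Qb" => AlgebraicClosure ℚ

/-- (Cyc) the mod `m` cyclotomic character (statement of the wave-5 interface). -/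
theorem Cyc.exists_cyclotomic (m : ℕ) [NeZero m] :
    ∃ ω : GQ →* (ZMod m)ˣ, GaloisFactorsThroughFiniteLevel ω ∧
      (∀ (σ : GQ) (ζ : Qb), ζ ^ m = 1 → σ ζ = ζ ^ ((ω σ : (ZMod m)ˣ) : ZMod m).val) ∧
      ∀ ℓ : ℕ, ℓ.Prime → ¬ ℓ ∣ m → ∀ A : ValuationSubring Qb, A.LiesOverPrime ℓ →
        (∀ σ ∈ A.inertiaSubgroupIn ℚ, ω σ = 1) ∧
        ∀ s : GQ, A.IsFrobeniusAt s ℓ → ((ω s : (ZMod m)ˣ) : ZMod m) = (ℓ : ZMod m) :=
  ⟨CycloChar.cyclo m, CycloChar.cyclo_finite_level m,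
    fun σ _ hζ => CycloChar.cyclo_spec m σ hζ,
    fun _ hℓ hℓm A hA => ⟨fun _ hσ => CycloChar.cyclo_inertia m hℓ hℓm A hA hσ,
      fun _ hs => CycloChar.cyclo_frobenius m hℓ hℓm A hA hs⟩⟩

/-- The `hcyc` hypothesis of `Assembly.residualRep_of_inputs`, for a prime `p`. -/
theorem Cyc.exists_cyclotomic_prime (p : ℕ) [Fact p.Prime] :
    ∃ ω : GQ →* (ZMod p)ˣ, GaloisFactorsThroughFiniteLevel ω ∧
      ∀ ℓ : ℕ, ℓ.Prime → ℓ ≠ p → ∀ A : ValuationSubring Qb, A.LiesOverPrime ℓ →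
        (∀ σ ∈ A.inertiaSubgroupIn ℚ, ω σ = 1) ∧
        ∀ s : GQ, A.IsFrobeniusAt s ℓ → ((ω s : (ZMod p)ˣ) : ZMod p) = (ℓ : ZMod p) := by
  obtain ⟨ω, h1, -, h2⟩ := Cyc.exists_cyclotomic p
  refine ⟨ω, h1, fun ℓ hℓ hℓp A hA => h2 ℓ hℓ ?_ A hA⟩
  exact fun h => hℓp ((Nat.prime_dvd_prime_iff_eq hℓ (Fact.out : p.Prime)).mp h)

/-- Field-valued form: for a field (or ring) `k` of characteristic `p` there is a character
`δ : GQ →* kˣ` of finite level with `δ s = ℓ` at Frobenius lifts at `ℓ ≠ p` and `δ = 1` on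
inertia at `ℓ ≠ p`. -/
theorem Cyc.exists_cyclotomic_charP (p : ℕ) [Fact p.Prime] (k : Type) [Ring k] [CharP k p] :
    ∃ δ : GQ →* kˣ, GaloisFactorsThroughFiniteLevel δ ∧
      ∀ ℓ : ℕ, ℓ.Prime → ℓ ≠ p → ∀ A : ValuationSubring Qb, A.LiesOverPrime ℓ →
        (∀ σ ∈ A.inertiaSubgroupIn ℚ, δ σ = 1) ∧
        ∀ s : GQ, A.IsFrobeniusAt s ℓ → ((δ s : kˣ) : k) = (ℓ : k) := by
  have hnd : ∀ ℓ : ℕ, ℓ.Prime → ℓ ≠ p → ¬ ℓ ∣ p := fun ℓ hℓ hℓp h =>
    hℓp ((Nat.prime_dvd_prime_iff_eq hℓ (Fact.out : p.Prime)).mp h)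
  exact ⟨CycloChar.cycloRing k p, CycloChar.cycloRing_finite_level k p,
    fun ℓ hℓ hℓp A hA => ⟨fun _ hσ => CycloChar.cycloRing_inertia k p hℓ (hnd ℓ hℓ hℓp) A hA hσ,
      fun _ hs => CycloChar.cycloRing_frobenius k p hℓ (hnd ℓ hℓ hℓp) A hA hs⟩⟩

end Fermat.Agent.S29
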