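import Fermat.Agent.S22.HeckeDefs
import Fermat.Prelude.Def_ModularCurve_PeriodMap

/-!
# Wave 5, package B (part 1): the Hecke operator `T_ℓ` on characters of `Γ₀(N)`

For a prime `ℓ ∤ N` the prelude coset representatives `hRep ℓ x` (`x ∈ ℙ¹(𝔽_ℓ)`) satisfy
`hRep ℓ x * γ = gamT γ x * hRep ℓ (γ · x)` with `gamT γ x ∈ Γ₀(N)` (`S22.gamT_spec`).  The map
`(γ, x) ↦ gamT γ x` is a cocycle (`gamT_mul`), so for every commutative monoid `M`
`χ ↦ (γ ↦ ∏ x, χ (gamT γ x))` is an operator on `Hom(Γ₀(N), M)`: the transfer-type Hecke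
operator `heckeChar`.  It is natural in `M`, and it preserves the characters killing the
parabolic elements / the elements of finite order (orbit argument).
-/

set_option autoImplicit false
set_option linter.style.haveILetI false
set_option linter.unusedSectionVars false

open scoped MatrixGroups
open Matrix.SpecialLinearGroup
open P2MW.S_ModularForm_heckeT_slash_eq_self_of_mem_Gamma0.ModularForm.HeckeSlashInvariance

namespace Fermat.Agent.S29.Betti

open Fermat.Agent.S22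

/-! ### A product over the cycles of a permutation -/

/-- If the product of `f` over every cycle of `σ` is `1`, the product over everything is `1`. -/
theorem prod_eq_one_of_perm {X M : Type*} [Fintype X] [DecidableEq X] [CommMonoid M]
    (σ : Equiv.Perm X) (f : X → M)
    (h : ∀ x : X, ∀ d : ℕ, 0 < d → (σ ^ d) x = x →
      ∏ i ∈ Finset.range d, f ((σ ^ i) x) = 1) :
    ∏ x, f x = 1 := by
  suffices H : ∀ (n : ℕ) (S : Finset X), S.card = n → (∀ x ∈ S, σ x ∈ S) →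
      ∏ x ∈ S, f x = 1 from H _ Finset.univ rfl (fun _ _ => Finset.mem_univ _)
  intro n
  induction n using Nat.strong_induction_on with
  | _ n ih =>
    intro S hS hσ
    rcases S.eq_empty_or_nonempty with rfl | ⟨x, hx⟩
    · simp
    · -- the orbit of `x`
      have hex : ∃ d : ℕ, 0 < d ∧ (σ ^ d) x = x :=
        ⟨orderOf σ, orderOf_pos σ, by rw [pow_orderOf_eq_one]; rfl⟩
      classical
      set d := Nat.find hex with hd
      have hd0 : 0 < d := (Nat.find_spec hex).1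
      have hdx : (σ ^ d) x = x := (Nat.find_spec hex).2
      have hmin : ∀ e : ℕ, 0 < e → e < d → (σ ^ e) x ≠ x := fun e he hed hx' =>
        Nat.find_min hex hed ⟨he, hx'⟩
      set O : Finset X := (Finset.range d).image (fun i => (σ ^ i) x) with hO
      have hinj : Set.InjOn (fun i => (σ ^ i) x) (Finset.range d : Set ℕ) := by
        have key : ∀ i j : ℕ, i < j → j < d → (σ ^ i) x ≠ (σ ^ j) x := by
          intro i j hij hjd heq
          have hj : j = i + (j - i) := by omega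
          rw [hj, pow_add, Equiv.Perm.mul_apply] at heq
          exact hmin (j - i) (by omega) (by omega) ((σ ^ i).injective heq).symm
        intro i hi j hj hij
        simp only [Finset.coe_range, Set.mem_Iio] at hi hj
        rcases lt_trichotomy i j with hlt | heq | hgt
        · exact absurd hij (key i j hlt hj)
        · exact heq
        · exact absurd hij.symm (key j i hgt hi)
      have hpowS : ∀ i : ℕ, (σ ^ i) x ∈ S := by
        intro i
        induction i with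
        | zero => simpa using hx
        | succ i ihi =>
          rw [pow_succ', Equiv.Perm.mul_apply]
          exact hσ _ ihi
      have hOS : O ⊆ S := by
        intro y hy
        obtain ⟨i, -, rfl⟩ := Finset.mem_image.mp hy
        exact hpowS i
      have hOprod : ∏ y ∈ O, f y = 1 := by
        rw [hO, Finset.prod_image hinj]
        exact h x d hd0 hdx
      have hOstab : ∀ y ∈ O, σ y ∈ O := by
        intro y hy
        obtain ⟨i, hi, rfl⟩ := Finset.mem_image.mp hy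
        rw [Finset.mem_range] at hi
        by_cases hid : i + 1 < d
        · exact Finset.mem_image.mpr ⟨i + 1, Finset.mem_range.mpr hid, by
            rw [pow_succ', Equiv.Perm.mul_apply]⟩
        · have : i + 1 = d := by omega
          refine Finset.mem_image.mpr ⟨0, Finset.mem_range.mpr hd0, ?_⟩
          show (σ ^ 0) x = σ ((σ ^ i) x)
          rw [← Equiv.Perm.mul_apply, ← pow_succ', this, hdx]
          simp
      have himg : O.image σ = O :=
        Finset.eq_of_subset_of_card_le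
          (fun y hy => by
            obtain ⟨z, hz, rfl⟩ := Finset.mem_image.mp hy
            exact hOstab z hz)
          (by rw [Finset.card_image_of_injective _ σ.injective])
      have hstab : ∀ y ∈ S \ O, σ y ∈ S \ O := by
        intro y hy
        rw [Finset.mem_sdiff] at hy ⊢
        refine ⟨hσ y hy.1, fun hy' => hy.2 ?_⟩
        rw [← himg] at hy'
        obtain ⟨z, hz, hzy⟩ := Finset.mem_image.mp hy'
        rwa [← σ.injective hzy]
      have hxO : x ∈ O := Finset.mem_image.mpr ⟨0, Finset.mem_range.mpr hd0, by simp⟩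
      have hlt : (S \ O).card < n := by
        rw [← hS]
        exact Finset.card_lt_card (Finset.sdiff_ssubset hOS ⟨x, hxO⟩)
      rw [← Finset.prod_sdiff hOS, hOprod, mul_one]
      exact ih _ hlt (S \ O) rfl hstab

/-! ### The cocycle `gamT` -/

variable {N ℓ : ℕ} [Fact ℓ.Prime]

theorem redMat_mul (g₁ g₂ : SL(2, ℤ)) : redMat ℓ (g₁ * g₂) = redMat ℓ g₂ * redMat ℓ g₁ := by
  apply Matrix.GeneralLinearGroup.ext
  intro i j
  rw [Matrix.GeneralLinearGroup.coe_mul, Matrix.mul_apply, Fin.sum_univ_two]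
  fin_cases i <;> fin_cases j <;>
    simp [Matrix.SpecialLinearGroup.coe_mul, Matrix.mul_apply, Fin.sum_univ_two] <;> ring

theorem redMat_one : redMat ℓ (1 : SL(2, ℤ)) = 1 := by
  apply Matrix.GeneralLinearGroup.ext
  intro i j
  fin_cases i <;> fin_cases j <;> simp

theorem redMat_pow (g : SL(2, ℤ)) (n : ℕ) : redMat ℓ (g ^ n) = redMat ℓ g ^ n := by
  induction n with
  | zero => simp [redMat_one]
  | succ n ih => rw [pow_succ, redMat_mul, ih, pow_succ']

theorem gamT_mul (hℓN : ¬ ℓ ∣ N) (γ₁ γ₂ : Gam N) (x : OnePoint (ZMod ℓ)) :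
    gamT hℓN (γ₁ * γ₂) x =
      gamT hℓN γ₁ x * gamT hℓN γ₂ (redMat ℓ (γ₁ : SL(2, ℤ)) • x) := by
  have h12 := gamT_spec hℓN (γ₁ * γ₂) x
  have h1 := gamT_spec hℓN γ₁ x
  have h2 := gamT_spec hℓN γ₂ (redMat ℓ (γ₁ : SL(2, ℤ)) • x)
  have hact : redMat ℓ ((γ₁ * γ₂ : Gam N) : SL(2, ℤ)) • x =
      redMat ℓ (γ₂ : SL(2, ℤ)) • redMat ℓ (γ₁ : SL(2, ℤ)) • x := by
    rw [Subgroup.coe_mul, redMat_mul, mul_smul]
  rw [hact] at h12
  have key : mapGL ℝ ((gamT hℓN (γ₁ * γ₂) x : Gam N) : SL(2, ℤ)) =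
      mapGL ℝ ((gamT hℓN γ₁ x * gamT hℓN γ₂ (redMat ℓ (γ₁ : SL(2, ℤ)) • x) : Gam N) :
        SL(2, ℤ)) := by
    apply mul_right_cancel
      (b := hRep ℓ (redMat ℓ (γ₂ : SL(2, ℤ)) • redMat ℓ (γ₁ : SL(2, ℤ)) • x))
    rw [← h12, Subgroup.coe_mul, map_mul, ← mul_assoc, h1, mul_assoc, h2, Subgroup.coe_mul,
      map_mul, mul_assoc]
  exact Subtype.ext (mapGL_injective key)

theorem gamT_one (hℓN : ¬ ℓ ∣ N) (x : OnePoint (ZMod ℓ)) : gamT hℓN (1 : Gam N) x = 1 := by
  have h := gamT_mul hℓN (1 : Gam N) 1 x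
  have h1 : redMat ℓ (((1 : Gam N) : SL(2, ℤ))) • x = x := by
    rw [OneMemClass.coe_one, redMat_one, one_smul]
  rw [h1, mul_one] at h
  exact (mul_eq_left.mp h.symm)

/-- The permutation of `ℙ¹(𝔽_ℓ)` induced by `γ`. -/
noncomputable def permT (ℓ : ℕ) [Fact ℓ.Prime] {N : ℕ} (γ : Gam N) :
    Equiv.Perm (OnePoint (ZMod ℓ)) :=
  MulAction.toPerm (redMat ℓ (γ : SL(2, ℤ)))

theorem permT_apply (γ : Gam N) (x : OnePoint (ZMod ℓ)) :
    permT ℓ γ x = redMat ℓ (γ : SL(2, ℤ)) • x := rfl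

theorem permT_pow_apply (γ : Gam N) (n : ℕ) (x : OnePoint (ZMod ℓ)) :
    (permT ℓ γ ^ n) x = redMat ℓ ((γ ^ n : Gam N) : SL(2, ℤ)) • x := by
  rw [SubmonoidClass.coe_pow, redMat_pow]
  induction n generalizing x with
  | zero => simp
  | succ n ih =>
    rw [pow_succ', Equiv.Perm.mul_apply, ih, permT_apply, ← mul_smul, ← pow_succ']

/-! ### The Hecke operator on characters -/

/-- The Hecke operator `T_ℓ` (`ℓ ∤ N`) on homomorphisms from `Γ₀(N)` to a commutative monoid. -/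
noncomputable def heckeChar (hℓN : ¬ ℓ ∣ N) {M : Type*} [CommMonoid M] (χ : Gam N →* M) :
    Gam N →* M where
  toFun γ := ∏ x : OnePoint (ZMod ℓ), χ (gamT hℓN γ x)
  map_one' := by simp [gamT_one]
  map_mul' γ₁ γ₂ := by
    simp only [gamT_mul, map_mul, Finset.prod_mul_distrib]
    congr 1
    exact Equiv.prod_comp (permT ℓ γ₁) (fun x => χ (gamT hℓN γ₂ x))

theorem heckeChar_apply (hℓN : ¬ ℓ ∣ N) {M : Type*} [CommMonoid M] (χ : Gam N →* M)
    (γ : Gam N) : heckeChar hℓN χ γ = ∏ x : OnePoint (ZMod ℓ), χ (gamT hℓN γ x) := rfl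

theorem heckeChar_comp (hℓN : ¬ ℓ ∣ N) {M M' : Type*} [CommMonoid M] [CommMonoid M']
    (f : M →* M') (χ : Gam N →* M) :
    heckeChar hℓN (f.comp χ) = f.comp (heckeChar hℓN χ) := by
  ext γ
  simp [heckeChar_apply]

theorem heckeChar_mul (hℓN : ¬ ℓ ∣ N) {M : Type*} [CommMonoid M] (χ₁ χ₂ : Gam N →* M) :
    heckeChar hℓN (χ₁ * χ₂) = heckeChar hℓN χ₁ * heckeChar hℓN χ₂ := by
  ext γ
  simp [heckeChar_apply, Finset.prod_mul_distrib]

theorem heckeChar_one (hℓN : ¬ ℓ ∣ N) {M : Type*} [CommMonoid M] :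
    heckeChar hℓN (1 : Gam N →* M) = 1 := by
  ext γ
  simp [heckeChar_apply]

theorem heckeChar_pow (hℓN : ¬ ℓ ∣ N) {M : Type*} [CommMonoid M] (χ : Gam N →* M) (n : ℕ) :
    heckeChar hℓN (χ ^ n) = heckeChar hℓN χ ^ n := by
  ext γ
  simp [heckeChar_apply, Finset.prod_pow]

/-- Products of the cocycle along a `γ`-orbit. -/
theorem map_gamT_pow (hℓN : ¬ ℓ ∣ N) {M : Type*} [CommMonoid M] (χ : Gam N →* M) (γ : Gam N)
    (n : ℕ) (x : OnePoint (ZMod ℓ)) :
    χ (gamT hℓN (γ ^ n) x) = ∏ i ∈ Finset.range n, χ (gamT hℓN γ ((permT ℓ γ ^ i) x)) := by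
  induction n with
  | zero => simp [gamT_one]
  | succ n ih =>
    rw [pow_succ, gamT_mul, map_mul, ih, Finset.prod_range_succ, permT_pow_apply]

/-- The value of `T_ℓ χ` at `γ` is `1` as soon as `χ` kills the elements
`gamT (γ ^ d) x = α_x γ ^ d α_x⁻¹` for the `γ ^ d`-fixed points `x`. -/
theorem heckeChar_apply_eq_one (hℓN : ¬ ℓ ∣ N) {M : Type*} [CommMonoid M] (χ : Gam N →* M)
    (γ : Gam N)
    (h : ∀ (x : OnePoint (ZMod ℓ)) (d : ℕ), 0 < d →
      redMat ℓ ((γ ^ d : Gam N) : SL(2, ℤ)) • x = x → χ (gamT hℓN (γ ^ d) x) = 1) :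
    heckeChar hℓN χ γ = 1 := by
  classical
  rw [heckeChar_apply]
  refine prod_eq_one_of_perm (permT ℓ γ) (fun x => χ (gamT hℓN γ x)) fun x d hd hx => ?_
  rw [← map_gamT_pow]
  exact h x d hd (by rw [← permT_pow_apply]; exact hx)

/-! ### Conjugation by the coset representatives at fixed points -/

theorem mapGL_gamT_of_fixed (hℓN : ¬ ℓ ∣ N) (γ : Gam N) (x : OnePoint (ZMod ℓ))
    (hx : redMat ℓ (γ : SL(2, ℤ)) • x = x) :
    mapGL ℝ ((gamT hℓN γ x : Gam N) : SL(2, ℤ)) =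
      hRep ℓ x * mapGL ℝ (γ : SL(2, ℤ)) * (hRep ℓ x)⁻¹ := by
  have h := gamT_spec hℓN γ x
  rw [hx] at h
  rw [h, mul_inv_cancel_right]

theorem isOfFinOrder_gamT_of_fixed (hℓN : ¬ ℓ ∣ N) (γ : Gam N) (x : OnePoint (ZMod ℓ))
    (hx : redMat ℓ (γ : SL(2, ℤ)) • x = x) (hγ : IsOfFinOrder γ) :
    IsOfFinOrder (gamT hℓN γ x) := by
  obtain ⟨n, hn, hγn⟩ := isOfFinOrder_iff_pow_eq_one.mp hγ
  refine isOfFinOrder_iff_pow_eq_one.mpr ⟨n, hn, ?_⟩
  apply Subtype.ext
  apply mapGL_injective (S := ℝ)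
  rw [SubmonoidClass.coe_pow, map_pow, mapGL_gamT_of_fixed hℓN γ x hx, conj_pow, ← map_pow,
    ← SubmonoidClass.coe_pow, hγn]
  simp

theorem trace_gamT_of_fixed (hℓN : ¬ ℓ ∣ N) (γ : Gam N) (x : OnePoint (ZMod ℓ))
    (hx : redMat ℓ (γ : SL(2, ℤ)) • x = x) :
    (((gamT hℓN γ x : Gam N) : SL(2, ℤ)) : Matrix (Fin 2) (Fin 2) ℤ).trace =
      ((γ : SL(2, ℤ)) : Matrix (Fin 2) (Fin 2) ℤ).trace := by
  have h := congrArg (fun g : GL (Fin 2) ℝ => (g : Matrix (Fin 2) (Fin 2) ℝ).trace)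
    (mapGL_gamT_of_fixed hℓN γ x hx)
  simp only [Matrix.GeneralLinearGroup.coe_mul] at h
  rw [Matrix.trace_units_conj] at h
  have hcast : ∀ g : SL(2, ℤ), ((mapGL ℝ g : GL (Fin 2) ℝ) : Matrix (Fin 2) (Fin 2) ℝ).trace =
      (((g : Matrix (Fin 2) (Fin 2) ℤ).trace : ℤ) : ℝ) := by
    intro g
    simp [Matrix.trace_fin_two]
  rw [hcast, hcast] at h
  exact_mod_cast h

/-- Powers of a parabolic element of `SL(2, ℤ)` are parabolic. -/
theorem trace_pow_sq (g : SL(2, ℤ)) (h : (g : Matrix (Fin 2) (Fin 2) ℤ).trace ^ 2 = 4) (n : ℕ) :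
    ((g ^ n : SL(2, ℤ)) : Matrix (Fin 2) (Fin 2) ℤ).trace ^ 2 = 4 := by
  set t := (g : Matrix (Fin 2) (Fin 2) ℤ).trace with ht
  have hdet : g 0 0 * g 1 1 - g 0 1 * g 1 0 = 1 := by
    have := g.det_coe
    rw [Matrix.det_fin_two] at this
    exact this
  have ht' : t = g 0 0 + g 1 1 := Matrix.trace_fin_two _
  -- Cayley–Hamilton: `tr (g^(n+2)) = t * tr (g^(n+1)) - tr (g^n)`
  have hrec : ∀ n : ℕ, ((g ^ (n + 2) : SL(2, ℤ)) : Matrix (Fin 2) (Fin 2) ℤ).trace =
      t * ((g ^ (n + 1) : SL(2, ℤ)) : Matrix (Fin 2) (Fin 2) ℤ).trace -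
        ((g ^ n : SL(2, ℤ)) : Matrix (Fin 2) (Fin 2) ℤ).trace := by
    intro n
    have e1 : g ^ (n + 2) = g ^ n * (g * g) := by rw [pow_add, pow_two]
    have e2 : g ^ (n + 1) = g ^ n * g := pow_succ g n
    rw [e1, e2]
    simp only [Matrix.SpecialLinearGroup.coe_mul, Matrix.trace_fin_two, Matrix.mul_apply,
      Fin.sum_univ_two, ht']
    linear_combination (-((g ^ n) 0 0 + (g ^ n) 1 1)) * hdet
  -- there is `ε = ±1` with `t = 2 ε`
  obtain ⟨ε, hε, htε⟩ : ∃ ε : ℤ, ε ^ 2 = 1 ∧ t = 2 * ε := by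
    have h4 : (t - 2) * (t + 2) = 0 := by linear_combination h
    rcases mul_eq_zero.mp h4 with h2 | h2
    · exact ⟨1, by norm_num, by linarith⟩
    · exact ⟨-1, by norm_num, by linarith⟩
  have key : ∀ n : ℕ, ((g ^ n : SL(2, ℤ)) : Matrix (Fin 2) (Fin 2) ℤ).trace = 2 * ε ^ n := by
    intro n
    induction n using Nat.twoStepInduction with
    | zero => simp
    | one => simpa using htε
    | more n ih1 ih2 =>
      rw [hrec, ih1, ih2, htε]
      linear_combination (4 * ε ^ n - 2 * ε ^ n) * hε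
  rw [key]
  have : (ε ^ n) ^ 2 = 1 := by rw [← pow_mul, mul_comm, pow_mul, hε, one_pow]
  linear_combination 4 * this

/-- `T_ℓ` preserves the characters killing the parabolic elements (and `±1`). -/
theorem heckeChar_parabolic (hℓN : ¬ ℓ ∣ N) {M : Type*} [CommMonoid M] (χ : Gam N →* M)
    (hχ : ∀ γ : Gam N, ((γ : SL(2, ℤ)) : Matrix (Fin 2) (Fin 2) ℤ).trace ^ 2 = 4 → χ γ = 1)
    (γ : Gam N) (hγ : ((γ : SL(2, ℤ)) : Matrix (Fin 2) (Fin 2) ℤ).trace ^ 2 = 4) :
    heckeChar hℓN χ γ = 1 := by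
  refine heckeChar_apply_eq_one hℓN χ γ fun x d _ hx => hχ _ ?_
  rw [trace_gamT_of_fixed hℓN _ x hx, SubmonoidClass.coe_pow]
  exact trace_pow_sq _ hγ d

/-- `T_ℓ` preserves the characters killing the elements of finite order. -/
theorem heckeChar_finOrder (hℓN : ¬ ℓ ∣ N) {M : Type*} [CommMonoid M] (χ : Gam N →* M)
    (hχ : ∀ γ : Gam N, IsOfFinOrder γ → χ γ = 1) (γ : Gam N) (hγ : IsOfFinOrder γ) :
    heckeChar hℓN χ γ = 1 := by
  refine heckeChar_apply_eq_one hℓN χ γ fun x d _ hx => hχ _ ?_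
  exact isOfFinOrder_gamT_of_fixed hℓN _ x hx hγ.pow

/-! ### The additive twin -/

/-- The Hecke operator `T_ℓ` (`ℓ ∤ N`) on additive characters of `Γ₀(N)` (prelude period
currency `Additive Γ₀(N) →+ A`). -/
noncomputable def heckeHom (hℓN : ¬ ℓ ∣ N) {A : Type*} [AddCommGroup A]
    (ψ : Additive (Gam N) →+ A) : Additive (Gam N) →+ A :=
  MonoidHom.toAdditiveLeft (heckeChar hℓN (AddMonoidHom.toMultiplicativeRight ψ))

theorem heckeHom_apply (hℓN : ¬ ℓ ∣ N) {A : Type*} [AddCommGroup A]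
    (ψ : Additive (Gam N) →+ A) (γ : Gam N) :
    heckeHom hℓN ψ (Additive.ofMul γ) =
      ∑ x : OnePoint (ZMod ℓ), ψ (Additive.ofMul (gamT hℓN γ x)) := by
  show Multiplicative.toAdd (heckeChar hℓN (AddMonoidHom.toMultiplicativeRight ψ) γ) = _
  rw [heckeChar_apply, toAdd_prod]
  rfl

theorem toMultiplicative'_heckeHom (hℓN : ¬ ℓ ∣ N) {A : Type*} [AddCommGroup A]
    (ψ : Additive (Gam N) →+ A) :
    AddMonoidHom.toMultiplicativeRight (heckeHom hℓN ψ) =
      heckeChar hℓN (AddMonoidHom.toMultiplicativeRight ψ) := rfl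

theorem heckeHom_comp (hℓN : ¬ ℓ ∣ N) {A B : Type*} [AddCommGroup A] [AddCommGroup B]
    (f : A →+ B) (ψ : Additive (Gam N) →+ A) :
    heckeHom hℓN (f.comp ψ) = f.comp (heckeHom hℓN ψ) := by
  refine AddMonoidHom.ext fun γ => ?_
  obtain ⟨γ, rfl⟩ := Additive.ofMul.surjective γ
  rw [heckeHom_apply, AddMonoidHom.comp_apply, heckeHom_apply, map_sum]
  rfl

theorem heckeHom_add (hℓN : ¬ ℓ ∣ N) {A : Type*} [AddCommGroup A]
    (ψ₁ ψ₂ : Additive (Gam N) →+ A) :
    heckeHom hℓN (ψ₁ + ψ₂) = heckeHom hℓN ψ₁ + heckeHom hℓN ψ₂ := by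
  refine AddMonoidHom.ext fun γ => ?_
  obtain ⟨γ, rfl⟩ := Additive.ofMul.surjective γ
  rw [AddMonoidHom.add_apply, heckeHom_apply, heckeHom_apply, heckeHom_apply,
    ← Finset.sum_add_distrib]
  rfl

theorem heckeHom_smul (hℓN : ¬ ℓ ∣ N) {R A : Type*} [Semiring R] [AddCommGroup A] [Module R A]
    (c : R) (ψ : Additive (Gam N) →+ A) :
    heckeHom hℓN (c • ψ) = c • heckeHom hℓN ψ := by
  refine AddMonoidHom.ext fun γ => ?_
  obtain ⟨γ, rfl⟩ := Additive.ofMul.surjective γ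
  rw [AddMonoidHom.smul_apply, heckeHom_apply, heckeHom_apply, Finset.smul_sum]
  rfl

/-- `T_ℓ` preserves the parabolic homomorphisms of the prelude. -/
theorem heckeHom_parabolic (hℓN : ¬ ℓ ∣ N) {A : Type*} [AddCommGroup A]
    {ψ : Additive (Gam N) →+ A}
    (hψ : ModularCurve.Period.IsParabolicHom (CongruenceSubgroup.Gamma0 N) ψ) :
    ModularCurve.Period.IsParabolicHom (CongruenceSubgroup.Gamma0 N) (heckeHom hℓN ψ) := by
  intro γ hγ
  have h := heckeChar_parabolic hℓN (AddMonoidHom.toMultiplicativeRight ψ)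
    (fun γ' hγ' => congrArg Multiplicative.ofAdd (hψ γ' hγ')) γ hγ
  exact congrArg Multiplicative.toAdd h

/-- `T_ℓ` preserves the homomorphisms killing the elements of finite order. -/
theorem heckeHom_finOrder (hℓN : ¬ ℓ ∣ N) {A : Type*} [AddCommGroup A]
    {ψ : Additive (Gam N) →+ A}
    (hψ : ∀ γ : Gam N, IsOfFinOrder γ → ψ (Additive.ofMul γ) = 0)
    (γ : Gam N) (hγ : IsOfFinOrder γ) : heckeHom hℓN ψ (Additive.ofMul γ) = 0 := by
  have h := heckeChar_finOrder hℓN (AddMonoidHom.toMultiplicativeRight ψ)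
    (fun γ' hγ' => congrArg Multiplicative.ofAdd (hψ γ' hγ')) γ hγ
  exact congrArg Multiplicative.toAdd h

end Fermat.Agent.S29.Betti
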