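import Mathlib
import Fermat.Agent.S29.Defs
import Fermat.Agent.S29.HeckeChar

/-!
# S29 (wave 5), package (L): the eigenvector in `k₀ ⊗ J₀(N)[p]`

Linear algebra: from the Betti eigenvector `ψ : Γ₀(N) → k₀` (package B) and the Kummer map
`Θ : Hom_pe(Γ₀(N), ZMod p) → J₀(N)` (package K), a nonzero vector of
`k₀ ⊗[ZMod p] J₀(N)[p]` on which every `T_ℓ` (`ℓ ∤ N`) acts by `φ₀ (a_ℓ)`.
-/

set_option autoImplicit false

open scoped TensorProduct MatrixGroups
open ModularCurve AlgebraicCurve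

namespace Fermat.Agent.S29.Eigen

open Fermat.Agent.S22 Fermat.Agent.S29.Betti

/-! ### The submodule of PE characters -/

/-- the `ZMod p`-module of additive characters `Γ₀(N) → ZMod p` killing parabolic and
finite-order elements -/
def peSub (N p : ℕ) : Submodule (ZMod p) (Additive (Gam N) →+ ZMod p) where
  carrier := {ψ | IsPE ψ}
  zero_mem' := fun _ _ => rfl
  add_mem' := by
    intro ψ χ hψ hχ γ hγ
    show ψ (Additive.ofMul γ) + χ (Additive.ofMul γ) = 0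
    rw [hψ γ hγ, hχ γ hγ, add_zero]
  smul_mem' := by
    intro c ψ hψ γ hγ
    show c • ψ (Additive.ofMul γ) = 0
    rw [hψ γ hγ, smul_zero]

theorem mem_peSub {N p : ℕ} {ψ : Additive (Gam N) →+ ZMod p} : ψ ∈ peSub N p ↔ IsPE ψ :=
  Iff.rfl

/-- `T_ℓ` preserves PE characters -/
theorem isPE_heckeHom {N ℓ : ℕ} [Fact ℓ.Prime] (hℓN : ¬ ℓ ∣ N) {A : Type*} [AddCommGroup A]
    {ψ : Additive (Gam N) →+ A} (hψ : IsPE ψ) : IsPE (heckeHom hℓN ψ) := by
  intro γ hγ
  rcases hγ with hγ | hγ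
  · exact heckeHom_parabolic hℓN (fun γ' hγ' => hψ γ' (Or.inl hγ')) γ hγ
  · exact heckeHom_finOrder hℓN (fun γ' hγ' => hψ γ' (Or.inr hγ')) γ hγ

/-- `T_ℓ` on the PE characters mod `p` -/
noncomputable def heckePE {N ℓ : ℕ} [Fact ℓ.Prime] (hℓN : ¬ ℓ ∣ N) (p : ℕ) :
    peSub N p →ₗ[ZMod p] peSub N p where
  toFun χ := ⟨heckeHom hℓN (χ : Additive (Gam N) →+ ZMod p), isPE_heckeHom hℓN χ.2⟩
  map_add' _ _ := Subtype.ext (heckeHom_add hℓN _ _)
  map_smul' c _ := Subtype.ext (heckeHom_smul hℓN c _)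

theorem heckePE_apply {N ℓ : ℕ} [Fact ℓ.Prime] (hℓN : ¬ ℓ ∣ N) (p : ℕ) (χ : peSub N p)
    (γ : Gam N) :
    ((heckePE hℓN p χ : peSub N p) : Additive (Gam N) →+ ZMod p) (Additive.ofMul γ) =
      ∑ x : OnePoint (ZMod ℓ),
        (χ : Additive (Gam N) →+ ZMod p) (Additive.ofMul (gamT hℓN γ x)) :=
  heckeHom_apply hℓN _ γ

/-! ### The comparison map `k ⊗ Hom_pe(Γ, ZMod p) → (Γ → k)` -/

section cmp

variable (N p : ℕ) (k : Type*) [Field k] [Algebra (ZMod p) k]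

/-- evaluation of a PE character, with values pushed to `k` -/
noncomputable def evalPE : peSub N p →ₗ[ZMod p] (Gam N → k) where
  toFun χ γ := algebraMap (ZMod p) k ((χ : Additive (Gam N) →+ ZMod p) (Additive.ofMul γ))
  map_add' χ₁ χ₂ := by
    funext γ
    simp
  map_smul' c χ := by
    funext γ
    simp [Algebra.smul_def]

/-- the comparison map `k ⊗[ZMod p] Hom_pe(Γ₀(N), ZMod p) → (Γ₀(N) → k)`,
`a ⊗ χ ↦ (γ ↦ a * χ γ)` -/
noncomputable def cmp : k ⊗[ZMod p] peSub N p →ₗ[k] (Gam N → k) :=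
  LinearMap.liftBaseChange k (evalPE N p k)

theorem cmp_tmul (a : k) (χ : peSub N p) (γ : Gam N) :
    cmp N p k (a ⊗ₜ[ZMod p] χ) γ =
      a * algebraMap (ZMod p) k ((χ : Additive (Gam N) →+ ZMod p) (Additive.ofMul γ)) := by
  simp [cmp, evalPE]

variable {N p k}

/-- the key identity: the coordinates of `t` in a basis of `k` are the coordinates of its
values -/
theorem coord_eq {ι : Type*} [DecidableEq ι] (b : Module.Basis ι (ZMod p) k) (t : k ⊗[ZMod p] peSub N p) (i : ι)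
    (γ : Gam N) :
    ((TensorProduct.equivFinsuppOfBasisLeft b t i : peSub N p) :
        Additive (Gam N) →+ ZMod p) (Additive.ofMul γ) = b.repr (cmp N p k t γ) i := by
  induction t using TensorProduct.induction_on with
  | zero => simp
  | tmul a χ =>
    rw [TensorProduct.equivFinsuppOfBasisLeft_apply_tmul_apply, cmp_tmul]
    rw [mul_comm, ← Algebra.smul_def, map_smul]
    simp [mul_comm]
  | add t₁ t₂ h₁ h₂ =>
    simp only [map_add, Finsupp.add_apply, Pi.add_apply] at h₁ h₂ ⊢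
    rw [← h₁, ← h₂]
    rfl

theorem cmp_injective [Fact p.Prime] : Function.Injective (cmp N p k) := by
  classical
  rw [injective_iff_map_eq_zero]
  intro t ht
  have b := Module.Basis.ofVectorSpace (ZMod p) k
  apply (TensorProduct.equivFinsuppOfBasisLeft b).injective
  rw [map_zero]
  refine Finsupp.ext fun i => Subtype.ext (AddMonoidHom.ext fun γ => ?_)
  obtain ⟨γ, rfl⟩ := Additive.ofMul.surjective γ
  rw [coord_eq b t i γ, ht]
  simp

end cmp

/-! ### Compatibility of `cmp` with the Hecke operator -/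

theorem cmp_heckePE {N ℓ : ℕ} [Fact ℓ.Prime] (hℓN : ¬ ℓ ∣ N) (p : ℕ) (k : Type*) [Field k]
    [Algebra (ZMod p) k] (t : k ⊗[ZMod p] peSub N p) (γ : Gam N) :
    cmp N p k ((heckePE hℓN p).baseChange k t) γ =
      ∑ x : OnePoint (ZMod ℓ), cmp N p k t (gamT hℓN γ x) := by
  induction t using TensorProduct.induction_on with
  | zero => simp
  | tmul a χ =>
    rw [LinearMap.baseChange_tmul, cmp_tmul, heckePE_apply, map_sum, Finset.mul_sum]
    simp_rw [cmp_tmul]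
  | add t₁ t₂ h₁ h₂ =>
    simp only [map_add, Pi.add_apply, h₁, h₂, Finset.sum_add_distrib]

/-! ### Every PE character with values in `k` comes from the tensor product -/

theorem exists_cmp_eq {N : ℕ} [NeZero N] {p : ℕ} [Fact p.Prime] {k : Type*} [Field k]
    [Algebra (ZMod p) k] (ψ : Additive (Gam N) →+ k) (hψ : IsPE ψ) :
    ∃ w : k ⊗[ZMod p] peSub N p, ∀ γ : Gam N, cmp N p k w γ = ψ (Additive.ofMul γ) := by
  classical
  obtain ⟨S, hS⟩ := exists_finset_closure N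
  let b := Module.Basis.ofVectorSpace (ZMod p) k
  -- the coordinates of `ψ`
  let ψi : Module.Basis.ofVectorSpaceIndex (ZMod p) k → peSub N p := fun i =>
    ⟨((b.coord i : k →ₗ[ZMod p] ZMod p) : k →+ ZMod p).comp ψ, fun γ hγ => by
      show b.coord i (ψ (Additive.ofMul γ)) = 0
      rw [hψ γ hγ, map_zero]⟩
  have hψi : ∀ i (γ : Gam N), ((ψi i : peSub N p) : Additive (Gam N) →+ ZMod p)
      (Additive.ofMul γ) = b.repr (ψ (Additive.ofMul γ)) i := fun i γ => rfl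
  let I : Finset (Module.Basis.ofVectorSpaceIndex (ZMod p) k) :=
    S.biUnion fun γ => (b.repr (ψ (Additive.ofMul γ))).support
  have hI : ∀ i, ψi i ≠ 0 → i ∈ I := by
    intro i hi
    by_contra hiI
    apply hi
    have hK : ∀ γ : Gam N, b.repr (ψ (Additive.ofMul γ)) i = 0 := by
      intro γ
      have hmem : γ ∈ Subgroup.closure (S : Set (Gam N)) := by rw [hS]; trivial
      induction hmem using Subgroup.closure_induction with
      | mem x hx =>
        by_contra h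
        exact hiI (Finset.mem_biUnion.mpr ⟨x, hx, Finsupp.mem_support_iff.mpr h⟩)
      | one => simp
      | mul x y _ _ hx hy => simp [ofMul_mul, hx, hy]
      | inv x _ hx => simp [ofMul_inv, hx]
    refine Subtype.ext (AddMonoidHom.ext fun γ => ?_)
    obtain ⟨γ, rfl⟩ := Additive.ofMul.surjective γ
    exact hK γ
  refine ⟨(TensorProduct.equivFinsuppOfBasisLeft b).symm (Finsupp.onFinset I ψi hI),
    fun γ => ?_⟩
  apply b.repr.injective
  refine Finsupp.ext fun i => ?_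
  rw [← coord_eq b _ i γ, LinearEquiv.apply_symm_apply]
  rfl

/-! ### The eigenvector -/

/-- **(L)**: packages (B) and (K) give the eigenvector in `k₀ ⊗ J₀(N)[p]`. -/
theorem exists_eigenvector_of (N : ℕ) [NeZero N]
    {g : CuspForm (CongruenceSubgroup.Gamma0 N) 2}
    (p : ℕ) [Fact p.Prime] {k₀ : Type} [Field k₀] [Algebra (ZMod p) k₀]
    (φ₀ : integralClosure ℤ ℂ →+* k₀)
    (hB : ∃ ψ : Additive (S22.Gam N) →+ k₀, ψ ≠ 0 ∧ IsPE ψ ∧
      ∀ (ℓ : ℕ) [Fact ℓ.Prime] (hℓN : ¬ ℓ ∣ N),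
        ∃ a : integralClosure ℤ ℂ, (a : ℂ) = ModularFormClass.qCoeff g ℓ ∧
          ∀ γ : S22.Gam N, ∑ x : OnePoint (ZMod ℓ), ψ (Additive.ofMul (S22.gamT hℓN γ x))
            = φ₀ a * ψ (Additive.ofMul γ))
    (hK : ∃ Θ : peHoms N (ZMod p) →+ JZero N, Function.Injective Θ ∧
      ∀ (ℓ : ℕ) [Fact ℓ.Prime] (hℓN : ¬ ℓ ∣ N) (χ χ' : peHoms N (ZMod p)),
        (∀ γ : S22.Gam N, (χ' : Additive (S22.Gam N) →+ ZMod p) (Additive.ofMul γ) =
          ∑ x : OnePoint (ZMod ℓ),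
            (χ : Additive (S22.Gam N) →+ ZMod p) (Additive.ofMul (S22.gamT hℓN γ x))) →
        Θ χ' = heckeOperatorBar N ⟨ℓ, Fact.out⟩ (Θ χ)) :
    ∃ v : k₀ ⊗[ZMod p] Jtors N p, v ≠ 0 ∧ ∀ (ℓ : ℕ) (hℓ : ℓ.Prime), ¬ ℓ ∣ N →
      ∃ a : integralClosure ℤ ℂ, (a : ℂ) = ModularFormClass.qCoeff g ℓ ∧
        (heckeTors N p ⟨ℓ, hℓ⟩).baseChange k₀ v = φ₀ a • v := by
  obtain ⟨ψ, hψ0, hψpe, hψ⟩ := hB
  obtain ⟨Θ, hΘinj, hΘ⟩ := hK
  -- `Θ` as a linear map into the `p`-torsion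
  let toPE : peSub N p → peHoms N (ZMod p) := fun χ => ⟨χ, χ.2⟩
  have htors : ∀ χ : peSub N p, Θ (toPE χ) ∈
      Pic0.torsion (AlgebraicClosure ℚ) (modularFunctionFieldBar N) p := by
    intro χ
    rw [Pic0.mem_torsion, ← map_zsmul]
    have h0 : ((p : ℕ) : ℤ) • toPE χ = 0 := by
      refine Subtype.ext (AddMonoidHom.ext fun γ => ?_)
      show ((p : ℕ) : ℤ) • (χ : Additive (Gam N) →+ ZMod p) γ = 0
      rw [zsmul_eq_mul]
      simp
    rw [h0, map_zero]
  let Θ₀ : peSub N p →+ Jtors N p :=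
    { toFun := fun χ => ⟨Θ (toPE χ), htors χ⟩
      map_zero' := Subtype.ext (map_zero Θ)
      map_add' := fun χ₁ χ₂ => Subtype.ext (map_add Θ (toPE χ₁) (toPE χ₂)) }
  let Θ' : peSub N p →ₗ[ZMod p] Jtors N p := AddMonoidHom.toZModLinearMap p Θ₀
  have hΘ'coe : ∀ χ : peSub N p, ((Θ' χ : Jtors N p) : JZero N) = Θ (toPE χ) := fun χ => rfl
  have hΘ'inj : Function.Injective Θ' := by
    intro χ₁ χ₂ h
    have h' : Θ (toPE χ₁) = Θ (toPE χ₂) := by rw [← hΘ'coe, ← hΘ'coe, h]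
    have h'' := hΘinj h'
    exact Subtype.ext (congrArg (fun x : peHoms N (ZMod p) =>
      (x : Additive (Gam N) →+ ZMod p)) h'')
  have hbcinj : Function.Injective (Θ'.baseChange k₀) := by
    rw [LinearMap.baseChange_eq_ltensor]
    exact Module.Flat.lTensor_preserves_injective_linearMap Θ' hΘ'inj
  -- the preimage of `ψ`
  obtain ⟨w, hw⟩ := exists_cmp_eq (p := p) ψ hψpe
  have hw0 : w ≠ 0 := by
    rintro rfl
    apply hψ0
    refine AddMonoidHom.ext fun γ => ?_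
    obtain ⟨γ, rfl⟩ := Additive.ofMul.surjective γ
    rw [← hw γ]
    simp
  refine ⟨Θ'.baseChange k₀ w, fun h => hw0 (hbcinj (h.trans (map_zero _).symm)), ?_⟩
  intro ℓ hℓ hℓN
  have : Fact ℓ.Prime := ⟨hℓ⟩
  obtain ⟨a, ha, haψ⟩ := hψ ℓ hℓN
  refine ⟨a, ha, ?_⟩
  -- the Hecke operator on `w`
  have hHw : (heckePE hℓN p).baseChange k₀ w = φ₀ a • w := by
    apply cmp_injective
    funext γ
    rw [cmp_heckePE, map_smul, Pi.smul_apply, hw, smul_eq_mul, ← haψ]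
    exact Finset.sum_congr rfl fun x _ => hw _
  -- intertwining
  have hcomm : heckeTors N p ⟨ℓ, hℓ⟩ ∘ₗ Θ' = Θ' ∘ₗ heckePE hℓN p := by
    refine LinearMap.ext fun χ => Subtype.ext ?_
    have h1 : (((heckeTors N p ⟨ℓ, hℓ⟩ ∘ₗ Θ') χ : Jtors N p) : JZero N) =
        heckeOperatorBar N ⟨ℓ, hℓ⟩ (Θ (toPE χ)) := rfl
    have h2 : (((Θ' ∘ₗ heckePE hℓN p) χ : Jtors N p) : JZero N) =
        Θ (toPE (heckePE hℓN p χ)) := rfl
    rw [h1, h2]
    exact (hΘ ℓ hℓN (toPE χ) (toPE (heckePE hℓN p χ)) (fun γ => heckePE_apply hℓN p χ γ)).symm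
  rw [← LinearMap.comp_apply, ← LinearMap.baseChange_comp, hcomm, LinearMap.baseChange_comp,
    LinearMap.comp_apply, hHw, map_smul]

end Fermat.Agent.S29.Eigen
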