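import Mathlib
import Fermat.Agent.S37.Final
import Fermat.Agent.S37.KA
import Fermat.Agent.S37.KBAll
import Fermat.Agent.S37.WTopC
import Fermat.Agent.S18.KummerFinal

/-!
# Eichler–Shimura and unramifiedness on the prime-to-`ℓ` torsion of `J₀(N)(ℚ̄)`

The divisor-level inputs of S37 (inertia input, Hecke input, statement (W) and the Kummer core
of S18) give, WITHOUT the commutativity hypotheses of the statement S37:

* `inertia_smul_eq`: the inertia group at a place `A` over `ℓ ∤ N` fixes every class of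
  `J₀(N)(ℚ̄)` killed by an integer prime to `ℓ`;
* `frobenius_quadratic`: every Frobenius lift `s` at `A` satisfies
  `s² x - T_ℓ (s x) + ℓ x = 0` on such classes.
-/

set_option autoImplicit false

noncomputable section

namespace Fermat.Agent.S29.GalES

open ModularCurve AlgebraicCurve
open Fermat.Agent.S37 Fermat.Agent.S37.Centre Fermat.Agent.S37.DivisorForm

local notation "Qb" => AlgebraicClosure ℚ

/-- A class of `classesOf R` killed by `m` is zero, if the divisors of `R` with a principal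
`m`-multiple are principal. -/
theorem eq_zero_of_mem_classesOf_of_smul {K F : Type*} [Field K] [Field F] [Algebra K F]
    (R : AddSubgroup (Divisor K F)) (m : ℕ)
    (hc : ∀ D : Divisor K F, D ∈ R →
      m • D ∈ Divisor.principal (K := K) (F := F) → D ∈ Divisor.principal (K := K) (F := F))
    {x : Pic0 K F} (hx : x ∈ classesOf R) (hmx : m • x = 0) : x = 0 := by
  obtain ⟨D, hD, rfl⟩ := hx
  have h1 : Pic0.mk (m • D) = 0 := hmx
  have h2 : (m • D : Divisor.degZero (K := K) (F := F)) ∈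
      (Divisor.principal (K := K) (F := F)).addSubgroupOf (Divisor.degZero (K := K) (F := F)) :=
    (QuotientAddGroup.eq_zero_iff _).mp h1
  rw [AddSubgroup.mem_addSubgroupOf, AddSubgroupClass.coe_nsmul] at h2
  have h3 := hc (D : Divisor K F) hD h2
  exact (QuotientAddGroup.eq_zero_iff _).mpr (AddSubgroup.mem_addSubgroupOf.mpr h3)

variable (N : ℕ) [NeZero N]

/-- Divisors in the centre subgroup with a principal multiple prime to `ℓ` are principal. -/
theorem principal_of_smul_centre {ℓ : ℕ} (hℓ : ℓ.Prime) (hℓN : ¬ ℓ ∣ N)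
    (A : ValuationSubring Qb) (hA : A.LiesOverPrime ℓ) {m : ℕ} (hm : ¬ ℓ ∣ m)
    (D : Divisor Qb (modularFunctionFieldBar N)) (hD : D ∈ centreSubgroup A N)
    (hpr : m • D ∈ Divisor.principal (K := Qb) (F := modularFunctionFieldBar N)) :
    D ∈ Divisor.principal (K := Qb) (F := modularFunctionFieldBar N) :=
  TorsionFree.principal_of_smul (WTopC.constReduction N hℓ hℓN A hA)
    (Fermat.Agent.S18.KummerFinal.kummerCore N hℓ hℓN A hA) m hm D hD hpr

/-- **Unramifiedness.**  For `ℓ ∤ N` and a place `A` of `ℚ̄` over `ℓ`, the inertia group of `A`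
fixes every class of `J₀(N)(ℚ̄)` killed by an integer prime to `ℓ`. -/
theorem inertia_smul_eq {ℓ : ℕ} (hℓ : ℓ.Prime) (hℓN : ¬ ℓ ∣ N)
    (A : ValuationSubring Qb) (hA : A.LiesOverPrime ℓ)
    {σ : Qb ≃ₐ[ℚ] Qb} (hσ : σ ∈ A.inertiaSubgroupIn ℚ)
    {m : ℕ} (hm : ¬ ℓ ∣ m) {x : JZero N} (hx : m • x = 0) : σ • x = x := by
  have h1 : σ • x - x ∈ classesOf (centreSubgroup A N) := by
    rw [galois_smul_pic0_def]
    exact smul_sub_mem_classesOf (centreSubgroup A N) _
      (KA.inertiaInput N hℓ hℓN A hA σ hσ) x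
  have h2 : m • (σ • x - x) = 0 := by
    have e : m • (σ • x) = σ • (m • x) :=
      ((DistribSMul.toAddMonoidHom (JZero N) σ).map_nsmul m x).symm
    have z : σ • (0 : JZero N) = 0 := (DistribSMul.toAddMonoidHom (JZero N) σ).map_zero
    rw [nsmul_sub, e, hx, z, sub_zero]
  have h3 := eq_zero_of_mem_classesOf_of_smul (centreSubgroup A N) m
    (fun D hD hpr => principal_of_smul_centre N hℓ hℓN A hA hm D hD hpr) h1 h2
  exact sub_eq_zero.mp h3

/-- **Eichler–Shimura**, `heckeOperatorAlong` form.  For `ℓ ∤ N`, a place `A` of `ℚ̄` over `ℓ`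
and ANY Frobenius lift `s` at `A`: `s² x - T_ℓ (s x) + ℓ x = 0` for every class `x` of
`J₀(N)(ℚ̄)` killed by an integer prime to `ℓ`. -/
theorem frobenius_quadratic_along {ℓ : ℕ} [NeZero ℓ] (hℓ : ℓ.Prime) (hℓN : ¬ ℓ ∣ N)
    (A : ValuationSubring Qb) (hA : A.LiesOverPrime ℓ)
    {s : Qb ≃ₐ[ℚ] Qb} (hs : A.IsFrobeniusAt s ℓ)
    {m : ℕ} (hm : ¬ ℓ ∣ m) {x : JZero N} (hx : m • x = 0) :
    s • s • x - heckeOperatorAlong Qb N ℓ (s • x) + ℓ • x = 0 := by
  have hIn : HeckeInputsAlong Qb N ℓ := Fermat.Agent.S37.HeckeInputs.heckeInputsAlong N ℓ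
  have hPD := hIn.snd.snd.fst
  have h1 : s • s • x - heckeOperatorAlong Qb N ℓ (s • x) + ℓ • x
      ∈ classesOf (centreSubgroup A N) := by
    rw [galois_smul_pic0_def, galois_smul_pic0_def]
    exact quad_mem_classesOf (centreSubgroup A N)
      (arithmeticGalois (modularFunctionFieldFull N) s) ℓ
      (heckeOperatorAlong Qb N ℓ) (heckeDivBar hIn.fst hIn.snd.fst)
      (fun D => heckeOperatorAlong_mk N ℓ hIn D)
      (KB.heckeInput_all N ℓ hℓ hℓN A hA s hs hIn.fst hIn.snd.fst hIn.snd.snd.fst) x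
  have hcomm : ∀ (g : Qb ≃ₐ[ℚ] Qb) (y : JZero N), m • (g • y) = g • (m • y) := fun g y =>
    ((DistribSMul.toAddMonoidHom (JZero N) g).map_nsmul m y).symm
  have h2 : m • (s • s • x - heckeOperatorAlong Qb N ℓ (s • x) + ℓ • x) = 0 := by
    have z : s • (0 : JZero N) = 0 := (DistribSMul.toAddMonoidHom (JZero N) s).map_zero
    rw [nsmul_add, nsmul_sub, hcomm, hcomm, ← map_nsmul, hcomm, smul_comm m ℓ x, hx,
      z, z, map_zero, sub_zero, smul_zero, zero_add]
  exact eq_zero_of_mem_classesOf_of_smul (centreSubgroup A N) m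
    (fun D hD hpr => principal_of_smul_centre N hℓ hℓN A hA hm D hD hpr) h1 h2

/-- **Eichler–Shimura**, `heckeOperatorBar` form. -/
theorem frobenius_quadratic {ℓ : ℕ} (hℓ : ℓ.Prime) (hℓN : ¬ ℓ ∣ N)
    (A : ValuationSubring Qb) (hA : A.LiesOverPrime ℓ)
    {s : Qb ≃ₐ[ℚ] Qb} (hs : A.IsFrobeniusAt s ℓ)
    {m : ℕ} (hm : ¬ ℓ ∣ m) {x : JZero N} (hx : m • x = 0) :
    s • s • x - heckeOperatorBar N ⟨ℓ, hℓ⟩ (s • x) + ℓ • x = 0 := by
  haveI : NeZero ℓ := ⟨hℓ.ne_zero⟩
  rw [heckeOperatorBar_apply N ⟨ℓ, hℓ⟩ (s • x)]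
  exact frobenius_quadratic_along N hℓ hℓN A hA hs hm hx

/-- Every Frobenius lift is invertible on the prime-to-`ℓ` torsion with
`T_ℓ x = s x + ℓ s⁻¹ x`. -/
theorem hecke_eq_frobenius_add {ℓ : ℕ} (hℓ : ℓ.Prime) (hℓN : ¬ ℓ ∣ N)
    (A : ValuationSubring Qb) (hA : A.LiesOverPrime ℓ)
    {s : Qb ≃ₐ[ℚ] Qb} (hs : A.IsFrobeniusAt s ℓ)
    {m : ℕ} (hm : ¬ ℓ ∣ m) {x : JZero N} (hx : m • x = 0) :
    heckeOperatorBar N ⟨ℓ, hℓ⟩ x = s • x + ℓ • (s⁻¹ • x) := by
  have hy : m • (s⁻¹ • x) = 0 := by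
    have z : s⁻¹ • (0 : JZero N) = 0 := (DistribSMul.toAddMonoidHom (JZero N) s⁻¹).map_zero
    have e : m • (s⁻¹ • x) = s⁻¹ • (m • x) :=
      ((DistribSMul.toAddMonoidHom (JZero N) s⁻¹).map_nsmul m x).symm
    rw [e, hx, z]
  have h := frobenius_quadratic N hℓ hℓN A hA hs hm hy
  rw [smul_inv_smul, sub_add_eq_add_sub, sub_eq_zero] at h
  exact h.symm

end Fermat.Agent.S29.GalES
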