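import Mathlib
import Fermat.Prelude.Def_AlgebraicCurve_Correspondence

/-!
# Equivariance of the prelude correspondence under semilinear automorphisms

Let `F ⊆ F'` be function fields over `K` and let `g`, `g'` be semilinear automorphisms of
`F`, `F'` which are compatible with the inclusion.  Then restriction of places, ramification
indices, inertia degrees, pullback and pushforward of divisors and the correspondence
`ψ_* ∘ φ^*` on divisors and on `Pic⁰` commute with the actions of `g` and `g'`.
-/

set_option autoImplicit false

noncomputable section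

namespace Fermat.Agent.S29.CorrEquiv

open AlgebraicCurve IsLocalRing
open scoped Pointwise

section Generic

variable {K F F' : Type*} [Field K] [Field F] [Field F']
  [Algebra K F] [Algebra K F'] [Algebra F F'] [IsScalarTower K F F']
  [Algebra.IsIntegral F F']

/-- Compatibility of two semilinear automorphisms with `algebraMap F F'`. -/
def Compat (g : SemilinearAut K F) (g' : SemilinearAut K F') : Prop :=
  ∀ x : F, algebraMap F F' (g • x) = g' • algebraMap F F' x

theorem Compat.inv {g : SemilinearAut K F} {g' : SemilinearAut K F'} (h : Compat g g') :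
    Compat g⁻¹ g'⁻¹ := by
  intro x
  have h1 := h (g⁻¹ • x)
  rw [smul_inv_smul] at h1
  rw [h1, inv_smul_smul]

variable {g : SemilinearAut K F} {g' : SemilinearAut K F'}

/-- membership in `g • A` -/
theorem mem_smul_iff (g : SemilinearAut K F) (A : ValuationSubring F) (x : F) :
    x ∈ (g • A : ValuationSubring F) ↔ g⁻¹ • x ∈ A :=
  ValuationSubring.mem_pointwise_smul_iff_inv_smul_mem

/-- **Restriction of places is equivariant.** -/
theorem restrict_smul (h : Compat g g') (w : Place K F') :
    (g' • w).restrict F = g • (w.restrict F) := by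
  apply Place.ext
  ext x
  rw [Place.restrict_toValuationSubring, ValuationSubring.mem_comap,
    SemilinearAut.smul_toValuationSubring, SemilinearAut.smul_toValuationSubring,
    mem_smul_iff, mem_smul_iff, Place.restrict_toValuationSubring, ValuationSubring.mem_comap,
    h.inv x]

/-- the order of `algebraMap f` at `g' • w` -/
theorem ord_smul_algebraMap (h : Compat g g') (w : Place K F') (f : F) :
    (g' • w).ord (algebraMap F F' f) = w.ord (algebraMap F F' (g⁻¹ • f)) := by
  have h1 := SemilinearAut.ord_smul g' w (algebraMap F F' (g⁻¹ • f))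
  rw [← h (g⁻¹ • f), smul_inv_smul] at h1
  exact h1

/-- **Ramification indices are equivariant.** -/
theorem ramificationIndex_smul (h : Compat g g') (w : Place K F') :
    (g' • w).ramificationIndex F = w.ramificationIndex F := by
  unfold Place.ramificationIndex
  congr 1
  ext n
  simp only [Set.mem_ofPred_eq]
  constructor
  · rintro ⟨hn, f, hf, hfn⟩
    refine ⟨hn, g⁻¹ • f, ?_, ?_⟩
    · simpa using hf
    · rw [← ord_smul_algebraMap h w f]
      exact hfn
  · rintro ⟨hn, f, hf, hfn⟩
    refine ⟨hn, g • f, ?_, ?_⟩
    · simpa using hf
    · rw [ord_smul_algebraMap h w (g • f), inv_smul_smul]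
      exact hfn

/-- The ring isomorphism between the valuation rings of `w.restrict F` and
`(g' • w).restrict F` induced by `g`. -/
def restrictEquiv (h : Compat g g') (w : Place K F') :
    (w.restrict F).toValuationSubring ≃+* ((g' • w).restrict F).toValuationSubring where
  toFun x := ⟨g • (x : F), by
    have hx : algebraMap F F' (x : F) ∈ w.toValuationSubring := x.2
    show algebraMap F F' (g • (x : F)) ∈ (g' • w).toValuationSubring
    rw [h (x : F)]
    exact ValuationSubring.smul_mem_pointwise_smul g' _ _ hx⟩
  invFun y := ⟨g⁻¹ • (y : F), by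
    have hy : algebraMap F F' (y : F) ∈ (g' • w).toValuationSubring := y.2
    show algebraMap F F' (g⁻¹ • (y : F)) ∈ w.toValuationSubring
    rw [h.inv (y : F)]
    exact (mem_smul_iff g' _ _).mp hy⟩
  left_inv x := Subtype.ext (inv_smul_smul g (x : F))
  right_inv y := Subtype.ext (smul_inv_smul g (y : F))
  map_mul' x y := Subtype.ext (map_mul (SemilinearAut.toRingAut g) (x : F) (y : F))
  map_add' x y := Subtype.ext (map_add (SemilinearAut.toRingAut g) (x : F) (y : F))

@[simp]
theorem coe_restrictEquiv (h : Compat g g') (w : Place K F')
    (x : (w.restrict F).toValuationSubring) :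
    ((restrictEquiv h w x : ((g' • w).restrict F).toValuationSubring) : F) = g • (x : F) :=
  rfl

/-- **Inertia degrees are equivariant.** -/
theorem inertiaDeg_smul (h : Compat g g') (w : Place K F') :
    (g' • w).inertiaDeg F = w.inertiaDeg F := by
  unfold Place.inertiaDeg
  refine (Algebra.finrank_eq_of_equiv_equiv
    (IsLocalRing.ResidueField.mapEquiv (restrictEquiv h w))
    (SemilinearAut.smulResidueRingEquiv g' w) ?_).symm
  ext a
  obtain ⟨x, rfl⟩ := IsLocalRing.residue_surjective a
  show Place.restrictResidueMap F (g' • w)
      (IsLocalRing.ResidueField.mapEquiv (restrictEquiv h w) (IsLocalRing.residue _ x))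
    = IsLocalRing.ResidueField.mapEquiv
        (SemilinearAut.smulValuationSubringEquiv g' w.toValuationSubring)
        (Place.restrictResidueMap F w (IsLocalRing.residue _ x))
  rw [IsLocalRing.ResidueField.mapEquiv_apply, IsLocalRing.ResidueField.map_residue,
    Place.restrictResidueMap_residue, Place.restrictResidueMap_residue,
    IsLocalRing.ResidueField.mapEquiv_apply, IsLocalRing.ResidueField.map_residue]
  refine congrArg _ (Subtype.ext ?_)
  exact h (x : F)

/-- **Pushforward of divisors is equivariant.** -/
theorem pushforward_smul (h : Compat g g') (D : Divisor K F') :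
    Divisor.pushforward F (g' • D) = g • Divisor.pushforward F D := by
  induction D using Finsupp.induction_linear with
  | zero => rw [smul_zero, map_zero, smul_zero]
  | add D E hD hE => rw [smul_add, map_add, map_add, smul_add, hD, hE]
  | single w n =>
    rw [SemilinearAut.smul_single, Divisor.pushforward_single, Divisor.pushforward_single,
      SemilinearAut.smul_single, restrict_smul h, inertiaDeg_smul h]

variable [HasPrincipalDivisors K F']

/-- **Pullback of divisors is equivariant.** -/
theorem pullback_smul (h : Compat g g') (D : Divisor K F) :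
    Divisor.pullback F' (g • D) = g' • Divisor.pullback F' D := by
  ext w
  rw [Divisor.pullback_apply, SemilinearAut.divisor_smul_apply,
    SemilinearAut.divisor_smul_apply, Divisor.pullback_apply, restrict_smul h.inv,
    ramificationIndex_smul h.inv]

end Generic

section Along

variable {K F F' : Type*} [Field K] [Field F] [Field F'] [Algebra K F] [Algebra K F']

/-- Compatibility of two semilinear automorphisms with a `K`-algebra homomorphism. -/
def CompatAlong (φ : F →ₐ[K] F') (g : SemilinearAut K F) (g' : SemilinearAut K F') : Prop :=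
  ∀ x : F, φ (g • x) = g' • φ x

variable {g : SemilinearAut K F} {g' : SemilinearAut K F'}

theorem pushforwardAlong_smul (ψ : F →ₐ[K] F') (hψ : ψ.toRingHom.IsIntegral)
    (h : CompatAlong ψ g g') (D : Divisor K F') :
    Divisor.pushforwardAlong ψ hψ (g' • D) = g • Divisor.pushforwardAlong ψ hψ D := by
  letI := algebraAlong ψ
  haveI := isScalarTower_along ψ
  haveI := isIntegral_along ψ hψ
  exact pushforward_smul (F := F) (F' := F') (g := g) (g' := g') h D

variable [HasPrincipalDivisors K F']

theorem pullbackAlong_smul (φ : F →ₐ[K] F') (hφ : φ.toRingHom.IsIntegral)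
    (h : CompatAlong φ g g') (D : Divisor K F) :
    Divisor.pullbackAlong φ hφ (g • D) = g' • Divisor.pullbackAlong φ hφ D := by
  letI := algebraAlong φ
  haveI := isScalarTower_along φ
  haveI := isIntegral_along φ hφ
  exact pullback_smul (F := F) (F' := F') (g := g) (g' := g') h D

/-- **The divisor correspondence `ψ_* ∘ φ^*` is equivariant.** -/
theorem correspondence_smul (φ ψ : F →ₐ[K] F') (hφ : φ.toRingHom.IsIntegral)
    (hψ : ψ.toRingHom.IsIntegral) (h₁ : CompatAlong φ g g') (h₂ : CompatAlong ψ g g')
    (D : Divisor K F) :
    Divisor.correspondence φ ψ hφ hψ (g • D) = g • Divisor.correspondence φ ψ hφ hψ D := by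
  rw [Divisor.correspondence_apply, Divisor.correspondence_apply, pullbackAlong_smul φ hφ h₁,
    pushforwardAlong_smul ψ hψ h₂]

/-- **The correspondence on `Pic⁰` is equivariant.** -/
theorem pic0_correspondence_smul (φ ψ : F →ₐ[K] F') (hφ : φ.toRingHom.IsIntegral)
    (hψ : ψ.toRingHom.IsIntegral) (hFI : FundamentalIdentityAlong K φ hφ)
    (hfin : FiniteAlong K ψ) (hN : NormFormulaAlong K ψ hfin)
    (h₁ : CompatAlong φ g g') (h₂ : CompatAlong ψ g g') (x : Pic0 K F) :
    Pic0.correspondence φ ψ hφ hψ hFI hfin hN (g • x)
      = g • Pic0.correspondence φ ψ hφ hψ hFI hfin hN x := by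
  obtain ⟨D, rfl⟩ := Pic0.mk_surjective x
  rw [SemilinearAut.pic0_smul_mk, Pic0.correspondence_mk, Pic0.correspondence_mk,
    SemilinearAut.pic0_smul_mk]
  refine congrArg Pic0.mk (Subtype.ext ?_)
  rw [Pic0.coe_degZeroCorrespondence, SemilinearAut.coe_degZeroSMulHom,
    SemilinearAut.coe_degZeroSMulHom, Pic0.coe_degZeroCorrespondence]
  exact correspondence_smul φ ψ hφ hψ h₁ h₂ (D : Divisor K F)

end Along

end Fermat.Agent.S29.CorrEquiv
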