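import Mathlib
import Fermat.Agent.S29.CorrEquiv
import Fermat.Agent.S28.SeriesBasic
import Fermat.Prelude.Def_ModularCurve_HeckeModule

/-!
# The Hecke operators commute with the Galois action on `J₀(N)`

The degeneracy maps `α` (inclusion) and `β` (`q ↦ q^ℓ`) commute with the coefficientwise
action of `Gal(L/ℚ)` on Laurent series, hence the correspondence `α_* ∘ β^*` commutes with the
Galois action on divisors and on `Pic⁰` (`CorrEquiv`).
-/

set_option autoImplicit false

noncomputable section

namespace Fermat.Agent.S29.GalHeckeComm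

open ModularCurve AlgebraicCurve Fermat.Agent.S29.CorrEquiv

section General

variable {L : Type*} [Field L] [Algebra ℚ L] (N ℓ : ℕ) [NeZero N] [NeZero ℓ]

/-- `α` commutes with the arithmetic Galois action. -/
theorem compatAlong_alpha (σ : L ≃ₐ[ℚ] L) :
    CompatAlong (heckeAlphaBar L N ℓ) (arithmeticGalois (modularFunctionFieldFull N) σ)
      (arithmeticGalois (modularFunctionFieldFull (N * ℓ)) σ) := by
  intro x
  apply Subtype.ext
  rw [coe_heckeAlphaBar, coe_arithmeticGalois_smul, coe_arithmeticGalois_smul,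
    coe_heckeAlphaBar]

/-- `β` commutes with the arithmetic Galois action. -/
theorem compatAlong_beta (σ : L ≃ₐ[ℚ] L) :
    CompatAlong (heckeBetaBar L N ℓ) (arithmeticGalois (modularFunctionFieldFull N) σ)
      (arithmeticGalois (modularFunctionFieldFull (N * ℓ)) σ) := by
  intro x
  apply Subtype.ext
  rw [coe_heckeBetaBar, coe_arithmeticGalois_smul, coe_arithmeticGalois_smul,
    coe_heckeBetaBar, Fermat.Agent.S28.coeffMap_qExpand]

/-- The divisor-level Hecke correspondence commutes with the arithmetic Galois action. -/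
theorem smul_heckeDivBar (σ : L ≃ₐ[ℚ] L)
    (hα : HeckeAlphaBarIntegral L N ℓ) (hβ : HeckeBetaBarIntegral L N ℓ)
    [HasPrincipalDivisors L (laurentBaseChange L (modularFunctionFieldFull (N * ℓ)))]
    (D : Divisor L (laurentBaseChange L (modularFunctionFieldFull N))) :
    heckeDivBar hα hβ (arithmeticGalois (modularFunctionFieldFull N) σ • D)
      = arithmeticGalois (modularFunctionFieldFull N) σ • heckeDivBar hα hβ D :=
  correspondence_smul _ _ hβ hα (compatAlong_beta N ℓ σ) (compatAlong_alpha N ℓ σ) D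

/-- **The total Hecke operator commutes with the Galois action on `Pic⁰`.** -/
theorem galois_smul_heckeOperatorAlong (σ : L ≃ₐ[ℚ] L)
    (x : Pic0 L (laurentBaseChange L (modularFunctionFieldFull N))) :
    σ • heckeOperatorAlong L N ℓ x = heckeOperatorAlong L N ℓ (σ • x) := by
  rw [galois_smul_pic0_def, galois_smul_pic0_def]
  unfold heckeOperatorAlong
  split_ifs with h
  · have := h.snd.snd.fst
    exact (pic0_correspondence_smul _ _ h.snd.fst h.fst h.snd.snd.snd.snd.1 h.snd.snd.snd.fst
      h.snd.snd.snd.snd.2 (compatAlong_beta N ℓ σ) (compatAlong_alpha N ℓ σ) x).symm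
  · rw [AddMonoidHom.zero_apply, AddMonoidHom.zero_apply, smul_zero]

end General

local notation "Qb" => AlgebraicClosure ℚ

/-- **(G1)** The Hecke operators `T_ℓ` on `J₀(N)(ℚ̄)` commute with the action of `Gal(ℚ̄/ℚ)`. -/
theorem galois_smul_heckeOperatorBar (N : ℕ) [NeZero N] (ℓ : Nat.Primes) (σ : Qb ≃ₐ[ℚ] Qb)
    (x : JZero N) : σ • heckeOperatorBar N ℓ x = heckeOperatorBar N ℓ (σ • x) := by
  haveI : NeZero (ℓ : ℕ) := ⟨ℓ.2.ne_zero⟩
  rw [heckeOperatorBar_apply, heckeOperatorBar_apply]
  exact galois_smul_heckeOperatorAlong N ℓ σ x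

end Fermat.Agent.S29.GalHeckeComm
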