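/-
S29 (wave 5), package G2 (helper12): open stabilisers on `J₀(N)(ℚ̄)`.

`exists_finiteDimensional_fixing`: every point `x` of `JZero N = Pic⁰(F_ℚ̄)` is fixed by all
`σ ∈ Gal(ℚ̄/ℚ)` fixing a suitable number field `L ⊆ ℚ̄` pointwise (`L := ℚ(S)` for the finite set
`S` of `S37.RatPlace.exists_rational_level_finset` applied to the support of a divisor
representing `x`: a place which is the unique extension of its restriction to `F_L` is fixed by
every `σ` fixing `L`).  `exists_finiteDimensional_fixing_finset`: the same for finitely many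
points at once.
-/
import Mathlib
import Fermat.Agent.S37.RatPlace

set_option autoImplicit false

namespace Fermat.Agent.S29.OpenStab

open ModularCurve AlgebraicCurve
open Fermat.Agent.S37.GaloisValue Fermat.Agent.S37.RatPlace

noncomputable section

local notation "Qb" => AlgebraicClosure ℚ

variable (N : ℕ) [NeZero N]

omit [NeZero N] in
/-- a `q`-series with coefficients in a subfield fixed by `σ` is fixed by `σ` -/
theorem arithmeticGalois_smul_bc {L : Type} [Field L] [Algebra ℚ L] (ι : L →+* Qb)
    (σ : Qb ≃ₐ[ℚ] Qb) (hσ : ∀ a : L, σ (ι a) = ι a) (g : S24.FF L N) :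
    arithmeticGalois (modularFunctionFieldFull N) σ •
        S24.CoeffBC.bc ι (modularFunctionFieldFull N) g =
      S24.CoeffBC.bc ι (modularFunctionFieldFull N) g := by
  apply Subtype.ext
  rw [coe_arithmeticGalois_smul, S24.CoeffBC.coe_bc, coeffMap_coeffMap]
  exact coeffMap_congr (RingHom.ext fun a => hσ a) _

omit [NeZero N] in
/-- a place which is the unique extension of its restriction to `F_L` is fixed by every `σ`
fixing `L` -/
theorem smul_place_eq {L : Type} [Field L] [Algebra ℚ L] (ι : L →+* Qb)
    (σ : Qb ≃ₐ[ℚ] Qb) (hσ : ∀ a : L, σ (ι a) = ι a)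
    (P : Place Qb (modularFunctionFieldBar N))
    (huniq : ∀ P' : Place Qb (modularFunctionFieldBar N),
      (∀ g : S24.FF L N,
        S24.CoeffBC.bc ι (modularFunctionFieldFull N) g ∈ P'.toValuationSubring ↔
        S24.CoeffBC.bc ι (modularFunctionFieldFull N) g ∈ P.toValuationSubring) → P' = P) :
    arithmeticGalois (modularFunctionFieldFull N) σ • P = P := by
  apply huniq
  intro g
  have h := smul_mem_smul_place_iff (arithmeticGalois (modularFunctionFieldFull N) σ) P
    (S24.CoeffBC.bc ι (modularFunctionFieldFull N) g)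
  rwa [arithmeticGalois_smul_bc N ι σ hσ g] at h

/-- **Open stabilisers.** Every point of `J₀(N)(ℚ̄)` is fixed by the absolute Galois group of a
number field. -/
theorem exists_finiteDimensional_fixing (x : JZero N) :
    ∃ L : IntermediateField ℚ Qb, FiniteDimensional ℚ L ∧
      ∀ σ : Qb ≃ₐ[ℚ] Qb, (∀ y ∈ L, σ y = y) → σ • x = x := by
  classical
  obtain ⟨D, rfl⟩ := Pic0.mk_surjective x
  obtain ⟨S, hS⟩ := exists_rational_level_finset N (D : Divisor Qb (modularFunctionFieldBar N)).support
  refine ⟨IntermediateField.adjoin ℚ (S : Set Qb), ?_, fun σ hσ => ?_⟩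
  · exact IntermediateField.finiteDimensional_adjoin
      (fun a _ => ((AlgebraicClosure.isAlgebraic ℚ).isAlgebraic a).isIntegral)
  · have hfix : ∀ P ∈ (D : Divisor Qb (modularFunctionFieldBar N)).support,
        arithmeticGalois (modularFunctionFieldFull N) σ • P = P := by
      intro P hP
      obtain ⟨-, -, huniq⟩ := hS (↥(IntermediateField.adjoin ℚ (S : Set Qb)))
        (algebraMap _ Qb) (fun a ha => ⟨⟨a, IntermediateField.subset_adjoin ℚ _ ha⟩, rfl⟩) P hP
      exact smul_place_eq N (L := ↥(IntermediateField.adjoin ℚ (S : Set Qb)))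
        (algebraMap _ Qb) σ (fun a => hσ a a.2) P huniq
    have hD : arithmeticGalois (modularFunctionFieldFull N) σ •
        (D : Divisor Qb (modularFunctionFieldBar N)) = D := by
      ext w
      rw [SemilinearAut.divisor_smul_apply]
      by_cases hw : w ∈ (D : Divisor Qb (modularFunctionFieldBar N)).support
      · have h1 := hfix w hw
        have h2 : (arithmeticGalois (modularFunctionFieldFull N) σ)⁻¹ • w = w := by
          rw [inv_smul_eq_iff, h1]
        rw [h2]
      · by_cases hw' : (arithmeticGalois (modularFunctionFieldFull N) σ)⁻¹ • w ∈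
            (D : Divisor Qb (modularFunctionFieldBar N)).support
        · exfalso
          have h1 := hfix _ hw'
          rw [smul_inv_smul] at h1
          exact hw (h1 ▸ hw')
        · rw [Finsupp.notMem_support_iff.mp hw, Finsupp.notMem_support_iff.mp hw']
    rw [galois_smul_pic0_def, SemilinearAut.pic0_smul_mk]
    exact congrArg Pic0.mk (Subtype.ext (by rw [SemilinearAut.coe_degZeroSMulHom, hD]))

/-- **Open stabilisers, finitely many points.** -/
theorem exists_finiteDimensional_fixing_finset (s : Finset (JZero N)) :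
    ∃ L : IntermediateField ℚ Qb, FiniteDimensional ℚ L ∧
      ∀ σ : Qb ≃ₐ[ℚ] Qb, (∀ y ∈ L, σ y = y) → ∀ x ∈ s, σ • x = x := by
  classical
  induction s using Finset.induction_on with
  | empty =>
      exact ⟨⊥, inferInstance, fun _ _ x hx => absurd hx (Finset.notMem_empty x)⟩
  | insert a s ha ih =>
      obtain ⟨L₁, hL₁, h₁⟩ := exists_finiteDimensional_fixing N a
      obtain ⟨L₂, hL₂, h₂⟩ := ih
      refine ⟨L₁ ⊔ L₂, inferInstance, fun σ hσ x hx => ?_⟩
      rcases Finset.mem_insert.mp hx with rfl | hx
      · exact h₁ σ (fun y hy => hσ y ((le_sup_left : L₁ ≤ L₁ ⊔ L₂) hy))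
      · exact h₂ σ (fun y hy => hσ y ((le_sup_right : L₂ ≤ L₁ ⊔ L₂) hy)) x hx

end

end Fermat.Agent.S29.OpenStab
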