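import Mathlib
import Fermat.Agent.S29.Defs
import Fermat.Agent.S29.GalHeckeComm
import Fermat.Agent.S29.OpenStab
import Fermat.Agent.S29.GalES
import Fermat.Agent.S29.Eigen
import Fermat.Agent.S29.Betti
import Fermat.Agent.S29.CycloChar

/-!
# S29 (wave 5): the core plumbing

The abstract assembly (`Assembly.residualRep_of_inputs` in the interface, here the hypothesis
`hAsm`) produces the residual representation from a `ZMod p`-module `V` with a Galois action,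
commuting operators `T_ℓ`, open stabilisers, trivial inertia, the Eichler–Shimura relation, an
eigenvector in `k₀ ⊗ V`, the cyclotomic character and weak Chebotarev.

This file instantiates it at `V := J₀(N)[p]`, `r :=` the Galois action, `T_ℓ :=` the Hecke
operators, feeding the landed packages:

* `hTr`   : `GalHeckeComm.galois_smul_heckeOperatorBar`;
* `hopen` : `OpenStab.exists_finiteDimensional_fixing`;
* `hunr`, `hES` : `GalES.inertia_smul_eq`, `GalES.frobenius_quadratic`;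
* `heig`  : `Eigen.exists_eigenvector_of` with `Betti.exists_eigenHom` and the Kummer map
  (hypothesis `hK`);
* `hcyc`  : `Cyc.exists_cyclotomic_prime`;
* `hcheb` : weak Chebotarev (hypothesis `hCheb`).

The conclusion is verbatim the hypothesis `hcore` of `Top.s29_of_core`.
-/

set_option autoImplicit false

open scoped TensorProduct
open ModularCurve AlgebraicCurve

namespace Fermat.Agent.S29.CoreGlue

local notation "Qb" => AlgebraicClosure ℚ

/-- the torsion of `J₀(N)` is killed by its order, in `ℕ`-multiple form -/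
theorem nsmul_coe_Jtors (N n : ℕ) (x : Jtors N n) : n • (x : JZero N) = 0 := by
  have h := Pic0.mem_torsion.mp x.2
  rwa [natCast_zsmul] at h

/-- the `ZMod n`-scalar multiplication on the torsion, on the underlying classes -/
theorem coe_natCast_smul_Jtors (N n : ℕ) (c : ℕ) (x : Jtors N n) :
    (((c : ZMod n) • x : Jtors N n) : JZero N) = c • (x : JZero N) := by
  rw [Nat.cast_smul_eq_nsmul (ZMod n) c x]
  rfl

/-- evaluation of the Eichler–Shimura expression -/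
theorem end_quadratic_apply {R V : Type*} [CommRing R] [AddCommGroup V] [Module R V]
    (a b : Module.End R V) (c : R) (x : V) :
    (a * a - b * a + c • (1 : Module.End R V)) x = a (a x) - b (a x) + c • x := rfl

/-- **The core of S29 from the abstract assembly.** -/
theorem core_of_assembly
    (hAsm : ∀ {N : ℕ} {g : CuspForm (CongruenceSubgroup.Gamma0 N) 2} {p : ℕ} [Fact p.Prime]
      {k₀ : Type} [Field k₀] [Algebra (ZMod p) k₀] [IsAlgClosed k₀]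
      (φ₀ : integralClosure ℤ ℂ →+* k₀)
      {V : Type} [AddCommGroup V] [Module (ZMod p) V]
      (r : GQ →* Module.End (ZMod p) V) (T : Nat.Primes → Module.End (ZMod p) V)
      (_ : ∀ (ℓ : Nat.Primes) (σ : GQ), T ℓ * r σ = r σ * T ℓ)
      (_ : ∀ x : V, ∃ L : IntermediateField ℚ Qb, FiniteDimensional ℚ L ∧
        ∀ σ : GQ, (∀ y ∈ L, σ y = y) → r σ x = x)
      (_ : ∀ ℓ : ℕ, ℓ.Prime → ¬ ℓ ∣ N * p → ∀ A : ValuationSubring Qb, A.LiesOverPrime ℓ →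
        ∀ σ ∈ A.inertiaSubgroupIn ℚ, r σ = 1)
      (_ : ∀ (ℓ : ℕ) (hℓ : ℓ.Prime), ¬ ℓ ∣ N * p → ∀ A : ValuationSubring Qb,
        A.LiesOverPrime ℓ → ∀ s : GQ, A.IsFrobeniusAt s ℓ →
          r s * r s - T ⟨ℓ, hℓ⟩ * r s + (ℓ : ZMod p) • (1 : Module.End (ZMod p) V) = 0)
      (_ : ∃ v : k₀ ⊗[ZMod p] V, v ≠ 0 ∧ ∀ (ℓ : ℕ) (hℓ : ℓ.Prime), ¬ ℓ ∣ N * p →
        ∃ a : integralClosure ℤ ℂ, (a : ℂ) = ModularFormClass.qCoeff g ℓ ∧
          (T ⟨ℓ, hℓ⟩).baseChange k₀ v = φ₀ a • v)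
      (_ : ∃ ω : GQ →* (ZMod p)ˣ, GaloisFactorsThroughFiniteLevel ω ∧
        ∀ ℓ : ℕ, ℓ.Prime → ℓ ≠ p → ∀ A : ValuationSubring Qb, A.LiesOverPrime ℓ →
          (∀ σ ∈ A.inertiaSubgroupIn ℚ, ω σ = 1) ∧
          ∀ s : GQ, A.IsFrobeniusAt s ℓ → ((ω s : (ZMod p)ˣ) : ZMod p) = (ℓ : ZMod p))
      (_ : ∀ {M : Type} [Monoid M] (ρ : GQ →* M), GaloisFactorsThroughFiniteLevel ρ →
        ∀ (S : Finset ℕ) (σ : GQ), ∃ (ℓ : ℕ) (A : ValuationSubring Qb) (s : GQ) (i : ℕ),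
          ℓ.Prime ∧ ℓ ∉ S ∧ A.LiesOverPrime ℓ ∧ A.IsFrobeniusAt s ℓ ∧ ρ σ = ρ s ^ i)
      (_ : N * p ≠ 0),
      ∃ ρ : ResidualGaloisRep k₀, ρ.IsAttachedTo g φ₀ ∧
        ∀ ℓ : ℕ, ℓ.Prime → ¬ ℓ ∣ N * p → ρ.IsUnramifiedAt ℓ)
    (hK : ∀ (N : ℕ) [NeZero N] (m : ℕ) (_ : 0 < m),
      ∃ Θ : peHoms N (ZMod m) →+ JZero N, Function.Injective Θ ∧
        ∀ (ℓ : ℕ) [Fact ℓ.Prime] (hℓN : ¬ ℓ ∣ N) (χ χ' : peHoms N (ZMod m)),
          (∀ γ : S22.Gam N, (χ' : Additive (S22.Gam N) →+ ZMod m) (Additive.ofMul γ) =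
            ∑ x : OnePoint (ZMod ℓ),
              (χ : Additive (S22.Gam N) →+ ZMod m) (Additive.ofMul (S22.gamT hℓN γ x))) →
          Θ χ' = heckeOperatorBar N ⟨ℓ, Fact.out⟩ (Θ χ))
    (hCheb : ∀ {M : Type} [Monoid M] (ρ : GQ →* M), GaloisFactorsThroughFiniteLevel ρ →
      ∀ (S : Finset ℕ) (σ : GQ), ∃ (ℓ : ℕ) (A : ValuationSubring Qb) (s : GQ) (i : ℕ),
        ℓ.Prime ∧ ℓ ∉ S ∧ A.LiesOverPrime ℓ ∧ A.IsFrobeniusAt s ℓ ∧ ρ σ = ρ s ^ i) :
    ∀ {N : ℕ} [NeZero N] {g : CuspForm (CongruenceSubgroup.Gamma0 N) 2}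
      (_ : g.IsNormalizedEigenform) {p : ℕ} [Fact p.Prime] {k₀ : Type} [Field k₀]
      [Algebra (ZMod p) k₀] [IsAlgClosed k₀] (φ₀ : integralClosure ℤ ℂ →+* k₀),
      ∃ ρ : ResidualGaloisRep k₀, ρ.IsAttachedTo g φ₀ ∧
        ∀ ℓ : ℕ, ℓ.Prime → ¬ ℓ ∣ N * p → ρ.IsUnramifiedAt ℓ := by
  intro N _ g hg p _ k₀ _ _ _ φ₀
  have hp : p.Prime := Fact.out
  have hchar : CharP k₀ p := charP_of_injective_algebraMap (algebraMap (ZMod p) k₀).injective p
  -- primes not dividing `N * p`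
  have hsplit : ∀ ℓ : ℕ, ℓ.Prime → ¬ ℓ ∣ N * p → ¬ ℓ ∣ N ∧ ¬ ℓ ∣ p := fun ℓ _ h =>
    ⟨fun hd => h (Dvd.dvd.mul_right hd p), fun hd => h (Dvd.dvd.mul_left hd N)⟩
  refine hAsm (N := N) (g := g) (p := p) φ₀ (V := Jtors N p) (JZero.torsionGaloisRep N p)
    (heckeTors N p) ?_ ?_ ?_ ?_ ?_ (Cyc.exists_cyclotomic_prime p) hCheb
    (mul_ne_zero (NeZero.ne N) hp.ne_zero)
  · -- the Hecke operators commute with the Galois action
    intro ℓ σ
    refine LinearMap.ext fun x => Subtype.ext ?_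
    exact (GalHeckeComm.galois_smul_heckeOperatorBar N ℓ σ (x : JZero N)).symm
  · -- open stabilisers
    intro x
    obtain ⟨L, hL, h⟩ := OpenStab.exists_finiteDimensional_fixing N (x : JZero N)
    exact ⟨L, hL, fun σ hσ => Subtype.ext (h σ hσ)⟩
  · -- trivial inertia
    intro ℓ hℓ hℓNp A hA σ hσ
    obtain ⟨hℓN, hℓp⟩ := hsplit ℓ hℓ hℓNp
    refine LinearMap.ext fun x => Subtype.ext ?_
    exact GalES.inertia_smul_eq N hℓ hℓN A hA hσ hℓp (nsmul_coe_Jtors N p x)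
  · -- Eichler–Shimura
    intro ℓ hℓ hℓNp A hA s hs
    obtain ⟨hℓN, hℓp⟩ := hsplit ℓ hℓ hℓNp
    refine LinearMap.ext fun x => Subtype.ext ?_
    have h := GalES.frobenius_quadratic N hℓ hℓN A hA hs hℓp (nsmul_coe_Jtors N p x)
    rw [end_quadratic_apply, LinearMap.zero_apply, AddSubgroup.coe_add, AddSubgroup.coe_sub,
      coe_natCast_smul_Jtors]
    exact h
  · -- the eigenvector
    obtain ⟨v, hv, hev⟩ := Eigen.exists_eigenvector_of N p φ₀
      (Betti.exists_eigenHom hg hp φ₀) (hK N p hp.pos)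
    exact ⟨v, hv, fun ℓ hℓ hℓNp => hev ℓ hℓ (hsplit ℓ hℓ hℓNp).1⟩

end Fermat.Agent.S29.CoreGlue
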