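import Mathlib
import Fermat.Prelude.Def_ModularCurve_LaurentCoeff

set_option autoImplicit false

namespace Fermat.Agent.S29.AutC

open ModularCurve


open MvPolynomial

section
variable {K Ω : Type*} [Field K] [Field Ω] [Algebra K Ω] [IsAlgClosed Ω]

/-- the `K`-algebra automorphism of `MvPolynomial ι K` sending `X i₀ ↦ X i₀ + 1`. -/
noncomputable def shiftEquiv {ι : Type*} [DecidableEq ι] (i₀ : ι) :
    MvPolynomial ι K ≃ₐ[K] MvPolynomial ι K :=
  AlgEquiv.ofAlgHom
    (aeval fun i => if i = i₀ then X i + 1 else X i)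
    (aeval fun i => if i = i₀ then X i - 1 else X i)
    (by
      ext i
      by_cases h : i = i₀ <;> simp [h])
    (by
      ext i
      by_cases h : i = i₀ <;> simp [h])

theorem shiftEquiv_X_self {ι : Type*} [DecidableEq ι] (i₀ : ι) :
    shiftEquiv (K := K) i₀ (X i₀) = X i₀ + 1 := by
  simp [shiftEquiv]

/-- **Moving a transcendental.** If `t : Ω` is transcendental over `K` (`Ω` algebraically closed),
there is a ring automorphism of `Ω` fixing `K` pointwise with `σ t = t + 1`. -/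
theorem exists_ringEquiv_add_one (t : Ω) (ht : Transcendental K t) :
    ∃ σ : Ω ≃+* Ω, (∀ a : K, σ (algebraMap K Ω a) = algebraMap K Ω a) ∧ σ t = t + 1 := by
  classical
  -- a transcendence basis containing `t`
  have hind : AlgebraicIndepOn K id ({t} : Set Ω) :=
    (algebraicIndependent_singleton_iff (⟨t, rfl⟩ : ({t} : Set Ω))).mpr ht
  obtain ⟨B, htB, hB⟩ := exists_isTranscendenceBasis_superset hind
  let i₀ : B := ⟨t, htB rfl⟩
  have := IsAlgClosed.isAlgClosure_of_transcendence_basis ((↑) : B → Ω) hB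
  let S := Algebra.adjoin K (Set.range ((↑) : B → Ω))
  let e : S ≃+* S :=
    hB.1.aevalEquiv.symm.toRingEquiv.trans
      ((shiftEquiv (K := K) i₀).toRingEquiv.trans hB.1.aevalEquiv.toRingEquiv)
  refine ⟨IsAlgClosure.equivOfEquiv Ω Ω e, fun a => ?_, ?_⟩
  · have h1 : algebraMap K Ω a = algebraMap S Ω (algebraMap K S a) := rfl
    rw [h1, IsAlgClosure.equivOfEquiv_algebraMap]
    congr 1
    show hB.1.aevalEquiv (shiftEquiv i₀ (hB.1.aevalEquiv.symm (algebraMap K S a))) = _
    rw [AlgEquiv.commutes, AlgEquiv.commutes, AlgEquiv.commutes]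
  · have h1 : t = algebraMap S Ω (hB.1.aevalEquiv (X i₀)) := by
      rw [hB.1.algebraMap_aevalEquiv, aeval_X]
    conv_lhs => rw [h1]
    rw [IsAlgClosure.equivOfEquiv_algebraMap]
    show algebraMap S Ω (hB.1.aevalEquiv (shiftEquiv i₀ (hB.1.aevalEquiv.symm
      (hB.1.aevalEquiv (X i₀))))) = _
    rw [AlgEquiv.symm_apply_apply, shiftEquiv_X_self, hB.1.algebraMap_aevalEquiv, map_add,
      aeval_X, map_one]

/-- A finite subset of `Ω` stable under all ring automorphisms of `Ω` fixing `K` consists of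
elements algebraic over `K` (`char 0`). -/
theorem isAlgebraic_of_finite_stable [CharZero Ω] (S : Set Ω) (hS : S.Finite)
    (hstab : ∀ σ : Ω ≃+* Ω, (∀ a : K, σ (algebraMap K Ω a) = algebraMap K Ω a) →
      ∀ x ∈ S, σ x ∈ S) (t : Ω) (ht : t ∈ S) : IsAlgebraic K t := by
  by_contra hna
  obtain ⟨σ, hσK, hσt⟩ := exists_ringEquiv_add_one (K := K) t hna
  have hpow : ∀ n : ℕ, (σ ^ n) t = t + n := by
    intro n
    induction n with
    | zero => simp
    | succ n ih =>
      rw [pow_succ', RingAut.mul_apply, ih, map_add, hσt, map_natCast]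
      push_cast; ring
  have hmem : ∀ n : ℕ, t + n ∈ S := by
    intro n
    rw [← hpow n]
    refine hstab (σ ^ n) ?_ t ht
    intro a
    induction n with
    | zero => simp
    | succ n ih => rw [pow_succ', RingAut.mul_apply, ih, hσK]
  have hinj : Function.Injective (fun n : ℕ => t + (n : Ω)) := by
    intro a b hab
    exact_mod_cast add_left_cancel hab
  exact Set.infinite_range_of_injective hinj (hS.subset (by rintro _ ⟨n, rfl⟩; exact hmem n))

end



section Canon
variable {Ω : Type*} [Field Ω]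

/-- `IsLead W n w`: `w ∈ W` has order `n`, leading coefficient `1`, and `n` is the largest order
occurring in `W`. -/
def IsLead (W : Submodule Ω (LaurentSeries Ω)) (n : ℤ) (w : LaurentSeries Ω) : Prop :=
  w ∈ W ∧ (∀ k < n, w.coeff k = 0) ∧ w.coeff n = 1 ∧
    ∀ w' ∈ W, (∀ k ≤ n, w'.coeff k = 0) → w' = 0

theorem IsLead.unique {W : Submodule Ω (LaurentSeries Ω)} {n n' : ℤ} {w w' : LaurentSeries Ω}
    (h : IsLead W n w) (h' : IsLead W n' w') : n = n' ∧ w = w' := by
  have key : ∀ {n n' : ℤ} {w w' : LaurentSeries Ω}, IsLead W n w → IsLead W n' w' → ¬ n < n' := by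
    intro n n' w w' h h' hlt
    have hz : w' = 0 := h.2.2.2 w' h'.1 (fun k hk => h'.2.1 k (lt_of_le_of_lt hk hlt))
    have := h'.2.2.1
    rw [hz] at this
    simp at this
  have hn : n = n' := le_antisymm (not_lt.mp (key h' h)) (not_lt.mp (key h h'))
  subst hn
  refine ⟨rfl, ?_⟩
  have hz : w - w' = 0 := by
    refine h.2.2.2 (w - w') (W.sub_mem h.1 h'.1) (fun k hk => ?_)
    rcases lt_or_eq_of_le hk with hk | rfl
    · rw [HahnSeries.coeff_sub, h.2.1 k hk, h'.2.1 k hk, sub_zero]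
    · rw [HahnSeries.coeff_sub, h.2.2.1, h'.2.2.1, sub_self]
  exact sub_eq_zero.mp hz

theorem exists_isLead (W : Submodule Ω (LaurentSeries Ω)) (h0 : W ≠ ⊥)
    (hB : ∃ B : ℤ, ∀ w ∈ W, (∀ k ≤ B, w.coeff k = 0) → w = 0) :
    ∃ n w, IsLead W n w := by
  classical
  obtain ⟨B, hB⟩ := hB
  -- the set of orders
  let O : Set ℤ := {n | ∃ w ∈ W, (∀ k < n, w.coeff k = 0) ∧ w.coeff n ≠ 0}
  have hOne : O.Nonempty := by
    obtain ⟨w, hw, hw0⟩ := (Submodule.ne_bot_iff W).mp h0
    refine ⟨w.order, w, hw, fun k hk => ?_, ?_⟩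
    · exact HahnSeries.coeff_eq_zero_of_lt_order hk
    · exact fun h => hw0 (HahnSeries.coeff_order_eq_zero.mp h)
  have hObdd : BddAbove O := by
    refine ⟨B, ?_⟩
    rintro n ⟨w, hw, hlt, hne⟩
    by_contra hcon
    push Not at hcon
    exact hne (by rw [hB w hw (fun k hk => hlt k (lt_of_le_of_lt hk hcon))]; simp)
  obtain ⟨n, hnO, hnmax⟩ := Int.exists_greatest_of_bdd (P := fun n => n ∈ O)
    (by obtain ⟨b, hb⟩ := hObdd; exact ⟨b, fun z hz => hb hz⟩) hOne
  obtain ⟨w, hw, hlt, hne⟩ := hnO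
  refine ⟨n, (w.coeff n)⁻¹ • w, W.smul_mem _ hw, fun k hk => ?_, ?_, ?_⟩
  · rw [HahnSeries.coeff_smul, hlt k hk, smul_zero]
  · rw [HahnSeries.coeff_smul, smul_eq_mul, inv_mul_cancel₀ hne]
  · intro w' hw' hz
    by_contra hw0
    have hmem : w'.order ∈ O :=
      ⟨w', hw', fun k hk => HahnSeries.coeff_eq_zero_of_lt_order hk,
        fun h => hw0 (HahnSeries.coeff_order_eq_zero.mp h)⟩
    have hle := hnmax _ hmem
    exact hw0 (HahnSeries.coeff_order_eq_zero.mp (hz _ hle))

end Canon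

section Stable
variable {K Ω : Type*} [Field K] [Field Ω] [Algebra K Ω] [IsAlgClosed Ω] [CharZero Ω]

theorem coeffMap_symm_apply (σ : Ω ≃+* Ω) (x : LaurentSeries Ω) :
    coeffMap (σ.symm : Ω →+* Ω) (coeffMap (σ : Ω →+* Ω) x) = x := by
  ext k
  simp [coeffMap_coeff]

theorem coeffMap_apply_symm (σ : Ω ≃+* Ω) (x : LaurentSeries Ω) :
    coeffMap (σ : Ω →+* Ω) (coeffMap (σ.symm : Ω →+* Ω) x) = x := by
  ext k
  simp [coeffMap_coeff]

/-- **Galois descent for a finite family of subspaces of `Ω((q))`.**  Let `W i` (`i` in a finite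
type) be nonzero subspaces of `Ω((q))`, pairwise meeting trivially, each with a Sturm-type bound
(an element vanishing up to index `B` is zero), and such that every automorphism of `Ω` fixing `K`
maps each `W i` into some `W j` (acting on coefficients).  Then every `W i` contains a nonzero
element all of whose coefficients are algebraic over `K`. -/
theorem exists_algebraic_of_stable {ι : Type*} [Finite ι]
    (W : ι → Submodule Ω (LaurentSeries Ω))
    (h0 : ∀ i, W i ≠ ⊥)
    (hB : ∀ i, ∃ B : ℤ, ∀ w ∈ W i, (∀ k ≤ B, w.coeff k = 0) → w = 0)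
    (hdisj : ∀ i j, ∀ w, w ∈ W i → w ∈ W j → w ≠ 0 → i = j)
    (hσ : ∀ σ : Ω ≃+* Ω, (∀ a : K, σ (algebraMap K Ω a) = algebraMap K Ω a) →
      ∀ i, ∃ j, ∀ x ∈ W i, coeffMap (σ : Ω →+* Ω) x ∈ W j) :
    ∀ i, ∃ w ∈ W i, w ≠ 0 ∧ ∀ k : ℤ, IsAlgebraic K (w.coeff k) := by
  classical
  choose n w hw using fun i => exists_isLead (W i) (h0 i) (hB i)
  have hwne : ∀ i, w i ≠ 0 := by
    intro i h
    have := (hw i).2.2.1
    rw [h] at this
    simp at this
  -- the canonical elements are permuted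
  have hperm : ∀ σ : Ω ≃+* Ω, (∀ a : K, σ (algebraMap K Ω a) = algebraMap K Ω a) →
      ∀ i, ∃ j, coeffMap (σ : Ω →+* Ω) (w i) = w j := by
    intro σ hσK i
    obtain ⟨j, hj⟩ := hσ σ hσK i
    have hσK' : ∀ a : K, σ.symm (algebraMap K Ω a) = algebraMap K Ω a := by
      intro a
      rw [RingEquiv.symm_apply_eq, hσK]
    obtain ⟨i', hi'⟩ := hσ σ.symm hσK' j
    have hii' : i = i' := by
      refine hdisj i i' (w i) (hw i).1 ?_ (hwne i)
      have := hi' _ (hj _ (hw i).1)
      rwa [coeffMap_symm_apply] at this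
    subst hii'
    refine ⟨j, ?_⟩
    have hlead : IsLead (W j) (n i) (coeffMap (σ : Ω →+* Ω) (w i)) := by
      refine ⟨hj _ (hw i).1, fun k hk => ?_, ?_, fun w' hw' hz => ?_⟩
      · rw [coeffMap_coeff, (hw i).2.1 k hk, map_zero]
      · rw [coeffMap_coeff, (hw i).2.2.1, map_one]
      · have h1 : coeffMap (σ.symm : Ω →+* Ω) w' = 0 := by
          refine (hw i).2.2.2 _ (hi' _ hw') (fun k hk => ?_)
          rw [coeffMap_coeff, hz k hk, map_zero]
        have h2 := congrArg (coeffMap (σ : Ω →+* Ω)) h1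
        rwa [coeffMap_apply_symm, map_zero] at h2
    exact (hlead.unique (hw j)).2
  intro i
  refine ⟨w i, (hw i).1, hwne i, fun k => ?_⟩
  refine isAlgebraic_of_finite_stable (K := K) (Set.range fun j => (w j).coeff k)
    (Set.finite_range _) ?_ _ ⟨i, rfl⟩
  rintro σ hσK _ ⟨j, rfl⟩
  obtain ⟨j', hj'⟩ := hperm σ hσK j
  refine ⟨j', ?_⟩
  show (w j').coeff k = σ ((w j).coeff k)
  rw [← hj', coeffMap_coeff]
  rfl

end Stable

end Fermat.Agent.S29.AutC
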