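import Mathlib
import Fermat.Agent.S29.AutC

/-!
# S29 (wave 5), K3 (descent): generic algebra

* `exists_algebraic_of_stable'` : the descent theorem of `AutC` with an elementwise stability
  hypothesis;
* `exists_coeffMap_eq` : a Laurent series over `Ω` with coefficients algebraic over an
  algebraically closed subfield `K` comes from a Laurent series over `K`;
* `finite_torsion_hom` : a finitely generated group has finitely many characters of exponent `m`.
-/

set_option autoImplicit false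

namespace Fermat.Agent.S29.DescBasic

open ModularCurve

section Stable
variable {K Ω : Type*} [Field K] [Field Ω] [Algebra K Ω] [IsAlgClosed Ω] [CharZero Ω]

/-- Elementwise stability implies stability: if every element of `W i` is mapped into some
`W j`, then `W i` is mapped into a single `W j`. -/
theorem exists_forall_mem_of_elementwise {ι : Type*} [Finite ι]
    (W : ι → Submodule Ω (LaurentSeries Ω))
    (h0 : ∀ i, W i ≠ ⊥)
    (hdisj : ∀ i j, ∀ w, w ∈ W i → w ∈ W j → w ≠ 0 → i = j)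
    (σ : Ω ≃+* Ω)
    (hσ : ∀ i, ∀ x ∈ W i, ∃ j, coeffMap (σ : Ω →+* Ω) x ∈ W j) (i : ι) :
    ∃ j, ∀ x ∈ W i, coeffMap (σ : Ω →+* Ω) x ∈ W j := by
  classical
  obtain ⟨x₁, hx₁, hx₁0⟩ := (Submodule.ne_bot_iff _).mp (h0 i)
  obtain ⟨j, hj⟩ := hσ i x₁ hx₁
  have hσx₁ : coeffMap (σ : Ω →+* Ω) x₁ ≠ 0 := by
    intro h
    apply hx₁0
    have := congrArg (coeffMap (σ.symm : Ω →+* Ω)) h
    rwa [AutC.coeffMap_symm_apply, map_zero] at this
  refine ⟨j, fun x hx => ?_⟩
  -- the elements `x₁ + c • x`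
  have hmem : ∀ c : ℕ, x₁ + c • x ∈ W i := fun c => (W i).add_mem hx₁ ((W i).nsmul_mem hx c)
  choose J hJ using fun c : ℕ => hσ i _ (hmem c)
  obtain ⟨c, c', hcc', hJeq⟩ := Finite.exists_ne_map_eq_of_infinite J
  -- wlog `c < c'`
  have key : ∀ c c' : ℕ, c < c' → J c = J c' → coeffMap (σ : Ω →+* Ω) x ∈ W j := by
    intro c c' hlt hJeq
    have h1 := hJ c
    have h2 := hJ c'
    rw [← hJeq] at h2
    rw [map_add, map_nsmul] at h1 h2
    have h3 : (c' - c) • coeffMap (σ : Ω →+* Ω) x ∈ W (J c) := by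
      have h4 := (W (J c)).sub_mem h2 h1
      have h5 : coeffMap (σ : Ω →+* Ω) x₁ + c' • coeffMap (σ : Ω →+* Ω) x -
          (coeffMap (σ : Ω →+* Ω) x₁ + c • coeffMap (σ : Ω →+* Ω) x) =
          (c' - c) • coeffMap (σ : Ω →+* Ω) x := by
        rw [add_sub_add_left_eq_sub, sub_nsmul _ hlt.le, sub_eq_add_neg]
      rwa [h5] at h4
    have hne : ((c' - c : ℕ) : Ω) ≠ 0 := by
      rw [Nat.cast_ne_zero]
      omega
    have h6 : coeffMap (σ : Ω →+* Ω) x ∈ W (J c) := by
      have h7 : ((c' - c : ℕ) : Ω) • coeffMap (σ : Ω →+* Ω) x ∈ W (J c) := by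
        rw [Nat.cast_smul_eq_nsmul]
        exact h3
      exact ((W (J c)).smul_mem_iff hne).mp h7
    have h8 : coeffMap (σ : Ω →+* Ω) x₁ ∈ W (J c) := by
      have := (W (J c)).sub_mem h1 ((W (J c)).nsmul_mem h6 c)
      rwa [add_sub_cancel_right] at this
    have hjj : j = J c := hdisj j (J c) _ hj h8 hσx₁
    rw [hjj]
    exact h6
  rcases lt_or_gt_of_ne hcc' with h | h
  · exact key c c' h hJeq
  · exact key c' c h hJeq.symm

/-- **Galois descent for a finite family of subspaces of `Ω((q))`, elementwise version.** -/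
theorem exists_algebraic_of_stable' {ι : Type*} [Finite ι]
    (W : ι → Submodule Ω (LaurentSeries Ω))
    (h0 : ∀ i, W i ≠ ⊥)
    (hB : ∀ i, ∃ B : ℤ, ∀ w ∈ W i, (∀ k ≤ B, w.coeff k = 0) → w = 0)
    (hdisj : ∀ i j, ∀ w, w ∈ W i → w ∈ W j → w ≠ 0 → i = j)
    (hσ : ∀ σ : Ω ≃+* Ω, (∀ a : K, σ (algebraMap K Ω a) = algebraMap K Ω a) →
      ∀ i, ∀ x ∈ W i, ∃ j, coeffMap (σ : Ω →+* Ω) x ∈ W j) :
    ∀ i, ∃ w ∈ W i, w ≠ 0 ∧ ∀ k : ℤ, IsAlgebraic K (w.coeff k) :=
  AutC.exists_algebraic_of_stable W h0 hB hdisj fun σ hσK i =>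
    exists_forall_mem_of_elementwise W h0 hdisj σ (hσ σ hσK) i

end Stable

section Coeff
variable {K Ω : Type*} [Field K] [Field Ω]

/-- A Laurent series whose coefficients all lie in the image of `ι` is the coefficientwise image
of a Laurent series. -/
theorem exists_coeffMap_eq_of_mem_range (ι : K →+* Ω) (w : LaurentSeries Ω)
    (h : ∀ k : ℤ, w.coeff k ∈ ι.range) : ∃ y : LaurentSeries K, coeffMap ι y = w := by
  classical
  choose c hc using h
  have hsupp : Function.support c = w.support := by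
    ext k
    simp only [Function.mem_support, HahnSeries.mem_support, ne_eq]
    rw [← hc k]
    constructor
    · intro h1 h2
      exact h1 (ι.injective (by rw [h2, map_zero]))
    · intro h1 h2
      exact h1 (by rw [h2, map_zero])
  refine ⟨⟨c, by rw [hsupp]; exact w.isPWO_support⟩, ?_⟩
  ext k
  rw [coeffMap_coeff]
  exact hc k

/-- If `K` is algebraically closed, a Laurent series over `Ω` with coefficients algebraic over
`K` comes from a Laurent series over `K`. -/
theorem exists_coeffMap_eq [IsAlgClosed K] (ι : K →+* Ω) (w : LaurentSeries Ω)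
    (h : ∀ k : ℤ, letI := ι.toAlgebra; IsAlgebraic K (w.coeff k)) :
    ∃ y : LaurentSeries K, coeffMap ι y = w := by
  let _ : Algebra K Ω := ι.toAlgebra
  refine exists_coeffMap_eq_of_mem_range ι w fun k => ?_
  have hk : IsIntegral K (w.coeff k) := (h k).isIntegral
  have hq : (minpoly K (w.coeff k)).leadingCoeff = 1 := minpoly.monic hk
  have hd : (minpoly K (w.coeff k)).degree = 1 :=
    IsAlgClosed.degree_eq_one_of_irreducible K (minpoly.irreducible hk)
  have h0 : Polynomial.aeval (w.coeff k) (minpoly K (w.coeff k)) = 0 := minpoly.aeval K _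
  rw [Polynomial.eq_X_add_C_of_degree_eq_one hd, hq, Polynomial.C_1, one_mul,
    Polynomial.aeval_add, Polynomial.aeval_X, Polynomial.aeval_C, add_eq_zero_iff_eq_neg] at h0
  refine ⟨-(minpoly K (w.coeff k)).coeff 0, ?_⟩
  rw [map_neg]
  exact h0.symm

end Coeff

section Hom

/-- A finitely generated group has only finitely many characters of exponent `m`. -/
theorem finite_torsion_hom {G : Type*} [Group G] (S : Finset G)
    (hS : Subgroup.closure (S : Set G) = ⊤) (m : ℕ) (hm : 0 < m) :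
    Finite {χ : G →* ℂˣ // ∀ γ, χ γ ^ m = 1} := by
  classical
  have : NeZero m := ⟨hm.ne'⟩
  let f : {χ : G →* ℂˣ // ∀ γ, χ γ ^ m = 1} → (S → rootsOfUnity m ℂ) :=
    fun χ s => ⟨χ.1 s, (mem_rootsOfUnity m _).mpr (χ.2 s)⟩
  have hf : Function.Injective f := by
    intro χ χ' h
    apply Subtype.ext
    refine MonoidHom.eq_of_eqOn_dense hS fun s hs => ?_
    have := congrArg (fun g => ((g ⟨s, hs⟩ : rootsOfUnity m ℂ) : ℂˣ)) h
    exact this
  exact Finite.of_injective f hf

end Hom

end Fermat.Agent.S29.DescBasic
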