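import Mathlib
import Fermat.Agent.S24.Defs

/-!
# S29 (wave 5), slice (K3-σ): transport of places along the arithmetic automorphisms

For a field `L` over `ℚ` and `σ : L ≃ₐ[ℚ] L` the prelude gives the `σ`-semilinear ring
automorphism `arithmeticRingAut F₀ σ` (action on the coefficients of `q`-expansions) of
`FF L N = laurentBaseChange L (modularFunctionFieldFull N)`, packaged as
`arithmeticGalois F₀ σ : SemilinearAut L (FF L N)`, which acts on the places.

* `ord_smul_eq` : generic, `v.ord (g • x) = (g⁻¹ • v).ord x`.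
* `arith_jBC` : the arithmetic automorphisms fix `jBC L N`.
* `ord_arith` : `v.ord (τ x) = (g⁻¹ • v).ord x`, and `ord_arith_jBC`.
* `forall_place_arith` : any property of the pair `(v.ord jBC, v.ord x)` valid at all places
  is valid for `τ x`;  corollaries `dvd_ord_arith` (ii), `pole_bound_arith` (iii).
* `isIntegral_arith*` (i) : integrality over `L[jBC]` is preserved (three shapes).
-/

set_option autoImplicit false
set_option linter.unusedSectionVars false

namespace Fermat.Agent.S29.PlaceAut

open ModularCurve AlgebraicCurve Fermat.Agent.S24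

noncomputable section

section Generic

variable {K F : Type*} [Field K] [Field F] [Algebra K F]

/-- The order of `g • x` at `v` is the order of `x` at `g⁻¹ • v`. -/
theorem ord_smul_eq (g : SemilinearAut K F) (v : Place K F) (x : F) :
    v.ord (g • x) = (g⁻¹ • v).ord x := by
  have h := SemilinearAut.ord_smul g (g⁻¹ • v) x
  rwa [smul_inv_smul] at h

/-- The order of `x` at `g • v` is the order of `g⁻¹ • x` at `v`. -/
theorem ord_smul_place_eq (g : SemilinearAut K F) (v : Place K F) (x : F) :
    (g • v).ord x = v.ord (g⁻¹ • x) := by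
  have h := SemilinearAut.ord_smul g v (g⁻¹ • x)
  rwa [smul_inv_smul] at h

/-- Transport of a property of orders: if `y` is fixed by `g` and `P (v.ord y) (v.ord x)` holds
at every place, then `P (v.ord y) (v.ord (g • x))` holds at every place. -/
theorem forall_place_smul (g : SemilinearAut K F) (y x : F) (hy : g • y = y)
    (P : ℤ → ℤ → Prop) (h : ∀ v : Place K F, P (v.ord y) (v.ord x)) :
    ∀ v : Place K F, P (v.ord y) (v.ord (g • x)) := by
  intro v
  have h1 := h (g⁻¹ • v)
  rw [← ord_smul_eq g v x] at h1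
  have h2 : (g⁻¹ • v).ord y = v.ord y := by
    rw [← ord_smul_eq g v y, hy]
  rwa [h2] at h1

/-- Integrality along a ring homomorphism `φ : R →+* F` is preserved by a ring endomorphism
`τ` of `F` which maps the image of `φ` into itself (`τ ∘ φ = φ ∘ ρ`). -/
theorem isIntegralElem_map {R F : Type*} [CommRing R] [CommRing F] (φ : R →+* F)
    (τ : F →+* F) (ρ : R →+* R) (hτ : ∀ r : R, τ (φ r) = φ (ρ r)) {x : F}
    (hx : φ.IsIntegralElem x) : φ.IsIntegralElem (τ x) := by
  obtain ⟨p, hp, hpx⟩ := hx
  refine ⟨p.map ρ, hp.map ρ, ?_⟩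
  have h1 : (p.map ρ).eval₂ φ (τ x) = p.eval₂ (φ.comp ρ) (τ x) := Polynomial.eval₂_map _ _ _
  have h2 : φ.comp ρ = τ.comp φ := RingHom.ext fun r => (hτ r).symm
  rw [h1, h2, ← Polynomial.hom_eval₂, hpx, map_zero]

end Generic

section Arith

variable {L : Type*} [Field L] [Algebra ℚ L] (N : ℕ) [NeZero N]

/-- The arithmetic automorphisms fix `j`. -/
theorem arith_jBC (σ : L ≃ₐ[ℚ] L) :
    arithmeticRingAut (modularFunctionFieldFull N) σ (jBC L N) = jBC L N := by
  apply Subtype.ext
  rw [coe_arithmeticRingAut_apply, coe_jBC, coeffMap_coeffEmb]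

/-- The arithmetic automorphisms fix `j` (action form). -/
theorem arith_smul_jBC (σ : L ≃ₐ[ℚ] L) :
    arithmeticGalois (modularFunctionFieldFull N) σ • (jBC L N) = jBC L N :=
  arith_jBC N σ

/-- The arithmetic automorphisms are semilinear over `σ`. -/
theorem arith_algebraMap (σ : L ≃ₐ[ℚ] L) (a : L) :
    arithmeticRingAut (modularFunctionFieldFull N) σ (algebraMap L (FF L N) a)
      = algebraMap L (FF L N) (σ a) :=
  arithmeticRingAut_algebraMap (modularFunctionFieldFull N) σ a

/-- **Orders under the arithmetic automorphism**: `ord_v (τ x) = ord_{g⁻¹ v} x`. -/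
theorem ord_arith (σ : L ≃ₐ[ℚ] L) (v : Place L (FF L N)) (x : FF L N) :
    v.ord (arithmeticRingAut (modularFunctionFieldFull N) σ x)
      = ((arithmeticGalois (modularFunctionFieldFull N) σ)⁻¹ • v).ord x :=
  ord_smul_eq (arithmeticGalois (modularFunctionFieldFull N) σ) v x

/-- The places `v` and `g⁻¹ • v` have the same order at `j`. -/
theorem ord_arith_jBC (σ : L ≃ₐ[ℚ] L) (v : Place L (FF L N)) :
    ((arithmeticGalois (modularFunctionFieldFull N) σ)⁻¹ • v).ord (jBC L N)
      = v.ord (jBC L N) := by
  rw [← ord_arith N σ v (jBC L N), arith_jBC]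

/-- The places `v` and `g • v` have the same order at `j`. -/
theorem ord_arith_smul_jBC (σ : L ≃ₐ[ℚ] L) (v : Place L (FF L N)) :
    ((arithmeticGalois (modularFunctionFieldFull N) σ) • v).ord (jBC L N)
      = v.ord (jBC L N) := by
  have h := SemilinearAut.ord_smul (arithmeticGalois (modularFunctionFieldFull N) σ) v (jBC L N)
  rwa [arith_smul_jBC] at h

/-- **Transport of order conditions**: a property of the pairs `(ord_v j, ord_v x)` valid at
all places of `FF L N` is valid for `τ x`. -/
theorem forall_place_arith (σ : L ≃ₐ[ℚ] L) (x : FF L N) (P : ℤ → ℤ → Prop)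
    (h : ∀ v : Place L (FF L N), P (v.ord (jBC L N)) (v.ord x)) :
    ∀ v : Place L (FF L N),
      P (v.ord (jBC L N)) (v.ord (arithmeticRingAut (modularFunctionFieldFull N) σ x)) :=
  forall_place_smul (arithmeticGalois (modularFunctionFieldFull N) σ) (jBC L N) x
    (arith_smul_jBC N σ) P h

/-- (K3-σ)(ii): if `m` divides all orders of `x`, it divides all orders of `τ x`. -/
theorem dvd_ord_arith (σ : L ≃ₐ[ℚ] L) (m : ℤ) (x : FF L N)
    (h : ∀ v : Place L (FF L N), m ∣ v.ord x) :
    ∀ v : Place L (FF L N), m ∣ v.ord (arithmeticRingAut (modularFunctionFieldFull N) σ x) :=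
  forall_place_arith N σ x (fun _ b => m ∣ b) h

/-- (K3-σ)(ii), iff form. -/
theorem dvd_ord_arith_iff (σ : L ≃ₐ[ℚ] L) (m : ℤ) (x : FF L N) :
    (∀ v : Place L (FF L N), m ∣ v.ord (arithmeticRingAut (modularFunctionFieldFull N) σ x))
      ↔ ∀ v : Place L (FF L N), m ∣ v.ord x := by
  refine ⟨fun h => ?_, dvd_ord_arith N σ m x⟩
  have h1 := dvd_ord_arith N σ.symm m _ h
  have h2 : arithmeticRingAut (modularFunctionFieldFull N) σ.symm
      (arithmeticRingAut (modularFunctionFieldFull N) σ x) = x :=
    (arithmeticRingAut (modularFunctionFieldFull N) σ).symm_apply_apply x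
  rwa [h2] at h1

/-- (K3-σ)(iii): a pole bound `c * ord_v j ≤ ord_v x` at the places over `j = ∞` is preserved. -/
theorem pole_bound_arith (σ : L ≃ₐ[ℚ] L) (c : ℤ) (x : FF L N)
    (h : ∀ v : Place L (FF L N), v.ord (jBC L N) < 0 → c * v.ord (jBC L N) ≤ v.ord x) :
    ∀ v : Place L (FF L N), v.ord (jBC L N) < 0 →
      c * v.ord (jBC L N) ≤ v.ord (arithmeticRingAut (modularFunctionFieldFull N) σ x) :=
  forall_place_arith N σ x (fun a b => a < 0 → c * a ≤ b) h

/-- Regularity at the places where `j` is finite is preserved. -/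
theorem finite_regular_arith (σ : L ≃ₐ[ℚ] L) (x : FF L N)
    (h : ∀ v : Place L (FF L N), 0 ≤ v.ord (jBC L N) → 0 ≤ v.ord x) :
    ∀ v : Place L (FF L N), 0 ≤ v.ord (jBC L N) →
      0 ≤ v.ord (arithmeticRingAut (modularFunctionFieldFull N) σ x) :=
  forall_place_arith N σ x (fun a b => 0 ≤ a → 0 ≤ b) h

/-- Compatibility of the arithmetic automorphism with polynomials in `j`:
`τ (p(j)) = (σ p)(j)`. -/
theorem arith_aeval_jBC (σ : L ≃ₐ[ℚ] L) (p : Polynomial L) :
    arithmeticRingAut (modularFunctionFieldFull N) σ (Polynomial.aeval (jBC L N) p)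
      = Polynomial.aeval (jBC L N) (p.map (σ : L →+* L)) := by
  rw [Polynomial.aeval_def, Polynomial.aeval_def, Polynomial.eval₂_map]
  have h := Polynomial.hom_eval₂ p (algebraMap L (FF L N))
    ((arithmeticRingAut (modularFunctionFieldFull N) σ : FF L N ≃+* FF L N) : FF L N →+* FF L N)
    (jBC L N)
  have h1 : (((arithmeticRingAut (modularFunctionFieldFull N) σ : FF L N ≃+* FF L N) :
      FF L N →+* FF L N).comp (algebraMap L (FF L N)))
      = (algebraMap L (FF L N)).comp (σ : L →+* L) :=
    RingHom.ext fun a => arith_algebraMap N σ a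
  have h2 : ((arithmeticRingAut (modularFunctionFieldFull N) σ : FF L N ≃+* FF L N) :
      FF L N →+* FF L N) (jBC L N) = jBC L N := arith_jBC N σ
  rw [h1, h2] at h
  exact h

/-- (K3-σ)(i), ring-hom form: integrality over `L[j]` (along `p ↦ p(j)`) is preserved. -/
theorem isIntegralElem_arith (σ : L ≃ₐ[ℚ] L) (x : FF L N)
    (h : ((Polynomial.aeval (jBC L N) : Polynomial L →ₐ[L] FF L N) :
      Polynomial L →+* FF L N).IsIntegralElem x) :
    ((Polynomial.aeval (jBC L N) : Polynomial L →ₐ[L] FF L N) :
      Polynomial L →+* FF L N).IsIntegralElem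
        (arithmeticRingAut (modularFunctionFieldFull N) σ x) :=
  isIntegralElem_map _
    ((arithmeticRingAut (modularFunctionFieldFull N) σ : FF L N ≃+* FF L N) : FF L N →+* FF L N)
    (Polynomial.mapRingHom (σ : L →+* L)) (fun p => arith_aeval_jBC N σ p) h

/-- The arithmetic automorphism maps `L[j]` into itself. -/
theorem arith_mem_adjoin (σ : L ≃ₐ[ℚ] L) {y : FF L N}
    (hy : y ∈ Algebra.adjoin L {jBC L N}) :
    arithmeticRingAut (modularFunctionFieldFull N) σ y ∈ Algebra.adjoin L {jBC L N} := by
  rw [Algebra.adjoin_singleton_eq_range_aeval] at hy ⊢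
  obtain ⟨p, rfl⟩ := hy
  exact ⟨p.map (σ : L →+* L), (arith_aeval_jBC N σ p).symm⟩

/-- (K3-σ)(i), subalgebra form: integrality over `L[j] = Algebra.adjoin L {j}` is preserved. -/
theorem isIntegral_arith (σ : L ≃ₐ[ℚ] L) (x : FF L N)
    (h : IsIntegral (Algebra.adjoin L {jBC L N}) x) :
    IsIntegral (Algebra.adjoin L {jBC L N})
      (arithmeticRingAut (modularFunctionFieldFull N) σ x) := by
  let A := Algebra.adjoin L {jBC L N}
  let ρ : A →+* A :=
    { toFun := fun y => ⟨arithmeticRingAut (modularFunctionFieldFull N) σ y,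
        arith_mem_adjoin N σ y.2⟩
      map_one' := Subtype.ext (map_one _)
      map_mul' := fun a b => Subtype.ext (map_mul _ _ _)
      map_zero' := Subtype.ext (map_zero _)
      map_add' := fun a b => Subtype.ext (map_add _ _ _) }
  exact isIntegralElem_map (algebraMap A (FF L N))
    ((arithmeticRingAut (modularFunctionFieldFull N) σ : FF L N ≃+* FF L N) : FF L N →+* FF L N)
    ρ (fun r => rfl) h

/-- (K3-σ)(i), iff form. -/
theorem isIntegral_arith_iff (σ : L ≃ₐ[ℚ] L) (x : FF L N) :
    IsIntegral (Algebra.adjoin L {jBC L N})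
      (arithmeticRingAut (modularFunctionFieldFull N) σ x)
      ↔ IsIntegral (Algebra.adjoin L {jBC L N}) x := by
  refine ⟨fun h => ?_, isIntegral_arith N σ x⟩
  have h1 := isIntegral_arith N σ.symm _ h
  have h2 : arithmeticRingAut (modularFunctionFieldFull N) σ.symm
      (arithmeticRingAut (modularFunctionFieldFull N) σ x) = x :=
    (arithmeticRingAut (modularFunctionFieldFull N) σ).symm_apply_apply x
  rwa [h2] at h1

/-- The `q`-expansion of `τ x` is the coefficientwise image of the `q`-expansion of `x`. -/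
theorem coe_arith (σ : L ≃ₐ[ℚ] L) (x : FF L N) :
    ((arithmeticRingAut (modularFunctionFieldFull N) σ x : FF L N) : LaurentSeries L)
      = coeffMap (σ : L →+* L) (x : LaurentSeries L) := rfl

/-- Convenience for automorphisms given as ring automorphisms (e.g. from `AutC`): the
`q`-expansion of `τ x` for `σ.toRatAlgEquiv`. -/
theorem coe_arith_toRat (σ : L ≃+* L) (x : FF L N) :
    ((arithmeticRingAut (modularFunctionFieldFull N) σ.toRatAlgEquiv x : FF L N) :
      LaurentSeries L) = coeffMap (σ : L →+* L) (x : LaurentSeries L) := rfl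

/-- The arithmetic automorphism of `σ⁻¹` undoes that of `σ`. -/
theorem arith_symm_arith (σ : L ≃ₐ[ℚ] L) (x : FF L N) :
    arithmeticRingAut (modularFunctionFieldFull N) σ.symm
      (arithmeticRingAut (modularFunctionFieldFull N) σ x) = x :=
  (arithmeticRingAut (modularFunctionFieldFull N) σ).symm_apply_apply x

/-- The arithmetic automorphism of `σ` undoes that of `σ⁻¹`. -/
theorem arith_arith_symm (σ : L ≃ₐ[ℚ] L) (x : FF L N) :
    arithmeticRingAut (modularFunctionFieldFull N) σ
      (arithmeticRingAut (modularFunctionFieldFull N) σ.symm x) = x :=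
  (arithmeticRingAut (modularFunctionFieldFull N) σ).apply_symm_apply x

end Arith

end

end Fermat.Agent.S29.PlaceAut
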