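import Mathlib
import Fermat.Agent.S20.Elliptic
import Fermat.Agent.S20.Conjugates

/-!
# S29 (package R): holomorphic `p`-th roots on the upper half-plane

A holomorphic function on `ℍ`, not identically zero, all of whose vanishing orders are divisible
by `p`, has a holomorphic `p`-th root; the root is unique up to a `p`-th root of unity, and a root
of a function which is invariant under a group `Γ` transforms under `Γ` by a character with values
in the `p`-th roots of unity.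
-/

set_option autoImplicit false

open UpperHalfPlane hiding I
open Complex Filter Topology Metric Set
open scoped MatrixGroups Manifold

namespace Fermat.Agent.S29.Root

/-! ## Part 1: complex analysis on balls -/

/-- A nonvanishing holomorphic function on a ball is the exponential of a holomorphic function. -/
theorem exists_eq_exp_on_ball {g : ℂ → ℂ} {c : ℂ} {r : ℝ}
    (hg : DifferentiableOn ℂ g (ball c r)) (hne : ∀ z ∈ ball c r, g z ≠ 0) :
    ∃ h : ℂ → ℂ, DifferentiableOn ℂ h (ball c r) ∧ ∀ z ∈ ball c r, g z = Complex.exp (h z) := by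
  have hopen : IsOpen (ball c r) := isOpen_ball
  have hconn : IsPreconnected (ball c r) := (convex_ball c r).isPreconnected
  have hdg : DifferentiableOn ℂ (deriv g) (ball c r) := hg.deriv hopen
  have hlog : DifferentiableOn ℂ (logDeriv g) (ball c r) := by
    have : logDeriv g = fun z => deriv g z / g z := by
      funext z; rfl
    rw [this]
    exact hdg.div hg hne
  obtain ⟨H, hH⟩ := hlog.isExactOn_ball
  have hHd : DifferentiableOn ℂ H (ball c r) :=
    fun z hz => (hH z hz).differentiableAt.differentiableWithinAt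
  have hE : DifferentiableOn ℂ (fun z => Complex.exp (H z)) (ball c r) := hHd.cexp
  have hEne : ∀ z ∈ ball c r, (fun z => Complex.exp (H z)) z ≠ 0 := fun z _ => Complex.exp_ne_zero _
  have hld : EqOn (logDeriv g) (logDeriv (fun z => Complex.exp (H z))) (ball c r) := by
    intro z hz
    have h1 : HasDerivAt (fun z => Complex.exp (H z)) (Complex.exp (H z) * logDeriv g z) z :=
      (hH z hz).cexp
    rw [logDeriv_apply (fun z => Complex.exp (H z)), h1.deriv]
    field_simp [Complex.exp_ne_zero]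
  obtain ⟨a, ha0, ha⟩ := (logDeriv_eqOn_iff hg hE hopen hconn hEne hne).mp hld
  refine ⟨fun z => H z + Complex.log a, hHd.add_const _, fun z hz => ?_⟩
  have := ha hz
  simp only [Pi.smul_apply, smul_eq_mul] at this
  rw [this, Complex.exp_add, Complex.exp_log ha0, mul_comm]

/-! ## Part 2: roots on a ball whose closure lies in the domain of analyticity -/

/-- If two functions which are continuous at every point of an open set `D ⊆ K` agree on a set
codiscrete within `K`, they agree on `D`. -/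
theorem eqOn_of_codiscreteWithin {F G : ℂ → ℂ} {K D : Set ℂ} (hD : IsOpen D) (hDK : D ⊆ K)
    (hF : ∀ z ∈ D, ContinuousAt F z) (hG : ∀ z ∈ D, ContinuousAt G z)
    (h : F =ᶠ[codiscreteWithin K] G) : EqOn F G D := by
  intro x hx
  have h1 : {y | F y = G y} ∪ Kᶜ ∈ 𝓝[≠] x :=
    mem_codiscreteWithin_iff_forall_mem_nhdsNE.mp h x (hDK hx)
  have h2 : D ∈ 𝓝[≠] x := mem_nhdsWithin_of_mem_nhds (hD.mem_nhds hx)
  have h3 : F =ᶠ[𝓝[≠] x] G := by
    filter_upwards [h1, h2] with y hy hyD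
    rcases hy with hy | hy
    · exact hy
    · exact absurd (hDK hyD) hy
  exact ((hF x hx).eventuallyEq_nhds_iff_eventuallyEq_nhdsNE (hG x hx)).mp h3 |>.self_of_nhds

/-- **Local roots.** A function analytic near a closed ball, not locally zero, all of whose
vanishing orders on the closed ball are divisible by `p`, has a holomorphic `p`-th root on the
open ball. -/
theorem exists_root_on_ball (p : ℕ) (hp : 0 < p) {F : ℂ → ℂ} {c : ℂ} {r : ℝ}
    (hF : AnalyticOnNhd ℂ F (closedBall c r))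
    (hfin : ∀ z ∈ closedBall c r, analyticOrderAt F z ≠ ⊤)
    (hord : ∀ z ∈ closedBall c r, p ∣ analyticOrderNatAt F z) :
    ∃ u : ℂ → ℂ, DifferentiableOn ℂ u (ball c r) ∧ ∀ z ∈ ball c r, u z ^ p = F z := by
  classical
  set K : Set ℂ := closedBall c r with hK
  have hmer : MeromorphicOn F K := hF.meromorphicOn
  have h₂ : ∀ u : K, meromorphicOrderAt F u ≠ ⊤ := by
    rintro ⟨u, hu⟩
    rw [(hF u hu).meromorphicOrderAt_eq]
    intro h
    rw [ENat.map_eq_top_iff] at h
    exact hfin u hu h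
  have h₃ : (MeromorphicOn.divisor F K).support.Finite :=
    (MeromorphicOn.divisor F K).finiteSupport (isCompact_closedBall c r)
  obtain ⟨g, hgan, hgne, hEq⟩ := hmer.extract_zeros_poles h₂ h₃
  set d : ℂ → ℤ := fun u => MeromorphicOn.divisor F K u with hd
  have hdval : ∀ u, d u = ((if u ∈ K then analyticOrderNatAt F u else 0 : ℕ) : ℤ) := by
    intro u
    by_cases hu : u ∈ K
    · rw [if_pos hu, hd]
      show MeromorphicOn.divisor F K u = _
      rw [MeromorphicOn.AnalyticOnNhd.divisor_apply hF hu]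
      have hne := hfin u hu
      obtain ⟨n, hn⟩ := ENat.ne_top_iff_exists.mp hne
      rw [analyticOrderNatAt, ← hn]
      simp
    · rw [if_neg hu, hd]
      show MeromorphicOn.divisor F K u = _
      rw [Function.locallyFinsuppWithin.apply_eq_zero_of_notMem _ hu]
      simp
  set e : ℂ → ℤ := fun u => ((if u ∈ K then analyticOrderNatAt F u / p else 0 : ℕ) : ℤ) with he
  have hde : ∀ u, d u = e u * p := by
    intro u
    rw [hdval, he]
    by_cases hu : u ∈ K
    · simp only [if_pos hu]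
      obtain ⟨m, hm⟩ := hord u hu
      rw [hm, Nat.mul_div_cancel_left m hp]
      push_cast
      ring
    · simp [if_neg hu]
  have he0 : ∀ u, 0 ≤ e u := fun u => by rw [he]; positivity
  have hdfin : d.HasFiniteSupport := h₃
  have hefin : e.HasFiniteSupport := by
    refine Set.Finite.subset h₃ ?_
    intro u hu
    have hu' : e u ≠ 0 := hu
    show d u ≠ 0
    rw [hde]
    exact mul_ne_zero hu' (by exact_mod_cast hp.ne')
  set Q : ℂ → ℂ := ∏ᶠ u, (· - u) ^ e u with hQ
  have hQan : ∀ x, AnalyticAt ℂ Q x := fun x => Function.FactorizedRational.analyticAt (he0 x)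
  have hQp : ∀ x, Q x ^ p = (∏ᶠ u, (· - u) ^ d u) x := by
    intro x
    rw [hQ, Function.FactorizedRational.finprod_eq_fun hefin,
      Function.FactorizedRational.finprod_eq_fun hdfin]
    show (∏ᶠ u, (x - u) ^ e u) ^ p = ∏ᶠ u, (x - u) ^ d u
    have hfs : (fun u => (x - u) ^ e u).HasFiniteMulSupport := by
      refine Set.Finite.subset hefin ?_
      intro u hu
      have hu' : (x - u) ^ e u ≠ 1 := hu
      show e u ≠ 0
      intro h0
      exact hu' (by rw [h0, zpow_zero])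
    rw [finprod_pow hfs]
    refine finprod_congr fun u => ?_
    rw [hde u, zpow_mul]
    exact (zpow_natCast _ _).symm
  have hball : ball c r ⊆ K := ball_subset_closedBall
  have hFeq : ∀ z ∈ ball c r, F z = Q z ^ p * g z := by
    have hcont1 : ∀ z ∈ ball c r, ContinuousAt F z := fun z hz => (hF z (hball hz)).continuousAt
    have hcont2 : ∀ z ∈ ball c r, ContinuousAt (fun z => Q z ^ p * g z) z := fun z hz =>
      (((hQan z).pow p).mul (hgan z (hball hz))).continuousAt
    have hEq' : F =ᶠ[codiscreteWithin K] fun z => Q z ^ p * g z := by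
      filter_upwards [hEq] with z hz
      rw [hz, Pi.smul_apply', smul_eq_mul, hQp]
    exact eqOn_of_codiscreteWithin isOpen_ball hball hcont1 hcont2 hEq'
  have hgd : DifferentiableOn ℂ g (ball c r) := fun z hz =>
    (hgan z (hball hz)).differentiableAt.differentiableWithinAt
  obtain ⟨h, hhd, hh⟩ := exists_eq_exp_on_ball hgd (fun z hz => hgne ⟨z, hball hz⟩)
  refine ⟨fun z => Q z * Complex.exp (h z / p), ?_, fun z hz => ?_⟩
  · have hQd : DifferentiableOn ℂ Q (ball c r) := fun z _ =>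
      (hQan z).differentiableAt.differentiableWithinAt
    exact hQd.mul (hhd.div_const _).cexp
  · show (Q z * Complex.exp (h z / p)) ^ p = F z
    rw [hFeq z hz, hh z hz, mul_pow, ← Complex.exp_nat_mul]
    congr 2
    have hp' : (p : ℂ) ≠ 0 := by exact_mod_cast hp.ne'
    field_simp

/-! ## Part 3: uniqueness of roots and gluing on the upper half-plane -/

/-- The `p`-th roots of unity different from `1` stay away from `1`. -/
theorem eventually_eq_one_of_pow_eq_one {p : ℕ} (hp : 0 < p) :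
    ∀ᶠ ζ in 𝓝 (1 : ℂ), ζ ^ p = 1 → ζ = 1 := by
  classical
  have hfin : ({ζ : ℂ | ζ ^ p = 1 ∧ ζ ≠ 1} : Set ℂ).Finite := by
    refine Set.Finite.subset (Polynomial.nthRootsFinset p (1 : ℂ)).finite_toSet ?_
    intro ζ hζ
    exact (Polynomial.mem_nthRootsFinset hp 1).mpr hζ.1
  have hopen : IsOpen ({ζ : ℂ | ζ ^ p = 1 ∧ ζ ≠ 1}ᶜ : Set ℂ) := hfin.isClosed.isOpen_compl
  have hmem : (1 : ℂ) ∈ ({ζ : ℂ | ζ ^ p = 1 ∧ ζ ≠ 1}ᶜ : Set ℂ) := fun h => h.2 rfl
  filter_upwards [hopen.mem_nhds hmem] with ζ hζ h1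
  by_contra hne
  exact hζ ⟨h1, hne⟩

/-- Two `p`-th roots of the same function on a preconnected open set which agree at one point
where they do not vanish agree everywhere. -/
theorem eqOn_of_pow_eq {p : ℕ} (hp : 0 < p) {u v : ℂ → ℂ} {S : Set ℂ} (hS : IsOpen S)
    (hSc : IsPreconnected S) (hu : DifferentiableOn ℂ u S) (hv : DifferentiableOn ℂ v S)
    (h : ∀ z ∈ S, u z ^ p = v z ^ p) {z₀ : ℂ} (hz₀ : z₀ ∈ S) (h0 : u z₀ = v z₀)
    (hne : v z₀ ≠ 0) : EqOn u v S := by
  have hua : AnalyticOnNhd ℂ u S := hu.analyticOnNhd hS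
  have hva : AnalyticOnNhd ℂ v S := hv.analyticOnNhd hS
  refine hua.eqOn_of_preconnected_of_eventuallyEq hva hSc hz₀ ?_
  have hcu : ContinuousAt u z₀ := (hua z₀ hz₀).continuousAt
  have hcv : ContinuousAt v z₀ := (hva z₀ hz₀).continuousAt
  have hq : ContinuousAt (fun z => u z / v z) z₀ := hcu.div hcv hne
  have hq1 : u z₀ / v z₀ = 1 := by
    rw [h0, div_self hne]
  have hev : ∀ᶠ z in 𝓝 z₀, (u z / v z) ^ p = 1 → u z / v z = 1 := by
    have hten : Tendsto (fun z => u z / v z) (𝓝 z₀) (𝓝 1) := by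
      have := hq.tendsto
      rwa [hq1] at this
    exact hten.eventually (eventually_eq_one_of_pow_eq_one hp)
  filter_upwards [hev, hS.mem_nhds hz₀, hcv.eventually_ne hne] with z hz hzS hvz
  have h1 : (u z / v z) ^ p = 1 := by
    rw [div_pow, h z hzS, div_self (pow_ne_zero p hvz)]
  have h2 := hz h1
  rwa [div_eq_one_iff_eq hvz] at h2

/-- Two points of the upper half-plane lie in a common ball whose closure is contained in the
upper half-plane. -/
theorem exists_ball_two_points {z w : ℂ} (hz : 0 < z.im) (hw : 0 < w.im) :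
    ∃ (c : ℂ) (r : ℝ), z ∈ ball c r ∧ w ∈ ball c r ∧ closedBall c r ⊆ {x : ℂ | 0 < x.im} := by
  set m : ℝ := min z.im w.im with hm
  have hm0 : 0 < m := lt_min hz hw
  have hmz : m ≤ z.im := min_le_left _ _
  have hmw : m ≤ w.im := min_le_right _ _
  set Δ : ℝ := z.re - w.re with hΔ
  set T : ℝ := (Δ ^ 2 / 4 + 1) / (m / 2) + z.im + w.im with hT
  have hT1 : (m / 2) * T ≥ Δ ^ 2 / 4 + 1 := by
    have h1 : (m / 2) * ((Δ ^ 2 / 4 + 1) / (m / 2)) = Δ ^ 2 / 4 + 1 := by
      field_simp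
    have h2 : 0 ≤ (m / 2) * (z.im + w.im) := by positivity
    rw [hT]
    nlinarith
  have hTz : z.im + w.im ≤ T := by
    have : 0 ≤ (Δ ^ 2 / 4 + 1) / (m / 2) := by positivity
    rw [hT]
    linarith
  set c : ℂ := ⟨(z.re + w.re) / 2, T⟩ with hc
  set ρ : ℝ := T - m / 2 with hρ
  have hρ0 : 0 < ρ := by rw [hρ]; linarith
  have key : ∀ x : ℂ, m ≤ x.im → x.im ≤ z.im + w.im → (x.re - (z.re + w.re) / 2) ^ 2 = Δ ^ 2 / 4 →
      x ∈ ball c ρ := by
    intro x hx1 hx2 hx3
    rw [mem_ball, Complex.dist_eq]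
    refine lt_of_pow_lt_pow_left₀ 2 hρ0.le ?_
    rw [Complex.sq_norm, Complex.normSq_apply]
    have hre : (x - c).re = x.re - (z.re + w.re) / 2 := by simp [hc]
    have him : (x - c).im = x.im - T := by simp [hc]
    rw [hre, him, hρ]
    nlinarith
  refine ⟨c, ρ, key z hmz (by linarith) (by rw [hΔ]; ring), key w hmw (by linarith)
    (by rw [hΔ]; ring), ?_⟩
  intro x hx
  rw [mem_closedBall, Complex.dist_eq] at hx
  have h1 : |(x - c).im| ≤ ‖x - c‖ := Complex.abs_im_le_norm _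
  have him : (x - c).im = x.im - T := by simp [hc]
  rw [him] at h1
  have h2 := (abs_le.mp (h1.trans hx)).1
  show 0 < x.im
  rw [hρ] at h2
  linarith

/-- **Global roots on the upper half-plane (function on `ℂ`).** -/
theorem exists_root_on_upperHalfPlaneSet (p : ℕ) (hp : 0 < p) {F : ℂ → ℂ}
    (hF : DifferentiableOn ℂ F {z : ℂ | 0 < z.im})
    (hfin : ∀ z : ℂ, 0 < z.im → analyticOrderAt F z ≠ ⊤)
    (hord : ∀ z : ℂ, 0 < z.im → p ∣ analyticOrderNatAt F z) :
    ∃ G : ℂ → ℂ, DifferentiableOn ℂ G {z : ℂ | 0 < z.im} ∧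
      ∀ z : ℂ, 0 < z.im → G z ^ p = F z := by
  classical
  set U : Set ℂ := {z : ℂ | 0 < z.im} with hU
  have hUo : IsOpen U := isOpen_lt continuous_const Complex.continuous_im
  have hFan : AnalyticOnNhd ℂ F U := hF.analyticOnNhd hUo
  -- a base point where `F` does not vanish
  obtain ⟨z₀, hz₀U, hz₀⟩ : ∃ z₀ ∈ U, F z₀ ≠ 0 := by
    have hI : Complex.I ∈ U := by simp [hU]
    have h1 : ¬ ∀ᶠ z in 𝓝 Complex.I, F z = 0 := fun h =>
      hfin Complex.I (by simp) (analyticOrderAt_eq_top.mpr h)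
    have h2 : ∃ᶠ z in 𝓝 Complex.I, F z ≠ 0 := Filter.not_eventually.mp h1
    obtain ⟨z₀, hz₀, hz₀U⟩ := (h2.and_eventually (hUo.mem_nhds hI)).exists
    exact ⟨z₀, hz₀U, hz₀⟩
  obtain ⟨r₀, hr₀⟩ := IsAlgClosed.exists_pow_nat_eq (F z₀) hp
  have hr₀ne : r₀ ≠ 0 := by
    rintro rfl
    rw [zero_pow hp.ne'] at hr₀
    exact hz₀ hr₀.symm
  -- normalised local roots
  have key : ∀ z, z ∈ U → ∃ (c : ℂ) (r : ℝ) (v : ℂ → ℂ), z ∈ ball c r ∧ z₀ ∈ ball c r ∧
      closedBall c r ⊆ U ∧ DifferentiableOn ℂ v (ball c r) ∧ (∀ w ∈ ball c r, v w ^ p = F w) ∧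
      v z₀ = r₀ := by
    intro z hz
    obtain ⟨c, r, hzc, hz₀c, hsub⟩ := exists_ball_two_points hz hz₀U
    obtain ⟨u, hud, hup⟩ := exists_root_on_ball p hp (hFan.mono hsub)
      (fun w hw => hfin w (hsub hw)) (fun w hw => hord w (hsub hw))
    have hu0 : u z₀ ≠ 0 := by
      intro h0
      have := hup z₀ hz₀c
      rw [h0, zero_pow hp.ne'] at this
      exact hz₀ this.symm
    refine ⟨c, r, fun w => r₀ / u z₀ * u w, hzc, hz₀c, hsub, hud.const_mul _, fun w hw => ?_, ?_⟩
    · show (r₀ / u z₀ * u w) ^ p = F w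
      rw [mul_pow, div_pow, hr₀, hup z₀ hz₀c, div_self hz₀, one_mul, hup w hw]
    · show r₀ / u z₀ * u z₀ = r₀
      field_simp
  choose! c r v hzc hz₀c hsub hvd hvp hv0 using key
  have hglue : ∀ z ∈ U, ∀ w ∈ ball (c z) (r z), v w w = v z w := by
    intro z hz w hw
    have hwU : w ∈ U := hsub z hz (ball_subset_closedBall hw)
    have hSo : IsOpen (ball (c w) (r w) ∩ ball (c z) (r z)) := isOpen_ball.inter isOpen_ball
    have hSc : IsPreconnected (ball (c w) (r w) ∩ ball (c z) (r z)) :=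
      ((convex_ball _ _).inter (convex_ball _ _)).isPreconnected
    have hE := eqOn_of_pow_eq hp hSo hSc ((hvd w hwU).mono inter_subset_left)
      ((hvd z hz).mono inter_subset_right)
      (fun x hx => by rw [hvp w hwU x hx.1, hvp z hz x hx.2])
      (z₀ := z₀) ⟨hz₀c w hwU, hz₀c z hz⟩ (by rw [hv0 w hwU, hv0 z hz])
      (by rw [hv0 z hz]; exact hr₀ne)
    exact hE ⟨hzc w hwU, hw⟩
  refine ⟨fun z => v z z, fun z hz => ?_, fun z hz => hvp z hz z (hzc z hz)⟩
  have hd : DifferentiableAt ℂ (v z) z :=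
    (hvd z hz).differentiableAt (isOpen_ball.mem_nhds (hzc z hz))
  have hev : (fun w => v w w) =ᶠ[𝓝 z] v z := by
    filter_upwards [isOpen_ball.mem_nhds (hzc z hz)] with w hw
    exact hglue z hz w hw
  exact (hd.congr_of_eventuallyEq hev).differentiableWithinAt

/-! ## Part 4: statements on `ℍ` (S20 currency: `MDiff`, `ordAt`) -/

open Fermat.Agent.S20 Fermat.Agent.S20.Elliptic

/-- **(R1)** A holomorphic function on `ℍ`, not identically zero, all of whose vanishing orders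
are divisible by `p`, has a holomorphic `p`-th root. -/
theorem exists_root (p : ℕ) (hp : 0 < p) (f : ℍ → ℂ) (hf : MDiff f) (hf0 : f ≠ 0)
    (hord : ∀ z : ℍ, p ∣ (ordAt f z).toNat) :
    ∃ u : ℍ → ℂ, MDiff u ∧ ∀ z : ℍ, u z ^ p = f z := by
  have hF : DifferentiableOn ℂ (f ∘ ofComplex) {z : ℂ | 0 < z.im} :=
    UpperHalfPlane.mdifferentiable_iff.mp hf
  have h1 : ∀ z : ℂ, 0 < z.im → analyticOrderAt (f ∘ ofComplex) z ≠ ⊤ := by
    intro z hz h
    exact hf0 ((ordAt_eq_top_iff hf (z := ⟨z, hz⟩)).mp h)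
  have h2 : ∀ z : ℂ, 0 < z.im → p ∣ analyticOrderNatAt (f ∘ ofComplex) z := by
    intro z hz
    exact hord ⟨z, hz⟩
  obtain ⟨G, hG, hGp⟩ := exists_root_on_upperHalfPlaneSet p hp hF h1 h2
  refine ⟨fun z => G z, ?_, fun z => ?_⟩
  · rw [UpperHalfPlane.mdifferentiable_iff]
    refine hG.congr fun w hw => ?_
    show G (ofComplex w) = G w
    rw [ofComplex_apply_of_im_pos hw]
  · show G z ^ p = f z
    rw [hGp z z.im_pos, comp_ofComplex_apply]

/-- **(R2)** Holomorphic `p`-th roots on `ℍ` are unique up to a `p`-th root of unity. -/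
theorem root_unique {p : ℕ} (hp : 0 < p) {u v : ℍ → ℂ} (hu : MDiff u) (hv : MDiff v)
    (hv0 : v ≠ 0) (h : ∀ z : ℍ, u z ^ p = v z ^ p) :
    ∃ ζ : ℂ, ζ ^ p = 1 ∧ ∀ z : ℍ, u z = ζ * v z := by
  obtain ⟨z₀, hz₀⟩ : ∃ z₀ : ℍ, v z₀ ≠ 0 := by
    by_contra hcon
    push Not at hcon
    exact hv0 (funext hcon)
  set ζ : ℂ := u z₀ / v z₀ with hζ
  have hζp : ζ ^ p = 1 := by
    rw [hζ, div_pow, h z₀, div_self (pow_ne_zero p hz₀)]
  have hζ0 : ζ ≠ 0 := by
    rintro h0
    rw [h0, zero_pow hp.ne'] at hζp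
    exact zero_ne_one hζp
  refine ⟨ζ, hζp, ?_⟩
  have hU : DifferentiableOn ℂ (u ∘ ofComplex) {z : ℂ | 0 < z.im} :=
    UpperHalfPlane.mdifferentiable_iff.mp hu
  have hV : DifferentiableOn ℂ (fun w => ζ * (v ∘ ofComplex) w) {z : ℂ | 0 < z.im} :=
    (UpperHalfPlane.mdifferentiable_iff.mp hv).const_mul ζ
  have hopen : IsOpen {z : ℂ | 0 < z.im} := isOpen_lt continuous_const Complex.continuous_im
  have hconn : IsPreconnected {z : ℂ | 0 < z.im} := (convex_halfSpace_im_gt 0).isPreconnected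
  have hE := eqOn_of_pow_eq hp hopen hconn hU hV
    (fun w hw => by
      have hw' : 0 < w.im := hw
      show (u (ofComplex w)) ^ p = (ζ * v (ofComplex w)) ^ p
      rw [mul_pow, hζp, one_mul, h])
    (z₀ := (z₀ : ℂ)) z₀.im_pos
    (by
      show (u ∘ ofComplex) (z₀ : ℂ) = ζ * (v ∘ ofComplex) (z₀ : ℂ)
      rw [comp_ofComplex_apply, comp_ofComplex_apply, hζ]
      field_simp)
    (by
      show ζ * (v ∘ ofComplex) (z₀ : ℂ) ≠ 0
      rw [comp_ofComplex_apply]
      exact mul_ne_zero hζ0 hz₀)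
  intro z
  have := hE z.im_pos
  simp only [] at this
  rw [comp_ofComplex_apply, comp_ofComplex_apply] at this
  exact this

/-- **(R3)** If the `p`-th power of a nonzero holomorphic function `u` on `ℍ` is invariant under
a subgroup `Γ` of `SL(2,ℤ)`, then `u` transforms under `Γ` by a character with values in the
`p`-th roots of unity. -/
theorem exists_multiplier {p : ℕ} (hp : 0 < p) {u : ℍ → ℂ} (hu : MDiff u) (hu0 : u ≠ 0)
    (Γ : Subgroup SL(2, ℤ)) (h : ∀ γ ∈ Γ, ∀ z : ℍ, u (γ • z) ^ p = u z ^ p) :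
    ∃ χ : Γ →* ℂˣ, (∀ γ, χ γ ^ p = 1) ∧
      ∀ (γ : Γ) (z : ℍ), u ((γ : SL(2, ℤ)) • z) = (χ γ : ℂ) * u z := by
  obtain ⟨z₁, hz₁⟩ : ∃ z₁ : ℍ, u z₁ ≠ 0 := by
    by_contra hcon
    push Not at hcon
    exact hu0 (funext hcon)
  have key : ∀ γ : Γ, ∃ ζ : ℂ, ζ ^ p = 1 ∧ ∀ z : ℍ, u ((γ : SL(2, ℤ)) • z) = ζ * u z := fun γ =>
    root_unique hp (mdiff_comp_smul hu (γ : SL(2, ℤ))) hu hu0 (h γ γ.2)
  choose ζ hζp hζ using key
  let χ₀ : Γ →* ℂ :=
    { toFun := ζ
      map_one' := by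
        have h1 := hζ 1 z₁
        rw [Subgroup.coe_one, one_smul] at h1
        have h2 : (1 : ℂ) * u z₁ = ζ 1 * u z₁ := by rw [one_mul]; exact h1
        exact (mul_right_cancel₀ hz₁ h2).symm
      map_mul' := by
        intro γ γ'
        have h1 := hζ (γ * γ') z₁
        rw [Subgroup.coe_mul, mul_smul, hζ γ, hζ γ'] at h1
        have h2 : ζ (γ * γ') * u z₁ = ζ γ * ζ γ' * u z₁ := by rw [← h1]; ring
        exact mul_right_cancel₀ hz₁ h2 }
  refine ⟨χ₀.toHomUnits, fun γ => ?_, fun γ z => ?_⟩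
  · apply Units.ext
    rw [Units.val_pow_eq_pow_val, MonoidHom.coe_toHomUnits]
    exact hζp γ
  · rw [MonoidHom.coe_toHomUnits]
    exact hζ γ z

/-- **(R1) + (R3)** The root of a `Γ`-invariant function together with its multiplier. -/
theorem exists_root_multiplier (p : ℕ) (hp : 0 < p) (f : ℍ → ℂ) (hf : MDiff f) (hf0 : f ≠ 0)
    (hord : ∀ z : ℍ, p ∣ (ordAt f z).toNat) (Γ : Subgroup SL(2, ℤ))
    (hinv : ∀ γ ∈ Γ, ∀ z : ℍ, f (γ • z) = f z) :
    ∃ u : ℍ → ℂ, MDiff u ∧ (∀ z : ℍ, u z ^ p = f z) ∧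
      ∃ χ : Γ →* ℂˣ, (∀ γ, χ γ ^ p = 1) ∧
        ∀ (γ : Γ) (z : ℍ), u ((γ : SL(2, ℤ)) • z) = (χ γ : ℂ) * u z := by
  obtain ⟨u, hu, hup⟩ := exists_root p hp f hf hf0 hord
  have hu0 : u ≠ 0 := by
    rintro rfl
    apply hf0
    funext z
    rw [← hup z]
    simp [zero_pow hp.ne']
  exact ⟨u, hu, hup, exists_multiplier hp hu hu0 Γ
    (fun γ hγ z => by rw [hup, hup, hinv γ hγ z])⟩

end Fermat.Agent.S29.Root
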