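import Mathlib
import Fermat.Agent.S29.DescBasic
import Fermat.Agent.S29.PlaceAut
import Fermat.Agent.S29.Root
import Fermat.Agent.S24.QIsoFinal
import Fermat.Agent.S24.CoeffBC
import Fermat.Agent.S22.Cocycle

set_option autoImplicit false

open UpperHalfPlane hiding I
open Complex Filter Function Polynomial ModularCurve CongruenceSubgroup AlgebraicCurve
open scoped Topology Manifold MatrixGroups

/-!
# S29 (wave 5), K3 (descent `ℂ → ℚ̄`): the core argument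

Given a multiplier function `u₁` on `ℍ` for a character `χ` of `Γ₀(N)` of exponent `m`
(`u₁ ∘ γ = χ(γ) u₁`, `u₁ ^ m` weakly holomorphic, `χ(T) = 1`, all orders of `u₁ ^ m` at the
places of `FF ℂ N` divisible by `m`), we produce a multiplier function `u` for the same `χ` whose
`q`-expansion has coefficients in `ℚ̄`, so that `u ^ m` comes from `FF ℚ̄ N`.

The proof is a Galois descent (`DescBasic.exists_algebraic_of_stable'`) for the finite family of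
spaces `W χ'` of `q`-expansions of multiplier functions: an automorphism `σ` of `ℂ` maps
`u ∈ W χ` to the `m`-th root of the `σ`-conjugate of `u ^ m`.  The analytic and arithmetic inputs
(dictionary between `WH Γ₀(N)` and `FF ℂ N`, Sturm bound, roots of `q`-expansions, descent of
membership in the function field) are collected in the structure `Inputs`; they are proved in
separate files.
-/

namespace Fermat.Agent.S29.Desc

open Fermat.Agent.S20 Fermat.Agent.S24 Fermat.Agent.S22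

local notation "Qb" => AlgebraicClosure ℚ
local notation "Δ" => ModularForm.discriminant

/-! ### Bounded functions at `i∞` -/

theorem bdd_pow {F : ℍ → ℂ} (h : IsBoundedAtImInfty F) (n : ℕ) :
    IsBoundedAtImInfty (fun z => F z ^ n) := by
  induction n with
  | zero =>
    simp only [pow_zero]
    exact Filter.const_boundedAtFilter _ (1 : ℂ)
  | succ n ih =>
    have := ih.mul h
    have e : (fun z => F z ^ (n + 1)) = (fun z => F z ^ n) * F := by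
      funext z
      simp [pow_succ]
    rw [e]
    exact this

theorem bdd_of_pow_bdd {F : ℍ → ℂ} {n : ℕ} (hn : 0 < n)
    (h : IsBoundedAtImInfty (fun z => F z ^ n)) : IsBoundedAtImInfty F := by
  rw [UpperHalfPlane.isBoundedAtImInfty_iff] at h ⊢
  obtain ⟨A, B, hAB⟩ := h
  refine ⟨max A 1, B, fun z hz => ?_⟩
  have h1 := hAB z hz
  rw [norm_pow] at h1
  by_cases h2 : ‖F z‖ ≤ 1
  · exact h2.trans (le_max_right _ _)
  · push Not at h2
    have h3 : ‖F z‖ ≤ ‖F z‖ ^ n := le_self_pow₀ h2.le hn.ne'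
    exact (h3.trans h1).trans (le_max_left _ _)

/-! ### Multiplier functions -/

/-- `u` is holomorphic on `ℍ`, transforms under `Γ₀(N)` with the multiplier `χ`, and
`u(g z) Δ(z)^M` is bounded at `i∞` for every `g ∈ SL(2,ℤ)`. -/
structure IsMult (N M : ℕ) (χ : Gam N →* ℂˣ) (u : ℍ → ℂ) : Prop where
  mdiff : MDiff u
  mult : ∀ (γ : Gam N) (z : ℍ), u ((γ : SL(2, ℤ)) • z) = (χ γ : ℂ) * u z
  bdd : ∀ g : SL(2, ℤ), IsBoundedAtImInfty (fun z : ℍ => u (g • z) * Δ z ^ M)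

/-- the condition `χ(T) = 1` -/
def TTriv (N : ℕ) (χ : Gam N →* ℂˣ) : Prop :=
  ∀ γ : Gam N, (γ : SL(2, ℤ)) = ModularGroup.T → χ γ = 1

/-- `m` divides the order of (the element of `FF ℂ N` with `q`-expansion that of) `f` at every
place of `FF ℂ N`. -/
def DivAll (N m : ℕ) (f : ℍ → ℂ) : Prop :=
  ∀ x : S24.FF ℂ N, (x : LaurentSeries ℂ) = qLaurentFun f →
    ∀ v : Place ℂ (S24.FF ℂ N), (m : ℤ) ∣ v.ord x

/-- The inputs of the descent argument (proved in `DictWH`, `SturmRoot`, `RootQ`, `DescMem`). -/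
structure Inputs (N : ℕ) [NeZero N] : Prop where
  int_iff : ∀ x : S24.FF ℂ N, IsIntegral (Algebra.adjoin ℂ {S24.jBC ℂ N}) x ↔
    ∃ f : ℍ → ℂ, IsWH (Gamma0 N) f ∧ (x : LaurentSeries ℂ) = qLaurentFun f
  ord : ∀ (m : ℕ) (f : ℍ → ℂ), IsWH (Gamma0 N) f → f ≠ 0 → ∀ x : S24.FF ℂ N,
    (x : LaurentSeries ℂ) = qLaurentFun f →
    (∀ v : Place ℂ (S24.FF ℂ N), (m : ℤ) ∣ v.ord x) → ∀ z : ℍ, m ∣ (ordAt f z).toNat
  bdd : ∀ (c : ℕ) (f : ℍ → ℂ), IsWH (Gamma0 N) f → ∀ x : S24.FF ℂ N,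
    (x : LaurentSeries ℂ) = qLaurentFun f →
    ((∀ g : SL(2, ℤ), IsBoundedAtImInfty (fun z : ℍ => f (g • z) * Δ z ^ c)) ↔
      ∀ v : Place ℂ (S24.FF ℂ N), v.ord (S24.jBC ℂ N) < 0 →
        (c : ℤ) * v.ord (S24.jBC ℂ N) ≤ v.ord x)
  sturm : ∀ m : ℕ, 0 < m → ∀ M : ℕ, ∃ B : ℤ, ∀ u : ℍ → ℂ, MDiff u →
    (∀ z : ℍ, u ((1 : ℝ) +ᵥ z) = u z) →
    (∀ γ ∈ Gamma0 N, ∀ z : ℍ, u (γ • z) ^ m = u z ^ m) →
    (∀ g : SL(2, ℤ), IsBoundedAtImInfty (fun z : ℍ => u (g • z) * Δ z ^ M)) →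
    (∀ k : ℤ, k ≤ B → (qLaurentFun u).coeff k = 0) → u = 0
  root : ∀ m : ℕ, 0 < m → ∀ f : ℍ → ℂ, IsPM f → f ≠ 0 →
    (∀ z : ℍ, m ∣ (ordAt f z).toNat) → ∀ w : LaurentSeries ℂ, qLaurentFun f = w ^ m →
    ∃ u : ℍ → ℂ, MDiff u ∧ (∀ z, u z ^ m = f z) ∧ IsPM u ∧ qLaurentFun u = w
  mem : ∀ (ι : Qb →+* ℂ) (y : LaurentSeries Qb),
    ModularCurve.coeffMap ι y ∈ laurentBaseChange ℂ (modularFunctionFieldFull N) →
    y ∈ laurentBaseChange Qb (modularFunctionFieldFull N)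

variable {N M : ℕ} {χ : Gam N →* ℂˣ}

theorem IsMult.zero : IsMult N M χ (0 : ℍ → ℂ) where
  mdiff := mdifferentiable_const
  mult := fun γ z => by simp
  bdd := fun g => by
    simp only [Pi.zero_apply, zero_mul]
    exact Filter.const_boundedAtFilter _ (0 : ℂ)

theorem IsMult.add {u u' : ℍ → ℂ} (hu : IsMult N M χ u) (hu' : IsMult N M χ u') :
    IsMult N M χ (u + u') where
  mdiff := hu.mdiff.add hu'.mdiff
  mult := fun γ z => by
    simp only [Pi.add_apply]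
    rw [hu.mult, hu'.mult, mul_add]
  bdd := fun g => by
    have := (hu.bdd g).add (hu'.bdd g)
    have e : (fun z : ℍ => (u + u') (g • z) * Δ z ^ M) =
        (fun z : ℍ => u (g • z) * Δ z ^ M) + fun z : ℍ => u' (g • z) * Δ z ^ M := by
      funext z
      simp only [Pi.add_apply]
      ring
    rw [e]
    exact this

theorem IsMult.smul {u : ℍ → ℂ} (hu : IsMult N M χ u) (c : ℂ) : IsMult N M χ (c • u) where
  mdiff := hu.mdiff.const_smul c
  mult := fun γ z => by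
    simp only [Pi.smul_apply, smul_eq_mul]
    rw [hu.mult]
    ring
  bdd := fun g => by
    have := (Filter.const_boundedAtFilter atImInfty c).mul (hu.bdd g)
    have e : (fun z : ℍ => (c • u) (g • z) * Δ z ^ M) =
        (fun _ : ℍ => c) * fun z : ℍ => (u (g • z) * Δ z ^ M) := by
      funext z
      simp only [Pi.smul_apply, smul_eq_mul, Pi.mul_apply]
      ring
    rw [e]
    exact this

theorem T_mem (N : ℕ) : ModularGroup.T ∈ Gamma0 N := by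
  rw [CongruenceSubgroup.Gamma0_mem]
  simp [ModularGroup.T]

theorem IsMult.vadd {u : ℍ → ℂ} (hu : IsMult N M χ u) (hT : TTriv N χ) (z : ℍ) :
    u ((1 : ℝ) +ᵥ z) = u z := by
  have h := hu.mult ⟨ModularGroup.T, T_mem N⟩ z
  rw [hT ⟨ModularGroup.T, T_mem N⟩ rfl] at h
  simp only [Units.val_one, one_mul] at h
  rwa [UpperHalfPlane.modular_T_smul] at h

theorem isPM_of_vadd_bdd {u : ℍ → ℂ} (hu : MDiff u) (hper : ∀ z : ℍ, u ((1 : ℝ) +ᵥ z) = u z)
    (hb : IsBoundedAtImInfty (fun z : ℍ => u z * Δ z ^ M)) : IsPM u where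
  mdiff := hu
  per := periodic_comp_ofComplex_of hper
  bdd := by
    refine ⟨M, ?_⟩
    have h2 : (fun z : ℍ => qH z ^ M * u z)
        =O[atImInfty] (fun z : ℍ => Δ z ^ M * u z) :=
      (qH_isBigO_disc.pow M).mul (Asymptotics.isBigO_refl u atImInfty)
    have h3 : (fun z : ℍ => Δ z ^ M * u z) = fun z : ℍ => u z * Δ z ^ M := by
      funext z
      ring
    rw [h3] at h2
    exact h2.trans hb

theorem IsMult.isPM {u : ℍ → ℂ} (hu : IsMult N M χ u) (hT : TTriv N χ) : IsPM u := by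
  refine isPM_of_vadd_bdd (M := M) hu.mdiff (hu.vadd hT) ?_
  have := hu.bdd 1
  simpa only [one_smul] using this

theorem IsMult.pow_bdd {u : ℍ → ℂ} (hu : IsMult N M χ u) (m : ℕ) (g : SL(2, ℤ)) :
    IsBoundedAtImInfty (fun z : ℍ => u (g • z) ^ m * Δ z ^ (M * m)) := by
  have := bdd_pow (hu.bdd g) m
  have e : (fun z : ℍ => u (g • z) ^ m * Δ z ^ (M * m)) =
      fun z : ℍ => (u (g • z) * Δ z ^ M) ^ m := by
    funext z
    rw [mul_pow, pow_mul]
  rw [e]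
  exact this

theorem IsMult.pow_isWH {u : ℍ → ℂ} (hu : IsMult N M χ u) {m : ℕ}
    (hχ : ∀ γ, χ γ ^ m = 1) : IsWH (Gamma0 N) (fun z => u z ^ m) where
  mdiff := hu.mdiff.pow m
  inv := fun γ hγ z => by
    have h := hu.mult ⟨γ, hγ⟩ z
    simp only at h
    rw [h, mul_pow]
    have h1 : ((χ ⟨γ, hγ⟩ : ℂˣ) : ℂ) ^ m = 1 := by
      rw [← Units.val_pow_eq_pow_val, hχ, Units.val_one]
    rw [h1, one_mul]
  bdd := ⟨M * m, fun g => hu.pow_bdd m g⟩

/-! ### `q`-expansions -/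

theorem qLaurentFun_pow {u : ℍ → ℂ} (hu : IsPM u) (m : ℕ) :
    qLaurentFun (fun z => u z ^ m) = qLaurentFun u ^ m := by
  have h := map_pow qLaurent (⟨u, hu⟩ : PM) m
  rw [qLaurent_apply, qLaurent_apply] at h
  exact h

theorem qLaurentFun_ne_zero {u : ℍ → ℂ} (hu : IsPM u) (hu0 : u ≠ 0) : qLaurentFun u ≠ 0 :=
  fun h => hu0 (qLaurentFun_eq_zero hu h)

theorem eq_of_qLaurentFun_eq {u u' : ℍ → ℂ} (hu : IsPM u) (hu' : IsPM u')
    (h : qLaurentFun u = qLaurentFun u') : u = u' := by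
  have h1 : qLaurent (⟨u, hu⟩ : PM) = qLaurent (⟨u', hu'⟩ : PM) := h
  exact congrArg Subtype.val (qLaurent_injective h1)


theorem IsPM.pow' {u : ℍ → ℂ} (hu : IsPM u) (n : ℕ) : IsPM (fun z => u z ^ n) :=
  ((⟨u, hu⟩ : PM) ^ n).2

theorem qLaurentFun_zero' : qLaurentFun (0 : ℍ → ℂ) = 0 := map_zero qLaurent

/-! ### The family of subspaces -/

theorem qLaurent_smul (c : ℂ) (f : PM) : qLaurent (c • f) = c • qLaurent f := by
  rw [Algebra.smul_def, map_mul, AlgHom.commutes]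
  ext k
  rw [HahnSeries.coeff_smul, smul_eq_mul, algebraMap_laurentSeries_eq_single]
  exact HahnSeries.coeff_single_zero_mul

/-- the space of `q`-expansions of the multiplier functions -/
def W (N M : ℕ) (χ : Gam N →* ℂˣ) : Submodule ℂ (LaurentSeries ℂ) where
  carrier := {w | ∃ f : PM, IsMult N M χ (f : ℍ → ℂ) ∧ qLaurent f = w}
  add_mem' := by
    rintro _ _ ⟨f, hf, rfl⟩ ⟨g, hg, rfl⟩
    exact ⟨f + g, hf.add hg, map_add _ _ _⟩
  zero_mem' := ⟨0, IsMult.zero, map_zero _⟩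
  smul_mem' := by
    rintro c _ ⟨f, hf, rfl⟩
    exact ⟨c • f, hf.smul c, qLaurent_smul c f⟩

theorem mem_W_iff {w : LaurentSeries ℂ} :
    w ∈ W N M χ ↔ ∃ u : ℍ → ℂ, IsPM u ∧ IsMult N M χ u ∧ qLaurentFun u = w := by
  constructor
  · rintro ⟨f, hf, rfl⟩
    exact ⟨f, f.2, hf, rfl⟩
  · rintro ⟨u, hu, hmu, rfl⟩
    exact ⟨⟨u, hu⟩, hmu, rfl⟩

theorem exists_bound_W [NeZero N] (H : Inputs N) {m : ℕ} (hm : 0 < m) (hχ : ∀ γ, χ γ ^ m = 1) :
    ∃ B : ℤ, ∀ w ∈ W N M χ, (∀ k ≤ B, w.coeff k = 0) → w = 0 := by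
  obtain ⟨B, hB⟩ := H.sturm m hm M
  refine ⟨B, fun w hw h => ?_⟩
  obtain ⟨u, hu, hmu, rfl⟩ := mem_W_iff.mp hw
  have h0 : u = 0 := hB u hmu.mdiff
    (vadd_of_periodic hu.per) (fun γ hγ z => (hmu.pow_isWH hχ).inv γ hγ z) hmu.bdd h
  rw [h0]
  exact qLaurentFun_zero'

theorem eq_of_mem_W {χ' : Gam N →* ℂˣ} {w : LaurentSeries ℂ} (hw : w ∈ W N M χ)
    (hw' : w ∈ W N M χ') (hw0 : w ≠ 0) : χ = χ' := by
  obtain ⟨u, hu, hmu, rfl⟩ := mem_W_iff.mp hw
  obtain ⟨u', hu', hmu', h⟩ := mem_W_iff.mp hw'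
  have huu : u' = u := eq_of_qLaurentFun_eq hu' hu h
  subst huu
  have hu0 : u' ≠ 0 := by
    rintro rfl
    exact hw0 qLaurentFun_zero'
  obtain ⟨z, hz⟩ : ∃ z, u' z ≠ 0 := by
    by_contra hcon
    push Not at hcon
    exact hu0 (funext hcon)
  refine MonoidHom.ext fun γ => Units.ext ?_
  have h1 := hmu.mult γ z
  have h2 := hmu'.mult γ z
  rw [h1] at h2
  exact mul_right_cancel₀ hz h2

/-- the index type of the family -/
def Idx (N M m : ℕ) : Type :=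
  {χ : Gam N →* ℂˣ // (∀ γ, χ γ ^ m = 1) ∧ TTriv N χ ∧
    ∃ u : ℍ → ℂ, u ≠ 0 ∧ IsMult N M χ u ∧ DivAll N m (fun z => u z ^ m)}

theorem finite_Idx (N M : ℕ) [NeZero N] {m : ℕ} (hm : 0 < m) : Finite (Idx N M m) := by
  obtain ⟨S, hS⟩ := exists_finset_closure N
  have := DescBasic.finite_torsion_hom S hS m hm
  let f : Idx N M m → {χ : Gam N →* ℂˣ // ∀ γ, χ γ ^ m = 1} := fun χ => ⟨χ.1, χ.2.1⟩
  have hf : Function.Injective f := by
    intro χ χ' h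
    have h1 : (f χ).1 = (f χ').1 := congrArg Subtype.val h
    exact Subtype.ext h1
  exact Finite.of_injective f hf

/-! ### Divisibility at the places -/

theorem ord_pow_nat {K F : Type*} [Field K] [Field F] [Algebra K F] (v : Place K F) (x : F)
    (n : ℕ) : v.ord (x ^ n) = n * v.ord x := by
  rw [← zpow_natCast, v.ord_zpow]

theorem DivAll.of_isMult [NeZero N] {m : ℕ} (hm : 0 < m) (hχ : ∀ γ, χ γ ^ m = 1)
    (hT : TTriv N χ) {u u₁ : ℍ → ℂ} (hu : IsMult N M χ u) (hu₁ : IsMult N M χ u₁)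
    (hu0 : u ≠ 0) (hu₁0 : u₁ ≠ 0) (hdiv : DivAll N m (fun z => u₁ z ^ m)) :
    DivAll N m (fun z => u z ^ m) := by
  have hPMu := hu.isPM hT
  have hPMu₁ := hu₁.isPM hT
  obtain ⟨k, rfl⟩ : ∃ k, m = k + 1 := ⟨m - 1, by omega⟩
  -- the invariant function `a = u * u₁ ^ k`
  have ha : IsWH (Gamma0 N) (fun z => u z * u₁ z ^ k) :=
    { mdiff := hu.mdiff.mul (hu₁.mdiff.pow k)
      inv := fun γ hγ z => by
        have h1 := hu.mult ⟨γ, hγ⟩ z
        have h2 := hu₁.mult ⟨γ, hγ⟩ z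
        simp only at h1 h2
        rw [h1, h2, mul_pow]
        have h3 : ((χ ⟨γ, hγ⟩ : ℂˣ) : ℂ) ^ (k + 1) = 1 := by
          rw [← Units.val_pow_eq_pow_val, hχ, Units.val_one]
        calc ((χ ⟨γ, hγ⟩ : ℂˣ) : ℂ) * u z * (((χ ⟨γ, hγ⟩ : ℂˣ) : ℂ) ^ k * u₁ z ^ k)
            = ((χ ⟨γ, hγ⟩ : ℂˣ) : ℂ) ^ (k + 1) * (u z * u₁ z ^ k) := by ring
          _ = u z * u₁ z ^ k := by rw [h3, one_mul]
      bdd := ⟨M + M * k, fun g => by
        have := (hu.bdd g).mul (hu₁.pow_bdd k g)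
        have e : (fun z : ℍ => u (g • z) * u₁ (g • z) ^ k * Δ z ^ (M + M * k)) =
            (fun z : ℍ => u (g • z) * Δ z ^ M) * fun z : ℍ => u₁ (g • z) ^ k * Δ z ^ (M * k) := by
          funext z
          simp only [Pi.mul_apply, pow_add]
          ring
        rw [e]
        exact this⟩ }
  let xa : S24.FF ℂ N := ⟨qLaurentFun (fun z => u z * u₁ z ^ k), qWH_mem_FF N ⟨_, ha⟩⟩
  let xb : S24.FF ℂ N := ⟨qLaurentFun (fun z => u₁ z ^ (k + 1)),
    qWH_mem_FF N ⟨_, hu₁.pow_isWH hχ⟩⟩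
  have hqa : qLaurentFun (fun z => u z * u₁ z ^ k) = qLaurentFun u * qLaurentFun u₁ ^ k := by
    have := qLaurentFun_mul hPMu (IsPM.pow' hPMu₁ k)
    rw [qLaurentFun_pow hPMu₁ k] at this
    exact this
  intro x hx v
  have hxb0 : xb ≠ 0 := by
    intro h
    have h1 : qLaurentFun (fun z => u₁ z ^ (k + 1)) = 0 := congrArg Subtype.val h
    rw [qLaurentFun_pow hPMu₁] at h1
    exact qLaurentFun_ne_zero hPMu₁ hu₁0 (pow_eq_zero_iff (Nat.succ_ne_zero k) |>.mp h1)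
  have hx0 : x ≠ 0 := by
    intro h
    rw [h] at hx
    have h1 : qLaurentFun (fun z => u z ^ (k + 1)) = 0 := hx.symm
    rw [qLaurentFun_pow hPMu] at h1
    exact qLaurentFun_ne_zero hPMu hu0 (pow_eq_zero_iff (Nat.succ_ne_zero k) |>.mp h1)
  have key : x * xb ^ k = xa ^ (k + 1) := by
    apply Subtype.ext
    show (x : LaurentSeries ℂ) * (xb : LaurentSeries ℂ) ^ k = (xa : LaurentSeries ℂ) ^ (k + 1)
    rw [hx]
    show qLaurentFun (fun z => u z ^ (k + 1)) * qLaurentFun (fun z => u₁ z ^ (k + 1)) ^ k =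
      qLaurentFun (fun z => u z * u₁ z ^ k) ^ (k + 1)
    rw [hqa, qLaurentFun_pow hPMu, qLaurentFun_pow hPMu₁]
    ring
  have h1 := congrArg v.ord key
  rw [v.ord_mul hx0 (pow_ne_zero k hxb0), ord_pow_nat, ord_pow_nat] at h1
  have h2 : (((k + 1 : ℕ) : ℤ)) ∣ v.ord xb := hdiv xb rfl v
  have h3 : v.ord x = ((k + 1 : ℕ) : ℤ) * v.ord xa - (k : ℤ) * v.ord xb := by
    rw [← h1]
    ring
  rw [h3]
  exact dvd_sub (dvd_mul_right _ _) (h2.mul_left _)


/-! ### The conjugate of a multiplier function -/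

theorem exists_conj [NeZero N] (H : Inputs N) {m : ℕ} (hm : 0 < m) (σ : ℂ ≃+* ℂ) (hχ : ∀ γ, χ γ ^ m = 1)
    (hT : TTriv N χ) {u : ℍ → ℂ} (hu : IsMult N M χ u) (hu0 : u ≠ 0)
    (hdiv : DivAll N m (fun z => u z ^ m)) :
    ∃ (χ' : Gam N →* ℂˣ) (u' : ℍ → ℂ), (∀ γ, χ' γ ^ m = 1) ∧ TTriv N χ' ∧ u' ≠ 0 ∧
      IsMult N M χ' u' ∧ DivAll N m (fun z => u' z ^ m) ∧
      qLaurentFun u' = coeffMap (σ : ℂ →+* ℂ) (qLaurentFun u) := by
  have hPM := hu.isPM hT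
  have hf : IsWH (Gamma0 N) (fun z => u z ^ m) := hu.pow_isWH hχ
  let x : S24.FF ℂ N := ⟨qLaurentFun (fun z => u z ^ m), qWH_mem_FF N ⟨_, hf⟩⟩
  let x' : S24.FF ℂ N := arithmeticRingAut (modularFunctionFieldFull N) σ.toRatAlgEquiv x
  have hx'coe : (x' : LaurentSeries ℂ) =
      coeffMap (σ : ℂ →+* ℂ) (qLaurentFun (fun z => u z ^ m)) :=
    PlaceAut.coe_arith_toRat N σ x
  -- integrality
  have hint : IsIntegral (Algebra.adjoin ℂ {S24.jBC ℂ N}) x :=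
    (H.int_iff x).mpr ⟨_, hf, rfl⟩
  have hint' : IsIntegral (Algebra.adjoin ℂ {S24.jBC ℂ N}) x' :=
    PlaceAut.isIntegral_arith N σ.toRatAlgEquiv x hint
  obtain ⟨f', hf', hxf'⟩ := (H.int_iff x').mp hint'
  -- divisibility
  have hdiv' : ∀ v : Place ℂ (S24.FF ℂ N), (m : ℤ) ∣ v.ord x' :=
    PlaceAut.dvd_ord_arith N σ.toRatAlgEquiv m x (hdiv x rfl)
  -- `q`-expansion of `f'`
  have hw : qLaurentFun f' = (coeffMap (σ : ℂ →+* ℂ) (qLaurentFun u)) ^ m := by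
    rw [← hxf', hx'coe, qLaurentFun_pow hPM, map_pow]
  have hw0 : coeffMap (σ : ℂ →+* ℂ) (qLaurentFun u) ≠ 0 := by
    intro h
    have := congrArg (ModularCurve.coeffMap (σ.symm : ℂ →+* ℂ)) h
    rw [AutC.coeffMap_symm_apply, map_zero] at this
    exact qLaurentFun_ne_zero hPM hu0 this
  have hPMf' : IsPM f' := isPM_of_isWH N hf'
  have hf'0 : f' ≠ 0 := by
    rintro rfl
    rw [qLaurentFun_zero'] at hw
    exact pow_ne_zero m hw0 hw.symm
  have hord : ∀ z : ℍ, m ∣ (ordAt f' z).toNat :=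
    H.ord m f' hf' hf'0 x' hxf' hdiv'
  obtain ⟨u', hu'md, hu'pow, hu'PM, hu'q⟩ :=
    H.root m hm f' hPMf' hf'0 hord _ hw
  have hu'0 : u' ≠ 0 := by
    rintro rfl
    apply hf'0
    funext z
    rw [← hu'pow z]
    simp [hm.ne']
  obtain ⟨χ', hχ', hmult'⟩ := Root.exists_multiplier hm hu'md hu'0 (Gamma0 N)
    (fun γ hγ z => by rw [hu'pow, hu'pow]; exact hf'.inv γ hγ z)
  -- `χ'(T) = 1`
  have hT' : TTriv N χ' := by
    intro γ hγ
    obtain ⟨z, hz⟩ : ∃ z, u' z ≠ 0 := by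
      by_contra hcon
      push Not at hcon
      exact hu'0 (funext hcon)
    have h1 := hmult' γ z
    rw [hγ, UpperHalfPlane.modular_T_smul, vadd_of_periodic hu'PM.per] at h1
    have h2 : ((χ' γ : ℂˣ) : ℂ) = 1 := by
      have h3 : ((χ' γ : ℂˣ) : ℂ) * u' z = 1 * u' z := by
        rw [one_mul]
        exact h1.symm
      exact mul_right_cancel₀ hz h3
    exact Units.ext h2
  -- bounds
  have hbf : ∀ g : SL(2, ℤ), IsBoundedAtImInfty
      (fun z : ℍ => (fun z => u z ^ m) (g • z) * Δ z ^ (M * m)) := fun g => hu.pow_bdd m g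
  have hpole := (H.bdd (M * m) _ hf x rfl).mp hbf
  have hpole' := PlaceAut.pole_bound_arith N σ.toRatAlgEquiv ((M * m : ℕ) : ℤ) x hpole
  have hbf' := (H.bdd (M * m) f' hf' x' hxf').mpr hpole'
  have hmult'' : IsMult N M χ' u' :=
    { mdiff := hu'md
      mult := hmult'
      bdd := fun g => by
        apply bdd_of_pow_bdd hm
        have := hbf' g
        have e : (fun z : ℍ => (u' (g • z) * Δ z ^ M) ^ m) =
            fun z : ℍ => f' (g • z) * Δ z ^ (M * m) := by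
          funext z
          rw [mul_pow, hu'pow, pow_mul]
        rw [e]
        exact this }
  refine ⟨χ', u', hχ', hT', hu'0, hmult'', ?_, hu'q⟩
  -- divisibility for `u'`
  intro y hy v
  have hyx : y = x' := by
    apply Subtype.ext
    rw [hy, hxf']
    congr 1
    funext z
    exact hu'pow z
  rw [hyx]
  exact hdiv' v

/-! ### The descent -/

/-- **K3 (descent).**  A multiplier function for a character `χ` of exponent `m` (with
`χ(T) = 1` and divisor divisible by `m`) can be chosen with `q`-expansion over `ℚ̄`. -/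
theorem exists_rational_of (N : ℕ) [NeZero N] (H : Inputs N) (m : ℕ) (hm : 0 < m)
    (ι : Qb →+* ℂ)
    (χ : Gam N →* ℂˣ) (hχ : ∀ γ, χ γ ^ m = 1)
    (hT : ∀ γ : Gam N, (γ : SL(2, ℤ)) = ModularGroup.T → χ γ = 1)
    (u₁ : ℍ → ℂ) (hu₁ : MDiff u₁) (hu₁0 : u₁ ≠ 0)
    (hmult : ∀ (γ : Gam N) (z : ℍ), u₁ ((γ : SL(2, ℤ)) • z) = (χ γ : ℂ) * u₁ z)
    (hWH : IsWH (Gamma0 N) (fun z => u₁ z ^ m))
    (hdiv : ∀ x : S24.FF ℂ N, (x : LaurentSeries ℂ) = qLaurentFun (fun z => u₁ z ^ m) →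
      ∀ v : Place ℂ (S24.FF ℂ N), (m : ℤ) ∣ v.ord x) :
    ∃ u : ℍ → ℂ, MDiff u ∧ u ≠ 0 ∧
      (∀ (γ : Gam N) (z : ℍ), u ((γ : SL(2, ℤ)) • z) = (χ γ : ℂ) * u z) ∧
      IsWH (Gamma0 N) (fun z => u z ^ m) ∧
      ∃ (y : LaurentSeries Qb) (f₀ : S24.FF Qb N),
        coeffMap ι y = qLaurentFun u ∧ (f₀ : LaurentSeries Qb) = y ^ m ∧
        ((S24.CoeffBC.bc ι (modularFunctionFieldFull N) f₀ : S24.FF ℂ N) : LaurentSeries ℂ) =
          qLaurentFun (fun z => u z ^ m) := by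
  classical
  obtain ⟨n, hn⟩ := hWH.bdd
  have hmu₁ : IsMult N n χ u₁ :=
    { mdiff := hu₁
      mult := hmult
      bdd := fun g => by
        apply bdd_of_pow_bdd hm
        have h1 := hn g
        have := h1.mul (isBoundedAtImInfty_disc_pow (n * (m - 1)))
        have e : (fun z : ℍ => (u₁ (g • z) * Δ z ^ n) ^ m) =
            (fun z : ℍ => u₁ (g • z) ^ m * Δ z ^ n) * fun z : ℍ => Δ z ^ (n * (m - 1)) := by
          funext z
          obtain ⟨k, rfl⟩ : ∃ k, m = k + 1 := ⟨m - 1, by omega⟩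
          simp only [Pi.mul_apply, Nat.add_sub_cancel]
          rw [mul_pow, ← pow_mul, mul_assoc, ← pow_add]
          congr 2
          ring
        rw [e]
        exact this }
  let _ : Algebra Qb ℂ := ι.toAlgebra
  have := finite_Idx N n hm
  let Wf : Idx N n m → Submodule ℂ (LaurentSeries ℂ) := fun i => W N n i.1
  have h0 : ∀ i, Wf i ≠ ⊥ := by
    intro i
    obtain ⟨u, hu0, hmu, -⟩ := i.2.2.2
    have hPM := hmu.isPM i.2.2.1
    rw [Submodule.ne_bot_iff]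
    exact ⟨qLaurentFun u, mem_W_iff.mpr ⟨u, hPM, hmu, rfl⟩, qLaurentFun_ne_zero hPM hu0⟩
  have hB : ∀ i, ∃ B : ℤ, ∀ w ∈ Wf i, (∀ k ≤ B, w.coeff k = 0) → w = 0 :=
    fun i => exists_bound_W H hm i.2.1
  have hdisj : ∀ i j, ∀ w, w ∈ Wf i → w ∈ Wf j → w ≠ 0 → i = j :=
    fun i j w hi hj hw0 => Subtype.ext (eq_of_mem_W hi hj hw0)
  have hσ : ∀ σ : ℂ ≃+* ℂ, (∀ a : Qb, σ (algebraMap Qb ℂ a) = algebraMap Qb ℂ a) →
      ∀ i, ∀ x ∈ Wf i, ∃ j, coeffMap (σ : ℂ →+* ℂ) x ∈ Wf j := by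
    intro σ _ i x hx
    obtain ⟨u, hPM, hmu, rfl⟩ := mem_W_iff.mp hx
    by_cases hu0 : u = 0
    · refine ⟨i, ?_⟩
      rw [hu0, qLaurentFun_zero', map_zero]
      exact (Wf i).zero_mem
    · obtain ⟨u₀, hu₀0, hmu₀, hdiv₀⟩ := i.2.2.2
      have hdivu := DivAll.of_isMult hm i.2.1 i.2.2.1 hmu hmu₀ hu0 hu₀0 hdiv₀
      obtain ⟨χ', u', hχ', hT', hu'0, hmu', hdiv', hq⟩ :=
        exists_conj H hm σ i.2.1 i.2.2.1 hmu hu0 hdivu
      refine ⟨⟨χ', hχ', hT', u', hu'0, hmu', hdiv'⟩, ?_⟩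
      rw [← hq]
      exact mem_W_iff.mpr ⟨u', hmu'.isPM hT', hmu', rfl⟩
  let i₀ : Idx N n m := ⟨χ, hχ, hT, u₁, hu₁0, hmu₁, hdiv⟩
  obtain ⟨w, hw, hw0, halg⟩ :=
    DescBasic.exists_algebraic_of_stable' (K := Qb) Wf h0 hB hdisj hσ i₀
  obtain ⟨u, hPM, hmu, rfl⟩ := mem_W_iff.mp hw
  have hu0 : u ≠ 0 := by
    rintro rfl
    exact hw0 qLaurentFun_zero'
  obtain ⟨y, hy⟩ := DescBasic.exists_coeffMap_eq ι (qLaurentFun u) halg
  have hWHu : IsWH (Gamma0 N) (fun z => u z ^ m) := hmu.pow_isWH hχ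
  have hmem : y ^ m ∈ laurentBaseChange Qb (modularFunctionFieldFull N) := by
    apply H.mem ι
    rw [map_pow, hy, ← qLaurentFun_pow hPM]
    exact qWH_mem_FF N ⟨_, hWHu⟩
  refine ⟨u, hmu.mdiff, hu0, hmu.mult, hWHu, y, ⟨y ^ m, hmem⟩, hy, rfl, ?_⟩
  rw [CoeffBC.coe_bc]
  show coeffMap ι (y ^ m) = _
  rw [map_pow, hy, qLaurentFun_pow hPM]

end Fermat.Agent.S29.Desc
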