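import Mathlib
import Fermat.Prelude.Def_ModularCurve_ArithmeticGalois
import Fermat.Agent.S24.Defs
import Fermat.Agent.S24.CoeffBC
import Fermat.Agent.S24.DescentLD


/-!
# S29 (wave 5), slice K3-mem: rationality descent for the function fields `FF K N ⊆ FF C N`

A Laurent series `y` with coefficients in `K` whose coefficient extension `coeffMap ι y` lies in
the base-changed field `laurentBaseChange C F₀` already lies in `laurentBaseChange K F₀`.

Proof: write `coeffMap ι y = A / B` with `A`, `B` in the `C`-span of the image of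
`laurentBaseChange K F₀`, `B ≠ 0`; choose a `K`-linear functional `φ : C → K` not killing a
nonzero coefficient of `B` and apply it coefficientwise to `coeffMap ι y * B = A`.
-/

set_option autoImplicit false

namespace Fermat.Agent.S29.DescMem

open ModularCurve Fermat.Agent.S24 Fermat.Agent.S24.DescentLD

section General

variable {K C : Type*} [Field K] [Field C] [Algebra ℚ K] [Algebra ℚ C]

/-- A coefficientwise functional maps the `C`-span of the image of `laurentBaseChange K F₀`
into `laurentBaseChange K F₀`. -/
theorem coeffFunctional_mem (ι : K →+* C) (F₀ : IntermediateField ℚ (LaurentSeries ℚ))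
    (r : ↥(laurentBaseChange C F₀))
    (hr : r ∈ Algebra.adjoin C (Set.range (CoeffBC.bc ι F₀))) :
    letI : Algebra K C := ι.toAlgebra
    ∀ φ : C →ₗ[K] K, coeffFunctional φ (r : LaurentSeries C) ∈ laurentBaseChange K F₀ := by
  let _ : Algebra K C := ι.toAlgebra
  have hι : algebraMap K C = ι := rfl
  -- the adjoined algebra is the span of the range
  have hspan : r ∈ Submodule.span C (Set.range (CoeffBC.bc ι F₀)) := by
    have h1 : (Submonoid.closure (Set.range (CoeffBC.bc ι F₀)) : Set ↥(laurentBaseChange C F₀)) ⊆
        (Submodule.span C (Set.range (CoeffBC.bc ι F₀)) : Set ↥(laurentBaseChange C F₀)) := by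
      intro z hz
      have hle : Submonoid.closure (Set.range (CoeffBC.bc ι F₀)) ≤
          (CoeffBC.bc ι F₀).rangeS.toSubmonoid :=
        Submonoid.closure_le.mpr fun w hw => hw
      exact Submodule.subset_span (hle hz)
    have h2 := Algebra.adjoin_eq_span_of_subset (R := C) h1
    have h3 : r ∈ Subalgebra.toSubmodule (Algebra.adjoin C (Set.range (CoeffBC.bc ι F₀))) := hr
    rw [h2] at h3
    exact h3
  clear hr
  induction hspan using Submodule.span_induction with
  | mem x hx =>
      obtain ⟨a, rfl⟩ := hx
      intro φ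
      have h1 : coeffFunctional φ ((CoeffBC.bc ι F₀ a : ↥(laurentBaseChange C F₀)) :
          LaurentSeries C) = (a : LaurentSeries K) * HahnSeries.C (φ 1) := by
        have h := coeffFunctional_mul φ (a : LaurentSeries K) (HahnSeries.C (1 : C))
        rw [coeffFunctional_C, map_one HahnSeries.C, mul_one] at h
        exact h
      rw [h1]
      refine mul_mem a.2 ?_
      have h2 : (HahnSeries.C (φ 1) : LaurentSeries K) = algebraMap K (LaurentSeries K) (φ 1) := by
        rw [algebraMap_laurentSeries_eq_single]
        rfl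
      rw [h2]
      exact (laurentBaseChange K F₀).algebraMap_mem _
  | zero =>
      intro φ
      rw [ZeroMemClass.coe_zero, coeffFunctional_zero]
      exact zero_mem _
  | add x y _ _ hx hy =>
      intro φ
      rw [AddMemClass.coe_add, coeffFunctional_add]
      exact add_mem (hx φ) (hy φ)
  | smul c x _ hx =>
      intro φ
      -- `φ (c * ·)` is again a `K`-linear functional
      have h1 : coeffFunctional φ ((c • x : ↥(laurentBaseChange C F₀)) : LaurentSeries C) =
          coeffFunctional (φ.comp (LinearMap.mulLeft K c)) (x : LaurentSeries C) := by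
        ext n
        rw [coeffFunctional_coeff, coeffFunctional_coeff, CoeffBC.coe_smul_coeff]
        rfl
      rw [h1]
      exact hx _

/-- **Rationality descent (K3-mem).** -/
theorem mem_laurentBaseChange_of_coeffMap_mem (ι : K →+* C)
    (F₀ : IntermediateField ℚ (LaurentSeries ℚ)) (y : LaurentSeries K)
    (h : coeffMap ι y ∈ laurentBaseChange C F₀) : y ∈ laurentBaseChange K F₀ := by
  let _ : Algebra K C := ι.toAlgebra
  have hι : algebraMap K C = ι := rfl
  set x : ↥(laurentBaseChange C F₀) := ⟨coeffMap ι y, h⟩ with hx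
  have hx' : x ∈ IntermediateField.adjoin C (Set.range (CoeffBC.bc ι F₀)) := by
    rw [CoeffBC.adjoin_range_bc]
    exact IntermediateField.mem_top
  obtain ⟨r, hr, s, hs, hxrs⟩ := IntermediateField.mem_adjoin_iff_div.mp hx'
  by_cases hs0 : s = 0
  · -- then `x = 0`, so `y = 0`
    have hx0 : x = 0 := by rw [hxrs, hs0, div_zero]
    have hy0 : coeffMap ι y = 0 := congrArg Subtype.val hx0
    have hy : y = 0 := by
      ext n
      have := congrArg (fun w : LaurentSeries C => w.coeff n) hy0
      simp only [coeffMap_coeff, HahnSeries.coeff_zero] at this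
      rw [HahnSeries.coeff_zero]
      exact (map_eq_zero ι).mp this
    rw [hy]
    exact zero_mem _
  · have hmul : x * s = r := by
      rw [hxrs, div_mul_cancel₀ _ hs0]
    have hmul' : coeffMap ι y * (s : LaurentSeries C) = (r : LaurentSeries C) := by
      have := congrArg Subtype.val hmul
      simpa [hx] using this
    -- a nonzero coefficient of `s`
    have hs0' : (s : LaurentSeries C) ≠ 0 := fun h0 => hs0 (Subtype.ext h0)
    obtain ⟨k₀, hk₀⟩ : ∃ k₀ : ℤ, (s : LaurentSeries C).coeff k₀ ≠ 0 := by
      by_contra hne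
      push Not at hne
      exact hs0' (HahnSeries.ext (funext hne))
    obtain ⟨φ, hφ⟩ := Module.Projective.exists_dual_ne_zero K hk₀
    have hs1 := coeffFunctional_mem ι F₀ s hs φ
    have hr1 := coeffFunctional_mem ι F₀ r hr φ
    have hs2 : coeffFunctional φ (s : LaurentSeries C) ≠ 0 := by
      intro h0
      apply hφ
      have := congrArg (fun w : LaurentSeries K => w.coeff k₀) h0
      simpa [coeffFunctional_coeff] using this
    have key : y * coeffFunctional φ (s : LaurentSeries C) =
        coeffFunctional φ (r : LaurentSeries C) := by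
      rw [← hmul']
      exact (coeffFunctional_mul φ y (s : LaurentSeries C)).symm
    have hy : y = coeffFunctional φ (r : LaurentSeries C) /
        coeffFunctional φ (s : LaurentSeries C) := eq_div_of_mul_eq hs2 key
    rw [hy]
    exact div_mem hr1 hs1

/-- Rationality descent, in terms of `CoeffBC.bc`. -/
theorem exists_bc_eq (ι : K →+* C) (F₀ : IntermediateField ℚ (LaurentSeries ℚ))
    (x : ↥(laurentBaseChange C F₀)) (y : LaurentSeries K)
    (h : (x : LaurentSeries C) = coeffMap ι y) :
    ∃ f₀ : ↥(laurentBaseChange K F₀), (f₀ : LaurentSeries K) = y ∧ CoeffBC.bc ι F₀ f₀ = x := by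
  have hy : y ∈ laurentBaseChange K F₀ :=
    mem_laurentBaseChange_of_coeffMap_mem ι F₀ y (h ▸ x.2)
  refine ⟨⟨y, hy⟩, rfl, ?_⟩
  apply Subtype.ext
  rw [CoeffBC.coe_bc, h]

/-- Rationality descent, coefficientwise: an element of `laurentBaseChange C F₀` all of whose
coefficients lie in the range of `ι` comes from `laurentBaseChange K F₀`. -/
theorem exists_bc_eq_of_coeff_mem_range (ι : K →+* C)
    (F₀ : IntermediateField ℚ (LaurentSeries ℚ)) (x : ↥(laurentBaseChange C F₀))
    (h : ∀ n : ℤ, (x : LaurentSeries C).coeff n ∈ ι.range) :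
    ∃ f₀ : ↥(laurentBaseChange K F₀), CoeffBC.bc ι F₀ f₀ = x := by
  let _ : Algebra K C := ι.toAlgebra
  have hι : algebraMap K C = ι := rfl
  -- a `K`-linear retraction of `ι`
  obtain ⟨φ, hφ⟩ := (Algebra.linearMap K C).exists_leftInverse_of_injective
    (LinearMap.ker_eq_bot.mpr (algebraMap K C).injective)
  have hφ' : ∀ a : K, φ (ι a) = a := fun a => by
    have := congrArg (fun f : K →ₗ[K] K => f a) hφ
    simp only [LinearMap.comp_apply, Algebra.linearMap_apply, LinearMap.id_apply] at this
    exact this
  have hxy : (x : LaurentSeries C) = coeffMap ι (coeffFunctional φ (x : LaurentSeries C)) := by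
    ext n
    rw [coeffMap_coeff, coeffFunctional_coeff]
    obtain ⟨a, ha⟩ := h n
    rw [← ha, hφ']
  obtain ⟨f₀, -, hf₀⟩ := exists_bc_eq ι F₀ x _ hxy
  exact ⟨f₀, hf₀⟩

omit [Algebra ℚ K] [Algebra ℚ C] in
/-- Over an algebraically closed field `K`, an element of an extension `C` that is algebraic
over `K` lies in the image of `K`. -/
theorem mem_range_of_isAlgebraic [IsAlgClosed K] (ι : K →+* C) (c : C)
    (hc : letI : Algebra K C := ι.toAlgebra
      IsAlgebraic K c) : c ∈ ι.range := by
  let _ : Algebra K C := ι.toAlgebra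
  have hint : IsIntegral K c := hc.isIntegral
  have hdeg := IsAlgClosed.degree_eq_one_of_irreducible K (minpoly.irreducible hint)
  exact minpoly.mem_range_of_degree_eq_one K c hdeg

omit [Algebra ℚ K] [Algebra ℚ C] in
/-- A Laurent series over `C` all of whose coefficients lie in the range of `ι` is a coefficient
extension. -/
theorem exists_coeffMap_eq_of_coeff_mem_range (ι : K →+* C) (w : LaurentSeries C)
    (h : ∀ n : ℤ, w.coeff n ∈ ι.range) : ∃ y : LaurentSeries K, coeffMap ι y = w := by
  let _ : Algebra K C := ι.toAlgebra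
  obtain ⟨φ, hφ⟩ := (Algebra.linearMap K C).exists_leftInverse_of_injective
    (LinearMap.ker_eq_bot.mpr (algebraMap K C).injective)
  have hφ' : ∀ a : K, φ (ι a) = a := fun a => by
    have := congrArg (fun f : K →ₗ[K] K => f a) hφ
    simp only [LinearMap.comp_apply, Algebra.linearMap_apply, LinearMap.id_apply] at this
    exact this
  refine ⟨coeffFunctional φ w, ?_⟩
  ext n
  rw [coeffMap_coeff, coeffFunctional_coeff]
  obtain ⟨a, ha⟩ := h n
  rw [← ha, hφ']

omit [Algebra ℚ K] [Algebra ℚ C] in
/-- A Laurent series over `C` all of whose coefficients are algebraic over the algebraically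
closed field `K` is a coefficient extension. -/
theorem exists_coeffMap_eq_of_isAlgebraic [IsAlgClosed K] (ι : K →+* C) (w : LaurentSeries C)
    (h : letI : Algebra K C := ι.toAlgebra
      ∀ n : ℤ, IsAlgebraic K (w.coeff n)) : ∃ y : LaurentSeries K, coeffMap ι y = w :=
  exists_coeffMap_eq_of_coeff_mem_range ι w fun n => mem_range_of_isAlgebraic ι _ (h n)

/-- Rationality descent for algebraic coefficients over an algebraically closed field. -/
theorem exists_bc_eq_of_isAlgebraic [IsAlgClosed K] (ι : K →+* C)
    (F₀ : IntermediateField ℚ (LaurentSeries ℚ)) (x : ↥(laurentBaseChange C F₀))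
    (h : letI : Algebra K C := ι.toAlgebra
      ∀ n : ℤ, IsAlgebraic K ((x : LaurentSeries C).coeff n)) :
    ∃ f₀ : ↥(laurentBaseChange K F₀), CoeffBC.bc ι F₀ f₀ = x :=
  exists_bc_eq_of_coeff_mem_range ι F₀ x fun n => mem_range_of_isAlgebraic ι _ (h n)

end General

local notation "Qb" => AlgebraicClosure ℚ

/-- **(K3-mem)** for the modular function fields: a series over `ℚ̄` whose coefficient extension
lies in `FF ℂ N` lies in `FF ℚ̄ N`. -/
theorem mem_FF_of_coeffMap_mem (N : ℕ) [NeZero N] (ι : Qb →+* ℂ) (y : LaurentSeries Qb)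
    (h : coeffMap ι y ∈ laurentBaseChange ℂ (modularFunctionFieldFull N)) :
    y ∈ laurentBaseChange Qb (modularFunctionFieldFull N) :=
  mem_laurentBaseChange_of_coeffMap_mem ι _ y h

/-- **(K3-mem)**, element form: an element of `FF ℂ N` whose `q`-expansion is the coefficient
extension of a series `y` over `ℚ̄` is the base change of an element of `FF ℚ̄ N` with
`q`-expansion `y`. -/
theorem exists_FF_of_coeffMap_eq (N : ℕ) [NeZero N] (ι : Qb →+* ℂ) (x : FF ℂ N)
    (y : LaurentSeries Qb) (h : (x : LaurentSeries ℂ) = coeffMap ι y) :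
    ∃ f₀ : FF Qb N, (f₀ : LaurentSeries Qb) = y ∧
      CoeffBC.bc ι (modularFunctionFieldFull N) f₀ = x :=
  exists_bc_eq ι _ x y h

end Fermat.Agent.S29.DescMem
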