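import Mathlib
import Fermat.Agent.S20.DictFin
import Fermat.Agent.S20.DictInf
import Fermat.Agent.S24.PrimeBridge
import Fermat.Agent.S24.Transport
import Fermat.Agent.S24.Defs

/-!
# S29 (K3-dict): the dictionary between places of the function field of `X₀(N)` and
points / cusps of the upper half plane

`S20.FF N = Frac (WH Γ₀(N))` is the analytic model of the function field.  We prove, with
exact constants:

* finite places (`0 ≤ ord j`) correspond to points `z : ℍ`, with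
  `ord_z b = |Γ₀(N)_z / ±1| * v.ord b`;
* pole places of `j` correspond to cusps `g • ∞`, with
  `ordCusp_{q_N} b = (N / width) * v.ord b` and `v.ord j = - width`
  (so the ramification index of a cusp is its width).

The consumer forms at the end are stated after transport along an arbitrary
`ℂ`-algebra isomorphism `e : S20.FF N ≃ₐ[ℂ] F'`.
-/

set_option autoImplicit false

open UpperHalfPlane hiding I
open Complex ModularForm Polynomial IsDedekindDomain CongruenceSubgroup AlgebraicCurve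
open scoped MatrixGroups Manifold WithZero RatFunc

namespace Fermat.Agent.S29.DictWH

open Fermat.Agent.S20 Fermat.Agent.S20.FinitePlaces

variable (N : ℕ) [NeZero N]

/-! ### The stabilizer index -/

/-- `|Γ₀(N)_z / ±1|` -/
noncomputable def stabIdx (z : ℍ) : ℕ :=
  Nat.card ↥(Gamma0 N ⊓ MulAction.stabilizer SL(2, ℤ) z) / 2

omit [NeZero N] in
theorem stabIdx_pos (z : ℍ) : 0 < stabIdx N z := by
  unfold stabIdx
  obtain ⟨m, hm⟩ := two_dvd_card_inf_stabilizer (Gamma0 N) (neg_one_mem_Gamma0 N) z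
  have hfin : Finite ↥(Gamma0 N ⊓ MulAction.stabilizer SL(2, ℤ) z) :=
    Finite.of_injective (Subgroup.inclusion (inf_le_right (a := Gamma0 N)))
      (Subgroup.inclusion_injective inf_le_right)
  have hpos : 0 < Nat.card ↥(Gamma0 N ⊓ MulAction.stabilizer SL(2, ℤ) z) := Nat.card_pos
  rw [hm] at hpos ⊢
  rw [Nat.mul_div_cancel_left m (by norm_num)]
  omega

omit [NeZero N] in
theorem stabIdx_smul {γ : SL(2, ℤ)} (hγ : γ ∈ Gamma0 N) (z : ℍ) :
    stabIdx N (γ • z) = stabIdx N z := by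
  unfold stabIdx
  congr 1
  refine Nat.card_congr
    { toFun := fun s => ⟨γ⁻¹ * (s : SL(2, ℤ)) * γ, ?_⟩
      invFun := fun t => ⟨γ * (t : SL(2, ℤ)) * γ⁻¹, ?_⟩
      left_inv := fun s => ?_
      right_inv := fun t => ?_ }
  · have hs := Subgroup.mem_inf.mp s.2
    refine Subgroup.mem_inf.mpr ⟨?_, ?_⟩
    · exact (Gamma0 N).mul_mem ((Gamma0 N).mul_mem ((Gamma0 N).inv_mem hγ) hs.1) hγ
    · rw [MulAction.mem_stabilizer_iff, mul_smul, mul_smul,
        MulAction.mem_stabilizer_iff.mp hs.2, inv_smul_smul]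
  · have ht := Subgroup.mem_inf.mp t.2
    refine Subgroup.mem_inf.mpr ⟨?_, ?_⟩
    · exact (Gamma0 N).mul_mem ((Gamma0 N).mul_mem hγ ht.1) ((Gamma0 N).inv_mem hγ)
    · rw [MulAction.mem_stabilizer_iff, mul_smul, mul_smul, inv_smul_smul,
        MulAction.mem_stabilizer_iff.mp ht.2]
  · apply Subtype.ext
    show γ * (γ⁻¹ * (s : SL(2, ℤ)) * γ) * γ⁻¹ = s
    group
  · apply Subtype.ext
    show γ⁻¹ * (γ * (t : SL(2, ℤ)) * γ⁻¹) * γ = t
    group

omit [NeZero N] in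
theorem nIdx_eq_stabIdx (z0 : ℍ) (x : X0 N) :
    nIdx (Gamma0 N) z0 x = stabIdx N (pt z0 x) := rfl

/-! ### The width of a cusp -/

theorem exists_width (g : SL(2, ℤ)) :
    ∃ h : ℕ, 0 < h ∧ g * ModularGroup.T ^ h * g⁻¹ ∈ Gamma0 N :=
  ⟨N, NeZero.pos N, OrdCusp.conj_T_pow_mem N g⟩

open Classical in
/-- the width of the cusp `g • ∞` of `Γ₀(N)`: the least `h > 0` with
`g T^h g⁻¹ ∈ Γ₀(N)` -/
noncomputable def cuspWidth (g : SL(2, ℤ)) : ℕ := Nat.find (exists_width N g)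

theorem cuspWidth_pos (g : SL(2, ℤ)) : 0 < cuspWidth N g := by
  classical
  exact (Nat.find_spec (exists_width N g)).1

theorem cuspWidth_mem (g : SL(2, ℤ)) :
    g * ModularGroup.T ^ cuspWidth N g * g⁻¹ ∈ Gamma0 N := by
  classical
  exact (Nat.find_spec (exists_width N g)).2

theorem cuspWidth_le (g : SL(2, ℤ)) {h : ℕ} (hh : 0 < h)
    (hg : g * ModularGroup.T ^ h * g⁻¹ ∈ Gamma0 N) : cuspWidth N g ≤ h := by
  classical
  exact Nat.find_min' (exists_width N g) ⟨hh, hg⟩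

theorem conj_T_zpow_mem_iff (g : SL(2, ℤ)) (k : ℤ) :
    g * ModularGroup.T ^ k * g⁻¹ ∈ Gamma0 N ↔ (cuspWidth N g : ℤ) ∣ k := by
  have hmem : ∀ t : ℤ,
      g * ModularGroup.T ^ ((cuspWidth N g : ℤ) * t) * g⁻¹ ∈ Gamma0 N := by
    intro t
    rw [zpow_mul, zpow_natCast, ← conj_zpow]
    exact Subgroup.zpow_mem _ (cuspWidth_mem N g) t
  constructor
  · intro hk
    set h := cuspWidth N g with hh
    have hpos : (0 : ℤ) < h := by exact_mod_cast cuspWidth_pos N g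
    have hr : g * ModularGroup.T ^ (k % h) * g⁻¹ ∈ Gamma0 N := by
      have e : g * ModularGroup.T ^ (k % (h : ℤ)) * g⁻¹ =
          (g * ModularGroup.T ^ k * g⁻¹) *
            (g * ModularGroup.T ^ ((h : ℤ) * (k / h)) * g⁻¹)⁻¹ := by
        rw [Int.emod_def, zpow_sub]
        group
      rw [e]
      exact Subgroup.mul_mem _ hk (Subgroup.inv_mem _ (hmem _))
    have hr0 : 0 ≤ k % (h : ℤ) := Int.emod_nonneg _ hpos.ne'
    have hrlt : k % (h : ℤ) < h := Int.emod_lt_of_pos _ hpos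
    by_contra hnd
    have hne : k % (h : ℤ) ≠ 0 := fun h0 => hnd (Int.dvd_of_emod_eq_zero h0)
    obtain ⟨r, hr'⟩ := Int.eq_ofNat_of_zero_le hr0
    rw [hr', zpow_natCast] at hr
    have := cuspWidth_le N g (by omega : 0 < r) hr
    omega
  · rintro ⟨t, rfl⟩
    exact hmem t

theorem conj_T_pow_mem_iff (g : SL(2, ℤ)) (k : ℕ) :
    g * ModularGroup.T ^ k * g⁻¹ ∈ Gamma0 N ↔ cuspWidth N g ∣ k := by
  have h := conj_T_zpow_mem_iff N g (k : ℤ)
  rw [zpow_natCast, Int.natCast_dvd_natCast] at h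
  exact h

theorem cuspWidth_dvd_level (g : SL(2, ℤ)) : cuspWidth N g ∣ N :=
  (conj_T_pow_mem_iff N g N).mp (OrdCusp.conj_T_pow_mem N g)

theorem cuspWidth_mul_left {γ : SL(2, ℤ)} (hγ : γ ∈ Gamma0 N) (g : SL(2, ℤ)) :
    cuspWidth N (γ * g) = cuspWidth N g := by
  have key : ∀ k : ℕ, (γ * g) * ModularGroup.T ^ k * (γ * g)⁻¹ ∈ Gamma0 N ↔
      g * ModularGroup.T ^ k * g⁻¹ ∈ Gamma0 N := by
    intro k
    have e : (γ * g) * ModularGroup.T ^ k * (γ * g)⁻¹ =
        γ * (g * ModularGroup.T ^ k * g⁻¹) * γ⁻¹ := by group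
    rw [e]
    constructor
    · intro h
      have h2 := (Gamma0 N).mul_mem ((Gamma0 N).mul_mem ((Gamma0 N).inv_mem hγ) h) hγ
      have e2 : γ⁻¹ * (γ * (g * ModularGroup.T ^ k * g⁻¹) * γ⁻¹) * γ =
          g * ModularGroup.T ^ k * g⁻¹ := by group
      rwa [e2] at h2
    · intro h
      exact (Gamma0 N).mul_mem ((Gamma0 N).mul_mem hγ h) ((Gamma0 N).inv_mem hγ)
  apply Nat.dvd_antisymm
  · rw [← conj_T_pow_mem_iff, key]
    exact cuspWidth_mem N g
  · rw [← conj_T_pow_mem_iff, ← key]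
    exact cuspWidth_mem N (γ * g)

theorem level_div_width_pos (g : SL(2, ℤ)) : 0 < N / cuspWidth N g :=
  Nat.div_pos (Nat.le_of_dvd (NeZero.pos N) (cuspWidth_dvd_level N g)) (cuspWidth_pos N g)

theorem level_div_width_mul (g : SL(2, ℤ)) : N / cuspWidth N g * cuspWidth N g = N :=
  Nat.div_mul_cancel (cuspWidth_dvd_level N g)

/-! ### Orbits of `T` on the cosets -/

theorem card_orbit_eq (x : X0 N) :
    Nat.card {y // (MulAction.orbitRel (Subgroup.zpowers ModularGroup.T) (X0 N)).r y x} =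
      cuspWidth N (Quotient.out x : SL(2, ℤ))⁻¹ := by
  have hper : ∀ k : ℕ, Function.IsPeriodicPt (fun y : X0 N => ModularGroup.T • y) k x ↔
      cuspWidth N (Quotient.out x : SL(2, ℤ))⁻¹ ∣ k := by
    intro k
    rw [Function.IsPeriodicPt, Function.IsFixedPt, smul_iterate,
      smul_eq_self_iff (Gamma0 N) x (ModularGroup.T ^ k), ← conj_T_pow_mem_iff, inv_inv]
  have hmin : Function.minimalPeriod (fun y : X0 N => ModularGroup.T • y) x =
      cuspWidth N (Quotient.out x : SL(2, ℤ))⁻¹ := by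
    apply Nat.dvd_antisymm
    · rw [← Function.isPeriodicPt_iff_minimalPeriod_dvd, hper]
    · rw [← hper]
      exact Function.isPeriodicPt_minimalPeriod _ _
  show Nat.card ↥(MulAction.orbit (Subgroup.zpowers ModularGroup.T) x) = _
  refine (Nat.card_congr (MulAction.orbitZPowersEquiv ModularGroup.T x)).trans ?_
  rw [Nat.card_zmod]
  exact hmin

/-! ### The counting lemma at infinity -/

theorem exists_pow_eq_v (x : X0 N) (f : S20.FF N) :
    ∃ u : ℤᵐ⁰, DictInf.v N x f = u ^ (N / cuspWidth N (Quotient.out x : SL(2, ℤ))⁻¹) := by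
  set g : SL(2, ℤ) := (Quotient.out x : SL(2, ℤ))⁻¹ with hg
  have hn : 0 < N / cuspWidth N g := level_div_width_pos N g
  have key : ∀ b : WH (Gamma0 N), ∃ u : ℤᵐ⁰,
      DictInf.v N x (algebraMap (WH (Gamma0 N)) (S20.FF N) b) = u ^ (N / cuspWidth N g) := by
    intro b
    by_cases hb : b = 0
    · refine ⟨0, ?_⟩
      rw [hb, map_zero, map_zero, zero_pow hn.ne']
    · obtain ⟨m, hm⟩ := dvd_ordCusp b.2 (DictInf.coe_ne_zero N hb) g (cuspWidth_pos N g)
        (cuspWidth_dvd_level N g) (cuspWidth_mem N g)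
      have hw : DictInf.w N x b = ((N / cuspWidth N g : ℕ) : ℤ) * m := by
        unfold DictInf.w ordCuspZ
        rw [← hg, hm]
        rfl
      refine ⟨WithZero.exp (-m), ?_⟩
      rw [DictInf.v_algebraMap N x b hb, hw, ← WithZero.exp_nsmul]
      congr 1
      rw [nsmul_eq_mul]
      ring
  obtain ⟨a, b, hb, rfl⟩ := IsFractionRing.div_surjective (A := WH (Gamma0 N)) f
  obtain ⟨ua, hua⟩ := key a
  obtain ⟨ub, hub⟩ := key b
  refine ⟨ua / ub, ?_⟩
  rw [map_div₀, hua, hub, div_pow]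

theorem v_eq_one_of_notMem (x : X0 N) (a : Ainf ℂ)
    (ha : a ∉ Ideal.span {(Ainf.Xinv : Ainf ℂ)}) :
    DictInf.v N x (algebraMap (Binf N) (S20.FF N) (algebraMap (Ainf ℂ) (Binf N) a)) = 1 := by
  rw [← Ainf.maximalIdeal_eq, Ainf.mem_maximalIdeal_iff] at ha
  push Not at ha
  have h0 : (a : RatFunc ℂ) ≠ 0 := (AinfDVR.coe_ne_zero_iff a).2 ha.1
  have hdeg : (a : RatFunc ℂ).intDegree = 0 := le_antisymm (AinfDVR.intDegree_le a) ha.2
  show DictInf.v N x (algebraMap (RatFunc ℂ) (S20.FF N) (a : RatFunc ℂ)) = 1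
  rw [DictInf.v_ratFunc N x h0, hdeg, mul_zero, WithZero.exp_zero]

omit [NeZero N] in
theorem residue_surjective_inf (𝔮 : Ideal (Binf N)) (h𝔮 : 𝔮.IsMaximal)
    (ha : algebraMap (Ainf ℂ) (Binf N) Ainf.Xinv ∈ 𝔮) :
    Function.Surjective ((Ideal.Quotient.mk 𝔮).comp (algebraMap (Ainf ℂ) (Binf N))) := by
  let _ : Field (Binf N ⧸ 𝔮) := Ideal.Quotient.field 𝔮
  set φ : Ainf ℂ →+* Binf N ⧸ 𝔮 :=
    (Ideal.Quotient.mk 𝔮).comp (algebraMap (Ainf ℂ) (Binf N)) with hφ
  set ψ : ℂ →+* Binf N ⧸ 𝔮 := φ.comp (Ainf.const : ℂ →+* Ainf ℂ) with hψ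
  have hφψ : ∀ a : Ainf ℂ, ∃ c : ℂ, ψ c = φ a := by
    intro a
    obtain ⟨c, hc⟩ := Ainf.exists_const_sub_mem a
    rw [Ainf.maximalIdeal_eq, Ideal.mem_span_singleton] at hc
    obtain ⟨d, hd⟩ := hc
    refine ⟨c, ?_⟩
    have h0 : φ Ainf.Xinv = 0 := Ideal.Quotient.eq_zero_iff_mem.mpr ha
    have h1 : φ (a - Ainf.const c) = 0 := by
      rw [hd, map_mul, h0, zero_mul]
    rw [map_sub, sub_eq_zero] at h1
    exact h1.symm
  let _ : Algebra ℂ (Binf N ⧸ 𝔮) := ψ.toAlgebra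
  have hint : Algebra.IsIntegral ℂ (Binf N ⧸ 𝔮) := by
    refine ⟨fun y => ?_⟩
    obtain ⟨b, rfl⟩ := Ideal.Quotient.mk_surjective y
    obtain ⟨P, hPm, hP⟩ := Algebra.IsIntegral.isIntegral (R := Ainf ℂ) b
    have hlift : P.map φ ∈ Polynomial.lifts ψ := by
      rw [Polynomial.lifts_iff_coeff_lifts]
      intro n
      rw [Polynomial.coeff_map]
      exact hφψ (P.coeff n)
    obtain ⟨Q, hQ, -, hQm⟩ := Polynomial.lifts_and_natDegree_eq_and_monic hlift (hPm.map φ)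
    refine ⟨Q, hQm, ?_⟩
    change Polynomial.eval₂ ψ (Ideal.Quotient.mk 𝔮 b) Q = 0
    rw [← Polynomial.eval_map, hQ, Polynomial.eval_map, hφ, ← Polynomial.hom_eval₂, hP, map_zero]
  intro y
  obtain ⟨c, hc⟩ := (IsAlgClosed.algebraMap_bijective_of_isIntegral (k := ℂ)
    (K := Binf N ⧸ 𝔮)).2 y
  exact ⟨Ainf.const c, hc⟩

instance instModuleFiniteAinfBinf : Module.Finite (Ainf ℂ) (Binf N) :=
  IsIntegralClosure.finite (Ainf ℂ) (RatFunc ℂ) (S20.FF N) (Binf N)

theorem finrank_Binf : Module.finrank (Ainf ℂ) (Binf N) = Nat.card (X0 N) := by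
  have := DictInf.faithfulSMul_Binf N
  have h := Algebra.IsAlgebraic.rank_of_isFractionRing (Ainf ℂ) (RatFunc ℂ) (Binf N) (S20.FF N)
  have h2 : Module.finrank (Ainf ℂ) (Binf N) = Module.finrank (RatFunc ℂ) (S20.FF N) := by
    unfold Module.finrank
    rw [h]
  rw [h2, S20.finrank_FF]
  rfl

/-- **The cusps of `X₀(N)`**: the primes of the ring at infinity are in bijection with the
`T`-orbits on `SL(2,ℤ) ⧸ Γ₀(N)`; the ramification index is the width, and the cusp order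
valuation (in `q_N`) is the `(N / width)`-th power of the adic valuation. -/
theorem cusp_places :
    ∃ φ : Quotient (MulAction.orbitRel (Subgroup.zpowers ModularGroup.T) (X0 N)) ≃
        {𝔮 : HeightOneSpectrum (Binf N) //
          algebraMap (Ainf ℂ) (Binf N) Ainf.Xinv ∈ 𝔮.asIdeal},
      ∀ x : X0 N,
        (φ (Quotient.mk _ x)).1.asIdeal.ramificationIdx (Ainf ℂ) *
            (N / cuspWidth N (Quotient.out x : SL(2, ℤ))⁻¹) = N ∧
        ∀ f : S20.FF N, DictInf.v N x f =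
          ((φ (Quotient.mk _ x)).1.valuation (S20.FF N) f) ^
            (N / cuspWidth N (Quotient.out x : SL(2, ℤ))⁻¹) := by
  have := DictInf.faithfulSMul_Binf N
  have hmax : (Ideal.span {(Ainf.Xinv : Ainf ℂ)}).IsMaximal := by
    rw [← Ainf.maximalIdeal_eq]
    exact IsLocalRing.maximalIdeal.isMaximal _
  have hfin : Finite (X0 N) := Subgroup.finite_quotient_of_finiteIndex
  exact places_of_valuations (A := Ainf ℂ) Ainf.Xinv Ainf.Xinv_ne_zero hmax
    (B := Binf N) (L := S20.FF N)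
    (fun 𝔮 h𝔮 hmem => residue_surjective_inf N 𝔮 h𝔮 hmem)
    (X := X0 N) (finrank_Binf N).symm
    (DictInf.v N) (DictInf.v_Ainf_le N) (fun _ => N) (fun _ => NeZero.pos N) (DictInf.v_Xinv N)
    (v_eq_one_of_notMem N)
    (fun x => N / cuspWidth N (Quotient.out x : SL(2, ℤ))⁻¹)
    (exists_pow_eq_v N)
    (MulAction.orbitRel (Subgroup.zpowers ModularGroup.T) (X0 N))
    (fun x => by
      rw [card_orbit_eq, mul_comm]
      exact level_div_width_mul N _)
    (fun x y h b => by rw [DictInf.v_eq_of_rel N h])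
    (DictInf.hnorm N)

/-! ### Places of `S20.FF N` -/

theorem const_mem_range_WH (a : ℂ) :
    algebraMap ℂ (S20.FF N) a ∈ (algebraMap (WH (Gamma0 N)) (S20.FF N)).range :=
  S24.PrimeBridge.const_mem_range ℂ (S20.FF N) (WH (Gamma0 N)) a

theorem const_mem_range_Binf (a : ℂ) :
    algebraMap ℂ (S20.FF N) a ∈ (algebraMap (Binf N) (S20.FF N)).range :=
  S24.PrimeBridge.const_mem_range_inf ℂ (S20.FF N) (Binf N) a

omit [NeZero N] in
theorem eq_mul_of_exp_eq_pow {u : ℤᵐ⁰} {k : ℤ} {n : ℕ}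
    (h : WithZero.exp (-k) = u ^ n) : k = (n : ℤ) * (-(WithZero.log u)) := by
  have h1 := congrArg WithZero.log h
  rw [WithZero.log_exp, WithZero.log_pow, nsmul_eq_mul] at h1
  linarith

omit [NeZero N] in
theorem X_ne_zero_FF : algebraMap ℂ[X] (S20.FF N) X ≠ 0 :=
  S24.PrimeBridge.X_ne_zero ℂ (S20.FF N)

omit [NeZero N] in
theorem algebraMap_WH_ne_zero {b : WH (Gamma0 N)} (hb : b ≠ 0) :
    algebraMap (WH (Gamma0 N)) (S20.FF N) b ≠ 0 := by
  rw [Ne, map_eq_zero_iff _ (IsFractionRing.injective (WH (Gamma0 N)) (S20.FF N))]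
  exact hb

omit [NeZero N] in
theorem ord_div (v : Place ℂ (S20.FF N)) {a b : S20.FF N} (ha : a ≠ 0) (hb : b ≠ 0) :
    v.ord (a / b) = v.ord a - v.ord b := by
  rw [div_eq_mul_inv, v.ord_mul ha (inv_ne_zero hb), v.ord_inv]
  ring

theorem ordZ_eq_of_valuation (z : ℍ) (n : ℕ) (𝔮 : HeightOneSpectrum (WH (Gamma0 N)))
    (hval : ∀ f : S20.FF N, ordVal (Gamma0 N) (S20.FF N) z f = 𝔮.valuation (S20.FF N) f ^ n)
    (v : Place ℂ (S20.FF N))
    (hv : ∀ f : S20.FF N, v.ord f = -(WithZero.log (𝔮.valuation (S20.FF N) f)))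
    (b : WH (Gamma0 N)) (hb : b ≠ 0) :
    ordZ z b = (n : ℤ) * v.ord (algebraMap (WH (Gamma0 N)) (S20.FF N) b) := by
  have h1 := hval (algebraMap (WH (Gamma0 N)) (S20.FF N) b)
  rw [ordVal_apply (Gamma0 N) (S20.FF N) z b hb] at h1
  rw [hv]
  exact eq_mul_of_exp_eq_pow h1

/-- **Finite places, existence**: every point `z : ℍ` gives a place of the function field at
which `j` is regular, and the analytic order at `z` is `|Γ₀(N)_z / ±1|` times the order at the
place. -/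
theorem exists_place_of_point (z : ℍ) :
    ∃ v : Place ℂ (S20.FF N), 0 ≤ v.ord (algebraMap ℂ[X] (S20.FF N) X) ∧
      ∀ b : WH (Gamma0 N), b ≠ 0 →
        ordZ z b = (stabIdx N z : ℤ) * v.ord (algebraMap (WH (Gamma0 N)) (S20.FF N) b) := by
  obtain ⟨φ, hφ⟩ := finite_places N (S20.FF N) z
  set x1 : X0 N := ((1 : SL(2, ℤ)) : X0 N) with hx1
  obtain ⟨-, hval⟩ := hφ x1
  obtain ⟨γ, hγ, hpt⟩ := pt_mk (Γ := Gamma0 N) z 1
  rw [inv_one, one_smul] at hpt
  set 𝔮 := (φ (Quotient.mk _ x1)).1 with h𝔮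
  refine ⟨S24.PrimeBridge.placeOfPrime (WH (Gamma0 N)) (const_mem_range_WH N) 𝔮, ?_,
    fun b hb => ?_⟩
  · rw [S24.Places.ord_nonneg_iff_mem _ (X_ne_zero_FF N),
      IsScalarTower.algebraMap_apply ℂ[X] (WH (Gamma0 N)) (S20.FF N)]
    exact S24.PrimeBridge.algebraMap_mem_placeOfPrime _ _ 𝔮 _
  · have h1 := ordZ_eq_of_valuation N (pt z x1) (nIdx (Gamma0 N) z x1) 𝔮 hval
      (S24.PrimeBridge.placeOfPrime (WH (Gamma0 N)) (const_mem_range_WH N) 𝔮)
      (fun f => S24.PrimeBridge.placeOfPrime_ord _ _ 𝔮 f) b hb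
    rw [nIdx_eq_stabIdx, hx1, hpt, stabIdx_smul N hγ] at h1
    rw [← h1]
    exact ordZ_congr b (ordAt_smul_of_invariant (isWH_coe b).inv hγ z).symm

/-- **Finite places, classification**: every place at which `j` is regular comes from a point
`z : ℍ`. -/
theorem exists_point_of_place (v : Place ℂ (S20.FF N))
    (hv : 0 ≤ v.ord (algebraMap ℂ[X] (S20.FF N) X)) :
    ∃ z : ℍ, ∀ b : WH (Gamma0 N), b ≠ 0 →
        ordZ z b = (stabIdx N z : ℤ) * v.ord (algebraMap (WH (Gamma0 N)) (S20.FF N) b) := by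
  have hX : algebraMap ℂ[X] (S20.FF N) X ∈ v.toValuationSubring :=
    (S24.Places.ord_nonneg_iff_mem v (X_ne_zero_FF N)).1 hv
  have hB := S24.PrimeBridge.algebraMap_mem_of_X_mem ℂ (S20.FF N) (WH (Gamma0 N)) v hX
  set 𝔮 := S24.PrimeBridge.toPrime v hB with h𝔮
  obtain ⟨a, ha⟩ := exists_X_sub_C_mem (Gamma0 N) 𝔮
  obtain ⟨z0, rfl⟩ := jFun_surjective a
  obtain ⟨φ, hφ⟩ := finite_places N (S20.FF N) z0
  obtain ⟨q, hq⟩ := φ.surjective ⟨𝔮, ha⟩
  obtain ⟨x, rfl⟩ := Quotient.exists_rep q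
  obtain ⟨-, hval⟩ := hφ x
  rw [hq] at hval
  refine ⟨pt z0 x, fun b hb => ?_⟩
  exact ordZ_eq_of_valuation N (pt z0 x) (nIdx (Gamma0 N) z0 x) 𝔮 hval v
    (fun f => S24.PrimeBridge.ord_eq_toPrime v hB f) b hb

theorem cusp_key (x : X0 N) (𝔮 : HeightOneSpectrum (Binf N))
    (hval : ∀ f : S20.FF N, DictInf.v N x f =
      𝔮.valuation (S20.FF N) f ^ (N / cuspWidth N (Quotient.out x : SL(2, ℤ))⁻¹))
    (v : Place ℂ (S20.FF N))
    (hv : ∀ f : S20.FF N, v.ord f = -(WithZero.log (𝔮.valuation (S20.FF N) f))) :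
    v.ord (algebraMap ℂ[X] (S20.FF N) X) =
        -(cuspWidth N (Quotient.out x : SL(2, ℤ))⁻¹ : ℤ) ∧
      ∀ b : WH (Gamma0 N), b ≠ 0 → DictInf.w N x b =
        ((N / cuspWidth N (Quotient.out x : SL(2, ℤ))⁻¹ : ℕ) : ℤ) *
          v.ord (algebraMap (WH (Gamma0 N)) (S20.FF N) b) := by
  set g : SL(2, ℤ) := (Quotient.out x : SL(2, ℤ))⁻¹ with hg
  constructor
  · have h1 := hval (algebraMap ℂ[X] (S20.FF N) X)
    rw [DictInf.v_poly N x (X_ne_zero : (X : ℂ[X]) ≠ 0), natDegree_X] at h1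
    have h2 : -(N : ℤ) = ((N / cuspWidth N g : ℕ) : ℤ) *
        (-(WithZero.log (𝔮.valuation (S20.FF N) (algebraMap ℂ[X] (S20.FF N) X)))) := by
      apply eq_mul_of_exp_eq_pow
      rw [← h1]
      congr 1
      push_cast
      ring
    rw [← hv] at h2
    have h3 : ((N / cuspWidth N g : ℕ) : ℤ) * (cuspWidth N g : ℤ) = (N : ℤ) := by
      exact_mod_cast level_div_width_mul N g
    have h4 : (0 : ℤ) < ((N / cuspWidth N g : ℕ) : ℤ) := by
      exact_mod_cast level_div_width_pos N g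
    have h5 : ((N / cuspWidth N g : ℕ) : ℤ) * v.ord (algebraMap ℂ[X] (S20.FF N) X) =
        ((N / cuspWidth N g : ℕ) : ℤ) * (-(cuspWidth N g : ℤ)) := by
      rw [← h2, mul_neg, h3]
    exact mul_left_cancel₀ h4.ne' h5
  · intro b hb
    have h1 := hval (algebraMap (WH (Gamma0 N)) (S20.FF N) b)
    rw [DictInf.v_algebraMap N x b hb] at h1
    rw [hv]
    exact eq_mul_of_exp_eq_pow h1

/-- **Cusps, existence**: every cusp `g • ∞` gives a pole place of `j`, of pole order the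
width of the cusp, and the cusp order (in `q_N`) is `N / width` times the order at the place. -/
theorem exists_place_of_cusp (g : SL(2, ℤ)) :
    ∃ v : Place ℂ (S20.FF N),
      v.ord (algebraMap ℂ[X] (S20.FF N) X) = -(cuspWidth N g : ℤ) ∧
      ∀ b : WH (Gamma0 N), b ≠ 0 →
        ordCuspZ N g (b : ℍ → ℂ) =
          ((N / cuspWidth N g : ℕ) : ℤ) *
            v.ord (algebraMap (WH (Gamma0 N)) (S20.FF N) b) := by
  obtain ⟨φ, hφ⟩ := cusp_places N
  set x : X0 N := (QuotientGroup.mk g⁻¹ : X0 N) with hx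
  obtain ⟨-, hval⟩ := hφ x
  set 𝔮 := (φ (Quotient.mk _ x)).1 with h𝔮
  obtain ⟨h1, h2⟩ := cusp_key N x 𝔮 hval
    (S24.PrimeBridge.placeOfPrime (Binf N) (const_mem_range_Binf N) 𝔮)
    (fun f => S24.PrimeBridge.placeOfPrime_ord _ _ 𝔮 f)
  have hw : cuspWidth N (Quotient.out x : SL(2, ℤ))⁻¹ = cuspWidth N g := by
    obtain ⟨h, hh⟩ := QuotientGroup.mk_out_eq_mul (Gamma0 N) g⁻¹
    rw [hx, hh, mul_inv_rev, inv_inv]
    exact cuspWidth_mul_left N ((Gamma0 N).inv_mem h.2) g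
  rw [hw] at h1 h2
  refine ⟨_, h1, fun b hb => ?_⟩
  rw [← h2 b hb, hx, DictInf.w_mk]

/-- **Cusps, classification**: every pole place of `j` comes from a cusp. -/
theorem exists_cusp_of_place (v : Place ℂ (S20.FF N))
    (hv : v.ord (algebraMap ℂ[X] (S20.FF N) X) < 0) :
    ∃ g : SL(2, ℤ),
      v.ord (algebraMap ℂ[X] (S20.FF N) X) = -(cuspWidth N g : ℤ) ∧
      ∀ b : WH (Gamma0 N), b ≠ 0 →
        ordCuspZ N g (b : ℍ → ℂ) =
          ((N / cuspWidth N g : ℕ) : ℤ) *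
            v.ord (algebraMap (WH (Gamma0 N)) (S20.FF N) b) := by
  have hX : algebraMap ℂ[X] (S20.FF N) X ∉ v.toValuationSubring := by
    intro hmem
    have := (S24.Places.ord_nonneg_iff_mem v (X_ne_zero_FF N)).2 hmem
    omega
  have hB := S24.PrimeBridge.algebraMap_mem_of_X_notMem ℂ (S20.FF N) (Binf N) v hX
  set 𝔫 := S24.PrimeBridge.toPrime v hB with h𝔫
  obtain ⟨φ, hφ⟩ := cusp_places N
  obtain ⟨q, hq⟩ := φ.surjective ⟨𝔫, DictInf.Xinv_mem N 𝔫⟩
  obtain ⟨x, rfl⟩ := Quotient.exists_rep q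
  obtain ⟨-, hval⟩ := hφ x
  rw [hq] at hval
  obtain ⟨h1, h2⟩ := cusp_key N x 𝔫 hval v (fun f => S24.PrimeBridge.ord_eq_toPrime v hB f)
  exact ⟨(Quotient.out x : SL(2, ℤ))⁻¹, h1, fun b hb => h2 b hb⟩

/-- the cusp order in `q_N` versus the order in the local parameter `q_h`, `h` the width -/
theorem ordCuspZ_eq_width (g : SL(2, ℤ)) (b : WH (Gamma0 N)) (hb : b ≠ 0) :
    ordCuspZ N g (b : ℍ → ℂ) = ((N / cuspWidth N g : ℕ) : ℤ) *
      (ordInf (cuspWidth N g) (fun z => (b : ℍ → ℂ) (g • z))).untop₀ := by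
  have h1 := ordCusp_eq_mul b.2 g (cuspWidth_pos N g) (cuspWidth_dvd_level N g)
    (cuspWidth_mem N g)
  have hne : ordInf (cuspWidth N g) (fun z => (b : ℍ → ℂ) (g • z)) ≠ ⊤ := by
    rw [Ne, ordInf_eq_top_iff (cuspWidth_pos N g)
      (IsWH.isMeroInf_of_conj_mem b.2 g (cuspWidth_mem N g))]
    intro h
    apply DictInf.coe_ne_zero N hb
    funext z
    have := congrFun h (g⁻¹ • z)
    simpa using this
  unfold ordCuspZ
  rw [h1]
  conv_lhs => rw [← WithTop.coe_untop₀_of_ne_top hne]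
  rw [← WithTop.coe_mul, WithTop.untop₀_coe, mul_comm]

/-! ### Consumer forms, transported along an isomorphism `e : S20.FF N ≃ₐ[ℂ] F'` -/

/-- **(a)** the elements of the function field integral over `ℂ[j]` are exactly the weakly
holomorphic functions. -/
theorem isIntegral_iff (x : S20.FF N) :
    IsIntegral ℂ[X] x ↔ ∃ f : WH (Gamma0 N), algebraMap (WH (Gamma0 N)) (S20.FF N) f = x :=
  IsIntegralClosure.isIntegral_iff (A := WH (Gamma0 N))

section transport

variable {F' : Type*} [Field F'] [Algebra ℂ F'] (e : S20.FF N ≃ₐ[ℂ] F')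

omit [NeZero N] in
theorem ord_map (v : Place ℂ (S20.FF N)) (f : S20.FF N) :
    (S24.placeEquiv e v).ord (e f) = v.ord f := S24.placeEquiv_ord e v f

omit [NeZero N] in
theorem ord_map_symm (v : Place ℂ F') (f : S20.FF N) :
    ((S24.placeEquiv e).symm v).ord f = v.ord (e f) := by
  have h := S24.placeEquiv_ord e ((S24.placeEquiv e).symm v) f
  rw [Equiv.apply_symm_apply] at h
  exact h.symm

omit [NeZero N] in
theorem ord_frac (v : Place ℂ (S20.FF N)) {a b : WH (Gamma0 N)} (ha : a ≠ 0) (hb : b ≠ 0) :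
    v.ord (algebraMap (WH (Gamma0 N)) (S20.FF N) a / algebraMap (WH (Gamma0 N)) (S20.FF N) b) =
      v.ord (algebraMap (WH (Gamma0 N)) (S20.FF N) a) -
        v.ord (algebraMap (WH (Gamma0 N)) (S20.FF N) b) :=
  ord_div N v (algebraMap_WH_ne_zero N ha) (algebraMap_WH_ne_zero N hb)

/-- **(b)**, finite part: if `m` divides the order of `e (a / b)` at every place, then
`m * |Γ₀(N)_z/±1|` divides `ord_z a - ord_z b` at every point `z : ℍ`. -/
theorem dvd_ordZ_of_forall (m : ℤ) (a b : WH (Gamma0 N)) (ha : a ≠ 0) (hb : b ≠ 0)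
    (h : ∀ v : Place ℂ F', m ∣ v.ord (e (algebraMap (WH (Gamma0 N)) (S20.FF N) a /
      algebraMap (WH (Gamma0 N)) (S20.FF N) b))) (z : ℍ) :
    m * (stabIdx N z : ℤ) ∣ ordZ z a - ordZ z b := by
  obtain ⟨v, -, hv⟩ := exists_place_of_point N z
  have h1 := h (S24.placeEquiv e v)
  rw [ord_map, ord_frac N v ha hb] at h1
  rw [hv a ha, hv b hb, ← mul_sub, mul_comm m]
  exact mul_dvd_mul_left _ h1

/-- **(b)**, cusp part. -/
theorem dvd_ordCuspZ_of_forall (m : ℤ) (a b : WH (Gamma0 N)) (ha : a ≠ 0) (hb : b ≠ 0)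
    (h : ∀ v : Place ℂ F', m ∣ v.ord (e (algebraMap (WH (Gamma0 N)) (S20.FF N) a /
      algebraMap (WH (Gamma0 N)) (S20.FF N) b))) (g : SL(2, ℤ)) :
    m * ((N / cuspWidth N g : ℕ) : ℤ) ∣
      ordCuspZ N g (a : ℍ → ℂ) - ordCuspZ N g (b : ℍ → ℂ) := by
  obtain ⟨v, -, hv⟩ := exists_place_of_cusp N g
  have h1 := h (S24.placeEquiv e v)
  rw [ord_map, ord_frac N v ha hb] at h1
  rw [hv a ha, hv b hb, ← mul_sub, mul_comm m]
  exact mul_dvd_mul_left _ h1

/-- **(b')**: conversely, the analytic divisibilities at all points and all cusps give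
divisibility of the order at every place. -/
theorem forall_dvd_ord_of_dvd (m : ℤ) (a b : WH (Gamma0 N)) (ha : a ≠ 0) (hb : b ≠ 0)
    (hfin : ∀ z : ℍ, m * (stabIdx N z : ℤ) ∣ ordZ z a - ordZ z b)
    (hinf : ∀ g : SL(2, ℤ), m * ((N / cuspWidth N g : ℕ) : ℤ) ∣
      ordCuspZ N g (a : ℍ → ℂ) - ordCuspZ N g (b : ℍ → ℂ))
    (v : Place ℂ F') :
    m ∣ v.ord (e (algebraMap (WH (Gamma0 N)) (S20.FF N) a /
      algebraMap (WH (Gamma0 N)) (S20.FF N) b)) := by
  rw [← ord_map_symm, ord_frac N _ ha hb]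
  set v0 := (S24.placeEquiv e).symm v with hv0
  rcases le_or_gt 0 (v0.ord (algebraMap ℂ[X] (S20.FF N) X)) with hX | hX
  · obtain ⟨z, hz⟩ := exists_point_of_place N v0 hX
    have h1 := hfin z
    rw [hz a ha, hz b hb, ← mul_sub, mul_comm m] at h1
    have hpos : ((stabIdx N z : ℕ) : ℤ) ≠ 0 := by
      exact_mod_cast (stabIdx_pos N z).ne'
    exact (mul_dvd_mul_iff_left hpos).mp h1
  · obtain ⟨g, -, hg⟩ := exists_cusp_of_place N v0 hX
    have h1 := hinf g
    rw [hg a ha, hg b hb, ← mul_sub, mul_comm m] at h1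
    have hpos : ((N / cuspWidth N g : ℕ) : ℤ) ≠ 0 := by
      exact_mod_cast (level_div_width_pos N g).ne'
    exact (mul_dvd_mul_iff_left hpos).mp h1

theorem le_ordCuspZ_iff_bdd (f : WH (Gamma0 N)) (hf : f ≠ 0) (c : ℕ) (g : SL(2, ℤ)) :
    -((N : ℤ) * c) ≤ ordCuspZ N g (f : ℍ → ℂ) ↔
      IsBoundedAtImInfty
        (fun z : ℍ => (f : ℍ → ℂ) (g • z) * ModularForm.discriminant z ^ c) := by
  have hΔd : IsMeroInf N ((fun z : ℍ => ModularForm.discriminant z) ^ c) :=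
    (isMeroInf_disc N).pow _
  have hF := (f.2.isMeroInf g).mul hΔd
  have hord : ordInf N ((fun z => (f : ℍ → ℂ) (g • z)) *
      (fun z : ℍ => ModularForm.discriminant z) ^ c) =
        ((ordCuspZ N g (f : ℍ → ℂ) + (N : ℤ) * c : ℤ) : WithTop ℤ) := by
    rw [ordInf_mul (NeZero.pos N) (f.2.isMeroInf g) hΔd,
      ordInf_pow (NeZero.pos N) (isMeroInf_disc N), ordInf_disc (NeZero.pos N)]
    change ordCusp N g (f : ℍ → ℂ) + _ = _
    rw [ordCusp_eq_coe f.2 (DictInf.coe_ne_zero N hf) g, WithTop.coe_add, mul_comm,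
      ← nsmul_eq_mul, WithTop.coe_nsmul]
  have hiff := ordInf_nonneg_iff (NeZero.pos N) hF
  rw [hord] at hiff
  rw [show (fun z : ℍ => (f : ℍ → ℂ) (g • z) * ModularForm.discriminant z ^ c) =
      (fun z => (f : ℍ → ℂ) (g • z)) * (fun z : ℍ => ModularForm.discriminant z) ^ c from rfl,
    ← hiff]
  constructor
  · intro h
    exact_mod_cast (by linarith : (0 : ℤ) ≤ ordCuspZ N g (f : ℍ → ℂ) + (N : ℤ) * c)
  · intro h
    have h' : (0 : ℤ) ≤ ordCuspZ N g (f : ℍ → ℂ) + (N : ℤ) * c := by exact_mod_cast h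
    linarith

/-- **(c)**: growth at the cusps versus pole orders at the places over `j = ∞`. -/
theorem bdd_iff_ord_ge (f : WH (Gamma0 N)) (c : ℕ) :
    (∀ g : SL(2, ℤ), IsBoundedAtImInfty
        (fun z : ℍ => (f : ℍ → ℂ) (g • z) * ModularForm.discriminant z ^ c)) ↔
      ∀ v : Place ℂ F', v.ord (e (algebraMap ℂ[X] (S20.FF N) X)) < 0 →
        (c : ℤ) * v.ord (e (algebraMap ℂ[X] (S20.FF N) X)) ≤
          v.ord (e (algebraMap (WH (Gamma0 N)) (S20.FF N) f)) := by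
  by_cases hf : f = 0
  · subst hf
    constructor
    · intro _ v hv
      rw [map_zero, map_zero, Place.ord_zero]
      exact mul_nonpos_of_nonneg_of_nonpos (Int.natCast_nonneg c) hv.le
    · intro _ g
      have e0 : (fun z : ℍ => ((0 : WH (Gamma0 N)) : ℍ → ℂ) (g • z) *
          ModularForm.discriminant z ^ c) = fun _ => (0 : ℂ) := by
        funext z
        simp
      rw [e0]
      exact Filter.const_boundedAtFilter _ (0 : ℂ)
  constructor
  · intro h v hv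
    rw [← ord_map_symm] at hv ⊢
    rw [← ord_map_symm]
    set v0 := (S24.placeEquiv e).symm v with hv0
    obtain ⟨g, hX, hg⟩ := exists_cusp_of_place N v0 hv
    have h1 := (le_ordCuspZ_iff_bdd N f hf c g).mpr (h g)
    rw [hg f hf] at h1
    rw [hX]
    have h3 : ((N / cuspWidth N g : ℕ) : ℤ) * (cuspWidth N g : ℤ) = (N : ℤ) := by
      exact_mod_cast level_div_width_mul N g
    have h4 : (0 : ℤ) < ((N / cuspWidth N g : ℕ) : ℤ) := by
      exact_mod_cast level_div_width_pos N g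
    have h5 : ((N / cuspWidth N g : ℕ) : ℤ) * ((c : ℤ) * -(cuspWidth N g : ℤ)) ≤
        ((N / cuspWidth N g : ℕ) : ℤ) *
          v0.ord (algebraMap (WH (Gamma0 N)) (S20.FF N) f) := by
      calc ((N / cuspWidth N g : ℕ) : ℤ) * ((c : ℤ) * -(cuspWidth N g : ℤ))
          = -((((N / cuspWidth N g : ℕ) : ℤ) * (cuspWidth N g : ℤ)) * c) := by ring
        _ = -((N : ℤ) * c) := by rw [h3]
        _ ≤ _ := h1
    exact le_of_mul_le_mul_left h5 h4
  · intro h g
    obtain ⟨v0, hX, hv0⟩ := exists_place_of_cusp N g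
    have h1 := h (S24.placeEquiv e v0)
    rw [ord_map, ord_map, hX] at h1
    have h2 := h1 (by
      have := cuspWidth_pos N g
      omega)
    rw [← le_ordCuspZ_iff_bdd N f hf c g, hv0 f hf]
    have h3 : ((N / cuspWidth N g : ℕ) : ℤ) * (cuspWidth N g : ℤ) = (N : ℤ) := by
      exact_mod_cast level_div_width_mul N g
    have h4 : (0 : ℤ) ≤ ((N / cuspWidth N g : ℕ) : ℤ) := Int.natCast_nonneg _
    calc -((N : ℤ) * c)
        = ((N / cuspWidth N g : ℕ) : ℤ) * ((c : ℤ) * -(cuspWidth N g : ℤ)) := by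
          rw [← h3]; ring
      _ ≤ _ := mul_le_mul_of_nonneg_left h2 h4

end transport

end Fermat.Agent.S29.DictWH
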