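import Mathlib
import Fermat.Agent.S24.QLaurent
import Fermat.Agent.S29.Root

/-!
# S29 (K3-per): roots of `1`-periodic functions and their `q`-expansions

A holomorphic `m`-th root `u` on `ℍ` of a `1`-periodic function `f`, meromorphic at `i∞`, whose
`q`-order is divisible by `m`, is itself `1`-periodic and meromorphic at `i∞`; its `q`-expansion is
an `m`-th root of the `q`-expansion of `f`, hence equals any given formal root up to an `m`-th
root of unity.
-/

set_option autoImplicit false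

open UpperHalfPlane hiding I
open Complex Filter Function
open scoped Topology Manifold MatrixGroups

namespace Fermat.Agent.S29.RootQ

open Fermat.Agent.S20 Fermat.Agent.S24

/-! ## Preliminaries in the `IsPM` currency -/

theorem isPM_qH : IsPM qH where
  mdiff := mdiff_qH
  per := periodic_comp_ofComplex_of qH_vadd
  bdd := ⟨0, by simpa using isHPB_qH.bdd⟩

theorem qLaurentFun_qH : qLaurentFun qH = HahnSeries.single (1 : ℤ) (1 : ℂ) := by
  have hb : IsBoundedAtImInfty (fun z => qH z ^ 0 * qH z) := by simpa using isHPB_qH.bdd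
  rw [qLaurentFun_eq isPM_qH hb]
  have e : (fun z => qH z ^ 0 * qH z) = fun z => qH z ^ 1 := by
    funext z
    simp
  rw [e, qExpansion_qH_pow, pow_one, HahnSeries.ofPowerSeries_X]
  simp

theorem IsPM.pow' {f : ℍ → ℂ} (hf : IsPM f) (n : ℕ) : IsPM (f ^ n) :=
  PM.pow_mem (mem_PM.mpr hf) n

theorem qLaurentFun_pow {f : ℍ → ℂ} (hf : IsPM f) (n : ℕ) :
    qLaurentFun (f ^ n) = qLaurentFun f ^ n := by
  have h := map_pow qLaurent (⟨f, hf⟩ : PM) n
  rw [qLaurent_apply, qLaurent_apply] at h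
  exact h

/-- If a power of a function is bounded at `i∞`, so is the function. -/
theorem isBoundedAtImInfty_of_pow {g : ℍ → ℂ} {m : ℕ} (hm : 0 < m)
    (h : IsBoundedAtImInfty (fun z => g z ^ m)) : IsBoundedAtImInfty g := by
  rw [UpperHalfPlane.isBoundedAtImInfty_iff] at h ⊢
  obtain ⟨M, A, hMA⟩ := h
  refine ⟨max M 1, A, fun z hz => ?_⟩
  have h1 := hMA z hz
  rw [norm_pow] at h1
  by_cases h2 : ‖g z‖ ≤ 1
  · exact h2.trans (le_max_right _ _)
  · push Not at h2
    have h3 : ‖g z‖ ≤ ‖g z‖ ^ m := le_self_pow₀ h2.le hm.ne'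
    exact (h3.trans h1).trans (le_max_left _ _)

theorem mdiff_exp_mul (c : ℂ) : MDiff (fun z : ℍ => Complex.exp (c * (z : ℂ))) := by
  rw [UpperHalfPlane.mdifferentiable_iff]
  have : DifferentiableOn ℂ (fun w : ℂ => Complex.exp (c * w)) {z | 0 < z.im} := by
    fun_prop
  refine this.congr fun w hw => ?_
  simp [ofComplex_apply_of_im_pos hw]

theorem mdiff_vadd {u : ℍ → ℂ} (hu : MDiff u) : MDiff (fun z : ℍ => u ((1 : ℝ) +ᵥ z)) := by
  have h := mdiff_comp_smul hu ModularGroup.T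
  have e : (fun z : ℍ => u (ModularGroup.T • z)) = fun z : ℍ => u ((1 : ℝ) +ᵥ z) := by
    funext z
    rw [UpperHalfPlane.modular_T_smul]
  rw [e] at h
  exact h

/-! ## The two key lemmas -/

/-- A periodic holomorphic `v` with `v ^ m * q ^ a = f` is meromorphic at `i∞`. -/
theorem isPM_of_pow_mul {m : ℕ} (hm : 0 < m) {f v : ℍ → ℂ} (hf : IsPM f) (hv : MDiff v)
    (hper : ∀ z : ℍ, v ((1 : ℝ) +ᵥ z) = v z) (a : ℕ)
    (h : ∀ z : ℍ, v z ^ m * qH z ^ a = f z) : IsPM v where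
  mdiff := hv
  per := periodic_comp_ofComplex_of hper
  bdd := by
    obtain ⟨n, hn⟩ := hf.bdd
    refine ⟨n + a, isBoundedAtImInfty_of_pow hm ?_⟩
    obtain ⟨m', rfl⟩ : ∃ m', m = m' + 1 := ⟨m - 1, by omega⟩
    have hb : IsBoundedAtImInfty (fun z => qH z ^ (m' * (n + a)) * (qH z ^ n * f z)) :=
      (isHPB_qH.pow (m' * (n + a))).bdd.mul hn
    have e : (fun z => (qH z ^ (n + a) * v z) ^ (m' + 1))
        = fun z => qH z ^ (m' * (n + a)) * (qH z ^ n * f z) := by
      funext z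
      rw [← h z]
      ring
    rw [e]
    exact hb

/-- The `q`-order of `f = v ^ m * q ^ a`. -/
theorem order_of_pow_mul {m : ℕ} (hm : 0 < m) {f v : ℍ → ℂ} (hf0 : f ≠ 0) (hv : IsPM v) (a : ℕ)
    (h : ∀ z : ℍ, v z ^ m * qH z ^ a = f z) :
    (qLaurentFun f).order = m • (qLaurentFun v).order + (a : ℤ) := by
  have hfe : f = v ^ m * qH ^ a := by
    funext z
    rw [← h z]
    rfl
  have hv0 : qLaurentFun v ≠ 0 := by
    intro h0
    have hv' := qLaurentFun_eq_zero hv h0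
    apply hf0
    funext z
    rw [← h z, hv']
    simp [zero_pow hm.ne']
  have hq0 : (HahnSeries.single (1 : ℤ) (1 : ℂ)) ≠ 0 := by simp
  rw [hfe, qLaurentFun_mul (IsPM.pow' hv m) (IsPM.pow' isPM_qH a), qLaurentFun_pow hv,
    qLaurentFun_pow isPM_qH, qLaurentFun_qH,
    HahnSeries.order_mul (pow_ne_zero m hv0) (pow_ne_zero a hq0), HahnSeries.order_pow,
    HahnSeries.order_pow, HahnSeries.order_single one_ne_zero]
  simp

/-! ## Main statements -/

/-- **(Q1)** A holomorphic `m`-th root of a `1`-periodic function, meromorphic at `i∞`, whose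
`q`-order is divisible by `m`, is `1`-periodic and meromorphic at `i∞`. -/
theorem isPM_of_pow (m : ℕ) (hm : 0 < m) {f u : ℍ → ℂ} (hf : IsPM f) (hf0 : f ≠ 0)
    (hu : MDiff u) (hpow : ∀ z : ℍ, u z ^ m = f z)
    (hord : (m : ℤ) ∣ (qLaurentFun f).order) : IsPM u := by
  have : NeZero m := ⟨hm.ne'⟩
  have hu0 : u ≠ 0 := by
    rintro rfl
    apply hf0
    funext z
    rw [← hpow z]
    simp [zero_pow hm.ne']
  -- the translate is another root
  obtain ⟨ζ₀, hζ₀, hζ⟩ := Root.root_unique hm (mdiff_vadd hu) hu hu0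
    (fun z => by rw [hpow, hpow, vadd_of_periodic hf.per])
  obtain ⟨a, ha, haζ⟩ := (Complex.isPrimitiveRoot_exp m hm.ne').eq_pow_of_pow_eq_one hζ₀
  -- twist away the multiplier
  set c : ℂ := -(a * (2 * Real.pi * I / m)) with hc
  have hexpc : Complex.exp c * ζ₀ = 1 := by
    rw [← haζ, ← Complex.exp_nat_mul, hc, ← Complex.exp_add]
    simp
  set v : ℍ → ℂ := fun z => u z * Complex.exp (c * (z : ℂ)) with hv
  have hvm : MDiff v := hu.mul (mdiff_exp_mul c)
  have hvper : ∀ z : ℍ, v ((1 : ℝ) +ᵥ z) = v z := by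
    intro z
    show u ((1 : ℝ) +ᵥ z) * Complex.exp (c * (((1 : ℝ) +ᵥ z : ℍ) : ℂ))
      = u z * Complex.exp (c * (z : ℂ))
    rw [hζ z, UpperHalfPlane.coe_vadd, mul_add, Complex.exp_add]
    have : Complex.exp (c * ((1 : ℝ) : ℂ)) = Complex.exp c := by simp
    rw [this]
    linear_combination (u z * Complex.exp (c * (z : ℂ))) * hexpc
  have hm' : (m : ℂ) ≠ 0 := by exact_mod_cast hm.ne'
  have hvpow : ∀ z : ℍ, v z ^ m * qH z ^ a = f z := by
    intro z
    show (u z * Complex.exp (c * (z : ℂ))) ^ m * qH z ^ a = f z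
    rw [mul_pow, hpow, ← Complex.exp_nat_mul, mul_assoc]
    have : Complex.exp (m * (c * (z : ℂ))) * qH z ^ a = 1 := by
      unfold qH Function.Periodic.qParam
      rw [← Complex.exp_nat_mul, ← Complex.exp_add, hc]
      have : (m : ℂ) * (-(a * (2 * Real.pi * I / m)) * (z : ℂ))
          + (a : ℂ) * (2 * Real.pi * I * (z : ℂ) / ((1 : ℝ) : ℂ)) = 0 := by
        simp only [ofReal_one, div_one]
        field_simp
        ring
      rw [this, Complex.exp_zero]
    rw [this, mul_one]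
  have hvPM : IsPM v := isPM_of_pow_mul hm hf hvm hvper a hvpow
  have hordv := order_of_pow_mul hm hf0 hvPM a hvpow
  have ha0 : a = 0 := by
    have h1 : (m : ℤ) ∣ (a : ℤ) := by
      have h2 : (m : ℤ) ∣ m • (qLaurentFun v).order := ⟨(qLaurentFun v).order, by simp⟩
      have h3 := (Int.dvd_add_right h2).mp (hordv ▸ hord)
      exact h3
    have h2 : m ∣ a := by exact_mod_cast h1
    exact Nat.eq_zero_of_dvd_of_lt h2 ha
  subst ha0
  have hζ1 : ζ₀ = 1 := by
    rw [← haζ, pow_zero]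
  refine isPM_of_pow_mul hm hf hu (fun z => ?_) 0 (fun z => ?_)
  · rw [hζ z, hζ1, one_mul]
  · rw [pow_zero, mul_one, hpow]

/-- **(Q3)** The `q`-expansion of a holomorphic `m`-th root of `f` is any given formal `m`-th
root of the `q`-expansion of `f`, up to an `m`-th root of unity. -/
theorem exists_root_qLaurent (m : ℕ) (hm : 0 < m) {f u : ℍ → ℂ} (hf : IsPM f) (hf0 : f ≠ 0)
    (hu : MDiff u) (hpow : ∀ z : ℍ, u z ^ m = f z) {w : LaurentSeries ℂ}
    (hw : qLaurentFun f = w ^ m) :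
    IsPM u ∧ ∃ ζ : ℂ, ζ ^ m = 1 ∧ qLaurentFun u = HahnSeries.C ζ * w := by
  have hLf : qLaurentFun f ≠ 0 := fun h => hf0 (qLaurentFun_eq_zero hf h)
  have hw0 : w ≠ 0 := by
    rintro rfl
    rw [zero_pow hm.ne'] at hw
    exact hLf hw
  have hord : (m : ℤ) ∣ (qLaurentFun f).order := by
    rw [hw, HahnSeries.order_pow]
    exact ⟨w.order, by simp⟩
  have huPM := isPM_of_pow m hm hf hf0 hu hpow hord
  refine ⟨huPM, ?_⟩
  have hfe : f = u ^ m := by
    funext z
    rw [← hpow z]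
    rfl
  have hW : qLaurentFun u ^ m = w ^ m := by
    rw [← qLaurentFun_pow huPM, ← hfe, hw]
  have hx : (qLaurentFun u / w) ^ m = 1 := by
    rw [div_pow, hW, div_self (pow_ne_zero m hw0)]
  have : NeZero m := ⟨hm.ne'⟩
  have hprim0 := Complex.isPrimitiveRoot_exp m hm.ne'
  have hprim : IsPrimitiveRoot
      (HahnSeries.C (Complex.exp (2 * Real.pi * I / m)) : LaurentSeries ℂ) m :=
    hprim0.map_of_injective HahnSeries.C_injective
  obtain ⟨i, -, hix⟩ := hprim.eq_pow_of_pow_eq_one hx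
  refine ⟨Complex.exp (2 * Real.pi * I / m) ^ i, ?_, ?_⟩
  · rw [← pow_mul, Nat.mul_comm i m, pow_mul, hprim0.pow_eq_one, one_pow]
  · rw [map_pow, hix, div_mul_cancel₀ _ hw0]

/-- **(Q3')** Existence of the holomorphic root with a prescribed formal `q`-expansion. -/
theorem exists_root_of_qLaurent_pow (m : ℕ) (hm : 0 < m) {f : ℍ → ℂ} (hf : IsPM f)
    (hf0 : f ≠ 0) (hord : ∀ z : ℍ, m ∣ (ordAt f z).toNat) {w : LaurentSeries ℂ}
    (hw : qLaurentFun f = w ^ m) :
    ∃ u : ℍ → ℂ, MDiff u ∧ (∀ z : ℍ, u z ^ m = f z) ∧ IsPM u ∧ qLaurentFun u = w := by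
  obtain ⟨u₀, hu₀, hpow₀⟩ := Root.exists_root m hm f hf.mdiff hf0 hord
  obtain ⟨hPM, ζ, hζ, hq⟩ := exists_root_qLaurent m hm hf hf0 hu₀ hpow₀ hw
  have hζ0 : ζ ≠ 0 := by
    rintro rfl
    rw [zero_pow hm.ne'] at hζ
    exact zero_ne_one hζ
  have hPM' : IsPM ((fun _ => ζ⁻¹) * u₀) := (isPM_const ζ⁻¹).mul hPM
  refine ⟨(fun _ => ζ⁻¹) * u₀, hPM'.mdiff, fun z => ?_, hPM', ?_⟩
  · show (ζ⁻¹ * u₀ z) ^ m = f z
    rw [mul_pow, inv_pow, hζ, inv_one, one_mul, hpow₀]
  · have hC : (algebraMap ℂ (LaurentSeries ℂ)) ζ⁻¹ = HahnSeries.C ζ⁻¹ := by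
      rw [ModularCurve.algebraMap_laurentSeries_eq_single]
      rfl
    rw [qLaurentFun_mul (isPM_const ζ⁻¹) hPM, qLaurentFun_const, hq, hC,
      ← mul_assoc, ← map_mul, inv_mul_cancel₀ hζ0, map_one, one_mul]

end Fermat.Agent.S29.RootQ
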