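import Mathlib
import Fermat.Prelude.Thm_ModularForm_sturm_bound_Gamma0
import Fermat.Agent.S24.QLaurent
import Fermat.Agent.S20.Defs
import Fermat.Agent.S20.LevelOneBasic
import Fermat.Agent.S23.Glue


/-!
# S29 (wave 5), package K3: a Sturm-type bound for roots of weakly holomorphic functions

Let `u` be holomorphic on `ℍ`, `1`-periodic, with `u ^ m` invariant under `Γ₀(N)` and
`u (g • z) * Δ z ^ M` bounded at `i∞` for every `g ∈ SL(2,ℤ)`.  If the Laurent `q`-expansion of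
`u` vanishes up to index `M * [SL(2,ℤ) : Γ₀(N)]`, then `u = 0`.

Proof: `F := (u * Δ ^ M) ^ m` is a modular form of weight `12 m M` on `Γ₀(N)` whose
`q`-expansion vanishes beyond the Sturm bound.
-/

set_option autoImplicit false

open UpperHalfPlane hiding I
open Complex Filter Function ModularForm
open scoped Topology Manifold MatrixGroups

namespace Fermat.Agent.S29.SturmRoot

open Fermat.Agent.S24 Fermat.Agent.S20

local notation "Δ" => ModularForm.discriminant

/-! ### The discriminant as a holomorphic periodic bounded function -/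

theorem mdiff_disc : MDiff (fun z : ℍ => Δ z) := ModularFormClass.holo CuspForm.discriminant

theorem isHPB_disc : IsHPB (fun z : ℍ => Δ z) where
  mdiff := mdiff_disc
  per := SlashInvariantFormClass.periodic_comp_ofComplex CuspForm.discriminant
    one_mem_strictPeriods_SL
  bdd := isBoundedAtImInfty_disc

theorem isHPB_disc_pow (M : ℕ) : IsHPB (fun z : ℍ => Δ z ^ M) := isHPB_disc.pow M

theorem disc_vadd (z : ℍ) : Δ ((1 : ℝ) +ᵥ z) = Δ z :=
  vadd_of_periodic isHPB_disc.per z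

theorem IsHPB.qExpansion_pow' {f : ℍ → ℂ} (hf : IsHPB f) (n : ℕ) :
    qExpansion 1 (fun z => f z ^ n) = qExpansion 1 f ^ n := by
  induction n with
  | zero =>
    have h := qExpansion_qH_pow 0
    simpa using h
  | succ n ih =>
    have h := (hf.pow n).qExpansion_mul hf
    simp only [pow_succ]
    rw [h, ih]

/-! ### The auxiliary functions -/

section Aux

variable {u : ℍ → ℂ} (M : ℕ)

/-- `q ^ M * u` is bounded at `i∞` as soon as `u * Δ ^ M` is. -/
theorem bdd_qH_pow_mul (hb : IsBoundedAtImInfty (fun z : ℍ => u z * Δ z ^ M)) :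
    IsBoundedAtImInfty (fun z : ℍ => qH z ^ M * u z) := by
  have h2 : (fun z : ℍ => qH z ^ M * u z)
      =O[atImInfty] (fun z : ℍ => Δ z ^ M * u z) :=
    (qH_isBigO_disc.pow M).mul (Asymptotics.isBigO_refl u atImInfty)
  have h3 : (fun z : ℍ => Δ z ^ M * u z) = fun z : ℍ => u z * Δ z ^ M := by
    funext z
    ring
  rw [h3] at h2
  exact h2.trans hb

/-- `u` is periodic and meromorphic at `i∞`. -/
theorem isPM_of_bdd (hu : MDiff u) (hper : ∀ z : ℍ, u ((1 : ℝ) +ᵥ z) = u z)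
    (hb : IsBoundedAtImInfty (fun z : ℍ => u z * Δ z ^ M)) : IsPM u where
  mdiff := hu
  per := periodic_comp_ofComplex_of hper
  bdd := ⟨M, bdd_qH_pow_mul M hb⟩

/-- `u * Δ ^ M` is holomorphic, periodic and bounded at `i∞`. -/
theorem isHPB_mul_disc_pow (hu : MDiff u) (hper : ∀ z : ℍ, u ((1 : ℝ) +ᵥ z) = u z)
    (hb : IsBoundedAtImInfty (fun z : ℍ => u z * Δ z ^ M)) :
    IsHPB (fun z : ℍ => u z * Δ z ^ M) where
  mdiff := hu.mul (isHPB_disc_pow M).mdiff
  per := periodic_comp_ofComplex_of fun z => by rw [hper z, disc_vadd]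
  bdd := hb

/-- Coefficients of the Laurent expansion of `u` in terms of the Taylor expansion of
`q ^ M * u`. -/
theorem coeff_qExpansion_eq (hu : MDiff u) (hper : ∀ z : ℍ, u ((1 : ℝ) +ᵥ z) = u z)
    (hb : IsBoundedAtImInfty (fun z : ℍ => u z * Δ z ^ M)) (n : ℕ) :
    (qExpansion 1 (fun z => qH z ^ M * u z)).coeff n =
      (qLaurentFun u).coeff ((n : ℤ) + -(M : ℤ)) := by
  rw [qLaurentFun_eq (isPM_of_bdd M hu hper hb) (bdd_qH_pow_mul M hb),
    HahnSeries.coeff_single_mul_add, one_mul, HahnSeries.ofPowerSeries_apply_coeff]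

/-- If the Laurent expansion of `u` vanishes up to index `B`, the Taylor expansion of
`u * Δ ^ M` is divisible by `X ^ (B + 1)`. -/
theorem X_pow_dvd_qExpansion (hu : MDiff u) (hper : ∀ z : ℍ, u ((1 : ℝ) +ᵥ z) = u z)
    (hb : IsBoundedAtImInfty (fun z : ℍ => u z * Δ z ^ M)) (B : ℕ)
    (hvan : ∀ k : ℤ, k ≤ (B : ℤ) → (qLaurentFun u).coeff k = 0) :
    (PowerSeries.X : PowerSeries ℂ) ^ (B + 1) ∣ qExpansion 1 (fun z => u z * Δ z ^ M) := by
  have hP : IsHPB (fun z => qH z ^ M * u z) :=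
    (isPM_of_bdd M hu hper hb).isHPB (bdd_qH_pow_mul M hb)
  have hv := isHPB_mul_disc_pow M hu hper hb
  -- `X ^ (B + M + 1)` divides the expansion of `q ^ M * u`
  have h1 : (PowerSeries.X : PowerSeries ℂ) ^ (B + 1 + M) ∣
      qExpansion 1 (fun z => qH z ^ M * u z) := by
    rw [PowerSeries.X_pow_dvd_iff]
    intro n hn
    rw [coeff_qExpansion_eq M hu hper hb n]
    apply hvan
    omega
  -- the two products agree
  have e : (fun z : ℍ => qH z ^ M * (u z * Δ z ^ M)) =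
      fun z : ℍ => Δ z ^ M * (qH z ^ M * u z) := by
    funext z
    ring
  have h2 := (isHPB_qH.pow M).qExpansion_mul hv
  have h3 := (isHPB_disc_pow M).qExpansion_mul hP
  rw [e, h3, qExpansion_qH_pow] at h2
  have h4 : (PowerSeries.X : PowerSeries ℂ) ^ M * PowerSeries.X ^ (B + 1) ∣
      PowerSeries.X ^ M * qExpansion 1 (fun z => u z * Δ z ^ M) := by
    rw [← h2, ← pow_add, add_comm M (B + 1)]
    exact Dvd.dvd.mul_left h1 _
  exact (mul_dvd_mul_iff_left (pow_ne_zero M PowerSeries.X_ne_zero)).mp h4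

end Aux

/-! ### The modular form `(u * Δ ^ M) ^ m` -/

section Form

variable (N : ℕ) [NeZero N] (m M : ℕ) {u : ℍ → ℂ}

theorem slash_pow_apply (g : SL(2, ℤ)) (z : ℍ) :
    ((fun z : ℍ => (u z * Δ z ^ M) ^ m) ∣[(12 * (m * M : ℕ) : ℤ)] g) z =
      (u (g • z) * Δ z ^ M) ^ m := by
  rw [ModularForm.SL_slash_apply, disc_smul]
  have hd : denom g z ≠ 0 := denom_ne_zero g z
  have h12 : (denom g z ^ (12 : ℤ)) = denom g z ^ 12 := by norm_cast
  have hk : denom g z ^ (-(12 * (m * M : ℕ) : ℤ)) = (denom g z ^ (12 * (m * M)))⁻¹ := by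
    rw [zpow_neg, inv_inj]
    exact_mod_cast rfl
  rw [h12, hk]
  have e : (u (g • z) * (denom g z ^ 12 * Δ z) ^ M) ^ m =
      (u (g • z) * Δ z ^ M) ^ m * denom g z ^ (12 * (m * M)) := by
    ring
  rw [e, mul_inv_cancel_right₀ (pow_ne_zero _ hd)]

/-- `(u * Δ ^ M) ^ m` is a modular form of weight `12 m M` on `Γ₀(N)`. -/
theorem exists_modularForm (hu : MDiff u)
    (hinv : ∀ γ ∈ CongruenceSubgroup.Gamma0 N, ∀ z : ℍ, u (γ • z) ^ m = u z ^ m)
    (hb : ∀ g : SL(2, ℤ), IsBoundedAtImInfty (fun z : ℍ => u (g • z) * Δ z ^ M)) :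
    ∃ F : ModularForm (CongruenceSubgroup.Gamma0 N) (12 * (m * M : ℕ) : ℤ),
      (⇑F : ℍ → ℂ) = fun z : ℍ => (u z * Δ z ^ M) ^ m := by
  refine Fermat.Agent.S23.Glue.exists_modularForm_of_mdiff N _ _ ?_ ?_ ?_
  · exact (hu.mul (isHPB_disc_pow M).mdiff).pow m
  · intro γ hγ
    funext z
    rw [slash_pow_apply, mul_pow, hinv γ hγ z, ← mul_pow]
  · intro g
    have e : ((fun z : ℍ => (u z * Δ z ^ M) ^ m) ∣[(12 * (m * M : ℕ) : ℤ)] g) =
        fun z : ℍ => (u (g • z) * Δ z ^ M) ^ m := by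
      funext z
      exact slash_pow_apply m M g z
    rw [e]
    have hpow : ∀ n : ℕ, IsBoundedAtImInfty (fun z : ℍ => (u (g • z) * Δ z ^ M) ^ n) := by
      intro n
      induction n with
      | zero =>
        simp only [pow_zero]
        exact Filter.const_boundedAtFilter _ (1 : ℂ)
      | succ n ih =>
        have h := ih.mul (hb g)
        have e2 : (fun z : ℍ => (u (g • z) * Δ z ^ M) ^ (n + 1)) =
            (fun z : ℍ => (u (g • z) * Δ z ^ M) ^ n) * fun z : ℍ => u (g • z) * Δ z ^ M := by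
          funext z
          simp only [Pi.mul_apply, pow_succ]
        rw [e2]
        exact h
    exact hpow m

end Form

/-! ### The bound -/

/-- **Sturm-type bound for `m`-th roots.**  A holomorphic `1`-periodic `u` on `ℍ` with `u ^ m`
invariant under `Γ₀(N)` and `u (g • z) * Δ z ^ M` bounded at `i∞` for all `g ∈ SL(2,ℤ)`, whose
Laurent `q`-expansion vanishes up to index `M * [SL(2,ℤ) : Γ₀(N)]`, is zero. -/
theorem eq_zero_of_coeff_eq_zero (N : ℕ) [NeZero N] (m : ℕ) (hm : 0 < m) (M : ℕ) (u : ℍ → ℂ)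
    (hu : MDiff u) (hper : ∀ z : ℍ, u ((1 : ℝ) +ᵥ z) = u z)
    (hinv : ∀ γ ∈ CongruenceSubgroup.Gamma0 N, ∀ z : ℍ, u (γ • z) ^ m = u z ^ m)
    (hb : ∀ g : SL(2, ℤ), IsBoundedAtImInfty (fun z : ℍ => u (g • z) * Δ z ^ M))
    (hvan : ∀ k : ℤ, k ≤ ((M * (CongruenceSubgroup.Gamma0 N).index : ℕ) : ℤ) →
      (qLaurentFun u).coeff k = 0) : u = 0 := by
  have hb1 : IsBoundedAtImInfty (fun z : ℍ => u z * Δ z ^ M) := by
    have h := hb 1
    simpa only [one_smul] using h
  set B : ℕ := M * (CongruenceSubgroup.Gamma0 N).index with hB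
  obtain ⟨F, hF⟩ := exists_modularForm N m M hu hinv hb
  have hv := isHPB_mul_disc_pow M hu hper hb1
  have hdvd := X_pow_dvd_qExpansion M hu hper hb1 B hvan
  have hq : qExpansion 1 (⇑F : ℍ → ℂ) = qExpansion 1 (fun z => u z * Δ z ^ M) ^ m := by
    rw [hF]
    exact IsHPB.qExpansion_pow' hv m
  have hdvd2 : (PowerSeries.X : PowerSeries ℂ) ^ ((B + 1) * m) ∣ qExpansion 1 (⇑F : ℍ → ℂ) := by
    rw [hq, pow_mul]
    exact pow_dvd_pow_of_dvd hdvd m
  have hF0 : F = 0 := by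
    apply ModularForm.sturm_bound_Gamma0 N F
    intro n hn
    have hn' : n < (B + 1) * m := by
      have e : ((12 * (m * M : ℕ) : ℤ) * ((CongruenceSubgroup.Gamma0 N).index : ℤ)).toNat / 12 =
          m * B := by
        have e1 : ((12 * (m * M : ℕ) : ℤ) * ((CongruenceSubgroup.Gamma0 N).index : ℤ)) =
            ((12 * (m * B) : ℕ) : ℤ) := by
          rw [hB]
          push_cast
          ring
        rw [e1, Int.toNat_natCast, Nat.mul_div_cancel_left _ (by norm_num : 0 < 12)]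
      rw [e] at hn
      calc n ≤ m * B := hn
        _ < (B + 1) * m := by nlinarith
    exact (PowerSeries.X_pow_dvd_iff.mp hdvd2) n hn'
  funext z
  have hz : (⇑F : ℍ → ℂ) z = 0 := by rw [hF0]; rfl
  rw [hF] at hz
  have h1 : u z * Δ z ^ M = 0 := pow_eq_zero_iff (Nat.pos_iff_ne_zero.mp hm) |>.mp hz
  rcases mul_eq_zero.mp h1 with h | h
  · exact h
  · exact absurd h (pow_ne_zero M (ModularForm.discriminant_ne_zero z))

/-- The bound in the uniform shape `∃ B, ∀ u, …` (depending only on `N` and `M`). -/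
theorem exists_bound (N : ℕ) [NeZero N] (m : ℕ) (hm : 0 < m) (M : ℕ) :
    ∃ B : ℤ, ∀ u : ℍ → ℂ, MDiff u → (∀ z : ℍ, u ((1 : ℝ) +ᵥ z) = u z) →
      (∀ γ ∈ CongruenceSubgroup.Gamma0 N, ∀ z : ℍ, u (γ • z) ^ m = u z ^ m) →
      (∀ g : SL(2, ℤ), IsBoundedAtImInfty (fun z : ℍ => u (g • z) * Δ z ^ M)) →
      (∀ k : ℤ, k ≤ B → (qLaurentFun u).coeff k = 0) → u = 0 :=
  ⟨((M * (CongruenceSubgroup.Gamma0 N).index : ℕ) : ℤ), fun u hu hper hinv hb hvan =>
    eq_zero_of_coeff_eq_zero N m hm M u hu hper hinv hb hvan⟩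

end Fermat.Agent.S29.SturmRoot
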