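import Mathlib
import Fermat.Agent.S29.DescCore
import Fermat.Agent.S29.DictWH
import Fermat.Agent.S29.SturmRoot
import Fermat.Agent.S29.RootQ
import Fermat.Agent.S29.DescMem

/-!
# S29 (wave 5), K3 (descent `ℂ → ℚ̄`): the final statement

`Desc.exists_rational`: a multiplier function for a character `χ` of `Γ₀(N)` of exponent `m`
can be chosen with `q`-expansion over `ℚ̄`.  This file discharges the inputs `Desc.Inputs` of
`DescCore` from `DictWH` (dictionary places ↔ points/cusps), `SturmRoot` (Sturm bound),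
`RootQ` (roots of `q`-expansions) and `DescMem` (descent of membership in the function field).
-/

set_option autoImplicit false

open UpperHalfPlane hiding I
open Complex Filter Function Polynomial ModularCurve CongruenceSubgroup AlgebraicCurve
open scoped Topology Manifold MatrixGroups

namespace Fermat.Agent.S29.Desc

open Fermat.Agent.S20 Fermat.Agent.S24 Fermat.Agent.S22

local notation "Qb" => AlgebraicClosure ℚ
local notation "Δ" => ModularForm.discriminant

/-! ### Integrality along ring homomorphisms -/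

theorem isIntegralElem_comp_equiv {R A B : Type*} [CommRing R] [CommRing A] [CommRing B]
    (φ : R →+* A) (e : A ≃+* B) (x : A) :
    ((e : A →+* B).comp φ).IsIntegralElem (e x) ↔ φ.IsIntegralElem x := by
  constructor
  · rintro ⟨p, hp, hpx⟩
    refine ⟨p, hp, ?_⟩
    have h := Polynomial.hom_eval₂ p φ (e : A →+* B) x
    rw [RingEquiv.coe_toRingHom] at h
    rw [← h] at hpx
    exact e.injective (by rw [hpx, map_zero])
  · rintro ⟨p, hp, hpx⟩
    refine ⟨p, hp, ?_⟩
    have h := Polynomial.hom_eval₂ p φ (e : A →+* B) x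
    rw [RingEquiv.coe_toRingHom] at h
    rw [← h, hpx, map_zero]

theorem isIntegralElem_comp_surjective {R S B : Type*} [CommRing R] [CommRing S] [Nontrivial S]
    [CommRing B]
    (ψ : S →+* B) (ρ : R →+* S) (hρ : Function.Surjective ρ) (x : B) :
    (ψ.comp ρ).IsIntegralElem x ↔ ψ.IsIntegralElem x := by
  constructor
  · rintro ⟨p, hp, hpx⟩
    refine ⟨p.map ρ, hp.map ρ, ?_⟩
    rw [Polynomial.eval₂_map]
    exact hpx
  · rintro ⟨q, hq, hqx⟩
    have hmem : q ∈ Polynomial.lifts ρ := by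
      rw [Polynomial.mem_lifts]
      exact Polynomial.map_surjective ρ hρ q
    obtain ⟨p, hpq, -, hp⟩ := Polynomial.lifts_and_degree_eq_and_monic hmem hq
    refine ⟨p, hp, ?_⟩
    rw [← Polynomial.eval₂_map, hpq]
    exact hqx

/-! ### The inputs -/

theorem inputs (N : ℕ) [NeZero N] : Inputs N := by
  obtain ⟨e, heX, heq⟩ := exists_algEquiv_FF' N
  -- `e` on the elements of `WH`
  have hex : ∀ (f : ℍ → ℂ) (hf : IsWH (Gamma0 N) f) (x : S24.FF ℂ N),
      (x : LaurentSeries ℂ) = qLaurentFun f →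
      e (algebraMap (WH (Gamma0 N)) (S20.FF N) ⟨f, hf⟩) = x := by
    intro f hf x hx
    apply Subtype.ext
    rw [heq, hx]
  refine ⟨?_, ?_, ?_, ?_, ?_, ?_⟩
  · -- integrality
    intro x
    -- the three ring homomorphisms
    let φ₁ : ℂ[X] →+* S20.FF N := algebraMap ℂ[X] (S20.FF N)
    let ρ : ℂ[X] →+* Algebra.adjoin ℂ {S24.jBC ℂ N} :=
      ((Polynomial.aeval (⟨S24.jBC ℂ N, Algebra.self_mem_adjoin_singleton ℂ _⟩ :
        Algebra.adjoin ℂ {S24.jBC ℂ N})) : ℂ[X] →ₐ[ℂ] Algebra.adjoin ℂ {S24.jBC ℂ N})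
    let φ₃ : Algebra.adjoin ℂ {S24.jBC ℂ N} →+* S24.FF ℂ N :=
      algebraMap (Algebra.adjoin ℂ {S24.jBC ℂ N}) (S24.FF ℂ N)
    have hcomp : ((e : S20.FF N ≃+* S24.FF ℂ N) : S20.FF N →+* S24.FF ℂ N).comp φ₁ =
        φ₃.comp ρ := by
      have h1 : (((e : S20.FF N ≃ₐ[ℂ] S24.FF ℂ N) : S20.FF N →ₐ[ℂ] S24.FF ℂ N).comp
          (IsScalarTower.toAlgHom ℂ ℂ[X] (S20.FF N))) =
          ((Algebra.adjoin ℂ {S24.jBC ℂ N}).val).comp
            (Polynomial.aeval (⟨S24.jBC ℂ N, Algebra.self_mem_adjoin_singleton ℂ _⟩ :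
              Algebra.adjoin ℂ {S24.jBC ℂ N})) := by
        apply Polynomial.algHom_ext
        simp only [AlgHom.coe_comp, Function.comp_apply,
          IsScalarTower.coe_toAlgHom', Polynomial.aeval_X, Subalgebra.coe_val]
        exact heX
      refine RingHom.ext fun p => ?_
      exact congrArg (fun g : ℂ[X] →ₐ[ℂ] S24.FF ℂ N => g p) h1
    have hρ : Function.Surjective ρ := by
      rintro ⟨y, hy⟩
      rw [Algebra.adjoin_singleton_eq_range_aeval] at hy
      obtain ⟨p, rfl⟩ := hy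
      refine ⟨p, Subtype.ext ?_⟩
      show ((Polynomial.aeval (⟨S24.jBC ℂ N, Algebra.self_mem_adjoin_singleton ℂ _⟩ :
        Algebra.adjoin ℂ {S24.jBC ℂ N}) p : Algebra.adjoin ℂ {S24.jBC ℂ N}) : S24.FF ℂ N) = _
      rw [← Subalgebra.coe_val, ← Polynomial.aeval_algHom_apply]
      rfl
    have h1 : IsIntegral (Algebra.adjoin ℂ {S24.jBC ℂ N}) x ↔
        IsIntegral ℂ[X] (e.symm x) := by
      have ha : φ₃.IsIntegralElem x ↔ (φ₃.comp ρ).IsIntegralElem x :=
        (isIntegralElem_comp_surjective φ₃ ρ hρ x).symm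
      have hb : (φ₃.comp ρ).IsIntegralElem x ↔ φ₁.IsIntegralElem (e.symm x) := by
        rw [← hcomp]
        have := isIntegralElem_comp_equiv φ₁ (e : S20.FF N ≃+* S24.FF ℂ N) (e.symm x)
        have hx : (e : S20.FF N ≃+* S24.FF ℂ N) (e.symm x) = x := e.apply_symm_apply x
        rw [hx] at this
        exact this
      exact ha.trans hb
    rw [h1, DictWH.isIntegral_iff]
    constructor
    · rintro ⟨f, hf⟩
      refine ⟨f, f.2, ?_⟩
      have h2 := heq f
      rw [hf, e.apply_symm_apply] at h2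
      exact h2
    · rintro ⟨f, hf, hx⟩
      refine ⟨⟨f, hf⟩, ?_⟩
      rw [← hex f hf x hx, e.symm_apply_apply]
  · -- orders
    intro m f hf hf0 x hx hdiv z
    have hf0' : (⟨f, hf⟩ : WH (Gamma0 N)) ≠ 0 := fun h => hf0 (congrArg Subtype.val h)
    have h1 := DictWH.dvd_ordZ_of_forall N e (m : ℤ) ⟨f, hf⟩ 1 hf0' one_ne_zero (by
      intro v
      rw [map_one, div_one, hex f hf x hx]
      exact hdiv v) z
    have h2 : FinitePlaces.ordZ z (1 : WH (Gamma0 N)) = 0 := by
      unfold FinitePlaces.ordZ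
      have h3 : ordAt ((1 : WH (Gamma0 N)) : ℍ → ℂ) z = 0 := by
        unfold ordAt
        rw [analyticOrderAt_eq_zero]
        right
        simp
      rw [h3]
      rfl
    rw [h2, sub_zero] at h1
    have h4 : (m : ℤ) ∣ FinitePlaces.ordZ z (⟨f, hf⟩ : WH (Gamma0 N)) :=
      (dvd_mul_right _ _).trans h1
    unfold FinitePlaces.ordZ at h4
    exact Int.natCast_dvd_natCast.mp h4
  · -- bounds
    intro c f hf x hx
    have h1 := DictWH.bdd_iff_ord_ge N e ⟨f, hf⟩ c
    rw [heX, hex f hf x hx] at h1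
    exact h1
  · exact fun m hm M => SturmRoot.exists_bound N m hm M
  · exact fun m hm f hf hf0 hord w hw => RootQ.exists_root_of_qLaurent_pow m hm hf hf0 hord hw
  · exact fun ι y h => DescMem.mem_FF_of_coeffMap_mem N ι y h

/-- **K3 (descent).**  Let `χ` be a character of `Γ₀(N)` of exponent `m` with `χ(T) = 1` and
let `u₁ ≠ 0` be holomorphic on `ℍ` with `u₁ ∘ γ = χ(γ) u₁`, `u₁ ^ m` weakly holomorphic, and
all orders of `u₁ ^ m` at the places of `FF ℂ N` divisible by `m`.  Then there is such a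
function `u` (for the same `χ`) whose `q`-expansion is the coefficient extension of a series
`y` over `ℚ̄`, and `y ^ m` lies in the function field `FF ℚ̄ N`. -/
theorem exists_rational (N : ℕ) [NeZero N] (m : ℕ) (hm : 0 < m) (ι : Qb →+* ℂ)
    (χ : Gam N →* ℂˣ) (hχ : ∀ γ, χ γ ^ m = 1)
    (hT : ∀ γ : Gam N, (γ : SL(2, ℤ)) = ModularGroup.T → χ γ = 1)
    (u₁ : ℍ → ℂ) (hu₁ : MDiff u₁) (hu₁0 : u₁ ≠ 0)
    (hmult : ∀ (γ : Gam N) (z : ℍ), u₁ ((γ : SL(2, ℤ)) • z) = (χ γ : ℂ) * u₁ z)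
    (hWH : IsWH (Gamma0 N) (fun z => u₁ z ^ m))
    (hdiv : ∀ x : S24.FF ℂ N, (x : LaurentSeries ℂ) = qLaurentFun (fun z => u₁ z ^ m) →
      ∀ v : Place ℂ (S24.FF ℂ N), (m : ℤ) ∣ v.ord x) :
    ∃ u : ℍ → ℂ, MDiff u ∧ u ≠ 0 ∧
      (∀ (γ : Gam N) (z : ℍ), u ((γ : SL(2, ℤ)) • z) = (χ γ : ℂ) * u z) ∧
      IsWH (Gamma0 N) (fun z => u z ^ m) ∧
      ∃ (y : LaurentSeries Qb) (f₀ : S24.FF Qb N),
        ModularCurve.coeffMap ι y = qLaurentFun u ∧ (f₀ : LaurentSeries Qb) = y ^ m ∧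
        ((S24.CoeffBC.bc ι (modularFunctionFieldFull N) f₀ : S24.FF ℂ N) : LaurentSeries ℂ) =
          qLaurentFun (fun z => u z ^ m) :=
  exists_rational_of N (inputs N) m hm ι χ hχ hT u₁ hu₁ hu₁0 hmult hWH hdiv

end Fermat.Agent.S29.Desc
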