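import Mathlib
import Fermat.Agent.S29.Defs
import Fermat.Agent.S20.Defs
import Fermat.Agent.S24.QLaurent
import Fermat.Agent.S24.CoeffBC

/-!
# S29 (wave 5), package K: the shared definition of a Kummer datum

* `expChar N m ψ : Γ₀(N) →* ℂˣ` : the character `γ ↦ exp (2πi ψ(γ) / m)` attached to an
  additive character `ψ : Γ₀(N) → ℤ/m`;
* `IsKummerDatum N m ι χ u f₀` : `u` is a nonzero holomorphic function on `ℍ` with multiplier
  `χ` under `Γ₀(N)`, its `m`-th power is weakly holomorphic for `Γ₀(N)`, and `f₀` is an element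
  of the function field of `X₀(N)` over `ℚ̄` whose `q`-expansion (through `ι : ℚ̄ → ℂ`) is the
  `q`-expansion of `u ^ m`;
* `IsRootClass m f x` : `x` is the class in `Pic⁰` of `(1/m) div f`.
-/

set_option autoImplicit false

open scoped MatrixGroups Manifold
open UpperHalfPlane ModularCurve

namespace Fermat.Agent.S29

local notation "Qb" => AlgebraicClosure ℚ

/-- the character `γ ↦ exp (2πi ψ(γ) / m)` of `Γ₀(N)` attached to `ψ : Γ₀(N) → ℤ/m` -/
noncomputable def expChar (N m : ℕ) [NeZero m] (ψ : Additive (S22.Gam N) →+ ZMod m) :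
    S22.Gam N →* ℂˣ :=
  (Circle.toUnits.comp (ZMod.toCircle (N := m)).toMonoidHom).comp
    (AddMonoidHom.toMultiplicativeRight ψ)

theorem expChar_apply (N m : ℕ) [NeZero m] (ψ : Additive (S22.Gam N) →+ ZMod m)
    (γ : S22.Gam N) :
    expChar N m ψ γ = Circle.toUnits (ZMod.toCircle (ψ (Additive.ofMul γ))) := rfl

theorem expChar_add (N m : ℕ) [NeZero m] (ψ ψ' : Additive (S22.Gam N) →+ ZMod m) :
    expChar N m (ψ + ψ') = expChar N m ψ * expChar N m ψ' := by
  ext γ
  rw [MonoidHom.mul_apply, expChar_apply, expChar_apply, expChar_apply, AddMonoidHom.add_apply,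
    AddChar.map_add_eq_mul, map_mul]

theorem expChar_eq_one_iff (N m : ℕ) [NeZero m] (ψ : Additive (S22.Gam N) →+ ZMod m)
    (γ : S22.Gam N) : expChar N m ψ γ = 1 ↔ ψ (Additive.ofMul γ) = 0 := by
  rw [expChar_apply]
  constructor
  · intro h
    have h1 : ZMod.toCircle (ψ (Additive.ofMul γ)) = 1 := by
      have h2 : Circle.toUnits (ZMod.toCircle (ψ (Additive.ofMul γ))) = Circle.toUnits 1 := by
        rw [h, map_one]
      have h4 := congrArg (fun x : ℂˣ => (x : ℂ)) h2
      simp only [Circle.toUnits_apply, Units.val_mk0] at h4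
      exact Circle.ext h4
    have h3 : ZMod.toCircle (ψ (Additive.ofMul γ)) = ZMod.toCircle (0 : ZMod m) := by
      rw [h1, AddChar.map_zero_eq_one]
    exact ZMod.injective_toCircle h3
  · intro h
    rw [h, AddChar.map_zero_eq_one, map_one]

theorem expChar_pow (N m : ℕ) [NeZero m] (ψ : Additive (S22.Gam N) →+ ZMod m)
    (γ : S22.Gam N) : expChar N m ψ γ ^ m = 1 := by
  rw [expChar_apply, ← map_pow, ← AddChar.map_nsmul_eq_pow]
  have : m • ψ (Additive.ofMul γ) = 0 := by
    rw [nsmul_eq_mul, ZMod.natCast_self, zero_mul]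
  rw [this, AddChar.map_zero_eq_one, map_one]

/-- A Kummer datum of exponent `m` for the character `χ` of `Γ₀(N)`. -/
structure IsKummerDatum (N m : ℕ) (ι : Qb →+* ℂ) (χ : S22.Gam N →* ℂˣ) (u : ℍ → ℂ)
    (f₀ : modularFunctionFieldBar N) : Prop where
  mdiff : MDiff u
  ne_zero : u ≠ 0
  mult : ∀ (γ : S22.Gam N) (z : ℍ), u ((γ : SL(2, ℤ)) • z) = (χ γ : ℂ) * u z
  isWH : S20.IsWH (CongruenceSubgroup.Gamma0 N) (fun z => u z ^ m)
  qexp : ((S24.CoeffBC.bc ι (modularFunctionFieldFull N) f₀ : S24.FF ℂ N) : LaurentSeries ℂ) =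
    S24.qLaurentFun (fun z => u z ^ m)

/-- `x` is the class of the divisor `(1/m) div f` (a degree-zero divisor `D` with
`m • D = div f`). -/
def IsRootClass {K F : Type*} [Field K] [Field F] [Algebra K F] (m : ℕ) (f : F)
    (x : AlgebraicCurve.Pic0 K F) : Prop :=
  ∃ D : AlgebraicCurve.Divisor.degZero (K := K) (F := F), AlgebraicCurve.Pic0.mk D = x ∧
    ∀ v : AlgebraicCurve.Place K F, (m : ℤ) * (D : AlgebraicCurve.Divisor K F) v = v.ord f

end Fermat.Agent.S29
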