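import Mathlib
import Fermat.Prelude.Def_ModularCurve_LaurentCoeff
import Fermat.Agent.S24.DescentLD
import Fermat.Agent.S24.CoeffBC
import Fermat.Agent.S29.AutC

/-!
# S29 (wave 5, K1): descent of `m`-th roots along a constant field extension

`K ⊆ C` algebraically closed fields of characteristic zero (`ι : K →+* C`), `F₀` a subfield of
`ℚ((q))`, `F_K := laurentBaseChange K F₀ ⊆ K((q))`, `F_C := laurentBaseChange C F₀ ⊆ C((q))`.

* `mem_laurentBaseChange_of_coeffMap_mem` : a Laurent series over `K` whose coefficient extension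
  lies in `F_C` lies in `F_K`;
* `exists_const_mul_coeffMap` : an `m`-th root in `C((q))` of a series with coefficients in `K`
  is a constant times a series with coefficients in `K`;
* `exists_root_of_bc_pow` : if `bc g₀` is an `m`-th power in `F_C` then `g₀ = b * h ^ m` in `F_K`.
-/

set_option autoImplicit false

namespace Fermat.Agent.S29.RootDesc

open ModularCurve
open Fermat.Agent.S24 Fermat.Agent.S24.DescentLD

section Desc

variable {K C : Type*} [Field K] [Field C]

theorem coeffMap_injective (ι : K →+* C) : Function.Injective (coeffMap ι) := by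
  intro x y h
  ext n
  have h1 := congrArg (fun z => z.coeff n) h
  simp only [coeffMap_coeff] at h1
  exact ι.injective h1

theorem C_mem_laurentBaseChange [Algebra ℚ K] (F₀ : IntermediateField ℚ (LaurentSeries ℚ))
    (c : K) : (HahnSeries.C c : LaurentSeries K) ∈ laurentBaseChange K F₀ := by
  have h : (HahnSeries.C c : LaurentSeries K) = algebraMap K (LaurentSeries K) c := by
    rw [algebraMap_laurentSeries_eq_single]
    rfl
  rw [h]
  exact (laurentBaseChange K F₀).algebraMap_mem c

/-- **Descent**: a Laurent series over `K` whose coefficient extension lies in the base-changed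
field over `C` lies in the base-changed field over `K`. -/
theorem mem_laurentBaseChange_of_coeffMap_mem [Algebra ℚ K] [Algebra ℚ C] (ι : K →+* C)
    (F₀ : IntermediateField ℚ (LaurentSeries ℚ)) (y : LaurentSeries K)
    (hy : coeffMap ι y ∈ laurentBaseChange C F₀) : y ∈ laurentBaseChange K F₀ := by
  classical
  let _ : Algebra K C := ι.toAlgebra
  have hι : algebraMap K C = ι := rfl
  -- the multiplicative monoid of images
  let M : Submonoid (LaurentSeries C) :=
    Submonoid.map (coeffMap ι : LaurentSeries K →* LaurentSeries C)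
      (laurentBaseChange K F₀).toSubalgebra.toSubsemiring.toSubmonoid
  have hM : ∀ x, x ∈ M ↔ ∃ a ∈ laurentBaseChange K F₀, coeffMap ι a = x := by
    intro x
    exact Submonoid.mem_map
  have P1 : ∀ r ∈ @Submodule.span C (LaurentSeries C) _ _ Algebra.toModule
      (M : Set (LaurentSeries C)), ∀ φ : C →ₗ[K] K,
      coeffFunctional φ r ∈ laurentBaseChange K F₀ := by
    intro r hr
    induction hr using Submodule.span_induction with
    | mem x hx =>
      obtain ⟨a, ha, rfl⟩ := (hM x).mp hx
      intro φ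
      have h1 := coeffFunctional_mul φ a (1 : LaurentSeries C)
      rw [mul_one, hι] at h1
      rw [h1]
      refine mul_mem ha ?_
      have h2 : coeffFunctional φ (1 : LaurentSeries C) = HahnSeries.C (φ 1) := by
        rw [← coeffFunctional_C, map_one]
      rw [h2]
      exact C_mem_laurentBaseChange F₀ _
    | zero =>
      intro φ
      rw [coeffFunctional_zero]
      exact zero_mem _
    | add x y _ _ hx hy =>
      intro φ
      rw [coeffFunctional_add]
      exact add_mem (hx φ) (hy φ)
    | smul c x _ hx =>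
      intro φ
      have h0 := Algebra.smul_def c x
      rw [h0, algebraMap_laurentSeries_eq_single]
      have h1 : coeffFunctional φ (HahnSeries.single 0 c * x) =
          coeffFunctional (φ.comp (LinearMap.mulLeft K c)) x := by
        ext n
        rw [coeffFunctional_coeff, coeffFunctional_coeff, HahnSeries.coeff_single_zero_mul]
        rfl
      rw [h1]
      exact hx _
  have hle : laurentBaseChange C F₀ ≤ IntermediateField.adjoin C (M : Set (LaurentSeries C)) := by
    unfold laurentBaseChange
    rw [IntermediateField.adjoin_le_iff]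
    rintro _ ⟨x, hx, rfl⟩
    apply IntermediateField.subset_adjoin
    exact (hM _).mpr ⟨coeffEmb K x, coeffEmb_mem_laurentBaseChange K hx,
      CoeffBC.coeffMap_coeffEmb' ι x⟩
  have hy' := hle hy
  rw [IntermediateField.mem_adjoin_iff_div] at hy'
  obtain ⟨r, hr, s, hs, hrs⟩ := hy'
  have hspan : ∀ r ∈ Algebra.adjoin C (M : Set (LaurentSeries C)),
      r ∈ @Submodule.span C (LaurentSeries C) _ _ Algebra.toModule
        (M : Set (LaurentSeries C)) := by
    intro r hr
    have h1 : r ∈ Subalgebra.toSubmodule (Algebra.adjoin C (M : Set (LaurentSeries C))) := hr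
    rw [Algebra.adjoin_eq_span, Submonoid.closure_eq] at h1
    exact h1
  by_cases hs0 : s = 0
  · rw [hs0, div_zero] at hrs
    have h0 : y = 0 := coeffMap_injective ι (by rw [hrs, map_zero])
    rw [h0]
    exact zero_mem _
  · obtain ⟨n, hn⟩ : ∃ n, s.coeff n ≠ 0 := by
      by_contra h
      push Not at h
      exact hs0 (HahnSeries.ext (funext h))
    obtain ⟨φ, hφ⟩ := Module.Projective.exists_dual_ne_zero K hn
    have hmul : coeffMap ι y * s = r := by
      rw [hrs, div_mul_cancel₀ _ hs0]
    have h3 := congrArg (coeffFunctional φ) hmul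
    rw [← hι, coeffFunctional_mul] at h3
    have hs' : coeffFunctional φ s ≠ 0 := by
      intro h0
      apply hφ
      have h4 := congrArg (fun z => z.coeff n) h0
      simpa [coeffFunctional_coeff] using h4
    have h5 : y = coeffFunctional φ r / coeffFunctional φ s := by
      rw [← h3, mul_div_cancel_right₀ _ hs']
    rw [h5]
    exact div_mem (P1 r (hspan r hr) φ) (P1 s (hspan s hs) φ)

end Desc

section Root

variable {K C : Type*} [Field K] [Field C]

/-- the `m`-th roots of unity of `C((q))` are constants. -/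
theorem eq_C_of_pow_eq_one [IsAlgClosed C] [CharZero C] {m : ℕ} (hm : 0 < m)
    (η : LaurentSeries C) (hη : η ^ m = 1) :
    ∃ ζ : C, ζ ^ m = 1 ∧ η = HahnSeries.C ζ := by
  have : NeZero m := ⟨hm.ne'⟩
  obtain ⟨ζ₀, hζ₀⟩ := HasEnoughRootsOfUnity.exists_primitiveRoot C m
  have h1 : IsPrimitiveRoot (HahnSeries.C ζ₀ : LaurentSeries C) m :=
    hζ₀.map_of_injective HahnSeries.C_injective
  obtain ⟨i, -, hi⟩ := h1.eq_pow_of_pow_eq_one hη
  refine ⟨ζ₀ ^ i, ?_, ?_⟩
  · rw [← pow_mul, mul_comm, pow_mul, hζ₀.pow_eq_one, one_pow]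
  · rw [map_pow, hi]

theorem leadingCoeff_pow' (H : LaurentSeries C) (m : ℕ) :
    (H ^ m).leadingCoeff = H.leadingCoeff ^ m := by
  induction m with
  | zero => rw [pow_zero, pow_zero, HahnSeries.leadingCoeff_one]
  | succ n ih => rw [pow_succ, pow_succ, HahnSeries.leadingCoeff_mul, ih]

/-- **Rationality of roots**: an `m`-th root in `C((q))` of a Laurent series with coefficients in
the algebraically closed subfield `K` is a constant times a series with coefficients in `K`. -/
theorem exists_const_mul_coeffMap [IsAlgClosed K] [IsAlgClosed C] [CharZero C] (ι : K →+* C)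
    {m : ℕ} (hm : 0 < m) (H : LaurentSeries C) (hH : H ≠ 0) (w : LaurentSeries K)
    (hw : H ^ m = coeffMap ι w) :
    ∃ (c : C) (y : LaurentSeries K), c ≠ 0 ∧ H = HahnSeries.C c * coeffMap ι y := by
  classical
  let _ : Algebra K C := ι.toAlgebra
  have hι : algebraMap K C = ι := rfl
  set k := H.order with hk
  set a := H.leadingCoeff with ha
  have ha0 : a ≠ 0 := HahnSeries.leadingCoeff_ne_zero.mpr hH
  have hak : H.coeff k = a := HahnSeries.leadingCoeff_eq.symm
  have hlead : (H ^ m).leadingCoeff = a ^ m := leadingCoeff_pow' H m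
  obtain ⟨b, hb⟩ : ∃ b : K, ι b = a ^ m := by
    refine ⟨w.coeff (H ^ m).order, ?_⟩
    have h1 := congrArg (fun z => z.coeff (H ^ m).order) hw
    simp only [coeffMap_coeff] at h1
    rw [← hlead, HahnSeries.leadingCoeff_eq]
    exact h1.symm
  have hb0 : b ≠ 0 := by
    intro h
    rw [h, map_zero] at hb
    exact pow_ne_zero m ha0 hb.symm
  -- the normalised root
  set H₁ : LaurentSeries C := HahnSeries.C a⁻¹ * H with hH₁
  have hH₁k : H₁.coeff k = 1 := by
    rw [hH₁, HahnSeries.C_mul_eq_smul, HahnSeries.coeff_smul, hak, smul_eq_mul,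
      inv_mul_cancel₀ ha0]
  have hH₁0 : H₁ ≠ 0 := by
    intro h
    rw [h] at hH₁k
    simp at hH₁k
  set w₁ : LaurentSeries K := HahnSeries.C b⁻¹ * w with hw₁
  have hC : coeffMap ι (HahnSeries.C b⁻¹) = HahnSeries.C a⁻¹ ^ m := by
    rw [HahnSeries.C_apply, coeffMap_single, ← map_pow, HahnSeries.C_apply, map_inv₀, hb,
      inv_pow]
  have hpow : H₁ ^ m = coeffMap ι w₁ := by
    rw [hH₁, mul_pow, hw, hw₁, map_mul, hC]
  -- invariance under automorphisms
  have hfix : ∀ σ : C ≃+* C, (∀ x : K, σ (algebraMap K C x) = algebraMap K C x) →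
      ∀ n, σ (H₁.coeff n) = H₁.coeff n := by
    intro σ hσ n
    have h1 : (coeffMap (σ : C →+* C) H₁) ^ m = H₁ ^ m := by
      rw [← map_pow, hpow, coeffMap_coeffMap]
      apply coeffMap_congr
      ext x
      exact hσ x
    have h2 : (coeffMap (σ : C →+* C) H₁ / H₁) ^ m = 1 := by
      rw [div_pow, h1, div_self (pow_ne_zero m hH₁0)]
    obtain ⟨ζ, -, hη⟩ := eq_C_of_pow_eq_one hm _ h2
    have h3 : coeffMap (σ : C →+* C) H₁ = HahnSeries.C ζ * H₁ := by
      rw [← hη, div_mul_cancel₀ _ hH₁0]
    have h4 := congrArg (fun z => z.coeff k) h3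
    simp only [coeffMap_coeff, HahnSeries.C_mul_eq_smul, HahnSeries.coeff_smul, hH₁k,
      smul_eq_mul, mul_one, map_one] at h4
    have h5 := congrArg (fun z => z.coeff n) h3
    simp only [coeffMap_coeff, HahnSeries.C_mul_eq_smul, HahnSeries.coeff_smul,
      smul_eq_mul, RingHom.coe_coe] at h5
    rw [← h4, one_mul] at h5
    exact h5
  -- the coefficients are algebraic over `K`, hence in `K`
  have hrange : ∀ n, H₁.coeff n ∈ (algebraMap K C).range := by
    intro n
    have halg : IsAlgebraic K (H₁.coeff n) :=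
      AutC.isAlgebraic_of_finite_stable (K := K) {H₁.coeff n} (Set.finite_singleton _)
        (fun σ hσ x hx => by
          rw [Set.mem_singleton_iff] at hx ⊢
          rw [hx]
          exact hfix σ hσ n) _ rfl
    have hint : IsIntegral K (H₁.coeff n) := halg.isIntegral
    have hdeg : (minpoly K (H₁.coeff n)).degree = 1 :=
      IsAlgClosed.degree_eq_one_of_irreducible K (minpoly.irreducible hint)
    exact minpoly.mem_range_of_degree_eq_one K _ hdeg
  obtain ⟨ρ, hρ⟩ := LinearMap.exists_leftInverse_of_injective (Algebra.linearMap K C)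
    (LinearMap.ker_eq_bot.mpr (algebraMap K C).injective)
  refine ⟨a, coeffFunctional ρ H₁, ha0, ?_⟩
  have h6 : coeffMap ι (coeffFunctional ρ H₁) = H₁ := by
    ext n
    rw [coeffMap_coeff, coeffFunctional_coeff]
    obtain ⟨x, hx⟩ := hrange n
    rw [← hx]
    have h7 : ρ (algebraMap K C x) = x := by
      have h8 := congrArg (fun f => f x) hρ
      simpa using h8
    rw [h7]
    rfl
  rw [h6, hH₁, ← mul_assoc, ← map_mul, mul_inv_cancel₀ ha0, map_one, one_mul]

/-- **Kummer descent**: if the coefficient extension of `g₀ ∈ F_K` is an `m`-th power in `F_C`,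
then `g₀` is a constant times an `m`-th power in `F_K`. -/
theorem exists_root_of_bc_pow [Algebra ℚ K] [Algebra ℚ C] [IsAlgClosed K] [IsAlgClosed C]
    [CharZero C] (ι : K →+* C) (F₀ : IntermediateField ℚ (LaurentSeries ℚ)) {m : ℕ} (hm : 0 < m)
    (g₀ : ↥(laurentBaseChange K F₀)) (hg₀ : g₀ ≠ 0) (H : ↥(laurentBaseChange C F₀))
    (hH : H ^ m = CoeffBC.bc ι F₀ g₀) :
    ∃ (h : ↥(laurentBaseChange K F₀)) (b : K), h ≠ 0 ∧ b ≠ 0 ∧
      g₀ = algebraMap K ↥(laurentBaseChange K F₀) b * h ^ m := by
  have hH0 : (H : LaurentSeries C) ≠ 0 := by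
    intro h0
    have h1 : H = 0 := Subtype.ext h0
    rw [h1, zero_pow hm.ne'] at hH
    exact hg₀ ((map_eq_zero (CoeffBC.bc ι F₀)).mp hH.symm)
  have hH' : (H : LaurentSeries C) ^ m = coeffMap ι (g₀ : LaurentSeries K) := by
    have h1 := congrArg (fun z : ↥(laurentBaseChange C F₀) => (z : LaurentSeries C)) hH
    simpa [CoeffBC.coe_bc] using h1
  obtain ⟨c, y, hc, hy⟩ := exists_const_mul_coeffMap ι hm (H : LaurentSeries C) hH0 _ hH'
  have hymem : y ∈ laurentBaseChange K F₀ := by
    apply mem_laurentBaseChange_of_coeffMap_mem ι F₀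
    have h1 : coeffMap ι y = HahnSeries.C c⁻¹ * (H : LaurentSeries C) := by
      rw [hy, ← mul_assoc, ← map_mul, inv_mul_cancel₀ hc, map_one, one_mul]
    rw [h1]
    exact mul_mem (C_mem_laurentBaseChange F₀ _) H.2
  have hy0 : y ≠ 0 := by
    rintro rfl
    rw [map_zero, mul_zero] at hy
    exact hH0 hy
  have hy0' : coeffMap ι y ≠ 0 := fun h => hy0 (coeffMap_injective ι (by rw [h, map_zero]))
  have h7 : coeffMap ι ((g₀ : LaurentSeries K) * (y ^ m)⁻¹) = HahnSeries.C (c ^ m) := by
    rw [map_mul, map_inv₀, map_pow, ← hH', hy, mul_pow, ← map_pow,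
      mul_inv_cancel_right₀ (pow_ne_zero m hy0')]
  set b := ((g₀ : LaurentSeries K) * (y ^ m)⁻¹).coeff 0 with hb
  have h8 : (g₀ : LaurentSeries K) * (y ^ m)⁻¹ = HahnSeries.C b := by
    ext n
    by_cases hn : n = 0
    · subst hn
      rw [HahnSeries.C_apply, HahnSeries.coeff_single_same]
    · have h9 := congrArg (fun z => z.coeff n) h7
      simp only [coeffMap_coeff, HahnSeries.C_apply, HahnSeries.coeff_single_of_ne hn] at h9
      rw [HahnSeries.C_apply, HahnSeries.coeff_single_of_ne hn]
      exact (map_eq_zero ι).mp h9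
  have hg₀' : (g₀ : LaurentSeries K) ≠ 0 := fun h => hg₀ (Subtype.ext h)
  have hb0 : b ≠ 0 := by
    intro h0
    rw [h0, map_zero] at h8
    rcases mul_eq_zero.mp h8 with h | h
    · exact hg₀' h
    · exact inv_ne_zero (pow_ne_zero m hy0) h
  refine ⟨⟨y, hymem⟩, b, fun h0 => hy0 (congrArg Subtype.val h0), hb0, ?_⟩
  apply Subtype.ext
  have h10 : (g₀ : LaurentSeries K) = HahnSeries.C b * y ^ m :=
    (mul_inv_eq_iff_eq_mul₀ (pow_ne_zero m hy0)).mp h8
  rw [h10, MulMemClass.coe_mul, IntermediateField.coe_algebraMap_apply,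
    algebraMap_laurentSeries_eq_single, SubmonoidClass.coe_pow]
  rfl

end Root

end Fermat.Agent.S29.RootDesc
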