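import Mathlib
import Fermat.Agent.S29.KummerDatum
import Fermat.Agent.S29.RootDesc
import Fermat.Agent.S29.Root
import Fermat.Agent.S29.RootQ
import Fermat.Agent.S24.QIsoFinal
import Fermat.Agent.S20.Ring

/-!
# S29 (wave 5), package K, K1-core: the calculus of Kummer data

* `Kummer.isKummerDatum_mul` (KM) : Kummer data multiply;
* `Kummer.exists_eq_mul_pow` (KU) : two Kummer data with the same character differ by an `m`-th
  power in the function field over `ℚ̄`;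
* `Kummer.eq_one_of_pow` (KI) : a Kummer datum whose function is an `m`-th power has trivial
  character.
-/

set_option autoImplicit false
set_option linter.unusedSectionVars false

open scoped MatrixGroups Manifold
open UpperHalfPlane ModularCurve AlgebraicCurve

namespace Fermat.Agent.S29

local notation "Qb" => AlgebraicClosure ℚ

namespace KummerCore

open Fermat.Agent.S20 Fermat.Agent.S24 CongruenceSubgroup

theorem fun_mul_ne_zero {u v : ℍ → ℂ} (hu : MDiff u) (hv : MDiff v) (hu0 : u ≠ 0)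
    (hv0 : v ≠ 0) : (fun z => u z * v z) ≠ 0 := by
  intro h
  have h1 : u * v = 0 := h
  rcases (UpperHalfPlane.mul_eq_zero_iff hu hv).mp h1 with h2 | h2
  · exact hu0 h2
  · exact hv0 h2

theorem fun_pow_ne_zero {u : ℍ → ℂ} (hu : MDiff u) (hu0 : u ≠ 0) (n : ℕ) :
    (fun z => u z ^ n) ≠ 0 := by
  induction n with
  | zero =>
    intro h
    have h1 := congrFun h UpperHalfPlane.I
    simp at h1
  | succ n ih =>
    have e : (fun z => u z ^ (n + 1)) = fun z => u z ^ n * u z := by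
      funext z
      rw [pow_succ]
    rw [e]
    exact fun_mul_ne_zero (hu.pow n) hu ih hu0

theorem exists_ne_zero_pt {u : ℍ → ℂ} (hu0 : u ≠ 0) : ∃ z, u z ≠ 0 := by
  by_contra h
  push Not at h
  exact hu0 (funext h)

theorem bdd_pow {f : ℍ → ℂ} (h : IsBoundedAtImInfty f) (n : ℕ) :
    IsBoundedAtImInfty (fun z => f z ^ n) := by
  induction n with
  | zero =>
    have e : (fun z : ℍ => f z ^ 0) = fun _ => (1 : ℂ) := by
      funext z
      rw [pow_zero]
    rw [e]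
    exact Filter.const_boundedAtFilter _ _
  | succ n ih =>
    have e : (fun z : ℍ => f z ^ (n + 1)) = (fun z => f z ^ n) * f := by
      funext z
      simp only [Pi.mul_apply, pow_succ]
    rw [e]
    exact ih.mul h

theorem pow_identity (a b : ℂ) {m : ℕ} (hm : 0 < m) :
    (a * b ^ (m - 1)) ^ m * b ^ m = a ^ m * (b ^ m) ^ m := by
  obtain ⟨k, rfl⟩ : ∃ k, m = k + 1 := ⟨m - 1, by omega⟩
  simp only [Nat.add_sub_cancel]
  ring

theorem pow_identity2 (a b d : ℂ) (n n' : ℕ) {m : ℕ} (hm : 0 < m) :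
    (a * b ^ (m - 1) * d ^ (n + n' * (m - 1))) ^ m =
      (a ^ m * d ^ n) * (b ^ m * d ^ n') ^ (m - 1) * d ^ ((n + n' * (m - 1)) * (m - 1)) := by
  obtain ⟨k, rfl⟩ : ∃ k, m = k + 1 := ⟨m - 1, by omega⟩
  simp only [Nat.add_sub_cancel]
  ring

variable {N m : ℕ} {ι : Qb →+* ℂ}

/-- the character of a Kummer datum has exponent `m` -/
theorem char_pow {χ : S22.Gam N →* ℂˣ} {u : ℍ → ℂ} {f₀ : modularFunctionFieldBar N}
    (h : IsKummerDatum N m ι χ u f₀) (γ : S22.Gam N) : (χ γ : ℂ) ^ m = 1 := by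
  obtain ⟨z, hz⟩ := exists_ne_zero_pt h.ne_zero
  have h1 : u ((γ : SL(2, ℤ)) • z) ^ m = u z ^ m := h.isWH.inv γ γ.2 z
  rw [h.mult γ z, mul_pow] at h1
  have h2 : u z ^ m ≠ 0 := pow_ne_zero m hz
  exact mul_right_cancel₀ h2 (by rw [h1, one_mul])

theorem f₀_ne_zero {χ : S22.Gam N →* ℂˣ} {u : ℍ → ℂ} {f₀ : modularFunctionFieldBar N}
    (h : IsKummerDatum N m ι χ u f₀) : f₀ ≠ 0 := by
  rintro rfl
  have h1 := h.qexp
  rw [map_zero] at h1
  have h2 : S24.qLaurentFun (fun z => u z ^ m) = 0 := by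
    rw [← h1]
    rfl
  have h3 := S24.qLaurentFun_eq_zero (S24.isPM_of_isWH N h.isWH) h2
  exact fun_pow_ne_zero h.mdiff h.ne_zero m h3

/-- `u * u' ^ (m - 1)` is weakly holomorphic when `u`, `u'` have the same character. -/
theorem isWH_aux {χ : S22.Gam N →* ℂˣ} {u u' : ℍ → ℂ} {f₀ f₀' : modularFunctionFieldBar N}
    (h : IsKummerDatum N m ι χ u f₀) (h' : IsKummerDatum N m ι χ u' f₀') (hm : 0 < m) :
    IsWH (Gamma0 N) (fun z => u z * u' z ^ (m - 1)) where
  mdiff := h.mdiff.mul (h'.mdiff.pow (m - 1))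
  inv := by
    intro γ hγ z
    have h1 := h.mult ⟨γ, hγ⟩ z
    have h2 := h'.mult ⟨γ, hγ⟩ z
    have h3 := char_pow h ⟨γ, hγ⟩
    have h4 : (χ ⟨γ, hγ⟩ : ℂ) * (χ ⟨γ, hγ⟩ : ℂ) ^ (m - 1) = 1 := by
      rw [← pow_succ', Nat.sub_add_cancel hm, h3]
    show u (γ • z) * u' (γ • z) ^ (m - 1) = u z * u' z ^ (m - 1)
    rw [h1, h2, mul_pow]
    calc (χ ⟨γ, hγ⟩ : ℂ) * u z * ((χ ⟨γ, hγ⟩ : ℂ) ^ (m - 1) * u' z ^ (m - 1))
        = ((χ ⟨γ, hγ⟩ : ℂ) * (χ ⟨γ, hγ⟩ : ℂ) ^ (m - 1)) * (u z * u' z ^ (m - 1)) := by ring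
      _ = u z * u' z ^ (m - 1) := by rw [h4, one_mul]
  bdd := by
    obtain ⟨n, hn⟩ := h.isWH.bdd
    obtain ⟨n', hn'⟩ := h'.isWH.bdd
    refine ⟨n + n' * (m - 1), fun g => ?_⟩
    apply RootQ.isBoundedAtImInfty_of_pow hm
    have e : (fun z : ℍ => (u (g • z) * u' (g • z) ^ (m - 1) *
          ModularForm.discriminant z ^ (n + n' * (m - 1))) ^ m) =
        (fun z : ℍ => u (g • z) ^ m * ModularForm.discriminant z ^ n) *
          (fun z : ℍ => (u' (g • z) ^ m * ModularForm.discriminant z ^ n') ^ (m - 1)) *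
          (fun z : ℍ => ModularForm.discriminant z ^ ((n + n' * (m - 1)) * (m - 1))) := by
      funext z
      simp only [Pi.mul_apply]
      exact pow_identity2 _ _ _ n n' hm
    rw [e]
    exact ((hn g).mul (bdd_pow (hn' g) (m - 1))).mul (isBoundedAtImInfty_disc_pow _)

end KummerCore

namespace Kummer

open Fermat.Agent.S20 Fermat.Agent.S24 CongruenceSubgroup

variable (N : ℕ) [NeZero N] (m : ℕ) [NeZero m] (ι : Qb →+* ℂ)

/-- (KM) Kummer data multiply -/
theorem isKummerDatum_mul {χ χ' : S22.Gam N →* ℂˣ} {u u' : ℍ → ℂ}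
    {f₀ f₀' : modularFunctionFieldBar N}
    (h : IsKummerDatum N m ι χ u f₀) (h' : IsKummerDatum N m ι χ' u' f₀') :
    IsKummerDatum N m ι (χ * χ') (fun z => u z * u' z) (f₀ * f₀') where
  mdiff := h.mdiff.mul h'.mdiff
  ne_zero := KummerCore.fun_mul_ne_zero h.mdiff h'.mdiff h.ne_zero h'.ne_zero
  mult := by
    intro γ z
    rw [h.mult γ z, h'.mult γ z, MonoidHom.mul_apply, Units.val_mul]
    ring
  isWH := by
    have e : (fun z => (u z * u' z) ^ m) = (fun z => u z ^ m) * (fun z => u' z ^ m) := by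
      funext z
      simp only [Pi.mul_apply, mul_pow]
    rw [e]
    exact h.isWH.mul h'.isWH
  qexp := by
    rw [map_mul, MulMemClass.coe_mul, h.qexp, h'.qexp,
      ← S24.qLaurentFun_mul (S24.isPM_of_isWH N h.isWH) (S24.isPM_of_isWH N h'.isWH)]
    congr 1
    funext z
    simp only [Pi.mul_apply, mul_pow]

/-- (KU) = K1-core (well-definedness): two Kummer data with the same character differ by an
`m`-th power in the function field over `ℚ̄` -/
theorem exists_eq_mul_pow {χ : S22.Gam N →* ℂˣ} {u u' : ℍ → ℂ}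
    {f₀ f₀' : modularFunctionFieldBar N}
    (h : IsKummerDatum N m ι χ u f₀) (h' : IsKummerDatum N m ι χ u' f₀') :
    ∃ h₀ : modularFunctionFieldBar N, h₀ ≠ 0 ∧ f₀ = f₀' * h₀ ^ m := by
  have hm : 0 < m := NeZero.pos m
  have haWH := KummerCore.isWH_aux h h' hm
  set A : WH (Gamma0 N) := ⟨_, haWH⟩ with hA
  set F : WH (Gamma0 N) := ⟨_, h.isWH⟩ with hF
  set F' : WH (Gamma0 N) := ⟨_, h'.isWH⟩ with hF'
  have hrel : A ^ m * F' = F * F' ^ m := by
    apply Subtype.ext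
    funext z
    exact KummerCore.pow_identity (u z) (u' z) hm
  have hF'0 : F' ≠ 0 := by
    intro h0
    exact KummerCore.fun_pow_ne_zero h'.mdiff h'.ne_zero m (congrArg Subtype.val h0)
  have hF'L : algebraMap (WH (Gamma0 N)) (S20.FF N) F' ≠ 0 := by
    intro h0
    exact hF'0 (IsFractionRing.injective (WH (Gamma0 N)) (S20.FF N) (by rw [h0, map_zero]))
  obtain ⟨e, he, -⟩ := S24.exists_qIso N (S20.FF N)
  set HL : S20.FF N := algebraMap (WH (Gamma0 N)) (S20.FF N) A /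
    algebraMap (WH (Gamma0 N)) (S20.FF N) F' with hHLdef
  have hHL : HL ^ m = algebraMap (WH (Gamma0 N)) (S20.FF N) F /
      algebraMap (WH (Gamma0 N)) (S20.FF N) F' := by
    rw [hHLdef, div_pow, div_eq_div_iff (pow_ne_zero m hF'L) hF'L, ← map_pow, ← map_pow,
      ← map_mul, ← map_mul, hrel]
  have heF : e (algebraMap (WH (Gamma0 N)) (S20.FF N) F) =
      S24.CoeffBC.bc ι (modularFunctionFieldFull N) f₀ := by
    apply Subtype.ext
    rw [he F, h.qexp]
  have heF' : e (algebraMap (WH (Gamma0 N)) (S20.FF N) F') =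
      S24.CoeffBC.bc ι (modularFunctionFieldFull N) f₀' := by
    apply Subtype.ext
    rw [he F', h'.qexp]
  have hf₀ := KummerCore.f₀_ne_zero h
  have hf₀' := KummerCore.f₀_ne_zero h'
  have hH : (e HL) ^ m = S24.CoeffBC.bc ι (modularFunctionFieldFull N) (f₀ / f₀') := by
    rw [← map_pow, hHL, map_div₀, heF, heF', map_div₀]
  obtain ⟨hh, b, hh0, hb0, hfb⟩ := RootDesc.exists_root_of_bc_pow ι (modularFunctionFieldFull N)
    hm (f₀ / f₀') (div_ne_zero hf₀ hf₀') (e HL) hH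
  obtain ⟨c, hc⟩ := IsAlgClosed.exists_pow_nat_eq b hm
  have hc0 : c ≠ 0 := by
    rintro rfl
    rw [zero_pow hm.ne'] at hc
    exact hb0 hc.symm
  refine ⟨algebraMap Qb _ c * hh, mul_ne_zero ?_ hh0, ?_⟩
  · rw [Ne, map_eq_zero]
    exact hc0
  · rw [mul_pow, ← map_pow, hc, ← hfb, mul_div_cancel₀ _ hf₀']

/-- (KI) = K1-core (injectivity): a Kummer datum whose function is an `m`-th power has
trivial character -/
theorem eq_one_of_pow {χ : S22.Gam N →* ℂˣ} {u : ℍ → ℂ} {f₀ : modularFunctionFieldBar N}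
    (h : IsKummerDatum N m ι χ u f₀) (h₀ : modularFunctionFieldBar N) (hh : f₀ = h₀ ^ m) :
    χ = 1 := by
  have hm : 0 < m := NeZero.pos m
  obtain ⟨e, he, -⟩ := S24.exists_qIso N (S20.FF N)
  set F : WH (Gamma0 N) := ⟨_, h.isWH⟩ with hF
  have heF : e (algebraMap (WH (Gamma0 N)) (S20.FF N) F) =
      S24.CoeffBC.bc ι (modularFunctionFieldFull N) f₀ := by
    apply Subtype.ext
    rw [he F, h.qexp]
  obtain ⟨P, Q, hQ, hPQ⟩ := IsFractionRing.div_surjective (A := WH (Gamma0 N))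
    (e.symm (S24.CoeffBC.bc ι (modularFunctionFieldFull N) h₀))
  have hQ0 : Q ≠ 0 := nonZeroDivisors.ne_zero hQ
  have hQL : algebraMap (WH (Gamma0 N)) (S20.FF N) Q ≠ 0 := by
    intro h0
    exact hQ0 (IsFractionRing.injective (WH (Gamma0 N)) (S20.FF N) (by rw [h0, map_zero]))
  have h1 : algebraMap (WH (Gamma0 N)) (S20.FF N) F =
      (algebraMap (WH (Gamma0 N)) (S20.FF N) P / algebraMap (WH (Gamma0 N)) (S20.FF N) Q) ^ m := by
    rw [hPQ, ← map_pow, ← map_pow, ← hh, ← heF, e.symm_apply_apply]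
  have h2 : F * Q ^ m = P ^ m := by
    apply IsFractionRing.injective (WH (Gamma0 N)) (S20.FF N)
    rw [map_mul, map_pow, map_pow, h1, div_pow, div_mul_cancel₀ _ (pow_ne_zero m hQL)]
  have h3 : ∀ z : ℍ, (P : ℍ → ℂ) z ^ m = (u z * (Q : ℍ → ℂ) z) ^ m := by
    intro z
    have h4 := congrFun (congrArg Subtype.val h2) z
    rw [mul_pow]
    exact h4.symm
  have hQm : MDiff (Q : ℍ → ℂ) := Q.2.mdiff
  have hPm : MDiff (P : ℍ → ℂ) := P.2.mdiff
  have hQ0' : (Q : ℍ → ℂ) ≠ 0 := fun h0 => hQ0 (Subtype.ext h0)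
  have hv0 := KummerCore.fun_mul_ne_zero h.mdiff hQm h.ne_zero hQ0'
  obtain ⟨ζ, hζ, hPζ⟩ := Root.root_unique hm hPm (h.mdiff.mul hQm) hv0 h3
  have hζ0 : ζ ≠ 0 := by
    rintro rfl
    rw [zero_pow hm.ne'] at hζ
    exact zero_ne_one hζ
  obtain ⟨z, hz⟩ := KummerCore.exists_ne_zero_pt hv0
  ext γ
  have h4 := hPζ ((γ : SL(2, ℤ)) • z)
  have hPinv : (P : ℍ → ℂ) ((γ : SL(2, ℤ)) • z) = (P : ℍ → ℂ) z := P.2.inv γ γ.2 z
  have hQinv : (Q : ℍ → ℂ) ((γ : SL(2, ℤ)) • z) = (Q : ℍ → ℂ) z := Q.2.inv γ γ.2 z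
  rw [hPinv, hPζ z] at h4
  simp only [Pi.mul_apply] at h4
  rw [h.mult γ z, hQinv] at h4
  have h5 : (χ γ : ℂ) * (u z * (Q : ℍ → ℂ) z) = 1 * (u z * (Q : ℍ → ℂ) z) := by
    have h6 := mul_left_cancel₀ hζ0 h4
    rw [one_mul]
    linear_combination (-1 : ℂ) * h6
  have h7 : (χ γ : ℂ) = 1 := mul_right_cancel₀ hz h5
  simpa using h7

end Kummer

end Fermat.Agent.S29
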