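import Mathlib
import Fermat.Agent.S24.BaseChange
import Fermat.Agent.S24.CoeffBC
import Fermat.Agent.S24.ComplexPlaces

/-!
# S29 (wave 5): extensions of the constant field are unramified

Complement to `S24.BaseChange` (`K ⊆ K'` algebraically closed of characteristic `0`,
`φ : F → F'` a constant-field extension of function fields of one variable):

* `restriction_bijective` : for `y ∈ F` transcendental, restriction is a bijection from the zeros
  of `φ y` onto the zeros of `y`, preserving the order of vanishing;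
* `ord_eq_of_over` : if the place `v'` of `F'` lies over the place `v` of `F`, then
  `v'.ord (φ f) = v.ord f` for all `f` (ramification index `1`);
* `eq_of_over` : the place over `v` is unique;
* `exists_place_over_ord`, `exists_place_under_ord`, `ord_map_cases`.

Specialisation to `φ = S24.CoeffBC.bc ι : FF ℚ̄ N → FF ℂ N`:
`forall_place_of_bc`, `dvd_ord_of_bc`, `ord_bc_cases`, `dvd_ord_bc`.
-/

set_option autoImplicit false
set_option linter.unusedSectionVars false

namespace Fermat.Agent.S29.BCUnram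

open AlgebraicCurve IntermediateField ModularCurve Fermat.Agent.S24

noncomputable section

section Generic

variable {K K' F F' : Type*} [Field K] [IsAlgClosed K] [CharZero K]
  [Field K'] [IsAlgClosed K'] [CharZero K'] [Field F] [Field F'] [Algebra K F] [Algebra K' F']

omit [IsAlgClosed K] [CharZero K] in
/-- constants have order zero -/
theorem ord_const (v : Place K F) (c : K) : v.ord (algebraMap K F c) = 0 := by
  rcases eq_or_ne c 0 with rfl | hc
  · rw [map_zero, v.ord_zero]
  have hc' : algebraMap K F c ≠ 0 := by simpa using hc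
  have h1 : 0 ≤ v.ord (algebraMap K F c) :=
    (Places.ord_nonneg_iff_mem v hc').mpr (v.algebraMap_mem' c)
  have hinv : (algebraMap K F c)⁻¹ = algebraMap K F c⁻¹ := (map_inv₀ _ _).symm
  have h2 : 0 ≤ v.ord (algebraMap K F c)⁻¹ := by
    rw [hinv]
    exact (Places.ord_nonneg_iff_mem v (by simpa using hc)).mpr (v.algebraMap_mem' c⁻¹)
  rw [v.ord_inv] at h2
  omega

omit [CharZero K] in
/-- an element with a zero or a pole is transcendental over the constants -/
theorem transcendental_of_ord_ne_zero (v : Place K F) {y : F} (hy : v.ord y ≠ 0) :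
    Transcendental K y := by
  intro halg
  have hint : IsIntegral K y := halg.isIntegral
  have hdeg := IsAlgClosed.degree_eq_one_of_irreducible K (minpoly.irreducible hint)
  obtain ⟨c, rfl⟩ := minpoly.mem_range_of_degree_eq_one K y hdeg
  exact hy (ord_const v c)

/-- **Restriction of zeros.**  For `y ∈ F` transcendental over `K`, restriction of places is a
bijection from the zeros of `φ y` onto the zeros of `y`, and it preserves the order of `y`. -/
theorem restriction_bijective (ι : K →+* K') (φ : F →+* F')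
    (hφ : ∀ a : K, φ (algebraMap K F a) = algebraMap K' F' (ι a))
    (hLD : ∀ (n : ℕ) (f : Fin n → F), LinearIndependent K f → LinearIndependent K' (φ ∘ f))
    (hgen : IntermediateField.adjoin K' (Set.range φ) = ⊤)
    (x : F) (hx : Transcendental K x) [FiniteDimensional K⟮x⟯ F]
    (y : F) (hy : Transcendental K y) :
    ∃ ρ : {v' : Place K' F' // 0 < v'.ord (φ y)} → {v : Place K F // 0 < v.ord y},
      Function.Bijective ρ ∧
      (∀ a, ∀ f : F, f ∈ (ρ a).1.toValuationSubring ↔ φ f ∈ a.1.toValuationSubring) ∧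
      ∀ a, (ρ a).1.ord y = a.1.ord (φ y) := by
  classical
  obtain ⟨hx', hfin', -⟩ := BaseChange.finrank_ascent ι φ hφ hLD hgen x hx
  have hFy : FiniteDimensional K⟮y⟯ F := finiteDimensional_of_transcendental x y hx hy
  obtain ⟨hy', hfiny', hdeg⟩ := BaseChange.finrank_ascent ι φ hφ hLD hgen y hy
  obtain ⟨S, hS, hSsum⟩ := exists_finset_zeros y hy
  obtain ⟨S', hS', hS'sum⟩ := exists_finset_zeros (φ y) hy'
  let _i1 : Fintype {v : Place K F // 0 < v.ord y} := Fintype.subtype S hS
  let _i2 : Fintype {v' : Place K' F' // 0 < v'.ord (φ y)} := Fintype.subtype S' hS'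
  have hres : ∀ a : {v' : Place K' F' // 0 < v'.ord (φ y)},
      ∃ b : {v : Place K F // 0 < v.ord y},
        ∀ f : F, f ∈ b.1.toValuationSubring ↔ φ f ∈ a.1.toValuationSubring := by
    intro a
    obtain ⟨v, hv⟩ := BaseChange.exists_place_under ι φ hφ x hx a.1 y a.2
    obtain ⟨e, he, hord⟩ := BaseChange.exists_ord_eq_mul φ v a.1 hv
    have hpos : 0 < v.ord y := by
      have h := a.2
      rw [hord] at h
      exact (mul_pos_iff_of_pos_left he).mp h
    exact ⟨⟨v, hpos⟩, hv⟩
  choose ρ hρ using hres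
  have hsurj : Function.Surjective ρ := by
    intro b
    obtain ⟨v', hv'⟩ := BaseChange.exists_place_over ι φ hφ hLD (φ x) hx' b.1
    obtain ⟨e, he, hord⟩ := BaseChange.exists_ord_eq_mul φ b.1 v' hv'
    have hpos : 0 < v'.ord (φ y) := by
      rw [hord]
      exact mul_pos he b.2
    refine ⟨⟨v', hpos⟩, ?_⟩
    apply Subtype.ext
    apply Place.ext
    ext f
    rw [hρ ⟨v', hpos⟩ f, hv' f]
  have hle : ∀ a, (ρ a).1.ord y ≤ a.1.ord (φ y) := by
    intro a
    obtain ⟨e, he, hord⟩ := BaseChange.exists_ord_eq_mul φ (ρ a).1 a.1 (hρ a)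
    rw [hord]
    have h := (ρ a).2
    nlinarith
  have htot : ∑ a : {v' : Place K' F' // 0 < v'.ord (φ y)}, a.1.ord (φ y)
      = ∑ b : {v : Place K F // 0 < v.ord y}, b.1.ord y := by
    calc ∑ a : {v' : Place K' F' // 0 < v'.ord (φ y)}, a.1.ord (φ y)
        = ∑ v' ∈ S', v'.ord (φ y) := (Finset.sum_subtype S' hS' (fun v' => v'.ord (φ y))).symm
      _ = (Module.finrank K'⟮φ y⟯ F' : ℤ) := hS'sum
      _ = (Module.finrank K⟮y⟯ F : ℤ) := by rw [hdeg]
      _ = ∑ v ∈ S, v.ord y := hSsum.symm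
      _ = ∑ b : {v : Place K F // 0 < v.ord y}, b.1.ord y :=
          Finset.sum_subtype S hS (fun v => v.ord y)
  have hsum : ∑ a, (ρ a).1.ord y ≤ ∑ b : {v : Place K F // 0 < v.ord y}, b.1.ord y := by
    rw [← htot]
    exact Finset.sum_le_sum fun a _ => hle a
  have hcard := BaseChange.card_eq_of_surjective_of_sum_le ρ hsurj (fun b => b.1.ord y)
    (fun b => b.2) hsum
  have hbij : Function.Bijective ρ :=
    (Fintype.bijective_iff_surjective_and_card ρ).mpr ⟨hsurj, hcard⟩
  refine ⟨ρ, hbij, hρ, ?_⟩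
  have hcomp : ∑ a, (ρ a).1.ord y = ∑ b : {v : Place K F // 0 < v.ord y}, b.1.ord y :=
    Function.Bijective.sum_comp hbij (fun b => b.1.ord y)
  have heq : ∑ a, (ρ a).1.ord y
      = ∑ a : {v' : Place K' F' // 0 < v'.ord (φ y)}, a.1.ord (φ y) := by
    rw [hcomp, htot]
  intro a
  exact (Finset.sum_eq_sum_iff_of_le (fun i _ => hle i)).mp heq a (Finset.mem_univ a)

/-- **Constant-field extensions are unramified**: if `v'` lies over `v`, then
`v'.ord (φ f) = v.ord f` for every `f ∈ F`. -/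
theorem ord_eq_of_over (ι : K →+* K') (φ : F →+* F')
    (hφ : ∀ a : K, φ (algebraMap K F a) = algebraMap K' F' (ι a))
    (hLD : ∀ (n : ℕ) (f : Fin n → F), LinearIndependent K f → LinearIndependent K' (φ ∘ f))
    (hgen : IntermediateField.adjoin K' (Set.range φ) = ⊤)
    (x : F) (hx : Transcendental K x) [FiniteDimensional K⟮x⟯ F]
    (v : Place K F) (v' : Place K' F')
    (hR : ∀ f : F, f ∈ v.toValuationSubring ↔ φ f ∈ v'.toValuationSubring) (f : F) :
    v'.ord (φ f) = v.ord f := by
  obtain ⟨e, he, hord⟩ := BaseChange.exists_ord_eq_mul φ v v' hR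
  obtain ⟨π, hπ⟩ := IsDiscreteValuationRing.exists_irreducible v.toValuationSubring
  have hy1 : v.ord (π : F) = 1 := v.ord_coe_irreducible hπ
  have hy : Transcendental K (π : F) :=
    transcendental_of_ord_ne_zero v (by rw [hy1]; exact one_ne_zero)
  obtain ⟨ρ, -, hρ, hρord⟩ := restriction_bijective ι φ hφ hLD hgen x hx (π : F) hy
  have hpos : 0 < v'.ord (φ (π : F)) := by
    rw [hord, hy1, mul_one]
    exact he
  have hρv : (ρ ⟨v', hpos⟩).1 = v := by
    apply Place.ext
    ext g
    rw [hρ ⟨v', hpos⟩ g, hR g]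
  have h1 := hρord ⟨v', hpos⟩
  rw [hρv, hy1] at h1
  have he1 : e = 1 := by
    have h2 : v'.ord (φ (π : F)) = e := by rw [hord, hy1, mul_one]
    rw [← h2, ← h1]
  rw [hord, he1, one_mul]

/-- the place over a given place is unique -/
theorem eq_of_over (ι : K →+* K') (φ : F →+* F')
    (hφ : ∀ a : K, φ (algebraMap K F a) = algebraMap K' F' (ι a))
    (hLD : ∀ (n : ℕ) (f : Fin n → F), LinearIndependent K f → LinearIndependent K' (φ ∘ f))
    (hgen : IntermediateField.adjoin K' (Set.range φ) = ⊤)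
    (x : F) (hx : Transcendental K x) [FiniteDimensional K⟮x⟯ F]
    (v : Place K F) (v' v'' : Place K' F')
    (hR' : ∀ f : F, f ∈ v.toValuationSubring ↔ φ f ∈ v'.toValuationSubring)
    (hR'' : ∀ f : F, f ∈ v.toValuationSubring ↔ φ f ∈ v''.toValuationSubring) :
    v' = v'' := by
  obtain ⟨π, hπ⟩ := IsDiscreteValuationRing.exists_irreducible v.toValuationSubring
  have hy1 : v.ord (π : F) = 1 := v.ord_coe_irreducible hπ
  have hy : Transcendental K (π : F) :=
    transcendental_of_ord_ne_zero v (by rw [hy1]; exact one_ne_zero)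
  obtain ⟨ρ, hbij, hρ, -⟩ := restriction_bijective ι φ hφ hLD hgen x hx (π : F) hy
  have hpos' : 0 < v'.ord (φ (π : F)) := by
    rw [ord_eq_of_over ι φ hφ hLD hgen x hx v v' hR', hy1]
    exact one_pos
  have hpos'' : 0 < v''.ord (φ (π : F)) := by
    rw [ord_eq_of_over ι φ hφ hLD hgen x hx v v'' hR'', hy1]
    exact one_pos
  have h1 : ρ ⟨v', hpos'⟩ = ρ ⟨v'', hpos''⟩ := by
    apply Subtype.ext
    apply Place.ext
    ext g
    rw [hρ ⟨v', hpos'⟩ g, hρ ⟨v'', hpos''⟩ g, ← hR' g, ← hR'' g]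
  exact congrArg Subtype.val (hbij.1 h1)

/-- every place of `F` has a place of `F'` over it with the same orders -/
theorem exists_place_over_ord (ι : K →+* K') (φ : F →+* F')
    (hφ : ∀ a : K, φ (algebraMap K F a) = algebraMap K' F' (ι a))
    (hLD : ∀ (n : ℕ) (f : Fin n → F), LinearIndependent K f → LinearIndependent K' (φ ∘ f))
    (hgen : IntermediateField.adjoin K' (Set.range φ) = ⊤)
    (x : F) (hx : Transcendental K x) [FiniteDimensional K⟮x⟯ F] (v : Place K F) :
    ∃ v' : Place K' F', (∀ f : F, f ∈ v.toValuationSubring ↔ φ f ∈ v'.toValuationSubring) ∧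
      ∀ f : F, v'.ord (φ f) = v.ord f := by
  obtain ⟨hx', hfin', -⟩ := BaseChange.finrank_ascent ι φ hφ hLD hgen x hx
  obtain ⟨v', hv'⟩ := BaseChange.exists_place_over ι φ hφ hLD (φ x) hx' v
  exact ⟨v', hv', ord_eq_of_over ι φ hφ hLD hgen x hx v v' hv'⟩

/-- a place of `F'` at which some element of `F` vanishes restricts to a place of `F` with the
same orders -/
theorem exists_place_under_ord (ι : K →+* K') (φ : F →+* F')
    (hφ : ∀ a : K, φ (algebraMap K F a) = algebraMap K' F' (ι a))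
    (hLD : ∀ (n : ℕ) (f : Fin n → F), LinearIndependent K f → LinearIndependent K' (φ ∘ f))
    (hgen : IntermediateField.adjoin K' (Set.range φ) = ⊤)
    (x : F) (hx : Transcendental K x) [FiniteDimensional K⟮x⟯ F] (v' : Place K' F')
    (y : F) (hy : 0 < v'.ord (φ y)) :
    ∃ v : Place K F, (∀ f : F, f ∈ v.toValuationSubring ↔ φ f ∈ v'.toValuationSubring) ∧
      ∀ f : F, v'.ord (φ f) = v.ord f := by
  obtain ⟨v, hv⟩ := BaseChange.exists_place_under ι φ hφ x hx v' y hy
  exact ⟨v, hv, ord_eq_of_over ι φ hφ hLD hgen x hx v v' hv⟩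

/-- **Dichotomy** for a place `v'` of `F'`: either it restricts to a place of `F` with the same
orders, or every element of `φ F` has order `0` at `v'` (a "generic" place). -/
theorem ord_map_cases (ι : K →+* K') (φ : F →+* F')
    (hφ : ∀ a : K, φ (algebraMap K F a) = algebraMap K' F' (ι a))
    (hLD : ∀ (n : ℕ) (f : Fin n → F), LinearIndependent K f → LinearIndependent K' (φ ∘ f))
    (hgen : IntermediateField.adjoin K' (Set.range φ) = ⊤)
    (x : F) (hx : Transcendental K x) [FiniteDimensional K⟮x⟯ F] (v' : Place K' F') :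
    (∃ v : Place K F, (∀ f : F, f ∈ v.toValuationSubring ↔ φ f ∈ v'.toValuationSubring) ∧
      ∀ f : F, v'.ord (φ f) = v.ord f) ∨ ∀ f : F, v'.ord (φ f) = 0 := by
  by_cases h : ∃ y : F, 0 < v'.ord (φ y)
  · obtain ⟨y, hy⟩ := h
    exact Or.inl (exists_place_under_ord ι φ hφ hLD hgen x hx v' y hy)
  · right
    simp only [not_exists, not_lt] at h
    intro f
    have h1 := h f
    have h2 := h f⁻¹
    rw [map_inv₀, v'.ord_inv] at h2
    omega

end Generic

section Modular

local notation "Qb" => AlgebraicClosure ℚ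

variable (N : ℕ) [NeZero N] (ι : Qb →+* ℂ)

omit ι in
/-- `j` is transcendental over `ℚ̄` and `FF ℚ̄ N` is finite over `ℚ̄(j)`. -/
theorem bar_transcendental :
    Transcendental Qb (jBC Qb N) ∧ FiniteDimensional Qb⟮jBC Qb N⟯ (FF Qb N) := by
  obtain ⟨ι, φ, hφ, hLD, hgen, hφj⟩ := exists_barToComplex N
  obtain ⟨hxC, hfdC, -⟩ := complex_places N
  have hxC' : Transcendental ℂ (φ (jBC Qb N)) := by rw [hφj]; exact hxC
  have hfdC' : FiniteDimensional ℂ⟮φ (jBC Qb N)⟯ (FF ℂ N) := by
    rw [hφj]; exact hfdC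
  obtain ⟨hx, hfd, -⟩ := baseChange_finrank ι φ hφ hLD hgen (jBC Qb N) hxC'
  exact ⟨hx, hfd⟩

/-- the coefficient extension maps `j` to `j` -/
theorem bc_jBC : CoeffBC.bc ι (modularFunctionFieldFull N) (jBC Qb N) = jBC ℂ N := by
  apply Subtype.ext
  rw [CoeffBC.coe_bc, coe_jBC, coe_jBC]
  exact CoeffBC.coeffMap_coeffEmb' ι jq

/-- every place of `FF ℚ̄ N` has a place of `FF ℂ N` over it, with the same orders -/
theorem exists_place_over_bc (v : Place Qb (FF Qb N)) :
    ∃ v' : Place ℂ (FF ℂ N),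
      (∀ f : FF Qb N, f ∈ v.toValuationSubring ↔
        CoeffBC.bc ι (modularFunctionFieldFull N) f ∈ v'.toValuationSubring) ∧
      ∀ f : FF Qb N, v'.ord (CoeffBC.bc ι (modularFunctionFieldFull N) f) = v.ord f := by
  obtain ⟨hx, hfd⟩ := bar_transcendental N
  exact exists_place_over_ord ι (CoeffBC.bc ι (modularFunctionFieldFull N))
    (fun a => CoeffBC.bc_algebraMap ι _ a)
    (fun n f hf => CoeffBC.bc_linearIndependent ι _ n f hf)
    (CoeffBC.adjoin_range_bc ι _) (jBC Qb N) hx v

/-- **Dichotomy** for a place of `FF ℂ N`: it restricts to a place of `FF ℚ̄ N` with the same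
orders, or all elements coming from `FF ℚ̄ N` have order `0` at it. -/
theorem ord_bc_cases (v' : Place ℂ (FF ℂ N)) :
    (∃ v : Place Qb (FF Qb N),
      (∀ f : FF Qb N, f ∈ v.toValuationSubring ↔
        CoeffBC.bc ι (modularFunctionFieldFull N) f ∈ v'.toValuationSubring) ∧
      ∀ f : FF Qb N, v'.ord (CoeffBC.bc ι (modularFunctionFieldFull N) f) = v.ord f) ∨
    ∀ f : FF Qb N, v'.ord (CoeffBC.bc ι (modularFunctionFieldFull N) f) = 0 := by
  obtain ⟨hx, hfd⟩ := bar_transcendental N
  exact ord_map_cases ι (CoeffBC.bc ι (modularFunctionFieldFull N))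
    (fun a => CoeffBC.bc_algebraMap ι _ a)
    (fun n f hf => CoeffBC.bc_linearIndependent ι _ n f hf)
    (CoeffBC.adjoin_range_bc ι _) (jBC Qb N) hx v'

/-- the place of `FF ℂ N` over a place of `FF ℚ̄ N` is unique -/
theorem eq_of_over_bc (v : Place Qb (FF Qb N)) (v' v'' : Place ℂ (FF ℂ N))
    (hR' : ∀ f : FF Qb N, f ∈ v.toValuationSubring ↔
      CoeffBC.bc ι (modularFunctionFieldFull N) f ∈ v'.toValuationSubring)
    (hR'' : ∀ f : FF Qb N, f ∈ v.toValuationSubring ↔
      CoeffBC.bc ι (modularFunctionFieldFull N) f ∈ v''.toValuationSubring) : v' = v'' := by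
  obtain ⟨hx, hfd⟩ := bar_transcendental N
  exact eq_of_over ι (CoeffBC.bc ι (modularFunctionFieldFull N))
    (fun a => CoeffBC.bc_algebraMap ι _ a)
    (fun n f hf => CoeffBC.bc_linearIndependent ι _ n f hf)
    (CoeffBC.adjoin_range_bc ι _) (jBC Qb N) hx v v' v'' hR' hR''

/-- **Descent of order conditions from `ℂ` to `ℚ̄`**: a property of the pairs
`(ord j, ord (bc f))` valid at all places of `FF ℂ N` is valid for `(ord j, ord f)` at all
places of `FF ℚ̄ N`. -/
theorem forall_place_of_bc (P : ℤ → ℤ → Prop) (f : FF Qb N)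
    (h : ∀ v' : Place ℂ (FF ℂ N),
      P (v'.ord (jBC ℂ N)) (v'.ord (CoeffBC.bc ι (modularFunctionFieldFull N) f))) :
    ∀ v : Place Qb (FF Qb N), P (v.ord (jBC Qb N)) (v.ord f) := by
  intro v
  obtain ⟨v', -, hv'⟩ := exists_place_over_bc N ι v
  have h1 := h v'
  rwa [← bc_jBC N ι, hv', hv'] at h1

/-- **`m ∣ div (bc f)` over `ℂ` implies `m ∣ div f` over `ℚ̄`.** -/
theorem dvd_ord_of_bc (m : ℤ) (f : FF Qb N)
    (h : ∀ v' : Place ℂ (FF ℂ N), m ∣ v'.ord (CoeffBC.bc ι (modularFunctionFieldFull N) f)) :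
    ∀ v : Place Qb (FF Qb N), m ∣ v.ord f :=
  forall_place_of_bc N ι (fun _ b => m ∣ b) f h

/-- **`m ∣ div f` over `ℚ̄` implies `m ∣ div (bc f)` over `ℂ`.** -/
theorem dvd_ord_bc (m : ℤ) (f : FF Qb N) (h : ∀ v : Place Qb (FF Qb N), m ∣ v.ord f) :
    ∀ v' : Place ℂ (FF ℂ N), m ∣ v'.ord (CoeffBC.bc ι (modularFunctionFieldFull N) f) := by
  intro v'
  rcases ord_bc_cases N ι v' with ⟨v, -, hv⟩ | h0
  · rw [hv]
    exact h v
  · rw [h0]
    exact dvd_zero m

/-- the iff form -/
theorem dvd_ord_bc_iff (m : ℤ) (f : FF Qb N) :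
    (∀ v' : Place ℂ (FF ℂ N), m ∣ v'.ord (CoeffBC.bc ι (modularFunctionFieldFull N) f)) ↔
      ∀ v : Place Qb (FF Qb N), m ∣ v.ord f :=
  ⟨dvd_ord_of_bc N ι m f, dvd_ord_bc N ι m f⟩

/-- pole bounds at the places over `j = ∞` descend from `ℂ` to `ℚ̄` -/
theorem pole_bound_of_bc (c : ℤ) (f : FF Qb N)
    (h : ∀ v' : Place ℂ (FF ℂ N), v'.ord (jBC ℂ N) < 0 →
      c * v'.ord (jBC ℂ N) ≤ v'.ord (CoeffBC.bc ι (modularFunctionFieldFull N) f)) :
    ∀ v : Place Qb (FF Qb N), v.ord (jBC Qb N) < 0 → c * v.ord (jBC Qb N) ≤ v.ord f :=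
  forall_place_of_bc N ι (fun a b => a < 0 → c * a ≤ b) f h

end Modular

end

end Fermat.Agent.S29.BCUnram
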