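import Mathlib
import Fermat.Agent.S24.Places
import Fermat.Agent.S29.BCUnram
import Fermat.Agent.S29.KummerDatum

/-!
# S29 (wave 5): a function with trivial divisor is constant

For a function field `F` of one variable over an algebraically closed field `K` of
characteristic `0` (finite over `K(j)`, `j` transcendental):

* `isAlgebraic_of_ord_eq_zero`, `exists_const_of_ord_eq_zero` : an element all of whose orders
  vanish is a constant;
* `exists_pow_of_ord_eq` : if `ord_v f = m * ord_v h` at every place, then `f` is an `m`-th power;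
* the specialisations `bar_const_of_ord_eq_zero`, `bar_exists_pow_of_ord_eq` to the function
  field of `X₀(N)` over `ℚ̄`, and `exists_pow_of_isRootClass_zero` in the root-class currency.
-/

set_option autoImplicit false
set_option linter.unusedSectionVars false

namespace Fermat.Agent.S29.ConstOfOrd

open AlgebraicCurve IntermediateField ModularCurve

section Generic

variable {K F : Type*} [Field K] [IsAlgClosed K] [CharZero K] [Field F] [Algebra K F]

/-- An element all of whose orders vanish is algebraic over the constants. -/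
theorem isAlgebraic_of_ord_eq_zero (j : F) (hj : Transcendental K j)
    [FiniteDimensional K⟮j⟯ F] (x : F) (h : ∀ v : Place K F, v.ord x = 0) :
    IsAlgebraic K x := by
  by_contra hx
  have hx' : Transcendental K x := hx
  have := Fermat.Agent.S24.finiteDimensional_of_transcendental j x hj hx'
  obtain ⟨s, -, hsum⟩ := Fermat.Agent.S24.exists_finset_zeros x hx'
  have h0 : ∑ v ∈ s, v.ord x = 0 := Finset.sum_eq_zero (fun v _ => h v)
  rw [h0] at hsum
  have hpos : 0 < Module.finrank K⟮x⟯ F := Module.finrank_pos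
  omega

/-- An element all of whose orders vanish is a constant. -/
theorem exists_const_of_ord_eq_zero (j : F) (hj : Transcendental K j)
    [FiniteDimensional K⟮j⟯ F] (x : F) (h : ∀ v : Place K F, v.ord x = 0) :
    ∃ c : K, x = algebraMap K F c := by
  have hint : IsIntegral K x := (isAlgebraic_of_ord_eq_zero j hj x h).isIntegral
  obtain ⟨c, hc⟩ := minpoly.mem_range_of_degree_eq_one K x
    (IsAlgClosed.degree_eq_one_of_irreducible K (minpoly.irreducible hint))
  exact ⟨c, hc.symm⟩

/-- If `ord_v f = m * ord_v h` at every place (`m ≥ 1`), then `f` is an `m`-th power. -/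
theorem exists_pow_of_ord_eq (j : F) (hj : Transcendental K j) [FiniteDimensional K⟮j⟯ F]
    (m : ℕ) (hm : 0 < m) {f h : F} (hf : f ≠ 0) (hh : h ≠ 0)
    (hord : ∀ v : Place K F, v.ord f = (m : ℤ) * v.ord h) : ∃ h₀ : F, h₀ ≠ 0 ∧ f = h₀ ^ m := by
  have hhm : h ^ m ≠ 0 := pow_ne_zero m hh
  have h0 : ∀ v : Place K F, v.ord (f * (h ^ m)⁻¹) = 0 := by
    intro v
    rw [v.ord_mul hf (inv_ne_zero hhm), v.ord_inv, ← zpow_natCast, v.ord_zpow, hord v]
    ring
  obtain ⟨c, hc⟩ := exists_const_of_ord_eq_zero j hj _ h0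
  have hc0 : c ≠ 0 := by
    rintro rfl
    rw [map_zero] at hc
    exact mul_ne_zero hf (inv_ne_zero hhm) hc
  obtain ⟨c₀, hc₀⟩ := IsAlgClosed.exists_pow_nat_eq c hm
  have hc₀0 : c₀ ≠ 0 := by
    rintro rfl
    rw [zero_pow hm.ne'] at hc₀
    exact hc0 hc₀.symm
  refine ⟨algebraMap K F c₀ * h, mul_ne_zero ?_ hh, ?_⟩
  · exact (map_ne_zero (algebraMap K F)).mpr hc₀0
  · rw [mul_pow, ← map_pow, hc₀, ← hc, mul_assoc, inv_mul_cancel₀ hhm, mul_one]

end Generic

section Bar

local notation "Qb" => AlgebraicClosure ℚ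

variable (N : ℕ) [NeZero N]

/-- A function on `X₀(N)` over `ℚ̄` with trivial divisor is a constant. -/
theorem bar_const_of_ord_eq_zero (x : modularFunctionFieldBar N)
    (h : ∀ v : Place Qb (modularFunctionFieldBar N), v.ord x = 0) :
    ∃ c : Qb, x = algebraMap Qb (modularFunctionFieldBar N) c := by
  obtain ⟨hj, hfd⟩ := Fermat.Agent.S29.BCUnram.bar_transcendental N
  exact exists_const_of_ord_eq_zero (Fermat.Agent.S24.jBC Qb N) hj x h

/-- If `ord_v f = m * ord_v h` at every place of `X₀(N)` over `ℚ̄`, then `f` is an `m`-th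
power. -/
theorem bar_exists_pow_of_ord_eq (m : ℕ) (hm : 0 < m) {f h : modularFunctionFieldBar N}
    (hf : f ≠ 0) (hh : h ≠ 0)
    (hord : ∀ v : Place Qb (modularFunctionFieldBar N), v.ord f = (m : ℤ) * v.ord h) :
    ∃ h₀ : modularFunctionFieldBar N, h₀ ≠ 0 ∧ f = h₀ ^ m := by
  obtain ⟨hj, hfd⟩ := Fermat.Agent.S29.BCUnram.bar_transcendental N
  exact exists_pow_of_ord_eq (Fermat.Agent.S24.jBC Qb N) hj m hm hf hh hord

/-- A root class is zero only for `m`-th powers. -/
theorem exists_pow_of_isRootClass_zero (m : ℕ) [NeZero m] {f₀ : modularFunctionFieldBar N}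
    (hf : f₀ ≠ 0) (h : IsRootClass m f₀ (0 : JZero N)) :
    ∃ h₀ : modularFunctionFieldBar N, f₀ = h₀ ^ m := by
  obtain ⟨D, hD0, hD⟩ := h
  have hprin : (D : Divisor Qb (modularFunctionFieldBar N)) ∈
      Divisor.principal (K := Qb) (F := modularFunctionFieldBar N) := by
    have h1 : D ∈ (Divisor.principal (K := Qb) (F := modularFunctionFieldBar N)).addSubgroupOf
        (Divisor.degZero (K := Qb) (F := modularFunctionFieldBar N)) :=
      (QuotientAddGroup.eq_zero_iff D).mp hD0
    exact h1
  obtain ⟨g, hg0, hg⟩ := hprin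
  obtain ⟨h₀, -, hh₀⟩ := bar_exists_pow_of_ord_eq N m (NeZero.pos m) hf hg0
    (fun v => by rw [← hD v, hg v])
  exact ⟨h₀, hh₀⟩

end Bar

end Fermat.Agent.S29.ConstOfOrd
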