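import Mathlib
import Fermat.Agent.S20.FinitePlaces
import Fermat.Agent.S20.DictInf
import Fermat.Agent.S20.JSurj
import Fermat.Agent.S24.PrimeBridge
import Fermat.Agent.S24.QIsoFinal
import Fermat.Agent.S24.Transport

/-!
# S29 (K1-div): the orders of a Kummer function are divisible by `m`

`u : ℍ → ℂ` is holomorphic, nonzero, invariant under the finite-order and the unipotent elements
of `Γ₀(N)`, and `u ^ m` is weakly holomorphic of level `Γ₀(N)`.  Then the order of `u ^ m` at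
every place of the function field of `X₀(N)` is divisible by `m`:

* `exists_valuation_fin` : at the primes of `WH Γ₀(N)` (points of `ℍ`);
* `exists_valuation_inf` : at the primes of the ring at infinity (cusps), given the strong cusp
  dictionary `CuspDict` (hypothesis `hcusp`);
* `dvd_ord_FF` : at every place of `S20.FF N = Frac (WH Γ₀(N))`;
* `dvd_ord_complex` : at every place of the formal function field `S24.FF ℂ N`, for the element
  whose `q`-expansion is that of `u ^ m`.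
-/

set_option autoImplicit false
set_option linter.unusedSectionVars false

open UpperHalfPlane hiding I
open ModularForm Polynomial IsDedekindDomain CongruenceSubgroup AlgebraicCurve
open scoped MatrixGroups Manifold RatFunc WithZero

namespace Fermat.Agent.S29.KummerDiv

open Fermat.Agent.S20

/-- extraction of roots in the value group -/
theorem eq_exp_of_pow_eq {x : ℤᵐ⁰} {n : ℕ} (hn : 0 < n) {k : ℤ}
    (h : x ^ n = WithZero.exp ((n : ℤ) * k)) : x = WithZero.exp k := by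
  have hx0 : x ≠ 0 := by
    rintro rfl
    rw [zero_pow hn.ne'] at h
    exact WithZero.exp_ne_zero h.symm
  have hx : x = WithZero.exp (WithZero.log x) := (WithZero.exp_log hx0).symm
  rw [hx, ← WithZero.exp_nsmul, WithZero.exp_inj, nsmul_eq_mul] at h
  rw [hx, WithZero.exp_inj]
  exact mul_left_cancel₀ (Nat.cast_ne_zero.mpr hn.ne') h

section Fin

variable {N : ℕ} [NeZero N] {m : ℕ} {u : ℍ → ℂ}

/-- The order of `u` at `z` is divisible by half the order of the stabiliser of `z` in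
`Γ₀(N)`. -/
theorem card_stabilizer_dvd_ordAt (hu : MDiff u) (hu0 : u ≠ 0)
    (hfin : ∀ γ ∈ Gamma0 N, IsOfFinOrder γ → ∀ z : ℍ, u (γ • z) = u z) (z : ℍ) :
    Nat.card ↥(Gamma0 N ⊓ MulAction.stabilizer SL(2, ℤ) z) ∣ 2 * (ordAt u z).toNat := by
  set K : Subgroup SL(2, ℤ) := Gamma0 N ⊓ MulAction.stabilizer SL(2, ℤ) z with hK
  have hKfin : Finite ↥K :=
    Finite.of_injective (Subgroup.inclusion (inf_le_right (a := Gamma0 N)))
      (Subgroup.inclusion_injective inf_le_right)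
  have hinv : ∀ γ ∈ K, ∀ w : ℍ, u (γ • w) = u w := by
    intro γ hγ w
    have h1 : IsOfFinOrder (⟨γ, hγ⟩ : ↥K) := isOfFinOrder_of_finite _
    have h2 : IsOfFinOrder γ := by
      have := Submonoid.isOfFinOrder_coe (H := K.toSubmonoid) (x := ⟨γ, hγ⟩)
      exact this.mpr h1
    exact hfin γ (Subgroup.mem_inf.mp hγ).1 h2 w
  by_cases huz : u z = 0
  · have e : (fun w => u w - u z) = u := by
      funext w
      rw [huz, sub_zero]
    have hne : ordAt u z ≠ ⊤ := fun h => hu0 ((ordAt_eq_top_iff hu).mp h)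
    have hn : ordAt (fun w => u w - u z) z = ((ordAt u z).toNat : ℕ∞) := by
      rw [e]
      exact (ENat.natCast_toNat hne).symm
    have hdvd := card_inf_stabilizer_dvd K hu hinv hn
    have hKK : K ⊓ MulAction.stabilizer SL(2, ℤ) z = K := inf_eq_left.mpr inf_le_right
    rw [hKK] at hdvd
    exact hdvd
  · have h0 : ordAt u z = 0 := (ordAt_eq_zero_iff hu).mpr huz
    rw [h0]
    simp

theorem ordAt_pow (hu : MDiff u) (n : ℕ) (z : ℍ) :
    ordAt (fun w => u w ^ n) z = n • ordAt u z := by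
  unfold ordAt
  have h := analyticOrderAt_pow (Elliptic.analyticAt_comp_ofComplex hu z) n
  rw [← h]
  rfl

theorem pow_ne_zero_fun (hu0 : u ≠ 0) (hm : 0 < m) (b : WH (Gamma0 N))
    (hb : (b : ℍ → ℂ) = fun z => u z ^ m) : b ≠ 0 := by
  rintro rfl
  apply hu0
  funext z
  have h := congrFun hb z
  have h0 : ((0 : WH (Gamma0 N)) : ℍ → ℂ) z = 0 := rfl
  rw [h0] at h
  exact (pow_eq_zero_iff hm.ne').mp h.symm

/-- **Finite places**: the adic valuation of `u ^ m` at every prime of `WH Γ₀(N)` is an `m`-th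
power. -/
theorem exists_valuation_fin (hm : 0 < m) (hu : MDiff u) (hu0 : u ≠ 0)
    (hfin : ∀ γ ∈ Gamma0 N, IsOfFinOrder γ → ∀ z : ℍ, u (γ • z) = u z)
    (b : WH (Gamma0 N)) (hb : (b : ℍ → ℂ) = fun z => u z ^ m)
    (𝔮 : HeightOneSpectrum (WH (Gamma0 N))) :
    ∃ t : ℤ, 𝔮.valuation (FF N) (algebraMap (WH (Gamma0 N)) (FF N) b) =
      WithZero.exp (-((m : ℤ) * t)) := by
  obtain ⟨a, ha⟩ := FinitePlaces.exists_X_sub_C_mem (Gamma0 N) 𝔮
  obtain ⟨z0, rfl⟩ := jFun_surjective a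
  obtain ⟨φ, hφ⟩ := finite_places N (FF N) z0
  obtain ⟨xq, hxq⟩ := φ.surjective ⟨𝔮, ha⟩
  obtain ⟨x, rfl⟩ := Quotient.exists_rep xq
  obtain ⟨-, hv⟩ := hφ x
  have hb0 : b ≠ 0 := pow_ne_zero_fun hu0 hm b hb
  have h1 := hv (algebraMap (WH (Gamma0 N)) (FF N) b)
  rw [ordVal_apply _ _ _ b hb0] at h1
  have hq : (φ (Quotient.mk _ x)).1 = 𝔮 := congrArg Subtype.val hxq
  rw [hq] at h1
  set z := FinitePlaces.pt (Γ := Gamma0 N) z0 x with hz
  set n := FinitePlaces.nIdx (Gamma0 N) z0 x with hn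
  have hnpos : 0 < n := FinitePlaces.nIdx_pos (Gamma0 N) (FinitePlaces.neg_one_mem_Gamma0 N) z0 x
  have hne : ordAt u z ≠ ⊤ := fun h => hu0 ((ordAt_eq_top_iff hu).mp h)
  have hord : FinitePlaces.ordZ z b = (m : ℤ) * ((ordAt u z).toNat : ℤ) := by
    unfold FinitePlaces.ordZ
    rw [hb, ordAt_pow hu m z]
    obtain ⟨k, hk⟩ := ENat.ne_top_iff_exists.mp hne
    rw [← hk]
    have : (m • (k : ℕ∞)) = ((m * k : ℕ) : ℕ∞) := by
      rw [nsmul_eq_mul]
      push_cast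
      rfl
    rw [this, ENat.toNat_natCast, ENat.toNat_natCast]
    push_cast
    rfl
  have hdvd : (n : ℤ) ∣ ((ordAt u z).toNat : ℤ) := by
    rw [Int.natCast_dvd_natCast]
    have h2 := card_stabilizer_dvd_ordAt hu hu0 hfin z
    obtain ⟨k, hk⟩ := two_dvd_card_inf_stabilizer (Gamma0 N) (FinitePlaces.neg_one_mem_Gamma0 N) z
    have hnk : n = k := by
      rw [hn]
      unfold FinitePlaces.nIdx
      rw [← hz, hk, Nat.mul_div_cancel_left k (by norm_num)]
    rw [hk] at h2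
    rw [hnk]
    exact (Nat.mul_dvd_mul_iff_left (by norm_num)).mp h2
  obtain ⟨t, ht⟩ := hdvd
  refine ⟨t, ?_⟩
  apply eq_exp_of_pow_eq hnpos
  rw [← h1, hord, ht]
  congr 1
  ring

end Fin

section Inf

variable {N : ℕ} [NeZero N] {m : ℕ} {u : ℍ → ℂ}

theorem isBoundedAtImInfty_of_pow {F : ℍ → ℂ} {m : ℕ} (hm : 0 < m)
    (h : IsBoundedAtImInfty (fun z => F z ^ m)) : IsBoundedAtImInfty F := by
  rw [UpperHalfPlane.isBoundedAtImInfty_iff] at h ⊢
  obtain ⟨M, A, hMA⟩ := h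
  refine ⟨max M 1, A, fun z hz => ?_⟩
  have h1 := hMA z hz
  rw [norm_pow] at h1
  by_cases h2 : ‖F z‖ ≤ 1
  · exact h2.trans (le_max_right _ _)
  · have h3 : 1 ≤ ‖F z‖ := (not_le.mp h2).le
    exact ((le_self_pow₀ h3 hm.ne').trans h1).trans (le_max_left _ _)

/-- `u ∘ g` is meromorphic at `i∞` with period `h` as soon as `g T^h g⁻¹ ∈ Γ₀(N)`. -/
theorem isMeroInf_comp (hm : 0 < m) (hu : MDiff u)
    (hpar : ∀ (g : SL(2, ℤ)) (k : ℕ), g * ModularGroup.T ^ k * g⁻¹ ∈ Gamma0 N →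
      ∀ z : ℍ, u ((g * ModularGroup.T ^ k * g⁻¹) • z) = u z)
    (b : WH (Gamma0 N)) (hb : (b : ℍ → ℂ) = fun z => u z ^ m)
    (g : SL(2, ℤ)) {h : ℕ} (hg : g * ModularGroup.T ^ h * g⁻¹ ∈ Gamma0 N) :
    IsMeroInf h (fun z => u (g • z)) where
  mdiff := OrdCusp.mdiff_comp_smul hu g
  per := fun z => by
    rw [OrdCusp.smul_vadd_nat, ← hpar g h hg (g • z), ← mul_smul, inv_mul_cancel_right]
  bdd := by
    obtain ⟨n, hn⟩ := (FinitePlaces.isWH_coe b).bdd
    refine ⟨n, isBoundedAtImInfty_of_pow hm ?_⟩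
    have h1 := (hn g).mul (isBoundedAtImInfty_disc_pow (n * (m - 1)))
    have e : (fun z : ℍ => (u (g • z) * ModularForm.discriminant z ^ n) ^ m) =
        (fun z : ℍ => (b : ℍ → ℂ) (g • z) * ModularForm.discriminant z ^ n) *
          (fun z : ℍ => ModularForm.discriminant z ^ (n * (m - 1))) := by
      funext z
      rw [Pi.mul_apply, hb, mul_pow, mul_assoc, ← pow_mul, ← pow_add]
      congr 2
      obtain ⟨m', rfl⟩ : ∃ m', m = m' + 1 := ⟨m - 1, by omega⟩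
      rw [Nat.add_sub_cancel]
      ring
    rw [e]
    exact h1

/-- **Cusps**: the adic valuation of `u ^ m` at every prime of the ring at infinity is an `m`-th
power, given the strong cusp dictionary for that prime. -/
theorem exists_valuation_inf (hm : 0 < m) (hu : MDiff u) (hu0 : u ≠ 0)
    (hpar : ∀ (g : SL(2, ℤ)) (k : ℕ), g * ModularGroup.T ^ k * g⁻¹ ∈ Gamma0 N →
      ∀ z : ℍ, u ((g * ModularGroup.T ^ k * g⁻¹) • z) = u z)
    (b : WH (Gamma0 N)) (hb : (b : ℍ → ℂ) = fun z => u z ^ m)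
    (𝔫 : HeightOneSpectrum (Binf N))
    (hcusp : ∃ (g : SL(2, ℤ)) (h : ℕ), 0 < h ∧ h ∣ N ∧ g * ModularGroup.T ^ h * g⁻¹ ∈ Gamma0 N ∧
      ∀ f : FF N, DictInf.v N (QuotientGroup.mk g⁻¹ : SL(2, ℤ) ⧸ Gamma0 N) f =
        𝔫.valuation (FF N) f ^ (N / h)) :
    ∃ t : ℤ, 𝔫.valuation (FF N) (algebraMap (WH (Gamma0 N)) (FF N) b) =
      WithZero.exp (-((m : ℤ) * t)) := by
  obtain ⟨g, h, hh, hhN, hg, hv⟩ := hcusp
  have hb0 : b ≠ 0 := pow_ne_zero_fun hu0 hm b hb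
  have hF : IsMeroInf h (fun z => u (g • z)) := isMeroInf_comp hm hu hpar b hb g hg
  have hFN : IsMeroInf N (fun z => u (g • z)) := hF.of_dvd hhN
  have hNpos : 0 < N := NeZero.pos N
  have hne : ordInf h (fun z => u (g • z)) ≠ ⊤ := by
    rw [Ne, ordInf_eq_top_iff hh hF]
    intro h0
    apply hu0
    funext z
    have := congrFun h0 (g⁻¹ • z)
    simpa using this
  obtain ⟨t, ht⟩ : ∃ t : ℤ, ordInf h (fun z => u (g • z)) = (t : WithTop ℤ) :=
    ⟨_, (WithTop.coe_untop₀_of_ne_top hne).symm⟩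
  have hcusp : ordCusp N g (b : ℍ → ℂ) = (((m : ℤ) * (t * ((N / h : ℕ) : ℤ)) : ℤ) : WithTop ℤ) := by
    unfold ordCusp
    have e : (fun z => (b : ℍ → ℂ) (g • z)) = (fun z => u (g • z)) ^ m := by
      funext z
      rw [hb]
      rfl
    rw [e, ordInf_pow hNpos hFN, ordInf_of_dvd hh hNpos hhN hF, ht, ← WithTop.coe_mul,
      ← WithTop.coe_nsmul, nsmul_eq_mul]
  have hZ : ordCuspZ N g (b : ℍ → ℂ) = (m : ℤ) * (t * ((N / h : ℕ) : ℤ)) := by
    unfold ordCuspZ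
    rw [hcusp]
    rfl
  have h1 := hv (algebraMap (WH (Gamma0 N)) (FF N) b)
  rw [DictInf.v_algebraMap N _ b hb0, DictInf.w_mk, hZ] at h1
  have hpos : 0 < N / h := Nat.div_pos (Nat.le_of_dvd hNpos hhN) hh
  refine ⟨t, ?_⟩
  apply eq_exp_of_pow_eq hpos
  rw [← h1]
  congr 1
  ring

end Inf

section Places

variable {N : ℕ} [NeZero N] {m : ℕ} {u : ℍ → ℂ}

/-- **Places of `Frac (WH Γ₀(N))`**: the order of `u ^ m` is divisible by `m` everywhere. -/
theorem dvd_ord_FF (hm : 0 < m) (hu : MDiff u) (hu0 : u ≠ 0)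
    (hfin : ∀ γ ∈ Gamma0 N, IsOfFinOrder γ → ∀ z : ℍ, u (γ • z) = u z)
    (hpar : ∀ (g : SL(2, ℤ)) (k : ℕ), g * ModularGroup.T ^ k * g⁻¹ ∈ Gamma0 N →
      ∀ z : ℍ, u ((g * ModularGroup.T ^ k * g⁻¹) • z) = u z)
    (hcusp : ∀ 𝔫 : HeightOneSpectrum (Binf N),
      ∃ (g : SL(2, ℤ)) (h : ℕ), 0 < h ∧ h ∣ N ∧ g * ModularGroup.T ^ h * g⁻¹ ∈ Gamma0 N ∧
        ∀ f : FF N, DictInf.v N (QuotientGroup.mk g⁻¹ : SL(2, ℤ) ⧸ Gamma0 N) f =
          𝔫.valuation (FF N) f ^ (N / h))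
    (b : WH (Gamma0 N)) (hb : (b : ℍ → ℂ) = fun z => u z ^ m)
    (v : Place ℂ (FF N)) :
    (m : ℤ) ∣ v.ord (algebraMap (WH (Gamma0 N)) (FF N) b) := by
  by_cases hX : algebraMap ℂ[X] (FF N) X ∈ v.toValuationSubring
  · have hB := S24.PrimeBridge.algebraMap_mem_of_X_mem ℂ (FF N) (WH (Gamma0 N)) v hX
    obtain ⟨t, ht⟩ := exists_valuation_fin hm hu hu0 hfin b hb (S24.PrimeBridge.toPrime v hB)
    rw [S24.PrimeBridge.ord_eq_toPrime v hB, ht, WithZero.log_exp, neg_neg]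
    exact dvd_mul_right _ _
  · have hB := S24.PrimeBridge.algebraMap_mem_of_X_notMem ℂ (FF N) (Binf N) v hX
    obtain ⟨t, ht⟩ := exists_valuation_inf hm hu hu0 hpar b hb (S24.PrimeBridge.toPrime v hB)
      (hcusp _)
    rw [S24.PrimeBridge.ord_eq_toPrime v hB, ht, WithZero.log_exp, neg_neg]
    exact dvd_mul_right _ _

/-- **Places of the formal function field `ℂ(j(q), j(q^N)) ⊆ ℂ((q))`**: the order of the element
whose `q`-expansion is that of `u ^ m` is divisible by `m` everywhere. -/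
theorem dvd_ord_complex (hm : 0 < m) (hu : MDiff u) (hu0 : u ≠ 0)
    (hfin : ∀ γ ∈ Gamma0 N, IsOfFinOrder γ → ∀ z : ℍ, u (γ • z) = u z)
    (hpar : ∀ (g : SL(2, ℤ)) (k : ℕ), g * ModularGroup.T ^ k * g⁻¹ ∈ Gamma0 N →
      ∀ z : ℍ, u ((g * ModularGroup.T ^ k * g⁻¹) • z) = u z)
    (hcusp : ∀ 𝔫 : HeightOneSpectrum (Binf N),
      ∃ (g : SL(2, ℤ)) (h : ℕ), 0 < h ∧ h ∣ N ∧ g * ModularGroup.T ^ h * g⁻¹ ∈ Gamma0 N ∧
        ∀ f : FF N, DictInf.v N (QuotientGroup.mk g⁻¹ : SL(2, ℤ) ⧸ Gamma0 N) f =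
          𝔫.valuation (FF N) f ^ (N / h))
    (hWH : IsWH (Gamma0 N) (fun z => u z ^ m))
    (F : S24.FF ℂ N) (hF : (F : LaurentSeries ℂ) = S24.qLaurentFun (fun z => u z ^ m))
    (w : Place ℂ (S24.FF ℂ N)) : (m : ℤ) ∣ w.ord F := by
  obtain ⟨e, hq, -⟩ := S24.exists_qIso N (FF N)
  set b : WH (Gamma0 N) := ⟨fun z => u z ^ m, hWH⟩ with hbdef
  have hb : (b : ℍ → ℂ) = fun z => u z ^ m := rfl
  have hFe : F = e (algebraMap (WH (Gamma0 N)) (FF N) b) := by
    apply Subtype.ext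
    rw [hF, hq b]
  have hw : w = S24.Transport.mapPlace e (S24.Transport.mapPlace e.symm w) :=
    (S24.Transport.mapPlace_mapPlace_symm e w).symm
  rw [hw, hFe, S24.Transport.mapPlace_ord]
  exact dvd_ord_FF hm hu hu0 hfin hpar hcusp b hb _

end Places

end Fermat.Agent.S29.KummerDiv
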