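import Mathlib
import Fermat.Agent.S29.DictWH
import Fermat.Agent.S29.KummerDiv

/-!
# S29: the strong cusp dictionary in the `HeightOneSpectrum (Binf N)` currency

`exists_cusp_of_prime` is the statement (CUSP-W) consumed by `KummerDiv` (hypothesis `hcusp`);
it is a direct corollary of `DictWH.cusp_places`.  We also record the two `KummerDiv`
theorems with `hcusp` discharged.
-/

set_option autoImplicit false

open UpperHalfPlane hiding I
open ModularForm Polynomial IsDedekindDomain CongruenceSubgroup AlgebraicCurve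
open scoped MatrixGroups Manifold RatFunc WithZero

namespace Fermat.Agent.S29.DictWH

open Fermat.Agent.S20

/-- **(CUSP-W)** every prime of the ring at infinity is the prime of a cusp `g • ∞`, and the
cusp valuation (in `q_N`) is the `(N / h)`-th power of its adic valuation, `h` the width. -/
theorem exists_cusp_of_prime (N : ℕ) [NeZero N] (𝔫 : HeightOneSpectrum (Binf N)) :
    ∃ (g : SL(2, ℤ)) (h : ℕ), 0 < h ∧ h ∣ N ∧ g * ModularGroup.T ^ h * g⁻¹ ∈ Gamma0 N ∧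
      ∀ f : FF N, DictInf.v N (QuotientGroup.mk g⁻¹ : SL(2, ℤ) ⧸ Gamma0 N) f =
        𝔫.valuation (FF N) f ^ (N / h) := by
  obtain ⟨φ, hφ⟩ := cusp_places N
  obtain ⟨q, hq⟩ := φ.surjective ⟨𝔫, DictInf.Xinv_mem N 𝔫⟩
  obtain ⟨x, rfl⟩ := Quotient.exists_rep q
  obtain ⟨-, hval⟩ := hφ x
  rw [hq] at hval
  refine ⟨(Quotient.out x : SL(2, ℤ))⁻¹, cuspWidth N (Quotient.out x : SL(2, ℤ))⁻¹,
    cuspWidth_pos N _, cuspWidth_dvd_level N _, cuspWidth_mem N _, fun f => ?_⟩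
  rw [inv_inv, QuotientGroup.out_eq']
  exact hval f

variable {N : ℕ} [NeZero N] {m : ℕ} {u : ℍ → ℂ}

/-- `KummerDiv.dvd_ord_FF` with the cusp dictionary discharged. -/
theorem kummer_dvd_ord_FF (hm : 0 < m) (hu : MDiff u) (hu0 : u ≠ 0)
    (hfin : ∀ γ ∈ Gamma0 N, IsOfFinOrder γ → ∀ z : ℍ, u (γ • z) = u z)
    (hpar : ∀ (g : SL(2, ℤ)) (k : ℕ), g * ModularGroup.T ^ k * g⁻¹ ∈ Gamma0 N →
      ∀ z : ℍ, u ((g * ModularGroup.T ^ k * g⁻¹) • z) = u z)
    (b : WH (Gamma0 N)) (hb : (b : ℍ → ℂ) = fun z => u z ^ m)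
    (v : Place ℂ (FF N)) :
    (m : ℤ) ∣ v.ord (algebraMap (WH (Gamma0 N)) (FF N) b) :=
  KummerDiv.dvd_ord_FF hm hu hu0 hfin hpar (exists_cusp_of_prime N) b hb v

/-- `KummerDiv.dvd_ord_complex` with the cusp dictionary discharged. -/
theorem kummer_dvd_ord_complex (hm : 0 < m) (hu : MDiff u) (hu0 : u ≠ 0)
    (hfin : ∀ γ ∈ Gamma0 N, IsOfFinOrder γ → ∀ z : ℍ, u (γ • z) = u z)
    (hpar : ∀ (g : SL(2, ℤ)) (k : ℕ), g * ModularGroup.T ^ k * g⁻¹ ∈ Gamma0 N →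
      ∀ z : ℍ, u ((g * ModularGroup.T ^ k * g⁻¹) • z) = u z)
    (hWH : IsWH (Gamma0 N) (fun z => u z ^ m))
    (F : S24.FF ℂ N) (hF : (F : LaurentSeries ℂ) = S24.qLaurentFun (fun z => u z ^ m))
    (w : Place ℂ (S24.FF ℂ N)) : (m : ℤ) ∣ w.ord F :=
  KummerDiv.dvd_ord_complex hm hu hu0 hfin hpar (exists_cusp_of_prime N) hWH F hF w

end Fermat.Agent.S29.DictWH
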