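import Mathlib
import Fermat.Prelude.Def_AlgebraicCurve_BaseChangeGalois
import Fermat.Prelude.Def_ModularCurve_ArithmeticGalois

/-!
# Root classes: the class of `(1/m) div f` in `Pic0`

Pure divisor calculus on the prelude's `Place / Divisor / Pic0` API, for a function field `F / K`
with `HasPrincipalDivisors K F`.

* `divOf f` : the divisor of `f` (zero for `f = 0`), `divOf_apply`, `degree_divOf`, `divOf_mul`, ...
* `rootDiv m f` : the divisor `v ↦ v.ord f / m`;
* `rootClass m f : Pic0 K F` : its class (meaningful when `f ≠ 0` and `m ∣ v.ord f` for all `v`);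
* `nsmul_rootClass`, `rootClass_mul`, `rootClass_pow_self`, `rootClass_eq_zero_iff`,
  `rootClass_eq_mk_of`, `nsmul_rootClass_mul_level`, `smul_rootClass` (semilinear transport).
-/

set_option autoImplicit false
set_option linter.unusedSectionVars false

open AlgebraicCurve

namespace Fermat.Agent.S29.RootClass

variable {K F : Type*} [Field K] [Field F] [Algebra K F]

section Basic

variable [HasPrincipalDivisors K F]

variable (K) in
/-- The divisor of a function (zero for `f = 0`). -/
noncomputable def divOf (f : F) : Divisor K F :=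
  open Classical in
  if hf : f ≠ 0 then (HasPrincipalDivisors.exists_divisor (K := K) f hf).choose else 0

theorem divOf_apply {f : F} (hf : f ≠ 0) (v : Place K F) : divOf K f v = v.ord f := by
  unfold divOf
  rw [dif_pos hf]
  exact (HasPrincipalDivisors.exists_divisor (K := K) f hf).choose_spec.1 v

variable (K) in
theorem divOf_zero : divOf K (0 : F) = 0 := by
  unfold divOf
  rw [dif_neg (by simp)]

variable (K) in
theorem degree_divOf (f : F) : Divisor.degree (divOf K f) = 0 := by
  by_cases hf : f ≠ 0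
  · unfold divOf
    rw [dif_pos hf]
    exact (HasPrincipalDivisors.exists_divisor (K := K) f hf).choose_spec.2
  · rw [not_not] at hf
    rw [hf, divOf_zero, map_zero]

theorem divOf_apply_eq (f : F) (v : Place K F) : divOf K f v = v.ord f := by
  by_cases hf : f = 0
  · rw [hf, divOf_zero, Place.ord_zero]; rfl
  · exact divOf_apply hf v

theorem eq_divOf {f : F} {D : Divisor K F} (h : ∀ v, D v = v.ord f) : D = divOf K f :=
  Finsupp.ext fun v => by rw [h v, divOf_apply_eq]

theorem divOf_mul {f g : F} (hf : f ≠ 0) (hg : g ≠ 0) :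
    divOf K (f * g) = divOf K f + divOf K g :=
  (eq_divOf (fun v => by
    rw [Finsupp.add_apply, divOf_apply_eq, divOf_apply_eq, v.ord_mul hf hg])).symm

variable (K) in
theorem divOf_one : divOf K (1 : F) = 0 :=
  (eq_divOf (fun v => by rw [Place.ord_one]; rfl)).symm

variable (K) in
theorem divOf_inv (f : F) : divOf K f⁻¹ = -divOf K f :=
  (eq_divOf (fun v => by rw [Finsupp.neg_apply, divOf_apply_eq, v.ord_inv])).symm

variable (K) in
theorem divOf_pow (f : F) (n : ℕ) : divOf K (f ^ n) = n • divOf K f :=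
  (eq_divOf (fun v => by
    rw [Finsupp.smul_apply, divOf_apply_eq, ← zpow_natCast, v.ord_zpow, nsmul_eq_mul])).symm

theorem divOf_mem_principal {f : F} (hf : f ≠ 0) :
    divOf K f ∈ Divisor.principal (K := K) (F := F) :=
  ⟨f, hf, fun v => divOf_apply hf v⟩

theorem mem_principal_iff_eq_divOf {D : Divisor K F} :
    D ∈ Divisor.principal (K := K) (F := F) ↔ ∃ h : F, h ≠ 0 ∧ D = divOf K h :=
  ⟨fun ⟨h, hh, hD⟩ => ⟨h, hh, eq_divOf hD⟩,
    fun ⟨_, hh, hD⟩ => hD ▸ divOf_mem_principal hh⟩

/-! ### The root divisor -/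

variable (K) in
/-- The divisor `v ↦ v.ord f / m`. -/
noncomputable def rootDiv (m : ℕ) (f : F) : Divisor K F :=
  (divOf K f).mapRange (fun n : ℤ => n / (m : ℤ)) (Int.zero_ediv _)

theorem rootDiv_apply (m : ℕ) (f : F) (v : Place K F) :
    rootDiv K m f v = v.ord f / (m : ℤ) := by
  unfold rootDiv
  rw [Finsupp.mapRange_apply, divOf_apply_eq]

/-- The hypothesis under which the root class is meaningful. -/
def IsDivisible (K : Type*) {F : Type*} [Field K] [Field F] [Algebra K F] (m : ℕ) (f : F) :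
    Prop :=
  f ≠ 0 ∧ ∀ v : Place K F, (m : ℤ) ∣ v.ord f

theorem IsDivisible.mul {m : ℕ} {f g : F} (hf : IsDivisible K m f) (hg : IsDivisible K m g) :
    IsDivisible K m (f * g) :=
  ⟨mul_ne_zero hf.1 hg.1, fun v => by
    rw [v.ord_mul hf.1 hg.1]; exact dvd_add (hf.2 v) (hg.2 v)⟩

theorem IsDivisible.inv {m : ℕ} {f : F} (hf : IsDivisible K m f) : IsDivisible K m f⁻¹ :=
  ⟨inv_ne_zero hf.1, fun v => by rw [v.ord_inv]; exact (dvd_neg).mpr (hf.2 v)⟩

theorem isDivisible_pow_self (m : ℕ) {h : F} (hh : h ≠ 0) : IsDivisible K m (h ^ m) :=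
  ⟨pow_ne_zero m hh, fun v => by
    rw [← zpow_natCast, v.ord_zpow]; exact dvd_mul_right _ _⟩

theorem isDivisible_of_ord_eq_zero (m : ℕ) {c : F} (hc : c ≠ 0)
    (h0 : ∀ v : Place K F, v.ord c = 0) : IsDivisible K m c :=
  ⟨hc, fun v => by rw [h0 v]; exact dvd_zero _⟩

theorem IsDivisible.of_mul_level {m d : ℕ} {f : F} (hf : IsDivisible K (m * d) f) :
    IsDivisible K m f :=
  ⟨hf.1, fun v => dvd_trans (⟨(d : ℤ), by push_cast; ring⟩ : (m : ℤ) ∣ ((m * d : ℕ) : ℤ)) (hf.2 v)⟩

theorem zsmul_rootDiv {m : ℕ} {f : F} (hf : IsDivisible K m f) :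
    (m : ℤ) • rootDiv K m f = divOf K f :=
  Finsupp.ext fun v => by
    rw [Finsupp.smul_apply, rootDiv_apply, divOf_apply_eq, smul_eq_mul,
      Int.mul_ediv_cancel' (hf.2 v)]

theorem degree_rootDiv {m : ℕ} (hm : 0 < m) {f : F} (hf : IsDivisible K m f) :
    Divisor.degree (rootDiv K m f) = 0 := by
  have h := congrArg Divisor.degree (zsmul_rootDiv hf)
  rw [map_zsmul, degree_divOf, smul_eq_mul] at h
  rcases mul_eq_zero.mp h with h | h
  · exact absurd (by exact_mod_cast h : m = 0) hm.ne'
  · exact h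

/-- Any divisor `D` with `m • D = div f` is the root divisor. -/
theorem eq_rootDiv {m : ℕ} (hm : 0 < m) {f : F} {D : Divisor K F}
    (hD : ∀ v, (m : ℤ) * D v = v.ord f) : D = rootDiv K m f :=
  Finsupp.ext fun v => by
    rw [rootDiv_apply, ← hD v, Int.mul_ediv_cancel_left _ (by exact_mod_cast hm.ne')]

theorem rootDiv_mul {m : ℕ} {f g : F} (hf : IsDivisible K m f) (hg : IsDivisible K m g) :
    rootDiv K m (f * g) = rootDiv K m f + rootDiv K m g :=
  Finsupp.ext fun v => by
    rw [Finsupp.add_apply, rootDiv_apply, rootDiv_apply, rootDiv_apply, v.ord_mul hf.1 hg.1,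
      Int.add_ediv_of_dvd_left (hf.2 v)]

theorem rootDiv_pow_self {m : ℕ} (hm : 0 < m) (h : F) : rootDiv K m (h ^ m) = divOf K h :=
  (eq_rootDiv hm (fun v => by
    rw [divOf_apply_eq, ← zpow_natCast, v.ord_zpow])).symm

/-! ### The root class -/

variable (K) in
/-- The class of `(1/m) div f` in `Pic0` (zero if the root divisor does not have degree zero). -/
noncomputable def rootClass (m : ℕ) (f : F) : Pic0 K F :=
  open Classical in
  if h : Divisor.degree (rootDiv K m f) = 0 then Pic0.mk ⟨rootDiv K m f, h⟩ else 0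

theorem rootClass_eq_mk {m : ℕ} (hm : 0 < m) {f : F} (hf : IsDivisible K m f) :
    rootClass K m f = Pic0.mk ⟨rootDiv K m f, degree_rootDiv hm hf⟩ := by
  unfold rootClass
  rw [dif_pos (degree_rootDiv hm hf)]

/-- Any degree-zero divisor `D` with `m • D = div f` represents the root class. -/
theorem rootClass_eq_mk_of {m : ℕ} (hm : 0 < m) {f : F} (hf : f ≠ 0)
    (D : Divisor.degZero (K := K) (F := F))
    (hD : ∀ v, (m : ℤ) * (D : Divisor K F) v = v.ord f) :
    rootClass K m f = Pic0.mk D := by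
  have hdiv : IsDivisible K m f := ⟨hf, fun v => ⟨_, (hD v).symm⟩⟩
  rw [rootClass_eq_mk hm hdiv]
  exact congrArg Pic0.mk (Subtype.ext (eq_rootDiv hm hD).symm)

theorem rootClass_spec {m : ℕ} (hm : 0 < m) {f : F} (hf : IsDivisible K m f) :
    ∃ D : Divisor.degZero (K := K) (F := F), rootClass K m f = Pic0.mk D ∧
      ∀ v, (m : ℤ) * (D : Divisor K F) v = v.ord f :=
  ⟨⟨rootDiv K m f, degree_rootDiv hm hf⟩, rootClass_eq_mk hm hf, fun v => by
    have h := congrArg (fun D : Divisor K F => D v) (zsmul_rootDiv hf)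
    simpa [divOf_apply_eq] using h⟩

theorem mk_eq_zero_iff (D : Divisor.degZero (K := K) (F := F)) :
    Pic0.mk D = 0 ↔ (D : Divisor K F) ∈ Divisor.principal (K := K) (F := F) := by
  unfold Pic0.mk
  rw [QuotientAddGroup.eq_zero_iff, AddSubgroup.mem_addSubgroupOf]

theorem mk_eq_mk_iff (D E : Divisor.degZero (K := K) (F := F)) :
    Pic0.mk D = Pic0.mk E ↔
      (D : Divisor K F) - (E : Divisor K F) ∈ Divisor.principal (K := K) (F := F) := by
  rw [← sub_eq_zero, show Pic0.mk D - Pic0.mk E = Pic0.mk (D - E) from rfl, mk_eq_zero_iff]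
  rfl

/-- The root class is `m`-torsion. -/
theorem nsmul_rootClass {m : ℕ} (hm : 0 < m) {f : F} (hf : IsDivisible K m f) :
    m • rootClass K m f = 0 := by
  rw [rootClass_eq_mk hm hf]
  have e : m • Pic0.mk (⟨rootDiv K m f, degree_rootDiv hm hf⟩ : Divisor.degZero (K := K) (F := F))
      = Pic0.mk (m • ⟨rootDiv K m f, degree_rootDiv hm hf⟩) := rfl
  rw [e, mk_eq_zero_iff]
  have e2 : ((m • (⟨rootDiv K m f, degree_rootDiv hm hf⟩ : Divisor.degZero (K := K) (F := F)) :
      Divisor.degZero (K := K) (F := F)) : Divisor K F) = divOf K f := by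
    rw [AddSubgroup.coe_nsmul, ← zsmul_rootDiv hf, natCast_zsmul]
  rw [e2]
  exact divOf_mem_principal hf.1

theorem zsmul_rootClass {m : ℕ} (hm : 0 < m) {f : F} (hf : IsDivisible K m f) :
    (m : ℤ) • rootClass K m f = 0 := by
  rw [natCast_zsmul]; exact nsmul_rootClass hm hf

theorem rootClass_mem_torsion {m : ℕ} (hm : 0 < m) {f : F} (hf : IsDivisible K m f) :
    rootClass K m f ∈ Pic0.torsion K F m :=
  Pic0.mem_torsion.mpr (zsmul_rootClass hm hf)

/-- Multiplicativity. -/
theorem rootClass_mul {m : ℕ} (hm : 0 < m) {f g : F} (hf : IsDivisible K m f)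
    (hg : IsDivisible K m g) :
    rootClass K m (f * g) = rootClass K m f + rootClass K m g := by
  rw [rootClass_eq_mk hm hf, rootClass_eq_mk hm hg, rootClass_eq_mk hm (hf.mul hg), ← Pic0.mk_add]
  exact congrArg Pic0.mk (Subtype.ext (rootDiv_mul hf hg))

/-- `m`-th powers have trivial root class. -/
theorem rootClass_pow_self {m : ℕ} (hm : 0 < m) {h : F} (hh : h ≠ 0) :
    rootClass K m (h ^ m) = 0 := by
  rw [rootClass_eq_mk hm (isDivisible_pow_self m hh), mk_eq_zero_iff]
  show rootDiv K m (h ^ m) ∈ _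
  rw [rootDiv_pow_self hm]
  exact divOf_mem_principal hh

/-- The root class vanishes iff `div f = m • div h` for some `h`. -/
theorem rootClass_eq_zero_iff {m : ℕ} (hm : 0 < m) {f : F} (hf : IsDivisible K m f) :
    rootClass K m f = 0 ↔ ∃ h : F, h ≠ 0 ∧ ∀ v : Place K F, v.ord f = (m : ℤ) * v.ord h := by
  rw [rootClass_eq_mk hm hf, mk_eq_zero_iff]
  show rootDiv K m f ∈ _ ↔ _
  constructor
  · rintro ⟨h, hh, hD⟩
    refine ⟨h, hh, fun v => ?_⟩
    rw [← hD v, rootDiv_apply, Int.mul_ediv_cancel' (hf.2 v)]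
  · rintro ⟨h, hh, hD⟩
    refine ⟨h, hh, fun v => ?_⟩
    rw [rootDiv_apply, hD v, Int.mul_ediv_cancel_left _ (by exact_mod_cast hm.ne')]

/-- Functions with trivial divisor have trivial root class. -/
theorem rootClass_of_ord_eq_zero {m : ℕ} (hm : 0 < m) {c : F} (hc : c ≠ 0)
    (h0 : ∀ v : Place K F, v.ord c = 0) : rootClass K m c = 0 :=
  (rootClass_eq_zero_iff hm (isDivisible_of_ord_eq_zero m hc h0)).mpr
    ⟨1, one_ne_zero, fun v => by rw [h0 v, Place.ord_one, mul_zero]⟩

/-- The root class only depends on `f` up to functions with trivial divisor and `m`-th powers. -/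
theorem rootClass_mul_pow {m : ℕ} (hm : 0 < m) {f c h : F} (hf : IsDivisible K m f) (hc : c ≠ 0)
    (h0 : ∀ v : Place K F, v.ord c = 0) (hh : h ≠ 0) :
    rootClass K m (c * h ^ m * f) = rootClass K m f := by
  have hc' := isDivisible_of_ord_eq_zero (K := K) m hc h0
  have hh' := isDivisible_pow_self (K := K) m hh
  rw [rootClass_mul hm (hc'.mul hh') hf, rootClass_mul hm hc' hh',
    rootClass_of_ord_eq_zero hm hc h0, rootClass_pow_self hm hh, zero_add, zero_add]

theorem rootClass_inv {m : ℕ} (hm : 0 < m) {f : F} (hf : IsDivisible K m f) :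
    rootClass K m f⁻¹ = -rootClass K m f := by
  have h := rootClass_mul hm hf hf.inv
  rw [mul_inv_cancel₀ hf.1,
    rootClass_of_ord_eq_zero hm one_ne_zero (fun v => Place.ord_one v)] at h
  exact (neg_eq_of_add_eq_zero_right h.symm).symm

/-- Two divisible functions have the same root class iff their quotient is an `m`-th power up to
a function with trivial divisor. -/
theorem rootClass_eq_iff {m : ℕ} (hm : 0 < m) {f g : F} (hf : IsDivisible K m f)
    (hg : IsDivisible K m g) :
    rootClass K m f = rootClass K m g ↔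
      ∃ h : F, h ≠ 0 ∧ ∀ v : Place K F, v.ord f - v.ord g = (m : ℤ) * v.ord h := by
  rw [← sub_eq_zero, sub_eq_add_neg, ← rootClass_inv hm hg, ← rootClass_mul hm hf hg.inv,
    rootClass_eq_zero_iff hm (hf.mul hg.inv)]
  refine exists_congr fun h => and_congr_right fun _ => forall_congr' fun v => ?_
  rw [v.ord_mul hf.1 (inv_ne_zero hg.1), v.ord_inv, sub_eq_add_neg]

/-- Compatibility in the level: `d • rootClass (m * d) f = rootClass m f`. -/
theorem nsmul_rootClass_mul_level {m d : ℕ} (hm : 0 < m) (hd : 0 < d) {f : F}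
    (hf : IsDivisible K (m * d) f) :
    d • rootClass K (m * d) f = rootClass K m f := by
  have hmd : 0 < m * d := Nat.mul_pos hm hd
  rw [rootClass_eq_mk hmd hf]
  symm
  apply rootClass_eq_mk_of hm hf.1
  intro v
  have h := congrArg (fun D : Divisor K F => D v) (zsmul_rootDiv hf)
  simp only [Finsupp.smul_apply, smul_eq_mul, divOf_apply_eq] at h
  rw [← h]
  show (m : ℤ) * ((d • (⟨rootDiv K (m * d) f, _⟩ : Divisor.degZero (K := K) (F := F)) :
      Divisor.degZero (K := K) (F := F)) : Divisor K F) v = _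
  rw [AddSubgroup.coe_nsmul, Finsupp.smul_apply, nsmul_eq_mul]
  push_cast
  ring

/-! ### Semilinear transport -/

theorem smul_divOf (g : SemilinearAut K F) (f : F) : g • divOf K f = divOf K (g • f) :=
  eq_divOf fun w => by
    rw [SemilinearAut.divisor_smul_apply, divOf_apply_eq]
    have h := SemilinearAut.ord_smul g (g⁻¹ • w) f
    rw [smul_inv_smul] at h
    exact h.symm

theorem IsDivisible.smul (g : SemilinearAut K F) {m : ℕ} {f : F} (hf : IsDivisible K m f) :
    IsDivisible K m (g • f) :=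
  ⟨by simpa using hf.1, fun w => by
    have h := SemilinearAut.ord_smul g (g⁻¹ • w) f
    rw [smul_inv_smul] at h
    rw [h]; exact hf.2 _⟩

theorem smul_rootDiv (g : SemilinearAut K F) (m : ℕ) (f : F) :
    g • rootDiv K m f = rootDiv K m (g • f) :=
  Finsupp.ext fun w => by
    rw [SemilinearAut.divisor_smul_apply, rootDiv_apply, rootDiv_apply]
    have h := SemilinearAut.ord_smul g (g⁻¹ • w) f
    rw [smul_inv_smul] at h
    rw [h]

/-- Semilinear automorphisms transport root classes. -/
theorem smul_rootClass (g : SemilinearAut K F) {m : ℕ} (hm : 0 < m) {f : F}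
    (hf : IsDivisible K m f) :
    g • rootClass K m f = rootClass K m (g • f) := by
  rw [rootClass_eq_mk hm hf, rootClass_eq_mk hm (hf.smul g), SemilinearAut.pic0_smul_mk]
  exact congrArg Pic0.mk (Subtype.ext (smul_rootDiv g m f))

end Basic

/-! ### The arithmetic Galois action on function fields of `q`-expansion type -/

section Galois

open ModularCurve

variable {L : Type*} [Field L] [Algebra ℚ L] (F₀ : IntermediateField ℚ (LaurentSeries ℚ))
  [HasPrincipalDivisors L (laurentBaseChange L F₀)]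

/-- The Galois action of the prelude on `Pic0` transports root classes: `σ • [(1/m) div f]` is
the root class of the coefficientwise conjugate of `f`. -/
theorem galois_smul_rootClass (σ : L ≃ₐ[ℚ] L) {m : ℕ} (hm : 0 < m)
    {f : laurentBaseChange L F₀} (hf : IsDivisible L m f) :
    σ • rootClass L m f = rootClass L m (arithmeticGalois F₀ σ • f) := by
  rw [galois_smul_pic0_def]
  exact smul_rootClass (arithmeticGalois F₀ σ) hm hf

theorem galois_isDivisible (σ : L ≃ₐ[ℚ] L) {m : ℕ}
    {f : laurentBaseChange L F₀} (hf : IsDivisible L m f) :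
    IsDivisible L m (arithmeticGalois F₀ σ • f) :=
  hf.smul _

end Galois

end Fermat.Agent.S29.RootClass
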