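import Mathlib
import Fermat.Agent.S20.LevelOneBasic

/-!
# S29 (wave 5), package K2: twisted Eisenstein series

For a character `χ : Γ₀(N) →* ℂˣ` of finite order, trivial on `T` and on `-1`, the weight-12 series
`E_χ(z) = ∑ χ(γ)⁻¹ (c z + d)^(-12)` over the bottom rows `(c, d)` of `Γ₀(N)` is holomorphic,
satisfies `E_χ(γ z) = χ(γ) (c z + d)^12 E_χ(z)`, is bounded at every cusp and tends to `2` along
the imaginary axis.  Hence `u := E_χ / Δ` is a nonzero holomorphic function on `ℍ` with multiplier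
`χ`, and `u ^ m` is weakly holomorphic of level `Γ₀(N)` when `χ ^ m = 1`
(`exists_multiplier_function`).
-/

set_option autoImplicit false

open UpperHalfPlane ModularForm EisensteinSeries Matrix CongruenceSubgroup Filter Complex
open scoped MatrixGroups Manifold Topology
open Topology

namespace Fermat.Agent.S29.TwistedEis

open Fermat.Agent.S20

/-! ## Weighted Eisenstein sums over the full lattice -/

section general

variable (c : (Fin 2 → ℤ) → ℂ) (k : ℤ)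

/-- The weighted Eisenstein sum `∑ c(x) (x₀ z + x₁)^(-k)` over the full lattice. -/
noncomputable def wSum (z : ℍ) : ℂ := ∑' x : Fin 2 → ℤ, c x * eisSummand k x z

/-- The full sum of norms. -/
noncomputable def normSum (z : ℍ) : ℝ := ∑' x : Fin 2 → ℤ, ‖eisSummand k x z‖

variable {c k}

theorem norm_term_le (hc : ∀ x, ‖c x‖ ≤ 1) (x : Fin 2 → ℤ) (z : ℍ) :
    ‖c x * eisSummand k x z‖ ≤ ‖eisSummand k x z‖ := by
  rw [norm_mul]
  exact mul_le_of_le_one_left (norm_nonneg _) (hc x)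

theorem summable_norm_term (hc : ∀ x, ‖c x‖ ≤ 1) (hk : 3 ≤ k) (z : ℍ) :
    Summable fun x : Fin 2 → ℤ => ‖c x * eisSummand k x z‖ :=
  (summable_norm_eisSummand hk z).of_nonneg_of_le (fun _ => norm_nonneg _)
    (fun x => norm_term_le hc x z)

theorem summable_term (hc : ∀ x, ‖c x‖ ≤ 1) (hk : 3 ≤ k) (z : ℍ) :
    Summable fun x : Fin 2 → ℤ => c x * eisSummand k x z :=
  (summable_norm_term hc hk z).of_norm

theorem norm_wSum_le (hc : ∀ x, ‖c x‖ ≤ 1) (hk : 3 ≤ k) (z : ℍ) :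
    ‖wSum c k z‖ ≤ normSum k z := by
  refine (norm_tsum_le_tsum_norm (summable_norm_term hc hk z)).trans ?_
  exact (summable_norm_term hc hk z).tsum_le_tsum (fun x => norm_term_le hc x z)
    (summable_norm_eisSummand hk z)

/-- Right multiplication by `g ∈ SL(2, ℤ)` as a permutation of the lattice. -/
def vecMulEquiv (g : SL(2, ℤ)) : (Fin 2 → ℤ) ≃ (Fin 2 → ℤ) where
  toFun x := x ᵥ* (g : Matrix (Fin 2) (Fin 2) ℤ)
  invFun x := x ᵥ* ((g⁻¹ : SL(2, ℤ)) : Matrix (Fin 2) (Fin 2) ℤ)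
  left_inv x := by
    show x ᵥ* (g : Matrix (Fin 2) (Fin 2) ℤ) ᵥ* ((g⁻¹ : SL(2, ℤ)) : Matrix (Fin 2) (Fin 2) ℤ) = x
    rw [vecMul_vecMul, ← Matrix.SpecialLinearGroup.coe_mul, mul_inv_cancel,
      Matrix.SpecialLinearGroup.coe_one, vecMul_one]
  right_inv x := by
    show x ᵥ* ((g⁻¹ : SL(2, ℤ)) : Matrix (Fin 2) (Fin 2) ℤ) ᵥ* (g : Matrix (Fin 2) (Fin 2) ℤ) = x
    rw [vecMul_vecMul, ← Matrix.SpecialLinearGroup.coe_mul, inv_mul_cancel,
      Matrix.SpecialLinearGroup.coe_one, vecMul_one]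

@[simp] theorem vecMulEquiv_apply (g : SL(2, ℤ)) (x : Fin 2 → ℤ) : vecMulEquiv g x = x ᵥ* g := rfl

/-- The transformation of a weighted sum under `g ∈ SL(2, ℤ)`. -/
theorem wSum_smul (g : SL(2, ℤ)) (z : ℍ) :
    wSum c k (g • z) = denom g z ^ k * ∑' x : Fin 2 → ℤ, c x * eisSummand k (x ᵥ* g) z := by
  unfold wSum
  rw [← tsum_mul_left]
  refine tsum_congr fun x => ?_
  rw [eisSummand_SL2_apply]
  ring

theorem normSum_smul (g : SL(2, ℤ)) (z : ℍ) :
    ∑' x : Fin 2 → ℤ, ‖eisSummand k (x ᵥ* g) z‖ = normSum k z :=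
  (vecMulEquiv g).tsum_eq (fun x => ‖eisSummand k x z‖)

/-- The slashed weighted sum is bounded by the full sum of norms. -/
theorem norm_slash_le (hc : ∀ x, ‖c x‖ ≤ 1) (hk : 3 ≤ k) (g : SL(2, ℤ)) (z : ℍ) :
    ‖∑' x : Fin 2 → ℤ, c x * eisSummand k (x ᵥ* g) z‖ ≤ normSum k z := by
  have hs : Summable fun x : Fin 2 → ℤ => ‖eisSummand k (x ᵥ* g) z‖ :=
    (vecMulEquiv g).summable_iff.mpr (summable_norm_eisSummand hk z)
  have hs' : Summable fun x : Fin 2 → ℤ => ‖c x * eisSummand k (x ᵥ* g) z‖ :=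
    hs.of_nonneg_of_le (fun _ => norm_nonneg _) (fun x => by
      rw [norm_mul]; exact mul_le_of_le_one_left (norm_nonneg _) (hc x))
  refine (norm_tsum_le_tsum_norm hs').trans ?_
  rw [← normSum_smul g z]
  exact hs'.tsum_le_tsum (fun x => by
    rw [norm_mul]; exact mul_le_of_le_one_left (norm_nonneg _) (hc x)) hs

/-- The full sum of norms is `1`-periodic. -/
theorem normSum_T_zpow (n : ℤ) (z : ℍ) : normSum k (ModularGroup.T ^ n • z) = normSum k z := by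
  have h1 : ∀ x : Fin 2 → ℤ, ‖eisSummand k x (ModularGroup.T ^ n • z)‖ =
      ‖eisSummand k (x ᵥ* (ModularGroup.T ^ n : SL(2, ℤ))) z‖ := by
    intro x
    rw [eisSummand_SL2_apply]
    have hd : denom (ModularGroup.T ^ n : SL(2, ℤ)) z = 1 := by
      rw [ModularGroup.denom_apply, ModularGroup.coe_T_zpow]
      simp
    rw [hd, _root_.one_zpow, one_mul]
  unfold normSum
  rw [tsum_congr h1]
  exact normSum_smul (ModularGroup.T ^ n) z

/-- The full sum of norms is bounded at `i∞`. -/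
theorem exists_normSum_le (hk : 3 ≤ k) : ∃ M : ℝ, ∀ z : ℍ, 2 ≤ z.im → normSum k z ≤ M := by
  have hk' : (2 : ℝ) < k := by norm_cast
  refine ⟨∑' (x : Fin 2 → ℤ), r ⟨⟨1, 2⟩, Nat.ofNat_pos⟩ ^ (-k) * ‖x‖ ^ (-k), fun z hz => ?_⟩
  obtain ⟨n, hn⟩ := ModularGroup_T_zpow_mem_verticalStrip z (N := 1) Nat.one_pos
  simp only [Nat.cast_one, one_mul] at hn
  rw [← normSum_T_zpow (k := k) n z]
  apply (summable_norm_eisSummand hk _).tsum_le_tsum _
  · exact_mod_cast (summable_one_div_norm_rpow hk').mul_left <| r ⟨⟨1, 2⟩, Nat.ofNat_pos⟩ ^ (-k)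
  · intro x
    simp_rw [eisSummand, norm_zpow]
    exact_mod_cast
      summand_bound_of_mem_verticalStrip (lt_trans two_pos hk').le x two_pos
      (verticalStrip_anti_right 1 hz hn)

/-- The slash of a weighted sum is bounded at `i∞`. -/
theorem isBoundedAtImInfty_slash (hc : ∀ x, ‖c x‖ ≤ 1) (hk : 3 ≤ k) (g : SL(2, ℤ)) :
    IsBoundedAtImInfty (fun z : ℍ => wSum c k (g • z) * denom g z ^ (-k)) := by
  rw [UpperHalfPlane.isBoundedAtImInfty_iff]
  obtain ⟨M, hM⟩ := exists_normSum_le hk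
  refine ⟨M, 2, fun z hz => ?_⟩
  have h1 : wSum c k (g • z) * denom g z ^ (-k) =
      ∑' x : Fin 2 → ℤ, c x * eisSummand k (x ᵥ* g) z := by
    rw [wSum_smul, mul_comm, ← mul_assoc, ← zpow_add₀ (denom_ne_zero g z), neg_add_cancel,
      zpow_zero, one_mul]
  rw [h1]
  exact (norm_slash_le hc hk g z).trans (hM z hz)

/-- Locally uniform convergence of the weighted sum. -/
theorem wSum_tendstoLocallyUniformly (hc : ∀ x, ‖c x‖ ≤ 1) (hk : 3 ≤ k) :
    TendstoLocallyUniformly (fun (s : Finset (Fin 2 → ℤ)) ↦ (∑ x ∈ s, c x * eisSummand k x ·))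
      (wSum c k ·) Filter.atTop := by
  have hk' : (2 : ℝ) < k := by norm_cast
  have p_sum : Summable fun x : Fin 2 → ℤ ↦ ‖x‖ ^ (-k) :=
    mod_cast (summable_one_div_norm_rpow hk')
  simp only [tendstoLocallyUniformly_iff_forall_isCompact, wSum]
  intro K hK
  obtain ⟨A, B, hB, HABK⟩ := subset_verticalStrip_of_isCompact hK
  refine (tendstoUniformlyOn_tsum (hu := p_sum.mul_left <| r ⟨⟨A, B⟩, hB⟩ ^ (-k : ℝ))
    (fun p z hz ↦ ?_)).mono HABK
  refine (norm_term_le hc p z).trans ?_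
  simpa only [eisSummand, one_div, ← _root_.zpow_neg, norm_zpow, ← Real.rpow_intCast,
    Int.cast_neg] using summand_bound_of_mem_verticalStrip (by positivity) p hB hz

theorem wSum_tendstoLocallyUniformlyOn (hc : ∀ x, ‖c x‖ ≤ 1) (hk : 3 ≤ k) :
    TendstoLocallyUniformlyOn (fun (s : Finset (Fin 2 → ℤ)) ↦
      ((fun (z : ℍ) ↦ ∑ x ∈ s, c x * eisSummand k x z) ∘ ofComplex)) ((wSum c k) ∘ ofComplex)
          Filter.atTop {z : ℂ | 0 < z.im} := by
  rw [← upperHalfPlaneSet, ← range_coe, ← Set.image_univ]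
  apply TendstoLocallyUniformlyOn.comp (s := ⊤) _ _ _ (OpenPartialHomeomorph.continuousOn_symm _)
  · simp only [Set.top_eq_univ, tendstoLocallyUniformlyOn_univ]
    exact wSum_tendstoLocallyUniformly hc hk
  · simp only [IsOpenEmbedding.toOpenPartialHomeomorph_target, Set.top_eq_univ,
      Set.mapsTo_range_iff, Set.mem_univ, forall_const]

/-- Weighted Eisenstein sums are holomorphic. -/
theorem mdiff_wSum (hc : ∀ x, ‖c x‖ ≤ 1) (hk : 3 ≤ k) : MDiff (wSum c k) := by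
  intro τ
  suffices DifferentiableAt ℂ ((wSum c k) ∘ ofComplex) τ.1 by
    convert!
      MDifferentiableAt.comp τ (DifferentiableAt.mdifferentiableAt this) τ.mdifferentiable_coe
    exact funext fun z ↦ (comp_ofComplex (wSum c k) z).symm
  refine DifferentiableOn.differentiableAt ?_ (isOpen_upperHalfPlaneSet.mem_nhds τ.2)
  refine (wSum_tendstoLocallyUniformlyOn hc hk).differentiableOn
    (Eventually.of_forall fun s ↦ ?_) isOpen_upperHalfPlaneSet
  have h : ((fun (z : ℍ) ↦ ∑ x ∈ s, c x * eisSummand k x z) ∘ ofComplex) =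
      fun w : ℂ => ∑ x ∈ s, c x * ((eisSummand k x) ∘ ofComplex) w := by
    funext w
    simp only [Function.comp_apply]
  rw [h]
  exact DifferentiableOn.fun_sum fun x _ ↦
    (eisSummand_extension_differentiableOn k x).const_mul (c x)

end general

/-! ## Bottom rows of `Γ₀(N)` -/

section rows

/-- Two elements of `SL(2, ℤ)` with the same bottom row differ by a power of `T` on the left. -/
theorem exists_T_zpow_mul (g g' : SL(2, ℤ)) (h : g 1 = g' 1) :
    ∃ n : ℤ, g' = ModularGroup.T ^ n * g := by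
  have h0 : g 1 0 = g' 1 0 := congrFun h 0
  have h1 : g 1 1 = g' 1 1 := congrFun h 1
  have hd := Matrix.SpecialLinearGroup.det_coe g
  have hd' := Matrix.SpecialLinearGroup.det_coe g'
  rw [Matrix.det_fin_two] at hd hd'
  refine ⟨g' 0 1 * g 0 0 - g' 0 0 * g 0 1, ?_⟩
  ext i j
  show g' i j = ((ModularGroup.T ^ (g' 0 1 * g 0 0 - g' 0 0 * g 0 1) * g : SL(2, ℤ)) :
    Matrix (Fin 2) (Fin 2) ℤ) i j
  rw [Matrix.SpecialLinearGroup.coe_mul, ModularGroup.coe_T_zpow, Matrix.mul_apply,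
    Fin.sum_univ_two]
  fin_cases i <;> fin_cases j
  · simp only [Fin.zero_eta, Fin.isValue, Matrix.of_apply, Matrix.cons_val', Matrix.cons_val_zero,
      Matrix.cons_val_fin_one, Matrix.cons_val_one, one_mul]
    rw [← h0] at hd'
    rw [← h1] at hd'
    linear_combination (-(g' 0 0)) * hd + (g 0 0) * hd'
  · simp only [Fin.zero_eta, Fin.isValue, Fin.mk_one, Matrix.of_apply, Matrix.cons_val',
      Matrix.cons_val_zero, Matrix.cons_val_fin_one, Matrix.cons_val_one, one_mul]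
    rw [← h0] at hd'
    rw [← h1] at hd'
    linear_combination (-(g' 0 1)) * hd + (g 0 1) * hd'
  · simp only [Fin.mk_one, Fin.isValue, Fin.zero_eta, Matrix.of_apply, Matrix.cons_val',
      Matrix.cons_val_zero, Matrix.cons_val_fin_one, Matrix.cons_val_one, zero_mul, one_mul,
      zero_add]
    exact h0.symm
  · simp only [Fin.mk_one, Fin.isValue, Matrix.of_apply, Matrix.cons_val', Matrix.cons_val_zero,
      Matrix.cons_val_fin_one, Matrix.cons_val_one, zero_mul, one_mul, zero_add]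
    exact h1.symm

variable (N : ℕ)

/-- The bottom rows of the elements of `Γ₀(N)`. -/
def rowSet : Set (Fin 2 → ℤ) := {v | IsCoprime (v 0) (v 1) ∧ (N : ℤ) ∣ v 0}

variable {N}

theorem row_mem_rowSet (γ : Gamma0 N) : (γ : SL(2, ℤ)) 1 ∈ rowSet N := by
  refine ⟨Matrix.SpecialLinearGroup.isCoprime_row (γ : SL(2, ℤ)) 1, ?_⟩
  have h := Gamma0_mem.mp γ.2
  exact (CharP.intCast_eq_zero_iff (ZMod N) N _).mp h

theorem exists_gamma0_row {v : Fin 2 → ℤ} (hv : v ∈ rowSet N) :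
    ∃ γ : Gamma0 N, (γ : SL(2, ℤ)) 1 = v := by
  obtain ⟨g, hg0, hg1⟩ := hv.1.exists_SL2_row 1
  have hmem : g ∈ Gamma0 N := by
    rw [Gamma0_mem, hg0]
    exact (CharP.intCast_eq_zero_iff (ZMod N) N _).mpr hv.2
  refine ⟨⟨g, hmem⟩, ?_⟩
  funext j
  fin_cases j
  · exact hg0
  · exact hg1

theorem T_mem_Gamma0 : ModularGroup.T ∈ Gamma0 N := by
  rw [Gamma0_mem]
  simp [ModularGroup.T]

theorem mul_row (g h : SL(2, ℤ)) : (g * h : SL(2, ℤ)) 1 = (g 1) ᵥ* (h : Matrix (Fin 2) (Fin 2) ℤ) := by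
  show ((g * h : SL(2, ℤ)) : Matrix (Fin 2) (Fin 2) ℤ) 1 = _
  rw [Matrix.SpecialLinearGroup.coe_mul, Matrix.mul_apply_eq_vecMul]

theorem vecMul_mem_rowSet (γ : Gamma0 N) {x : Fin 2 → ℤ} (hx : x ∈ rowSet N) :
    x ᵥ* ((γ : SL(2, ℤ)) : Matrix (Fin 2) (Fin 2) ℤ) ∈ rowSet N := by
  obtain ⟨γx, rfl⟩ := exists_gamma0_row hx
  rw [← mul_row]
  exact row_mem_rowSet (γx * γ)

theorem vecMul_mem_rowSet_iff (γ : Gamma0 N) (x : Fin 2 → ℤ) :
    x ᵥ* ((γ : SL(2, ℤ)) : Matrix (Fin 2) (Fin 2) ℤ) ∈ rowSet N ↔ x ∈ rowSet N := by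
  refine ⟨fun h => ?_, vecMul_mem_rowSet γ⟩
  have h2 := vecMul_mem_rowSet γ⁻¹ h
  have h3 : x ᵥ* ((γ : SL(2, ℤ)) : Matrix (Fin 2) (Fin 2) ℤ) ᵥ*
      (((γ⁻¹ : Gamma0 N) : SL(2, ℤ)) : Matrix (Fin 2) (Fin 2) ℤ) = x :=
    (vecMulEquiv (γ : SL(2, ℤ))).left_inv x
  rwa [h3] at h2

end rows

/-! ## The twisted Eisenstein series -/

section twisted

variable {N : ℕ} (χ : ↥(Gamma0 N) →* ℂˣ)

open Classical in
/-- The coefficient `χ(γ)⁻¹` attached to the bottom row of `γ ∈ Γ₀(N)` (zero off the bottom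
rows). -/
noncomputable def coef (x : Fin 2 → ℤ) : ℂ :=
  if h : x ∈ rowSet N then (((χ (Classical.choose (exists_gamma0_row h)))⁻¹ : ℂˣ) : ℂ) else 0

variable {χ}

theorem coef_of_not_mem {x : Fin 2 → ℤ} (h : x ∉ rowSet N) : coef χ x = 0 := by
  unfold coef
  rw [dif_neg h]

/-- The coefficient is well defined as soon as `χ(T) = 1`. -/
theorem coef_row (hT : ∀ γ : ↥(Gamma0 N), (γ : SL(2, ℤ)) = ModularGroup.T → χ γ = 1)
    (γ : ↥(Gamma0 N)) : coef χ ((γ : SL(2, ℤ)) 1) = (((χ γ)⁻¹ : ℂˣ) : ℂ) := by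
  have h : (γ : SL(2, ℤ)) 1 ∈ rowSet N := row_mem_rowSet γ
  unfold coef
  rw [dif_pos h]
  have hspec := Classical.choose_spec (exists_gamma0_row h)
  set γ₀ := Classical.choose (exists_gamma0_row h) with hγ₀
  obtain ⟨n, hn⟩ := exists_T_zpow_mul (γ₀ : SL(2, ℤ)) (γ : SL(2, ℤ)) hspec
  have hγ : γ = (⟨ModularGroup.T, T_mem_Gamma0⟩ : ↥(Gamma0 N)) ^ n * γ₀ := by
    apply Subtype.ext
    rw [hn]
    simp
  have hχ : χ γ = χ γ₀ := by
    rw [hγ, map_mul, map_zpow, hT ⟨ModularGroup.T, T_mem_Gamma0⟩ rfl, _root_.one_zpow, one_mul]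
  rw [hχ]

theorem norm_coef_le {m : ℕ} (hm : 0 < m) (hχ : ∀ γ, χ γ ^ m = 1) (x : Fin 2 → ℤ) :
    ‖coef χ x‖ ≤ 1 := by
  unfold coef
  split_ifs with h
  · have h1 : ((((χ (Classical.choose (exists_gamma0_row h)))⁻¹ : ℂˣ) : ℂ)) ^ m = 1 := by
      rw [← Units.val_pow_eq_pow_val, inv_pow, hχ, inv_one, Units.val_one]
    exact (Complex.norm_eq_one_of_pow_eq_one h1 hm.ne').le
  · rw [norm_zero]
    exact zero_le_one

theorem coef_vecMul (hT : ∀ γ : ↥(Gamma0 N), (γ : SL(2, ℤ)) = ModularGroup.T → χ γ = 1)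
    (γ : ↥(Gamma0 N)) (x : Fin 2 → ℤ) :
    coef χ (x ᵥ* ((γ : SL(2, ℤ)) : Matrix (Fin 2) (Fin 2) ℤ)) =
      coef χ x * (((χ γ)⁻¹ : ℂˣ) : ℂ) := by
  by_cases hx : x ∈ rowSet N
  · obtain ⟨γx, rfl⟩ := exists_gamma0_row hx
    rw [← mul_row, coef_row hT γx]
    have h := coef_row hT (γx * γ)
    rw [show ((γx * γ : ↥(Gamma0 N)) : SL(2, ℤ)) = (γx : SL(2, ℤ)) * (γ : SL(2, ℤ)) from rfl] at h
    rw [h, map_mul, mul_inv, Units.val_mul]
  · rw [coef_of_not_mem hx, zero_mul]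
    exact coef_of_not_mem (fun h => hx ((vecMul_mem_rowSet_iff γ x).mp h))

variable (N χ)

/-- The twisted Eisenstein series of weight `12` for a character `χ` of `Γ₀(N)`:
`∑ χ(γ)⁻¹ (c z + d)^(-12)` over the bottom rows `(c, d)` of `Γ₀(N)`. -/
noncomputable def eisTw (z : ℍ) : ℂ := wSum (coef χ) 12 z

variable {N χ}

theorem mdiff_eisTw {m : ℕ} (hm : 0 < m) (hχ : ∀ γ, χ γ ^ m = 1) : MDiff (eisTw N χ) :=
  mdiff_wSum (norm_coef_le hm hχ) (by norm_num)

/-- The transformation law of the twisted Eisenstein series. -/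
theorem eisTw_smul (hT : ∀ γ : ↥(Gamma0 N), (γ : SL(2, ℤ)) = ModularGroup.T → χ γ = 1)
    (γ : ↥(Gamma0 N)) (z : ℍ) :
    eisTw N χ ((γ : SL(2, ℤ)) • z) =
      (χ γ : ℂ) * denom (γ : SL(2, ℤ)) z ^ (12 : ℤ) * eisTw N χ z := by
  unfold eisTw
  rw [wSum_smul]
  have h1 : ∀ x : Fin 2 → ℤ, coef χ x *
      eisSummand 12 (x ᵥ* ((γ : SL(2, ℤ)) : Matrix (Fin 2) (Fin 2) ℤ)) z =
      (χ γ : ℂ) * (coef χ (x ᵥ* ((γ : SL(2, ℤ)) : Matrix (Fin 2) (Fin 2) ℤ)) *
        eisSummand 12 (x ᵥ* ((γ : SL(2, ℤ)) : Matrix (Fin 2) (Fin 2) ℤ)) z) := by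
    intro x
    rw [coef_vecMul hT γ x]
    have h2 : (χ γ : ℂ) * (((χ γ)⁻¹ : ℂˣ) : ℂ) = 1 := by
      rw [← Units.val_mul, mul_inv_cancel, Units.val_one]
    linear_combination (-(coef χ x *
      eisSummand 12 (x ᵥ* ((γ : SL(2, ℤ)) : Matrix (Fin 2) (Fin 2) ℤ)) z)) * h2
  rw [tsum_congr h1, tsum_mul_left]
  have h3 : ∑' x : Fin 2 → ℤ, coef χ (x ᵥ* ((γ : SL(2, ℤ)) : Matrix (Fin 2) (Fin 2) ℤ)) *
      eisSummand 12 (x ᵥ* ((γ : SL(2, ℤ)) : Matrix (Fin 2) (Fin 2) ℤ)) z = wSum (coef χ) 12 z :=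
    (vecMulEquiv (γ : SL(2, ℤ))).tsum_eq (fun x => coef χ x * eisSummand 12 x z)
  rw [h3]
  ring

/-- The slash of the twisted Eisenstein series by any element of `SL(2, ℤ)` is bounded at
`i∞`. -/
theorem isBoundedAtImInfty_eisTw {m : ℕ} (hm : 0 < m) (hχ : ∀ γ, χ γ ^ m = 1) (g : SL(2, ℤ)) :
    IsBoundedAtImInfty (fun z : ℍ => eisTw N χ (g • z) * denom g z ^ (-12 : ℤ)) :=
  isBoundedAtImInfty_slash (norm_coef_le hm hχ) (by norm_num) g

/-- The point `i · max y 1` of the upper half plane. -/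
noncomputable def axisPt (y : ℝ) : ℍ := ⟨⟨0, max y 1⟩, lt_of_lt_of_le one_pos (le_max_right y 1)⟩

theorem axisPt_im (y : ℝ) : (axisPt y).im = max y 1 := rfl

theorem axisPt_re (y : ℝ) : (axisPt y).re = 0 := rfl

theorem coef_zero_one (hT : ∀ γ : ↥(Gamma0 N), (γ : SL(2, ℤ)) = ModularGroup.T → χ γ = 1) :
    coef χ ![0, 1] = 1 := by
  have h := coef_row hT (1 : ↥(Gamma0 N))
  have h1 : ((1 : ↥(Gamma0 N)) : SL(2, ℤ)) 1 = ![0, 1] := by
    funext j
    fin_cases j <;> simp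
  rw [h1, map_one, inv_one, Units.val_one] at h
  exact h

theorem neg_one_mem_Gamma0 : (-1 : SL(2, ℤ)) ∈ Gamma0 N := by
  rw [Gamma0_mem]
  simp

theorem coef_zero_neg_one (hT : ∀ γ : ↥(Gamma0 N), (γ : SL(2, ℤ)) = ModularGroup.T → χ γ = 1)
    (hneg : ∀ γ : ↥(Gamma0 N), (γ : SL(2, ℤ)) = -1 → χ γ = 1) :
    coef χ ![0, -1] = 1 := by
  have h := coef_row hT (⟨-1, neg_one_mem_Gamma0⟩ : ↥(Gamma0 N))
  have h1 : (((⟨-1, neg_one_mem_Gamma0⟩ : ↥(Gamma0 N)) : SL(2, ℤ))) 1 = ![0, -1] := by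
    funext j
    fin_cases j <;> simp
  rw [h1, hneg ⟨-1, neg_one_mem_Gamma0⟩ rfl, inv_one, Units.val_one] at h
  exact h

/-- Along the imaginary axis the twisted Eisenstein series tends to `2`. -/
theorem tendsto_eisTw_axis {m : ℕ} (hm : 0 < m) (hχ : ∀ γ, χ γ ^ m = 1)
    (hT : ∀ γ : ↥(Gamma0 N), (γ : SL(2, ℤ)) = ModularGroup.T → χ γ = 1)
    (hneg : ∀ γ : ↥(Gamma0 N), (γ : SL(2, ℤ)) = -1 → χ γ = 1) :
    Tendsto (fun y : ℝ => eisTw N χ (axisPt y)) atTop (𝓝 2) := by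
  have hc := norm_coef_le hm hχ
  -- the limit function
  set g : (Fin 2 → ℤ) → ℂ := fun x => if x 0 = 0 then coef χ x * ((x 1 : ℂ)) ^ (-12 : ℤ) else 0
    with hg
  have hk' : (2 : ℝ) < ((12 : ℤ) : ℝ) := by norm_num
  have hsum : Summable fun x : Fin 2 → ℤ =>
      r ⟨⟨1, 2⟩, Nat.ofNat_pos⟩ ^ (-((12 : ℤ) : ℝ)) * ‖x‖ ^ (-((12 : ℤ) : ℝ)) := by
    exact (summable_one_div_norm_rpow hk').mul_left (r ⟨⟨1, 2⟩, Nat.ofNat_pos⟩ ^ (-((12 : ℤ) : ℝ)))
  have hlim : Tendsto (fun y : ℝ => ∑' x : Fin 2 → ℤ, coef χ x * eisSummand 12 x (axisPt y)) atTop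
      (𝓝 (∑' x : Fin 2 → ℤ, g x)) := by
    refine tendsto_tsum_of_dominated_convergence hsum (fun x => ?_) ?_
    · -- pointwise limits
      by_cases hx : x 0 = 0
      · have : (fun y : ℝ => coef χ x * eisSummand 12 x (axisPt y)) = fun _ => g x := by
          funext y
          simp only [hg, if_pos hx, eisSummand, hx, Int.cast_zero, zero_mul, zero_add]
        rw [this]
        exact tendsto_const_nhds
      · have hgx : g x = 0 := by simp only [hg, if_neg hx]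
        rw [hgx]
        have hb : ∀ᶠ y : ℝ in atTop, ‖coef χ x * eisSummand 12 x (axisPt y)‖ ≤ y ^ (-12 : ℤ) := by
          filter_upwards [eventually_ge_atTop (1 : ℝ)] with y hy
          refine (norm_term_le hc x (axisPt y)).trans ?_
          rw [eisSummand, norm_zpow]
          have h1 : y ≤ ‖(x 0 : ℂ) * ((axisPt y : ℍ) : ℂ) + (x 1 : ℂ)‖ := by
            have him : ((x 0 : ℂ) * ((axisPt y : ℍ) : ℂ) + (x 1 : ℂ)).im = (x 0 : ℝ) * y := by
              have e : ((axisPt y : ℍ) : ℂ) = ⟨0, max y 1⟩ := rfl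
              rw [e]
              simp [max_eq_left hy]
            have h2 := Complex.abs_im_le_norm ((x 0 : ℂ) * ((axisPt y : ℍ) : ℂ) + (x 1 : ℂ))
            rw [him, abs_mul, abs_of_nonneg (zero_le_one.trans hy)] at h2
            have h3 : (1 : ℝ) ≤ |(x 0 : ℝ)| := by
              have : (1 : ℤ) ≤ |x 0| := Int.one_le_abs hx
              exact_mod_cast this
            nlinarith
          have hy0 : (0 : ℝ) < y := lt_of_lt_of_le one_pos hy
          rw [_root_.zpow_neg, _root_.zpow_neg]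
          exact inv_anti₀ (zpow_pos hy0 12) (zpow_le_zpow_left₀ (by norm_num) hy0.le h1)
        exact squeeze_zero_norm' hb (tendsto_zpow_atTop_zero (by norm_num))
    · -- domination
      filter_upwards [eventually_ge_atTop (2 : ℝ)] with y hy x
      refine (norm_term_le hc x (axisPt y)).trans ?_
      have hmem : axisPt y ∈ verticalStrip 1 2 := by
        refine ⟨?_, ?_⟩
        · rw [axisPt_re, abs_zero]
          exact zero_le_one
        · rw [axisPt_im]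
          exact hy.trans (le_max_left y 1)
      have h := summand_bound_of_mem_verticalStrip (k := ((12 : ℤ) : ℝ)) (by norm_num) x two_pos hmem
      rw [eisSummand, norm_zpow]
      have e : ‖(x 0 : ℂ) * ((axisPt y : ℍ) : ℂ) + (x 1 : ℂ)‖ ^ (-(12 : ℤ)) =
          ‖(x 0 : ℂ) * ((axisPt y : ℍ) : ℂ) + (x 1 : ℂ)‖ ^ (-((12 : ℤ) : ℝ)) := by
        rw [← Int.cast_neg, Real.rpow_intCast]
      rw [e]
      exact h
  -- the limit is `2`
  have hval : ∑' x : Fin 2 → ℤ, g x = 2 := by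
    have hsupp : ∀ x ∉ ({![0, 1], ![0, -1]} : Finset (Fin 2 → ℤ)), g x = 0 := by
      intro x hx
      simp only [hg]
      split_ifs with h0
      · by_cases hmem : x ∈ rowSet N
        · exfalso
          apply hx
          have hcop := hmem.1
          rw [h0, isCoprime_zero_left, Int.isUnit_iff] at hcop
          rw [Finset.mem_insert, Finset.mem_singleton]
          rcases hcop with h1 | h1
          · left
            funext j
            fin_cases j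
            · exact h0
            · exact h1
          · right
            funext j
            fin_cases j
            · exact h0
            · exact h1
        · rw [coef_of_not_mem hmem, zero_mul]
      · rfl
    rw [tsum_eq_sum hsupp, Finset.sum_pair (by decide)]
    simp only [hg]
    rw [if_pos (by rfl), if_pos (by rfl), coef_zero_one hT, coef_zero_neg_one hT hneg]
    norm_num
  rw [hval] at hlim
  exact hlim

theorem eisTw_ne_zero {m : ℕ} (hm : 0 < m) (hχ : ∀ γ, χ γ ^ m = 1)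
    (hT : ∀ γ : ↥(Gamma0 N), (γ : SL(2, ℤ)) = ModularGroup.T → χ γ = 1)
    (hneg : ∀ γ : ↥(Gamma0 N), (γ : SL(2, ℤ)) = -1 → χ γ = 1) :
    ∃ z : ℍ, eisTw N χ z ≠ 0 := by
  have h := tendsto_eisTw_axis hm hχ hT hneg
  have h2 : ∀ᶠ y : ℝ in atTop, eisTw N χ (axisPt y) ≠ 0 :=
    h.eventually_ne (by norm_num)
  obtain ⟨y, hy⟩ := h2.exists
  exact ⟨axisPt y, hy⟩

variable (N χ)

/-- The weight-zero function `E_χ / Δ` with multiplier `χ`. -/
noncomputable def multFun (z : ℍ) : ℂ := eisTw N χ z / ModularForm.discriminant z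

variable {N χ}

theorem mdiff_multFun {m : ℕ} (hm : 0 < m) (hχ : ∀ γ, χ γ ^ m = 1) : MDiff (multFun N χ) := by
  have hΔ : MDiff (fun z : ℍ => ModularForm.discriminant z) :=
    ModularFormClass.holo CuspForm.discriminant
  exact (mdiff_eisTw hm hχ).div hΔ ModularForm.discriminant_ne_zero

theorem multFun_smul (hT : ∀ γ : ↥(Gamma0 N), (γ : SL(2, ℤ)) = ModularGroup.T → χ γ = 1)
    (γ : ↥(Gamma0 N)) (z : ℍ) :
    multFun N χ ((γ : SL(2, ℤ)) • z) = (χ γ : ℂ) * multFun N χ z := by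
  unfold multFun
  rw [eisTw_smul hT, disc_smul]
  have hd : denom (γ : SL(2, ℤ)) z ^ (12 : ℤ) ≠ 0 := zpow_ne_zero _ (denom_ne_zero _ z)
  have hΔ := ModularForm.discriminant_ne_zero z
  field_simp

theorem multFun_ne_zero {m : ℕ} (hm : 0 < m) (hχ : ∀ γ, χ γ ^ m = 1)
    (hT : ∀ γ : ↥(Gamma0 N), (γ : SL(2, ℤ)) = ModularGroup.T → χ γ = 1)
    (hneg : ∀ γ : ↥(Gamma0 N), (γ : SL(2, ℤ)) = -1 → χ γ = 1) : multFun N χ ≠ 0 := by
  obtain ⟨z, hz⟩ := eisTw_ne_zero hm hχ hT hneg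
  intro h
  have h1 := congrFun h z
  unfold multFun at h1
  rw [Pi.zero_apply, div_eq_zero_iff] at h1
  rcases h1 with h1 | h1
  · exact hz h1
  · exact ModularForm.discriminant_ne_zero z h1

/-- `(E_χ / Δ)^m` is a weakly holomorphic `Γ₀(N)`-invariant function when `χ^m = 1`. -/
theorem isWH_multFun_pow {m : ℕ} (hm : 0 < m) (hχ : ∀ γ, χ γ ^ m = 1)
    (hT : ∀ γ : ↥(Gamma0 N), (γ : SL(2, ℤ)) = ModularGroup.T → χ γ = 1) :
    IsWH (Gamma0 N) (fun z => multFun N χ z ^ m) where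
  mdiff := (mdiff_multFun hm hχ).pow m
  inv := fun γ hγ z => by
    have h := multFun_smul hT ⟨γ, hγ⟩ z
    have h1 : ((χ ⟨γ, hγ⟩ : ℂˣ) : ℂ) ^ m = 1 := by
      rw [← Units.val_pow_eq_pow_val, hχ, Units.val_one]
    show multFun N χ (γ • z) ^ m = multFun N χ z ^ m
    rw [h, mul_pow, h1, one_mul]
  bdd := ⟨m, fun g => by
    have hb := isBoundedAtImInfty_eisTw hm hχ g
    rw [UpperHalfPlane.isBoundedAtImInfty_iff] at hb ⊢
    obtain ⟨M, A, hMA⟩ := hb
    refine ⟨M ^ m, A, fun z hz => ?_⟩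
    have e : multFun N χ (g • z) ^ m * ModularForm.discriminant z ^ m =
        (eisTw N χ (g • z) * denom g z ^ (-12 : ℤ)) ^ m := by
      unfold multFun
      rw [disc_smul, ← mul_pow]
      congr 1
      have hd : denom g z ^ (12 : ℤ) ≠ 0 := zpow_ne_zero _ (denom_ne_zero _ z)
      have hΔ := ModularForm.discriminant_ne_zero z
      rw [_root_.zpow_neg]
      field_simp
    rw [e, norm_pow]
    exact pow_le_pow_left₀ (norm_nonneg _) (hMA z hz) m⟩

/-- **Twisted Eisenstein series**: for a character `χ` of `Γ₀(N)` of finite order dividing `m`,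
trivial on `T` and on `-1`, there is a nonzero holomorphic function `u` on `ℍ` with
`u ∘ γ = χ(γ) u` for `γ ∈ Γ₀(N)` and `u ^ m` weakly holomorphic of level `Γ₀(N)`. -/
theorem exists_multiplier_function (N : ℕ) (m : ℕ) (hm : 0 < m)
    (χ : ↥(Gamma0 N) →* ℂˣ) (hχ : ∀ γ, χ γ ^ m = 1)
    (hT : ∀ γ : ↥(Gamma0 N), (γ : SL(2, ℤ)) = ModularGroup.T → χ γ = 1)
    (hneg : ∀ γ : ↥(Gamma0 N), (γ : SL(2, ℤ)) = -1 → χ γ = 1) :
    ∃ u : ℍ → ℂ, MDiff u ∧ u ≠ 0 ∧
      (∀ (γ : ↥(Gamma0 N)) (z : ℍ), u ((γ : SL(2, ℤ)) • z) = (χ γ : ℂ) * u z) ∧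
      IsWH (Gamma0 N) (fun z => u z ^ m) :=
  ⟨multFun N χ, mdiff_multFun hm hχ, multFun_ne_zero hm hχ hT hneg, multFun_smul hT,
    isWH_multFun_pow hm hχ hT⟩

end twisted

end Fermat.Agent.S29.TwistedEis
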