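import Mathlib
import Fermat.Agent.S29.KummerDatum
import Fermat.Agent.S29.RootClass
import Fermat.Agent.S29.BCUnram
import Fermat.Agent.S29.DictWHCusp
import Fermat.Agent.S29.TwistedEis
import Fermat.Agent.S37.HeckeInputs

/-!
# S29 (wave 5), package K: the elementary pieces of the Kummer map

Proofs, from the landed internals, of the pieces of `Kummer.exists_theta_of`
(`KummerTop.lean`) that need no new mathematics:

* `isRootClass_*` : the calculus of root classes (KR);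
* `isKummerDatum_mul` : Kummer data multiply (KM);
* `expChar_eq_one_of_trace`, `expChar_eq_one_of_finOrder` : the character of a PE
  homomorphism kills parabolic and finite-order elements;
* `dvd_ord` : the divisor of the function of a Kummer datum of a PE character is divisible
  by `m` (KD);
* `exists_datum_of` : existence of Kummer data (KE) from the descent statement.
-/

set_option autoImplicit false

open scoped MatrixGroups Manifold
open UpperHalfPlane ModularCurve AlgebraicCurve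

namespace Fermat.Agent.S29.KummerPieces

local notation "Qb" => AlgebraicClosure ℚ

/-! ### Root classes (KR) -/

section KR

set_option linter.unusedSectionVars false

variable (N : ℕ) [NeZero N] (m : ℕ) [NeZero m]

theorem exists_isRootClass {f₀ : modularFunctionFieldBar N} (hf : f₀ ≠ 0)
    (hdiv : ∀ v : Place Qb (modularFunctionFieldBar N), (m : ℤ) ∣ v.ord f₀) :
    ∃ x : JZero N, IsRootClass m f₀ x := by
  obtain ⟨D, -, hD⟩ := RootClass.rootClass_spec (K := Qb) (Nat.pos_of_ne_zero (NeZero.ne m))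
    (f := f₀) ⟨hf, hdiv⟩
  exact ⟨Pic0.mk D, D, rfl, hD⟩

theorem isRootClass_unique {f₀ : modularFunctionFieldBar N} {x y : JZero N}
    (hx : IsRootClass m f₀ x) (hy : IsRootClass m f₀ y) : x = y := by
  obtain ⟨D, rfl, hD⟩ := hx
  obtain ⟨E, rfl, hE⟩ := hy
  have hDE : D = E := by
    apply Subtype.ext
    ext v
    have h := (hD v).trans (hE v).symm
    exact mul_left_cancel₀ (Nat.cast_ne_zero.mpr (NeZero.ne m)) h
  rw [hDE]

theorem isRootClass_mul {f₀ g₀ : modularFunctionFieldBar N} (hf : f₀ ≠ 0) (hg : g₀ ≠ 0)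
    {x y : JZero N} (hx : IsRootClass m f₀ x) (hy : IsRootClass m g₀ y) :
    IsRootClass m (f₀ * g₀) (x + y) := by
  obtain ⟨D, rfl, hD⟩ := hx
  obtain ⟨E, rfl, hE⟩ := hy
  refine ⟨D + E, Pic0.mk_add D E, fun v => ?_⟩
  rw [v.ord_mul hf hg, ← hD v, ← hE v, AddSubgroup.coe_add, Finsupp.add_apply, mul_add]

theorem isRootClass_pow {h₀ : modularFunctionFieldBar N} (hh : h₀ ≠ 0) :
    IsRootClass m (h₀ ^ m) (0 : JZero N) := by
  refine ⟨⟨RootClass.divOf Qb h₀, RootClass.degree_divOf Qb h₀⟩, ?_, fun v => ?_⟩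
  · rw [RootClass.mk_eq_zero_iff]
    exact RootClass.divOf_mem_principal hh
  · show (m : ℤ) * RootClass.divOf Qb h₀ v = v.ord (h₀ ^ m)
    have h := congrArg (fun D : Divisor Qb (modularFunctionFieldBar N) => D v)
      (RootClass.divOf_pow Qb h₀ m)
    simp only [Finsupp.smul_apply, nsmul_eq_mul] at h
    rw [← h, RootClass.divOf_apply_eq]

end KR

/-! ### Kummer data multiply (KM) -/

theorem isPM_of_isWH {N : ℕ} {g : ℍ → ℂ}
    (hg : S20.IsWH (CongruenceSubgroup.Gamma0 N) g) : S24.IsPM g :=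
  S24.mem_PM.mp (S24.WH_le_PM N (S20.mem_WH.mpr hg))

theorem mul_ne_zero_of_mdiff {u u' : ℍ → ℂ} (hu : MDiff u) (hu' : MDiff u') (h : u ≠ 0)
    (h' : u' ≠ 0) : (fun z => u z * u' z) ≠ 0 := by
  intro h0
  have h1 := S20.ordAt_mul (z := UpperHalfPlane.I) hu hu'
  have h0' : u * u' = 0 := h0
  rw [(S20.ordAt_eq_top_iff (z := UpperHalfPlane.I) (hu.mul hu')).mpr h0'] at h1
  rcases WithTop.add_eq_top.mp h1.symm with h2 | h2
  · exact h ((S20.ordAt_eq_top_iff hu).mp h2)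
  · exact h' ((S20.ordAt_eq_top_iff hu').mp h2)

theorem isKummerDatum_mul (N m : ℕ) (ι : Qb →+* ℂ) {χ χ' : S22.Gam N →* ℂˣ} {u u' : ℍ → ℂ}
    {f₀ f₀' : modularFunctionFieldBar N}
    (h : IsKummerDatum N m ι χ u f₀) (h' : IsKummerDatum N m ι χ' u' f₀') :
    IsKummerDatum N m ι (χ * χ') (fun z => u z * u' z) (f₀ * f₀') where
  mdiff := h.mdiff.mul h'.mdiff
  ne_zero := mul_ne_zero_of_mdiff h.mdiff h'.mdiff h.ne_zero h'.ne_zero
  mult γ z := by
    rw [h.mult γ z, h'.mult γ z, MonoidHom.mul_apply, Units.val_mul]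
    ring
  isWH := by
    have e : (fun z => (u z * u' z) ^ m) = (fun z => u z ^ m) * (fun z => u' z ^ m) := by
      funext z
      simp only [Pi.mul_apply, mul_pow]
    rw [e]
    exact h.isWH.mul h'.isWH
  qexp := by
    have e : (fun z => (u z * u' z) ^ m) = (fun z => u z ^ m) * (fun z => u' z ^ m) := by
      funext z
      simp only [Pi.mul_apply, mul_pow]
    rw [e, S24.qLaurentFun_mul (isPM_of_isWH h.isWH) (isPM_of_isWH h'.isWH), ← h.qexp,
      ← h'.qexp, map_mul]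
    rfl

/-! ### The character of a PE homomorphism -/

section PE

variable {N : ℕ} {m : ℕ} [NeZero m]

theorem expChar_eq_one_of_trace (ψ : peHoms N (ZMod m)) (γ : S22.Gam N)
    (hγ : ((γ : SL(2, ℤ)) : Matrix (Fin 2) (Fin 2) ℤ).trace ^ 2 = 4) :
    expChar N m (ψ : Additive (S22.Gam N) →+ ZMod m) γ = 1 :=
  (expChar_eq_one_iff N m _ γ).mpr (ψ.2 γ (Or.inl hγ))

theorem expChar_eq_one_of_finOrder (ψ : peHoms N (ZMod m)) (γ : S22.Gam N)
    (hγ : IsOfFinOrder γ) :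
    expChar N m (ψ : Additive (S22.Gam N) →+ ZMod m) γ = 1 :=
  (expChar_eq_one_iff N m _ γ).mpr (ψ.2 γ (Or.inr hγ))

theorem trace_conj_T_pow (g : SL(2, ℤ)) (k : ℕ) :
    ((g * ModularGroup.T ^ k * g⁻¹ : SL(2, ℤ)) : Matrix (Fin 2) (Fin 2) ℤ).trace = 2 := by
  have h1 : ((g * ModularGroup.T ^ k * g⁻¹ : SL(2, ℤ)) : Matrix (Fin 2) (Fin 2) ℤ) =
      (g : Matrix (Fin 2) (Fin 2) ℤ) * ((ModularGroup.T ^ k : SL(2, ℤ)) : Matrix (Fin 2) (Fin 2) ℤ)
        * ((g⁻¹ : SL(2, ℤ)) : Matrix (Fin 2) (Fin 2) ℤ) := by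
    simp only [Matrix.SpecialLinearGroup.coe_mul]
  rw [h1, Matrix.trace_mul_cycle, ← Matrix.SpecialLinearGroup.coe_mul, inv_mul_cancel,
    Matrix.SpecialLinearGroup.coe_one, one_mul]
  have h2 : ((ModularGroup.T ^ k : SL(2, ℤ)) : Matrix (Fin 2) (Fin 2) ℤ) = !![1, (k : ℤ); 0, 1] := by
    have := ModularGroup.coe_T_zpow (k : ℤ)
    rw [zpow_natCast] at this
    exact this
  rw [h2, Matrix.trace_fin_two_of]
  norm_num

/-- the multiplier law of a Kummer datum of a PE character: invariance under finite-order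
elements -/
theorem inv_of_finOrder (ψ : peHoms N (ZMod m)) {u : ℍ → ℂ}
    (hmult : ∀ (γ : S22.Gam N) (z : ℍ), u ((γ : SL(2, ℤ)) • z) =
      (expChar N m (ψ : Additive (S22.Gam N) →+ ZMod m) γ : ℂ) * u z) :
    ∀ γ ∈ CongruenceSubgroup.Gamma0 N, IsOfFinOrder γ → ∀ z : ℍ, u (γ • z) = u z := by
  intro γ hγ hfin z
  have hfin' : IsOfFinOrder (⟨γ, hγ⟩ : S22.Gam N) := by
    rw [isOfFinOrder_iff_pow_eq_one] at hfin ⊢
    obtain ⟨n, hn, hpow⟩ := hfin
    exact ⟨n, hn, Subtype.ext (by rw [SubmonoidClass.coe_pow]; exact hpow)⟩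
  have h := hmult ⟨γ, hγ⟩ z
  rw [expChar_eq_one_of_finOrder ψ _ hfin', Units.val_one, one_mul] at h
  exact h

/-- the multiplier law of a Kummer datum of a PE character: invariance under parabolic
elements -/
theorem inv_of_parabolic (ψ : peHoms N (ZMod m)) {u : ℍ → ℂ}
    (hmult : ∀ (γ : S22.Gam N) (z : ℍ), u ((γ : SL(2, ℤ)) • z) =
      (expChar N m (ψ : Additive (S22.Gam N) →+ ZMod m) γ : ℂ) * u z) :
    ∀ (g : SL(2, ℤ)) (k : ℕ), g * ModularGroup.T ^ k * g⁻¹ ∈ CongruenceSubgroup.Gamma0 N →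
      ∀ z : ℍ, u ((g * ModularGroup.T ^ k * g⁻¹) • z) = u z := by
  intro g k hmem z
  have h := hmult ⟨_, hmem⟩ z
  have htr : (((⟨_, hmem⟩ : S22.Gam N) : SL(2, ℤ)) : Matrix (Fin 2) (Fin 2) ℤ).trace ^ 2 = 4 := by
    rw [trace_conj_T_pow]
    norm_num
  rw [expChar_eq_one_of_trace ψ _ htr, Units.val_one, one_mul] at h
  exact h

end PE

/-! ### Divisibility (KD) -/

theorem dvd_ord (N : ℕ) [NeZero N] (m : ℕ) [NeZero m] (ι : Qb →+* ℂ)
    (ψ : peHoms N (ZMod m)) {u : ℍ → ℂ} {f₀ : modularFunctionFieldBar N}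
    (h : IsKummerDatum N m ι (expChar N m ψ) u f₀) :
    f₀ ≠ 0 ∧ ∀ v : Place Qb (modularFunctionFieldBar N), (m : ℤ) ∣ v.ord f₀ := by
  have hm : 0 < m := Nat.pos_of_ne_zero (NeZero.ne m)
  constructor
  · rintro rfl
    have h1 := h.qexp
    rw [map_zero] at h1
    have h2 : (fun z => u z ^ m) = 0 :=
      S24.qLaurentFun_eq_zero (isPM_of_isWH h.isWH) h1.symm
    have h3 : u = 0 := by
      funext z
      exact pow_eq_zero_iff hm.ne' |>.mp (congrFun h2 z)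
    exact h.ne_zero h3
  · have hC : ∀ w : Place ℂ (S24.FF ℂ N),
        (m : ℤ) ∣ w.ord (S24.CoeffBC.bc ι (modularFunctionFieldFull N) f₀) := fun w =>
      DictWH.kummer_dvd_ord_complex hm h.mdiff h.ne_zero (inv_of_finOrder ψ h.mult)
        (inv_of_parabolic ψ h.mult) h.isWH _ h.qexp w
    exact BCUnram.dvd_ord_of_bc N ι (m : ℤ) f₀ hC

/-! ### Existence (KE) from the descent -/

/-- (KE) from the descent statement `Desc.exists_rational` (taken as a hypothesis). -/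
theorem exists_datum_of (N : ℕ) [NeZero N] (m : ℕ) [NeZero m] (ι : Qb →+* ℂ)
    (hDesc : ∀ (χ : S22.Gam N →* ℂˣ), (∀ γ, χ γ ^ m = 1) →
      (∀ γ : S22.Gam N, (γ : SL(2, ℤ)) = ModularGroup.T → χ γ = 1) →
      ∀ (u₁ : ℍ → ℂ), MDiff u₁ → u₁ ≠ 0 →
      (∀ (γ : S22.Gam N) (z : ℍ), u₁ ((γ : SL(2, ℤ)) • z) = (χ γ : ℂ) * u₁ z) →
      S20.IsWH (CongruenceSubgroup.Gamma0 N) (fun z => u₁ z ^ m) →
      (∀ x : S24.FF ℂ N, (x : LaurentSeries ℂ) = S24.qLaurentFun (fun z => u₁ z ^ m) →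
        ∀ v : Place ℂ (S24.FF ℂ N), (m : ℤ) ∣ v.ord x) →
      ∃ u : ℍ → ℂ, MDiff u ∧ u ≠ 0 ∧
        (∀ (γ : S22.Gam N) (z : ℍ), u ((γ : SL(2, ℤ)) • z) = (χ γ : ℂ) * u z) ∧
        S20.IsWH (CongruenceSubgroup.Gamma0 N) (fun z => u z ^ m) ∧
        ∃ (y : LaurentSeries Qb) (f₀ : S24.FF Qb N), coeffMap ι y = S24.qLaurentFun u ∧
          (f₀ : LaurentSeries Qb) = y ^ m ∧
          ((S24.CoeffBC.bc ι (modularFunctionFieldFull N) f₀ : S24.FF ℂ N) : LaurentSeries ℂ)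
            = S24.qLaurentFun (fun z => u z ^ m))
    (ψ : peHoms N (ZMod m)) :
    ∃ (u : ℍ → ℂ) (f₀ : modularFunctionFieldBar N),
      IsKummerDatum N m ι (expChar N m ψ) u f₀ := by
  have hm : 0 < m := Nat.pos_of_ne_zero (NeZero.ne m)
  set χ : S22.Gam N →* ℂˣ := expChar N m (ψ : Additive (S22.Gam N) →+ ZMod m) with hχdef
  have hχ : ∀ γ, χ γ ^ m = 1 := fun γ => expChar_pow N m _ γ
  have hT : ∀ γ : S22.Gam N, (γ : SL(2, ℤ)) = ModularGroup.T → χ γ = 1 := by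
    intro γ hγ
    apply expChar_eq_one_of_trace ψ γ
    rw [hγ, ModularGroup.coe_T, Matrix.trace_fin_two_of]
    norm_num
  have hneg : ∀ γ : S22.Gam N, (γ : SL(2, ℤ)) = -1 → χ γ = 1 := by
    intro γ hγ
    apply expChar_eq_one_of_trace ψ γ
    rw [hγ, Matrix.SpecialLinearGroup.coe_neg, Matrix.SpecialLinearGroup.coe_one,
      Matrix.trace_neg, Matrix.trace_one]
    norm_num
  obtain ⟨u₁, hu₁, hu₁0, hmult₁, hWH₁⟩ :=
    TwistedEis.exists_multiplier_function N m hm χ hχ hT hneg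
  have hdiv : ∀ x : S24.FF ℂ N, (x : LaurentSeries ℂ) = S24.qLaurentFun (fun z => u₁ z ^ m) →
      ∀ v : Place ℂ (S24.FF ℂ N), (m : ℤ) ∣ v.ord x := fun x hx v =>
    DictWH.kummer_dvd_ord_complex hm hu₁ hu₁0 (inv_of_finOrder ψ hmult₁)
      (inv_of_parabolic ψ hmult₁) hWH₁ x hx v
  obtain ⟨u, hu, hu0, hmult, hWH, -, f₀, -, -, hq⟩ :=
    hDesc χ hχ hT u₁ hu₁ hu₁0 hmult₁ hWH₁ hdiv
  exact ⟨u, f₀, ⟨hu, hu0, hmult, hWH, hq⟩⟩

end Fermat.Agent.S29.KummerPieces
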