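import Mathlib
import Fermat.Agent.S29.KummerDatum
import Fermat.Agent.S29.HeckeChar
import Fermat.Prelude.Def_ModularCurve_HeckeModule

/-!
# S29 (wave 5), package K: the Kummer map from its pieces (K-top)

`exists_theta_of` : from the existence of Kummer data (KE), the divisibility of their divisors
(KD), the calculus of root classes (KR), multiplicativity (KM), well-definedness (KU),
injectivity (KI) and Hecke compatibility (KH), the Kummer map
`Θ : peHoms N (ℤ/m) →+ J₀(N)(ℚ̄)` is an injective homomorphism intertwining the transfer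
operator on characters with the Hecke operator on the Jacobian.
-/

set_option autoImplicit false

open scoped MatrixGroups Manifold
open UpperHalfPlane ModularCurve AlgebraicCurve

namespace Fermat.Agent.S29

local notation "Qb" => AlgebraicClosure ℚ

namespace Kummer

/-- an additive character turns finite sums into products -/
theorem addChar_sum {A M κ : Type*} [AddCommMonoid A] [CommMonoid M] (φ : AddChar A M)
    (s : Finset κ) (f : κ → A) : φ (∑ i ∈ s, f i) = ∏ i ∈ s, φ (f i) := by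
  classical
  induction s using Finset.induction_on with
  | empty => simp
  | insert a s ha ih =>
    rw [Finset.sum_insert ha, Finset.prod_insert ha, AddChar.map_add_eq_mul, ih]

/-- the character of the transfer of `ψ` is the transfer of the character of `ψ` -/
theorem heckeChar_expChar {N m ℓ : ℕ} [NeZero m] [Fact ℓ.Prime] (hℓN : ¬ ℓ ∣ N)
    (ψ ψ' : Additive (S22.Gam N) →+ ZMod m)
    (h : ∀ γ : S22.Gam N, ψ' (Additive.ofMul γ) =
      ∑ x : OnePoint (ZMod ℓ), ψ (Additive.ofMul (S22.gamT hℓN γ x))) :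
    Betti.heckeChar hℓN (expChar N m ψ) = expChar N m ψ' := by
  apply MonoidHom.ext
  intro γ
  rw [Betti.heckeChar_apply, expChar_apply, h γ, addChar_sum, map_prod]
  exact Finset.prod_congr rfl fun x _ => expChar_apply N m ψ _

/-- `x` is a Kummer class of the character `ψ`. -/
def IsClass (N m : ℕ) [NeZero m] (ι : Qb →+* ℂ) (ψ : Additive (S22.Gam N) →+ ZMod m)
    (x : JZero N) : Prop :=
  ∃ (u : ℍ → ℂ) (f₀ : modularFunctionFieldBar N),
    IsKummerDatum N m ι (expChar N m ψ) u f₀ ∧ IsRootClass m f₀ x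

/-- (K-top) The Kummer map from its pieces. -/
theorem exists_theta_of (N : ℕ) [NeZero N] (m : ℕ) [NeZero m] (ι : Qb →+* ℂ)
    (hKE : ∀ ψ : peHoms N (ZMod m), ∃ (u : ℍ → ℂ) (f₀ : modularFunctionFieldBar N),
      IsKummerDatum N m ι (expChar N m ψ) u f₀)
    (hKD : ∀ (ψ : peHoms N (ZMod m)) {u : ℍ → ℂ} {f₀ : modularFunctionFieldBar N},
      IsKummerDatum N m ι (expChar N m ψ) u f₀ →
        f₀ ≠ 0 ∧ ∀ v : Place Qb (modularFunctionFieldBar N), (m : ℤ) ∣ v.ord f₀)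
    (hKR1 : ∀ {f₀ : modularFunctionFieldBar N}, f₀ ≠ 0 →
      (∀ v : Place Qb (modularFunctionFieldBar N), (m : ℤ) ∣ v.ord f₀) →
        ∃ x : JZero N, IsRootClass m f₀ x)
    (hKR2 : ∀ {f₀ : modularFunctionFieldBar N} {x y : JZero N},
      IsRootClass m f₀ x → IsRootClass m f₀ y → x = y)
    (hKR3 : ∀ {f₀ g₀ : modularFunctionFieldBar N}, f₀ ≠ 0 → g₀ ≠ 0 → ∀ {x y : JZero N},
      IsRootClass m f₀ x → IsRootClass m g₀ y → IsRootClass m (f₀ * g₀) (x + y))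
    (hKR4 : ∀ {h₀ : modularFunctionFieldBar N}, h₀ ≠ 0 → IsRootClass m (h₀ ^ m) (0 : JZero N))
    (hKR5 : ∀ {f₀ : modularFunctionFieldBar N}, f₀ ≠ 0 → IsRootClass m f₀ (0 : JZero N) →
      ∃ h₀ : modularFunctionFieldBar N, f₀ = h₀ ^ m)
    (hKM : ∀ {χ χ' : S22.Gam N →* ℂˣ} {u u' : ℍ → ℂ} {f₀ f₀' : modularFunctionFieldBar N},
      IsKummerDatum N m ι χ u f₀ → IsKummerDatum N m ι χ' u' f₀' →
        IsKummerDatum N m ι (χ * χ') (fun z => u z * u' z) (f₀ * f₀'))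
    (hKU : ∀ {χ : S22.Gam N →* ℂˣ} {u u' : ℍ → ℂ} {f₀ f₀' : modularFunctionFieldBar N},
      IsKummerDatum N m ι χ u f₀ → IsKummerDatum N m ι χ u' f₀' →
        ∃ h₀ : modularFunctionFieldBar N, h₀ ≠ 0 ∧ f₀ = f₀' * h₀ ^ m)
    (hKI : ∀ {χ : S22.Gam N →* ℂˣ} {u : ℍ → ℂ} {f₀ : modularFunctionFieldBar N},
      IsKummerDatum N m ι χ u f₀ → ∀ h₀ : modularFunctionFieldBar N, f₀ = h₀ ^ m → χ = 1)
    (hKH : ∀ (ℓ : ℕ) [Fact ℓ.Prime] (hℓN : ¬ ℓ ∣ N) {χ : S22.Gam N →* ℂˣ} {u : ℍ → ℂ}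
      {f₀ : modularFunctionFieldBar N}, IsKummerDatum N m ι χ u f₀ →
        ∃ (U : ℍ → ℂ) (h₀ : modularFunctionFieldBar N),
          IsKummerDatum N m ι (Betti.heckeChar hℓN χ) U h₀ ∧
          ∀ x : JZero N, IsRootClass m f₀ x →
            IsRootClass m h₀ (heckeOperatorBar N ⟨ℓ, Fact.out⟩ x)) :
    ∃ Θ : peHoms N (ZMod m) →+ JZero N, Function.Injective Θ ∧
      ∀ (ℓ : ℕ) [Fact ℓ.Prime] (hℓN : ¬ ℓ ∣ N) (χ χ' : peHoms N (ZMod m)),
        (∀ γ : S22.Gam N, (χ' : Additive (S22.Gam N) →+ ZMod m) (Additive.ofMul γ) =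
          ∑ x : OnePoint (ZMod ℓ),
            (χ : Additive (S22.Gam N) →+ ZMod m) (Additive.ofMul (S22.gamT hℓN γ x))) →
        Θ χ' = heckeOperatorBar N ⟨ℓ, Fact.out⟩ (Θ χ) := by
  classical
  -- existence of a Kummer class
  have hex : ∀ ψ : peHoms N (ZMod m), ∃ x : JZero N, IsClass N m ι ψ x := by
    intro ψ
    obtain ⟨u, f₀, hd⟩ := hKE ψ
    obtain ⟨hf, hdiv⟩ := hKD ψ hd
    obtain ⟨x, hx⟩ := hKR1 hf hdiv
    exact ⟨x, u, f₀, hd, hx⟩
  -- uniqueness of the Kummer class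
  have huniq : ∀ (ψ : peHoms N (ZMod m)) (x y : JZero N),
      IsClass N m ι ψ x → IsClass N m ι ψ y → x = y := by
    rintro ψ x y ⟨u, f₀, hd, hx⟩ ⟨u', f₀', hd', hy⟩
    obtain ⟨h₀, hh₀, hf⟩ := hKU hd hd'
    have hf' : f₀' ≠ 0 := (hKD ψ hd').1
    have h1 : IsRootClass m (f₀' * h₀ ^ m) (y + 0) :=
      hKR3 hf' (pow_ne_zero m hh₀) hy (hKR4 hh₀)
    rw [← hf, add_zero] at h1
    exact hKR2 hx h1
  choose θ hθ using hex
  -- additivity
  have hadd : ∀ ψ ψ' : peHoms N (ZMod m), θ (ψ + ψ') = θ ψ + θ ψ' := by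
    intro ψ ψ'
    obtain ⟨u, f₀, hd, hx⟩ := hθ ψ
    obtain ⟨u', f₀', hd', hx'⟩ := hθ ψ'
    refine huniq (ψ + ψ') _ _ (hθ (ψ + ψ')) ⟨fun z => u z * u' z, f₀ * f₀', ?_, ?_⟩
    · have h := hKM hd hd'
      rw [← expChar_add] at h
      exact h
    · exact hKR3 (hKD ψ hd).1 (hKD ψ' hd').1 hx hx'
  refine ⟨AddMonoidHom.mk' θ hadd, ?_, ?_⟩
  · -- injectivity
    rw [injective_iff_map_eq_zero]
    intro ψ hψ
    rw [AddMonoidHom.mk'_apply] at hψ
    obtain ⟨u, f₀, hd, hx⟩ := hθ ψ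
    rw [hψ] at hx
    obtain ⟨h₀, hh₀⟩ := hKR5 (hKD ψ hd).1 hx
    have h1 : expChar N m (ψ : Additive (S22.Gam N) →+ ZMod m) = 1 := hKI hd h₀ hh₀
    apply Subtype.ext
    apply AddMonoidHom.ext
    intro γ
    have h2 : expChar N m (ψ : Additive (S22.Gam N) →+ ZMod m) (Additive.toMul γ) = 1 := by
      rw [h1, MonoidHom.one_apply]
    exact (expChar_eq_one_iff N m _ _).mp h2
  · -- Hecke compatibility
    intro ℓ _ hℓN χ χ' hχ
    show θ χ' = heckeOperatorBar N ⟨ℓ, Fact.out⟩ (θ χ)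
    obtain ⟨u, f₀, hd, hx⟩ := hθ χ
    obtain ⟨U, h₀, hd₀, hx₀⟩ := hKH ℓ hℓN hd
    rw [heckeChar_expChar hℓN _ _ hχ] at hd₀
    exact huniq χ' _ _ (hθ χ') ⟨U, h₀, hd₀, hx₀ _ hx⟩

end Kummer

end Fermat.Agent.S29
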