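import Mathlib
import Fermat.Agent.S29.KummerTop
import Fermat.Agent.S29.KummerPieces
import Fermat.Agent.S29.ConstOfOrd

/-!
# S29 (wave 5), package K: the Kummer map from its four deep inputs

`exists_theta_of_four` : the Kummer map `Θ : peHoms N (ℤ/m) →+ J₀(N)(ℚ̄)` (injective and
Hecke-equivariant) from

* the descent `ℂ → ℚ̄` of a Kummer function (`hDesc`, the statement of `Desc.exists_rational`),
* well-definedness (`hKU`), injectivity (`hKI`) and Hecke compatibility (`hKH`)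

in the shapes of the package interface; all other pieces of `Kummer.exists_theta_of` are
discharged from the landed internals (`KummerPieces.lean`, `ConstOfOrd.lean`).
-/

set_option autoImplicit false

open scoped MatrixGroups Manifold
open UpperHalfPlane ModularCurve AlgebraicCurve

namespace Fermat.Agent.S29

local notation "Qb" => AlgebraicClosure ℚ

namespace Kummer

theorem exists_theta_of_four (N : ℕ) [NeZero N] (m : ℕ) [NeZero m] (ι : Qb →+* ℂ)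
    (hDesc : ∀ (χ : S22.Gam N →* ℂˣ), (∀ γ, χ γ ^ m = 1) →
      (∀ γ : S22.Gam N, (γ : SL(2, ℤ)) = ModularGroup.T → χ γ = 1) →
      ∀ (u₁ : ℍ → ℂ), MDiff u₁ → u₁ ≠ 0 →
      (∀ (γ : S22.Gam N) (z : ℍ), u₁ ((γ : SL(2, ℤ)) • z) = (χ γ : ℂ) * u₁ z) →
      S20.IsWH (CongruenceSubgroup.Gamma0 N) (fun z => u₁ z ^ m) →
      (∀ x : S24.FF ℂ N, (x : LaurentSeries ℂ) = S24.qLaurentFun (fun z => u₁ z ^ m) →
        ∀ v : Place ℂ (S24.FF ℂ N), (m : ℤ) ∣ v.ord x) →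
      ∃ u : ℍ → ℂ, MDiff u ∧ u ≠ 0 ∧
        (∀ (γ : S22.Gam N) (z : ℍ), u ((γ : SL(2, ℤ)) • z) = (χ γ : ℂ) * u z) ∧
        S20.IsWH (CongruenceSubgroup.Gamma0 N) (fun z => u z ^ m) ∧
        ∃ (y : LaurentSeries Qb) (f₀ : S24.FF Qb N), coeffMap ι y = S24.qLaurentFun u ∧
          (f₀ : LaurentSeries Qb) = y ^ m ∧
          ((S24.CoeffBC.bc ι (modularFunctionFieldFull N) f₀ : S24.FF ℂ N) : LaurentSeries ℂ)
            = S24.qLaurentFun (fun z => u z ^ m))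
    (hKU : ∀ {χ : S22.Gam N →* ℂˣ} {u u' : ℍ → ℂ} {f₀ f₀' : modularFunctionFieldBar N},
      IsKummerDatum N m ι χ u f₀ → IsKummerDatum N m ι χ u' f₀' →
        ∃ h₀ : modularFunctionFieldBar N, h₀ ≠ 0 ∧ f₀ = f₀' * h₀ ^ m)
    (hKI : ∀ {χ : S22.Gam N →* ℂˣ} {u : ℍ → ℂ} {f₀ : modularFunctionFieldBar N},
      IsKummerDatum N m ι χ u f₀ → ∀ h₀ : modularFunctionFieldBar N, f₀ = h₀ ^ m → χ = 1)
    (hKH : ∀ (ℓ : ℕ) [Fact ℓ.Prime] (hℓN : ¬ ℓ ∣ N) {χ : S22.Gam N →* ℂˣ} {u : ℍ → ℂ}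
      {f₀ : modularFunctionFieldBar N}, IsKummerDatum N m ι χ u f₀ →
        ∃ (U : ℍ → ℂ) (h₀ : modularFunctionFieldBar N),
          IsKummerDatum N m ι (Betti.heckeChar hℓN χ) U h₀ ∧
          ∀ x : JZero N, IsRootClass m f₀ x →
            IsRootClass m h₀ (heckeOperatorBar N ⟨ℓ, Fact.out⟩ x)) :
    ∃ Θ : peHoms N (ZMod m) →+ JZero N, Function.Injective Θ ∧
      ∀ (ℓ : ℕ) [Fact ℓ.Prime] (hℓN : ¬ ℓ ∣ N) (χ χ' : peHoms N (ZMod m)),
        (∀ γ : S22.Gam N, (χ' : Additive (S22.Gam N) →+ ZMod m) (Additive.ofMul γ) =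
          ∑ x : OnePoint (ZMod ℓ),
            (χ : Additive (S22.Gam N) →+ ZMod m) (Additive.ofMul (S22.gamT hℓN γ x))) →
        Θ χ' = heckeOperatorBar N ⟨ℓ, Fact.out⟩ (Θ χ) :=
  exists_theta_of N m ι
    (fun ψ => KummerPieces.exists_datum_of N m ι hDesc ψ)
    (fun ψ _ _ h => KummerPieces.dvd_ord N m ι ψ h)
    (fun hf hdiv => KummerPieces.exists_isRootClass N m hf hdiv)
    (fun hx hy => KummerPieces.isRootClass_unique N m hx hy)
    (fun hf hg _ _ hx hy => KummerPieces.isRootClass_mul N m hf hg hx hy)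
    (fun hh => KummerPieces.isRootClass_pow N m hh)
    (fun hf h => ConstOfOrd.exists_pow_of_isRootClass_zero N m hf h)
    (fun h h' => KummerPieces.isKummerDatum_mul N m ι h h')
    hKU hKI hKH

end Kummer

end Fermat.Agent.S29
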