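import Mathlib
import Fermat.Agent.S37.HeckeInputs
import Fermat.Agent.S37.Conjugates

/-!
# S29, package K4 (algebraic half): the Hecke correspondence on a principal divisor

For a prime `ℓ ∤ N` and `f ≠ 0` in the function field `F_N` of `X₀(N)` over `ℚ̄`:
`T_ℓ (div f) = div h` with `h = N_α (β f)`, and the `q`-expansion of `h` is determined by
`h(q^ℓ) = f(q^(ℓ²)) ∏_{b < ℓ} f(ζ^b q)`.
-/

set_option autoImplicit false
set_option linter.style.haveILetI false

namespace Fermat.Agent.S29.K4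

open ModularCurve AlgebraicCurve Polynomial
open Fermat.Agent.S37

noncomputable section

local notation "Qb" => AlgebraicClosure ℚ

attribute [local instance 10000] Module.Free.of_divisionRing

variable (N ℓ : ℕ) [NeZero N] [NeZero ℓ]

/-- The norm along the inclusion `α : F_N → F_{Nℓ}`. -/
def normAlpha (x : ↥(modularFunctionFieldBar (N * ℓ))) : ↥(modularFunctionFieldBar N) :=
  letI := algebraAlong (heckeAlphaBar Qb N ℓ)
  Algebra.norm ↥(modularFunctionFieldBar N) x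

/-- The norm along `β : F_N → F_{Nℓ}`, `q ↦ q^ℓ`. -/
def normBeta (x : ↥(modularFunctionFieldBar (N * ℓ))) : ↥(modularFunctionFieldBar N) :=
  letI := algebraAlong (heckeBetaBar Qb N ℓ)
  Algebra.norm ↥(modularFunctionFieldBar N) x

/-- Transport of the norm along an automorphism exchanging `α` and `β`. -/
theorem normAlpha_eq_normBeta
    (w : ↥(modularFunctionFieldBar (N * ℓ)) ≃ₐ[Qb] ↥(modularFunctionFieldBar (N * ℓ)))
    (hwα : (w : ↥(modularFunctionFieldBar (N * ℓ)) →ₐ[Qb] ↥(modularFunctionFieldBar (N * ℓ))).comp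
      (heckeAlphaBar Qb N ℓ) = heckeBetaBar Qb N ℓ)
    (x : ↥(modularFunctionFieldBar (N * ℓ))) :
    normAlpha N ℓ x = normBeta N ℓ (w x) := by
  have he : RingHom.comp
      (@algebraMap ↥(modularFunctionFieldBar N) ↥(modularFunctionFieldBar (N * ℓ)) _ _
        (algebraAlong (heckeBetaBar Qb N ℓ)))
      ((RingEquiv.refl ↥(modularFunctionFieldBar N) : ↥(modularFunctionFieldBar N) ≃+*
        ↥(modularFunctionFieldBar N)) : ↥(modularFunctionFieldBar N) →+*
          ↥(modularFunctionFieldBar N))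
      = RingHom.comp ((w.toRingEquiv : ↥(modularFunctionFieldBar (N * ℓ)) ≃+*
          ↥(modularFunctionFieldBar (N * ℓ))) : ↥(modularFunctionFieldBar (N * ℓ)) →+*
            ↥(modularFunctionFieldBar (N * ℓ)))
        (@algebraMap ↥(modularFunctionFieldBar N) ↥(modularFunctionFieldBar (N * ℓ)) _ _
          (algebraAlong (heckeAlphaBar Qb N ℓ))) := by
    refine RingHom.ext fun g => ?_
    have h := congrArg (fun χ : ↥(modularFunctionFieldBar N) →ₐ[Qb]
      ↥(modularFunctionFieldBar (N * ℓ)) => χ g) hwα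
    exact h.symm
  have key := @Algebra.norm_eq_of_equiv_equiv ↥(modularFunctionFieldBar N)
    ↥(modularFunctionFieldBar (N * ℓ)) ↥(modularFunctionFieldBar N)
    ↥(modularFunctionFieldBar (N * ℓ)) _ _ _ _ (algebraAlong (heckeAlphaBar Qb N ℓ))
    (algebraAlong (heckeBetaBar Qb N ℓ)) (RingEquiv.refl _) w.toRingEquiv he x
  exact key

/-- `β^* (div f) = div (β f)`. -/
theorem pullbackAlong_beta_apply (hβ : HeckeBetaBarIntegral Qb N ℓ)
    {f : ↥(modularFunctionFieldBar N)} {E : Divisor Qb ↥(modularFunctionFieldBar N)}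
    (hE : ∀ v : Place Qb ↥(modularFunctionFieldBar N), E v = v.ord f)
    (w : Place Qb ↥(modularFunctionFieldBar (N * ℓ))) :
    Divisor.pullbackAlong (heckeBetaBar Qb N ℓ) hβ E w = w.ord (heckeBetaBar Qb N ℓ f) := by
  letI := algebraAlong (heckeBetaBar Qb N ℓ)
  haveI := isScalarTower_along (heckeBetaBar Qb N ℓ)
  haveI := isIntegral_along (heckeBetaBar Qb N ℓ) hβ
  exact Divisor.pullback_apply_eq_ord hE w

/-- **`T_ℓ (div f) = div (N_α (β f))`.** -/
theorem heckeDivBar_apply_of_ord (hα : HeckeAlphaBarIntegral Qb N ℓ)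
    (hβ : HeckeBetaBarIntegral Qb N ℓ)
    {f : ↥(modularFunctionFieldBar N)} (hf : f ≠ 0)
    {E : Divisor Qb ↥(modularFunctionFieldBar N)}
    (hE : ∀ v : Place Qb ↥(modularFunctionFieldBar N), E v = v.ord f)
    (v : Place Qb ↥(modularFunctionFieldBar N)) :
    heckeDivBar hα hβ E v = v.ord (normAlpha N ℓ (heckeBetaBar Qb N ℓ f)) := by
  have h1 := pullbackAlong_beta_apply N ℓ hβ hE
  have hN := HeckeInputs.alphaNormFormula N ℓ
  have hf' : heckeBetaBar Qb N ℓ f ≠ 0 := (_root_.map_ne_zero _).mpr hf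
  show Divisor.pushforwardAlong (heckeAlphaBar Qb N ℓ) hα
    (Divisor.pullbackAlong (heckeBetaBar Qb N ℓ) hβ E) v = _
  letI := algebraAlong (heckeAlphaBar Qb N ℓ)
  haveI := isScalarTower_along (heckeAlphaBar Qb N ℓ)
  haveI : Module.Finite ↥(modularFunctionFieldBar N) ↥(modularFunctionFieldBar (N * ℓ)) :=
    HeckeInputs.alphaFinite N ℓ
  exact hN (heckeBetaBar Qb N ℓ f) hf' _ h1 v

theorem normAlpha_ne_zero {x : ↥(modularFunctionFieldBar (N * ℓ))} (hx : x ≠ 0) :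
    normAlpha N ℓ x ≠ 0 := by
  letI := algebraAlong (heckeAlphaBar Qb N ℓ)
  haveI : Module.Finite ↥(modularFunctionFieldBar N) ↥(modularFunctionFieldBar (N * ℓ)) :=
    HeckeInputs.alphaFinite N ℓ
  exact Algebra.norm_ne_zero_iff.mpr hx

/-- **The `q`-expansion of `N_α (β f)`**: `h(q^ℓ) = f(q^(ℓ²)) ∏_{b < ℓ} f(ζ^b q)`. -/
theorem qExpand_normAlpha_beta (hℓ : ℓ.Prime) (hℓN : ¬ ℓ ∣ N) (ζ : Qbˣ)
    (hζ : IsPrimitiveRoot ζ ℓ) (f : ↥(modularFunctionFieldBar N)) :
    qExpand Qb ℓ ((normAlpha N ℓ (heckeBetaBar Qb N ℓ f) : ↥(modularFunctionFieldBar N)) :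
        LaurentSeries Qb)
      = qExpand Qb ℓ (qExpand Qb ℓ (f : LaurentSeries Qb))
        * ∏ b ∈ Finset.range ℓ, Fermat.Agent.S28.tw (ζ ^ b) (f : LaurentSeries Qb) := by
  obtain ⟨w, hwα, hwβ⟩ := AtkinLehner.exists_atkinLehner N ℓ hℓ hℓN
  have h1 : w (heckeBetaBar Qb N ℓ f) = heckeAlphaBar Qb N ℓ f :=
    congrArg (fun χ : ↥(modularFunctionFieldBar N) →ₐ[Qb]
      ↥(modularFunctionFieldBar (N * ℓ)) => χ f) hwβ
  rw [normAlpha_eq_normBeta N ℓ w hwα, h1]
  have key := Conjugates.norm_beta N ℓ hℓ hℓN w hwα hwβ ζ hζ (heckeAlphaBar Qb N ℓ f)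
  rw [Conjugates.baseHom_apply, Conjugates.sigmaInf_alpha N ℓ w hwα] at key
  rw [normBeta, key]
  exact congrArg _ (Finset.prod_congr rfl fun b _ => Conjugates.rot_alpha N ℓ ζ b f)

/-- **(K4-alg)** the Hecke correspondence on a principal divisor, with the `q`-expansion of the
resulting function. -/
theorem exists_hecke_function (hℓ : ℓ.Prime) (hℓN : ¬ ℓ ∣ N)
    (hα : HeckeAlphaBarIntegral Qb N ℓ) (hβ : HeckeBetaBarIntegral Qb N ℓ)
    {f : ↥(modularFunctionFieldBar N)} (hf : f ≠ 0)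
    {E : Divisor Qb ↥(modularFunctionFieldBar N)}
    (hE : ∀ v : Place Qb ↥(modularFunctionFieldBar N), E v = v.ord f) :
    ∃ h : ↥(modularFunctionFieldBar N), h ≠ 0 ∧
      (∀ v : Place Qb ↥(modularFunctionFieldBar N), heckeDivBar hα hβ E v = v.ord h) ∧
      ∀ ζ : Qbˣ, IsPrimitiveRoot ζ ℓ →
        qExpand Qb ℓ (h : LaurentSeries Qb)
          = qExpand Qb ℓ (qExpand Qb ℓ (f : LaurentSeries Qb))
            * ∏ b ∈ Finset.range ℓ, Fermat.Agent.S28.tw (ζ ^ b) (f : LaurentSeries Qb) :=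
  ⟨normAlpha N ℓ (heckeBetaBar Qb N ℓ f),
    normAlpha_ne_zero N ℓ ((_root_.map_ne_zero _).mpr hf),
    fun v => heckeDivBar_apply_of_ord N ℓ hα hβ hf hE v,
    fun ζ hζ => qExpand_normAlpha_beta N ℓ hℓ hℓN ζ hζ f⟩

/-- **(K4-alg)**, divisor-class form: if `m • D = div f` then `m • T_ℓ D = div h`, with the
`q`-expansion of `h` given by `h(q^ℓ) = f(q^(ℓ²)) ∏_{b < ℓ} f(ζ^b q)`. -/
theorem exists_hecke_function_nsmul (hℓ : ℓ.Prime) (hℓN : ¬ ℓ ∣ N)
    (hα : HeckeAlphaBarIntegral Qb N ℓ) (hβ : HeckeBetaBarIntegral Qb N ℓ) (m : ℕ)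
    {f : ↥(modularFunctionFieldBar N)} (hf : f ≠ 0)
    {D : Divisor Qb ↥(modularFunctionFieldBar N)}
    (hD : ∀ v : Place Qb ↥(modularFunctionFieldBar N), (m • D) v = v.ord f) :
    ∃ h : ↥(modularFunctionFieldBar N), h ≠ 0 ∧
      (∀ v : Place Qb ↥(modularFunctionFieldBar N),
        (m • heckeDivBar hα hβ D) v = v.ord h) ∧
      ∀ ζ : Qbˣ, IsPrimitiveRoot ζ ℓ →
        qExpand Qb ℓ (h : LaurentSeries Qb)
          = qExpand Qb ℓ (qExpand Qb ℓ (f : LaurentSeries Qb))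
            * ∏ b ∈ Finset.range ℓ, Fermat.Agent.S28.tw (ζ ^ b) (f : LaurentSeries Qb) := by
  obtain ⟨h, h0, hdiv, hq⟩ := exists_hecke_function N ℓ hℓ hℓN hα hβ hf hD
  refine ⟨h, h0, fun v => ?_, hq⟩
  rw [← map_nsmul]
  exact hdiv v

end

end Fermat.Agent.S29.K4
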