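import Mathlib
import Fermat.Agent.S24.QLaurent
import Fermat.Agent.S28.SeriesBasic
import Fermat.Agent.S22.HeckeDefs
import Fermat.Agent.S29.HeckeChar
import Fermat.Agent.S29.K4Norm

/-!
# S29, package K4 (analytic half): the Hecke product of a periodic function

For `F : ℍ → ℂ` holomorphic, `1`-periodic and meromorphic at `i∞` and `ℓ ≥ 1`, the function
`G z = ∏_x F (α_x z)` (`α_x` the `ℓ + 1` coset representatives of `T_ℓ`) is again of this kind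
and its `q`-expansion is determined by `G(q^ℓ) = F(q^(ℓ²)) ∏_{b < ℓ} F(ζ^b q)`.
-/

set_option autoImplicit false
set_option linter.style.haveILetI false

open UpperHalfPlane hiding I
open Complex Filter Function
open scoped Topology Manifold MatrixGroups

namespace Fermat.Agent.S29.K4

open Fermat.Agent.S24 Fermat.Agent.S22 ModularCurve

/-! ### `q`-expansions: coefficientwise characterisation -/

/-- The Laurent expansion of a function in `PM` converges to it. -/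
theorem exists_hasSum_of_isPM {F : ℍ → ℂ} (hF : IsPM F) :
    ∃ n : ℕ, (∀ k : ℤ, k < -(n : ℤ) → (qLaurentFun F).coeff k = 0) ∧
      ∀ τ : ℍ, HasSum (fun m : ℕ => (qLaurentFun F).coeff ((m : ℤ) - n) * qH τ ^ m)
        (qH τ ^ n * F τ) := by
  obtain ⟨n, hn⟩ := hF.bdd
  refine ⟨n, fun k hk => ?_, fun τ => ?_⟩
  · rw [qLaurentFun_eq hF hn, HahnSeries.coeff_single_mul, one_mul, sub_neg_eq_add,
      ModularCurve.ofPowerSeries_coeff_of_neg _ (by omega)]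
  · have h := (hF.isHPB hn).hasSum τ
    have e : (fun m : ℕ => (qLaurentFun F).coeff ((m : ℤ) - n) * qH τ ^ m) =
        fun m : ℕ => (qExpansion 1 (fun z => qH z ^ n * F z)).coeff m * qH τ ^ m := by
      funext m
      rw [qLaurentFun_eq hF hn, HahnSeries.coeff_single_mul, one_mul, sub_neg_eq_add,
        sub_add_cancel, HahnSeries.ofPowerSeries_apply_coeff]
    rw [e]
    exact h

/-- Uniqueness of the Laurent expansion. -/
theorem qLaurentFun_eq_of_hasSum_coeff {f : ℍ → ℂ} (hmd : MDiff f)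
    (hper : Function.Periodic (f ∘ ofComplex) ((1 : ℝ) : ℂ)) (L : LaurentSeries ℂ) (n : ℕ)
    (hL : ∀ k : ℤ, k < -(n : ℤ) → L.coeff k = 0)
    (h : ∀ τ : ℍ, HasSum (fun m : ℕ => L.coeff ((m : ℤ) - n) * qH τ ^ m) (qH τ ^ n * f τ)) :
    IsPM f ∧ qLaurentFun f = L := by
  obtain ⟨hpm, hq⟩ := qLaurentFun_eq_of_hasSum hmd hper (n := n)
    (c := fun m : ℕ => L.coeff ((m : ℤ) - n)) h
  refine ⟨hpm, ?_⟩
  rw [hq]
  ext k
  rw [HahnSeries.coeff_single_mul, one_mul, sub_neg_eq_add]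
  by_cases hk : k + (n : ℤ) < 0
  · rw [ModularCurve.ofPowerSeries_coeff_of_neg _ hk, hL k (by omega)]
  · push Not at hk
    obtain ⟨m, hm⟩ := Int.eq_ofNat_of_zero_le hk
    rw [hm, HahnSeries.ofPowerSeries_apply_coeff, PowerSeries.coeff_mk,
      show ((m : ℤ) - n) = k by omega]

/-- A `1`-periodic function is invariant under integer translations. -/
theorem eq_of_coe_eq_add_int {F : ℍ → ℂ}
    (hF : Function.Periodic (F ∘ ofComplex) ((1 : ℝ) : ℂ)) {w w' : ℍ} (k : ℤ)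
    (h : (w' : ℂ) = w + k) : F w' = F w := by
  have h1 := (hF.int_mul k) (w : ℂ)
  simp only [comp_apply, ofReal_one, mul_one] at h1
  rw [← h, ofComplex_apply, ofComplex_apply] at h1
  exact h1

/-- Composition with a map of `ℍ` induced by an entire function. -/
theorem mdiff_comp_of_coe {F : ℍ → ℂ} (hF : MDiff F) (φ : ℍ → ℍ) (g : ℂ → ℂ)
    (hg : Differentiable ℂ g) (hφ : ∀ z : ℍ, (φ z : ℂ) = g z) : MDiff (fun z => F (φ z)) := by
  rw [UpperHalfPlane.mdifferentiable_iff]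
  have hj := UpperHalfPlane.mdifferentiable_iff.mp hF
  have hmaps : Set.MapsTo g {z : ℂ | 0 < z.im} {z : ℂ | 0 < z.im} := by
    intro w hw
    have hw' : 0 < w.im := hw
    show 0 < (g w).im
    have := hφ ⟨w, hw'⟩
    rw [show (g w) = ((φ ⟨w, hw'⟩ : ℍ) : ℂ) from (hφ ⟨w, hw'⟩).symm]
    exact (φ ⟨w, hw'⟩).im_pos
  have hcomp : DifferentiableOn ℂ ((F ∘ ofComplex) ∘ g) {z : ℂ | 0 < z.im} :=
    hj.comp hg.differentiableOn hmaps
  refine hcomp.congr fun w hw => ?_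
  have hw' : 0 < (g w).im := hmaps hw
  simp only [comp_apply]
  congr 1
  apply UpperHalfPlane.ext
  rw [hφ, ofComplex_apply_of_im_pos hw, ofComplex_apply_of_im_pos hw']

theorem qH_eq_exp (z : ℍ) : qH z = Complex.exp (2 * Real.pi * I * z) := by
  unfold qH Function.Periodic.qParam
  simp

/-! ### dilation `z ↦ ℓ z` -/

theorem qH_dil {ℓ : ℕ} {w z : ℍ} (h : (w : ℂ) = ℓ * z) : qH w = qH z ^ ℓ := by
  rw [qH_eq_exp, qH_eq_exp, h, ← Complex.exp_nat_mul]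
  congr 1
  ring

/-- The `q`-expansion of `z ↦ F (ℓ z)`. -/
theorem isPM_dil {ℓ : ℕ} [NeZero ℓ] {F : ℍ → ℂ} (hF : IsPM F) (φ : ℍ → ℍ)
    (hφ : ∀ z : ℍ, (φ z : ℂ) = ℓ * z) :
    IsPM (fun z => F (φ z)) ∧
      qLaurentFun (fun z => F (φ z)) = qExpand ℂ ℓ (qLaurentFun F) := by
  have hℓ : (0 : ℤ) < ℓ := by exact_mod_cast NeZero.pos ℓ
  obtain ⟨n, hL, hsum⟩ := exists_hasSum_of_isPM hF
  have hmd : MDiff (fun z => F (φ z)) :=
    mdiff_comp_of_coe hF.mdiff φ (fun w => (ℓ : ℂ) * w) (by fun_prop) hφ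
  have hper : Function.Periodic ((fun z => F (φ z)) ∘ ofComplex) ((1 : ℝ) : ℂ) := by
    refine periodic_comp_ofComplex_of fun z => ?_
    refine eq_of_coe_eq_add_int hF.per (ℓ : ℤ) ?_
    rw [hφ, hφ, UpperHalfPlane.coe_vadd]
    push_cast
    ring
  refine qLaurentFun_eq_of_hasSum_coeff hmd hper _ (ℓ * n) (fun k hk => ?_) (fun τ => ?_)
  · by_cases hdk : (ℓ : ℤ) ∣ k
    · obtain ⟨k', rfl⟩ := hdk
      rw [qExpand_coeff_mul]
      apply hL
      push_cast at hk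
      by_contra hcon
      push Not at hcon
      nlinarith
    · exact qExpand_coeff_of_not_dvd ℓ _ hdk
  · have h := hsum (φ τ)
    rw [qH_dil (hφ τ)] at h
    have hinj : Function.Injective (fun m : ℕ => ℓ * m) :=
      fun a b hab => Nat.eq_of_mul_eq_mul_left (NeZero.pos ℓ) hab
    have key := (Function.Injective.hasSum_iff (f := fun k : ℕ =>
        (qExpand ℂ ℓ (qLaurentFun F)).coeff ((k : ℤ) - ((ℓ * n : ℕ) : ℤ)) * qH τ ^ k)
        (a := qH τ ^ (ℓ * n) * F (φ τ)) hinj ?_).mp ?_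
    · exact key
    · intro k hk
      have hdk : ¬ (ℓ : ℤ) ∣ ((k : ℤ) - ((ℓ * n : ℕ) : ℤ)) := by
        intro hd
        apply hk
        have h2 : (ℓ : ℤ) ∣ (k : ℤ) := by
          have h3 : (ℓ : ℤ) ∣ ((ℓ * n : ℕ) : ℤ) := by push_cast; exact dvd_mul_right _ _
          have := dvd_add hd h3
          simpa using this
        obtain ⟨c, hc⟩ := Int.natCast_dvd_natCast.mp h2
        exact ⟨c, hc.symm⟩
      show (qExpand ℂ ℓ (qLaurentFun F)).coeff ((k : ℤ) - ((ℓ * n : ℕ) : ℤ)) * qH τ ^ k = 0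
      rw [qExpand_coeff_of_not_dvd ℓ _ hdk, zero_mul]
    · have e : ((fun k : ℕ =>
          (qExpand ℂ ℓ (qLaurentFun F)).coeff ((k : ℤ) - ((ℓ * n : ℕ) : ℤ)) * qH τ ^ k) ∘
          fun m : ℕ => ℓ * m) =
          fun m : ℕ => (qLaurentFun F).coeff ((m : ℤ) - n) * (qH τ ^ ℓ) ^ m := by
        funext m
        simp only [comp_apply]
        rw [show (((ℓ * m : ℕ) : ℤ) - ((ℓ * n : ℕ) : ℤ)) = (ℓ : ℤ) * ((m : ℤ) - n) by
          push_cast; ring, qExpand_coeff_mul, pow_mul]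
      rw [e, pow_mul]
      exact h

/-! ### real translations -/

theorem qH_shift {t : ℝ} {w z : ℍ} (h : (w : ℂ) = z + t) :
    qH w = Complex.exp (2 * Real.pi * I * t) * qH z := by
  rw [qH_eq_exp, qH_eq_exp, h, ← Complex.exp_add]
  congr 1
  ring

/-- The `q`-expansion of `z ↦ F (z + t)`, `t` real. -/
theorem isPM_shift {F : ℍ → ℂ} (hF : IsPM F) (t : ℝ) (ζ : ℂˣ)
    (hζ : (ζ : ℂ) = Complex.exp (2 * Real.pi * I * t)) (ψ : ℍ → ℍ)
    (hψ : ∀ z : ℍ, (ψ z : ℂ) = z + t) :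
    IsPM (fun z => F (ψ z)) ∧
      qLaurentFun (fun z => F (ψ z)) = S28.tw ζ (qLaurentFun F) := by
  obtain ⟨n, hL, hsum⟩ := exists_hasSum_of_isPM hF
  have hmd : MDiff (fun z => F (ψ z)) :=
    mdiff_comp_of_coe hF.mdiff ψ (fun w => w + (t : ℂ)) (by fun_prop) hψ
  have hper : Function.Periodic ((fun z => F (ψ z)) ∘ ofComplex) ((1 : ℝ) : ℂ) := by
    refine periodic_comp_ofComplex_of fun z => ?_
    refine eq_of_coe_eq_add_int hF.per (1 : ℤ) ?_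
    rw [hψ, hψ, UpperHalfPlane.coe_vadd]
    push_cast
    ring
  refine qLaurentFun_eq_of_hasSum_coeff hmd hper _ n (fun k hk => ?_) (fun τ => ?_)
  · rw [S28.tw_coeff, hL k hk, mul_zero]
  · have h := hsum (ψ τ)
    rw [qH_shift (hψ τ), ← hζ] at h
    have h2 := h.mul_left (((ζ⁻¹ : ℂˣ) : ℂ) ^ n)
    have e1 : ((ζ⁻¹ : ℂˣ) : ℂ) ^ n * (((ζ : ℂ) * qH τ) ^ n * F (ψ τ)) = qH τ ^ n * F (ψ τ) := by
      rw [mul_pow, ← mul_assoc, ← mul_assoc, ← mul_pow, Units.inv_mul, one_pow, one_mul]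
    have e2 : (fun m : ℕ => ((ζ⁻¹ : ℂˣ) : ℂ) ^ n *
        ((qLaurentFun F).coeff ((m : ℤ) - n) * ((ζ : ℂ) * qH τ) ^ m)) =
        fun m : ℕ => (S28.tw ζ (qLaurentFun F)).coeff ((m : ℤ) - n) * qH τ ^ m := by
      funext m
      rw [S28.tw_coeff, zpow_sub, zpow_natCast, zpow_natCast, Units.val_mul,
        Units.val_pow_eq_pow_val, ← inv_pow, Units.val_pow_eq_pow_val, mul_pow]
      ring
    rw [e1, e2] at h2
    exact h2

/-! ### descent of the growth condition along `z ↦ ℓ z` -/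

theorem isPM_of_isPM_dil {ℓ : ℕ} [NeZero ℓ] {G : ℍ → ℂ} (hmd : MDiff G)
    (hper : ∀ z : ℍ, G ((1 : ℝ) +ᵥ z) = G z) (φ : ℍ → ℍ)
    (hφ : ∀ z : ℍ, (φ z : ℂ) = ℓ * z) (h : IsPM (fun z => G (φ z))) : IsPM G := by
  have hℓ : (0 : ℝ) < ℓ := by exact_mod_cast NeZero.pos ℓ
  refine ⟨hmd, periodic_comp_ofComplex_of hper, ?_⟩
  obtain ⟨n, hn⟩ := h.bdd
  refine ⟨n, ?_⟩
  rw [UpperHalfPlane.isBoundedAtImInfty_iff] at hn ⊢
  obtain ⟨M, A, hMA⟩ := hn
  refine ⟨M, ℓ * A, fun z hz => ?_⟩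
  have hw : 0 < ((z : ℂ) / (ℓ : ℂ)).im := by
    rw [show ((z : ℂ) / (ℓ : ℂ)) = ((z : ℂ) / ((ℓ : ℝ) : ℂ)) by simp, Complex.div_ofReal_im]
    exact div_pos z.im_pos hℓ
  set w : ℍ := ⟨(z : ℂ) / (ℓ : ℂ), hw⟩ with hwdef
  have hwz : φ w = z := by
    apply UpperHalfPlane.ext
    rw [hφ]
    show (ℓ : ℂ) * ((z : ℂ) / (ℓ : ℂ)) = z
    have hℓC : (ℓ : ℂ) ≠ 0 := by exact_mod_cast (NeZero.ne ℓ)
    field_simp
  have hwim : A ≤ w.im := by
    have : w.im = z.im / ℓ := by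
      show ((z : ℂ) / (ℓ : ℂ)).im = z.im / ℓ
      rw [show ((z : ℂ) / (ℓ : ℂ)) = ((z : ℂ) / ((ℓ : ℝ) : ℂ)) by simp, Complex.div_ofReal_im]
      rfl
    rw [this, le_div_iff₀ hℓ]
    linarith
  have h1 := hMA w hwim
  rw [hwz] at h1
  have hq : qH z = qH w ^ ℓ := qH_dil (by rw [← hwz, hφ])
  calc ‖qH z ^ n * G z‖ = ‖qH w‖ ^ (ℓ * n) * ‖G z‖ := by
        rw [norm_mul, norm_pow, hq, norm_pow, ← pow_mul]
    _ ≤ ‖qH w‖ ^ n * ‖G z‖ := by
        refine mul_le_mul_of_nonneg_right ?_ (norm_nonneg _)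
        exact pow_le_pow_of_le_one (norm_nonneg _) (norm_qH_lt_one w).le
          (Nat.le_mul_of_pos_left n (NeZero.pos ℓ))
    _ = ‖qH w ^ n * G z‖ := by rw [norm_mul, norm_pow]
    _ ≤ M := h1

/-! ### finite products -/

theorem isPM_prod {ι : Type*} (s : Finset ι) (f : ι → ℍ → ℂ) (h : ∀ i ∈ s, IsPM (f i)) :
    IsPM (fun z => ∏ i ∈ s, f i z) ∧
      qLaurentFun (fun z => ∏ i ∈ s, f i z) = ∏ i ∈ s, qLaurentFun (f i) := by
  classical
  induction s using Finset.induction_on with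
  | empty =>
    simp only [Finset.prod_empty]
    refine ⟨isPM_const 1, ?_⟩
    rw [qLaurentFun_const, map_one]
  | insert a s ha ih =>
    have ih' := ih fun i hi => h i (Finset.mem_insert_of_mem hi)
    have ha' := h a (Finset.mem_insert_self a s)
    have e : (fun z => ∏ i ∈ insert a s, f i z) = f a * fun z => ∏ i ∈ s, f i z := by
      funext z
      rw [Finset.prod_insert ha]
      rfl
    rw [e, Finset.prod_insert ha, qLaurentFun_mul ha' ih'.1, ih'.2]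
    exact ⟨ha'.mul ih'.1, rfl⟩

theorem mdiff_prod {ι : Type*} (s : Finset ι) (f : ι → ℍ → ℂ) (h : ∀ i ∈ s, MDiff (f i)) :
    MDiff (fun z => ∏ i ∈ s, f i z) := by
  classical
  induction s using Finset.induction_on with
  | empty =>
    simp only [Finset.prod_empty]
    exact mdifferentiable_const
  | insert a s ha ih =>
    have ih' := ih fun i hi => h i (Finset.mem_insert_of_mem hi)
    have ha' := h a (Finset.mem_insert_self a s)
    have e : (fun z => ∏ i ∈ insert a s, f i z) = fun z => f a z * ∏ i ∈ s, f i z := by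
      funext z
      rw [Finset.prod_insert ha]
    rw [e]
    exact ha'.mul ih'

/-! ### independence of the primitive root -/

theorem prod_range_pow_eq_of_isPrimitiveRoot {R M : Type*} [CommRing R] [IsDomain R]
    [CommMonoid M] {ℓ : ℕ} [NeZero ℓ] {ζ ζ' : Rˣ} (hζ : IsPrimitiveRoot ζ ℓ) (hζ' : IsPrimitiveRoot ζ' ℓ)
    (g : Rˣ → M) : ∏ b ∈ Finset.range ℓ, g (ζ ^ b) = ∏ b ∈ Finset.range ℓ, g (ζ' ^ b) := by
  classical
  have inj : ∀ {η : Rˣ}, IsPrimitiveRoot η ℓ →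
      Set.InjOn (fun b : ℕ => η ^ b) (Finset.range ℓ : Set ℕ) := by
    intro η hη a ha b hb hab
    exact hη.pow_inj (Finset.mem_range.mp ha) (Finset.mem_range.mp hb) hab
  have himg : (Finset.range ℓ).image (fun b : ℕ => ζ' ^ b) =
      (Finset.range ℓ).image (fun b : ℕ => ζ ^ b) := by
    apply Finset.eq_of_subset_of_card_le
    · intro η hη
      obtain ⟨b, hb, rfl⟩ := Finset.mem_image.mp hη
      obtain ⟨i, hi, hi0⟩ := (IsPrimitiveRoot.coe_units_iff.mpr hζ).eq_pow_of_pow_eq_one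
        (show (ζ' : R) ^ ℓ = 1 by rw [← Units.val_pow_eq_pow_val, hζ'.pow_eq_one, Units.val_one])
      have hi' : ζ ^ i = ζ' := Units.ext (by rw [Units.val_pow_eq_pow_val, hi0])
      refine Finset.mem_image.mpr ⟨(i * b) % ℓ, Finset.mem_range.mpr (Nat.mod_lt _ ?_), ?_⟩
      · exact Nat.pos_of_ne_zero (by rintro rfl; simp at hb)
      · show ζ ^ ((i * b) % ℓ) = ζ' ^ b
        rw [← pow_eq_pow_mod _ hζ.pow_eq_one, pow_mul, hi']
    · rw [Finset.card_image_of_injOn (inj hζ), Finset.card_image_of_injOn (inj hζ')]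
  rw [← Finset.prod_image (s := Finset.range ℓ) (g := fun b : ℕ => ζ ^ b) (f := g) (inj hζ),
    ← Finset.prod_image (s := Finset.range ℓ) (g := fun b : ℕ => ζ' ^ b) (f := g) (inj hζ'),
    himg]

/-! ### the Hecke product -/

/-- The Hecke product `∏_x F (α_x z)` over the `ℓ + 1` coset representatives of `T_ℓ`. -/
noncomputable def heckeProd (ℓ : ℕ) [NeZero ℓ] (F : ℍ → ℂ) (z : ℍ) : ℂ :=
  ∏ x : OnePoint (ZMod ℓ), F (hRep ℓ x • z)

theorem heckeProd_eq (ℓ : ℕ) [NeZero ℓ] (F : ℍ → ℂ) (z : ℍ) :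
    heckeProd ℓ F z = F (ModularForm.heckeDiagMatrix ℓ • z) *
      ∏ j : ZMod ℓ, F (ModularForm.heckeMatrix ℓ j.val • z) :=
  Fintype.prod_option (fun x : OnePoint (ZMod ℓ) => F (hRep ℓ x • z))

theorem heckeProd_pow (ℓ : ℕ) [NeZero ℓ] (u : ℍ → ℂ) (m : ℕ) (z : ℍ) :
    heckeProd ℓ (fun w => u w ^ m) z = heckeProd ℓ u z ^ m := by
  unfold heckeProd
  rw [Finset.prod_pow]

theorem mdiff_heckeProd (ℓ : ℕ) [NeZero ℓ] {F : ℍ → ℂ} (hF : MDiff F) :
    MDiff (heckeProd ℓ F) := by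
  have hℓ : ℓ ≠ 0 := NeZero.ne ℓ
  refine mdiff_prod Finset.univ (fun (x : OnePoint (ZMod ℓ)) z => F (hRep ℓ x • z)) fun x _ => ?_
  induction x using OnePoint.rec with
  | infty =>
    exact mdiff_comp_of_coe hF (fun z => ModularForm.heckeDiagMatrix ℓ • z)
      (fun w => (ℓ : ℂ) * w) (by fun_prop) (ModularForm.coe_heckeDiagMatrix_smul hℓ)
  | coe j =>
    exact mdiff_comp_of_coe hF (fun z => ModularForm.heckeMatrix ℓ j.val • z)
      (fun w => (w + (j.val : ℂ)) / (ℓ : ℂ)) (by fun_prop)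
      (ModularForm.coe_heckeMatrix_smul hℓ j.val)

theorem heckeProd_vadd (ℓ : ℕ) [NeZero ℓ] {F : ℍ → ℂ}
    (hF : Function.Periodic (F ∘ ofComplex) ((1 : ℝ) : ℂ)) (z : ℍ) :
    heckeProd ℓ F ((1 : ℝ) +ᵥ z) = heckeProd ℓ F z := by
  have hℓ : ℓ ≠ 0 := NeZero.ne ℓ
  have hℓC : (ℓ : ℂ) ≠ 0 := by exact_mod_cast hℓ
  rw [heckeProd_eq, heckeProd_eq]
  congr 1
  · refine eq_of_coe_eq_add_int hF (ℓ : ℤ) ?_
    rw [ModularForm.coe_heckeDiagMatrix_smul hℓ, ModularForm.coe_heckeDiagMatrix_smul hℓ,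
      UpperHalfPlane.coe_vadd]
    push_cast
    ring
  · rw [← Equiv.prod_comp (Equiv.addRight (1 : ZMod ℓ))
      (fun j : ZMod ℓ => F (ModularForm.heckeMatrix ℓ j.val • z))]
    refine Finset.prod_congr rfl fun j _ => ?_
    have hval : (j + 1).val = (j.val + 1) % ℓ := by
      rw [ZMod.val_add, ZMod.val_one_eq_one_mod, Nat.add_mod_mod]
    have hdm := Nat.div_add_mod (j.val + 1) ℓ
    rw [← hval] at hdm
    generalize (j.val + 1) / ℓ = k at hdm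
    refine eq_of_coe_eq_add_int hF (k : ℤ) ?_
    simp only [Equiv.coe_addRight]
    rw [ModularForm.coe_heckeMatrix_smul hℓ, ModularForm.coe_heckeMatrix_smul hℓ,
      UpperHalfPlane.coe_vadd]
    have hdm' : (ℓ : ℂ) * (k : ℂ) + ((j + 1).val : ℂ) = (j.val : ℂ) + 1 := by
      exact_mod_cast congrArg (Nat.cast : ℕ → ℂ) hdm
    push_cast
    field_simp
    linear_combination -hdm'

/-- **(K4-an)** The Hecke product of a periodic function meromorphic at `i∞` is again of this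
kind, and its `q`-expansion is given by `G(q^ℓ) = F(q^(ℓ²)) ∏_{b<ℓ} F(ζ^b q)`. -/
theorem isPM_heckeProd (ℓ : ℕ) [NeZero ℓ] {F : ℍ → ℂ} (hF : IsPM F) (ζ : ℂˣ)
    (hζ : IsPrimitiveRoot ζ ℓ) :
    IsPM (heckeProd ℓ F) ∧
      qExpand ℂ ℓ (qLaurentFun (heckeProd ℓ F)) =
        qExpand ℂ ℓ (qExpand ℂ ℓ (qLaurentFun F)) *
          ∏ b ∈ Finset.range ℓ, S28.tw (ζ ^ b) (qLaurentFun F) := by
  have hℓ : ℓ ≠ 0 := NeZero.ne ℓ
  have hℓC : (ℓ : ℂ) ≠ 0 := by exact_mod_cast hℓ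
  set φ : ℍ → ℍ := fun z => ModularForm.heckeDiagMatrix ℓ • z with hφdef
  have hφ : ∀ z : ℍ, (φ z : ℂ) = ℓ * z := ModularForm.coe_heckeDiagMatrix_smul hℓ
  set ζ₀ : ℂˣ := Units.mk0 (Complex.exp (2 * Real.pi * I / ℓ)) (Complex.exp_ne_zero _)
    with hζ₀def
  have hζ₀ : IsPrimitiveRoot ζ₀ ℓ :=
    IsPrimitiveRoot.coe_units_iff.mp (Complex.isPrimitiveRoot_exp ℓ hℓ)
  have h1 := isPM_dil hF φ hφ
  have h2 := isPM_dil h1.1 φ hφ
  have h3 : ∀ j : ZMod ℓ, IsPM (fun z => F (ModularForm.heckeMatrix ℓ j.val • φ z)) ∧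
      qLaurentFun (fun z => F (ModularForm.heckeMatrix ℓ j.val • φ z)) =
        S28.tw (ζ₀ ^ j.val) (qLaurentFun F) := by
    intro j
    refine isPM_shift hF ((j.val : ℝ) / ℓ) (ζ₀ ^ j.val) ?_
      (fun z => ModularForm.heckeMatrix ℓ j.val • φ z) (fun z => ?_)
    · rw [Units.val_pow_eq_pow_val, hζ₀def, Units.val_mk0, ← Complex.exp_nat_mul]
      congr 1
      push_cast
      field_simp
    · rw [ModularForm.coe_heckeMatrix_smul hℓ, hφ]
      push_cast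
      field_simp
  have h4 := isPM_prod Finset.univ
    (fun (j : ZMod ℓ) z => F (ModularForm.heckeMatrix ℓ j.val • φ z)) (fun j _ => (h3 j).1)
  have e : (fun z => heckeProd ℓ F (φ z)) = (fun z => F (φ (φ z))) *
      fun z => ∏ j : ZMod ℓ, F (ModularForm.heckeMatrix ℓ j.val • φ z) := by
    funext z
    rw [heckeProd_eq]
    rfl
  have h5 : IsPM (fun z => heckeProd ℓ F (φ z)) := by
    rw [e]
    exact h2.1.mul h4.1
  have hG : IsPM (heckeProd ℓ F) :=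
    isPM_of_isPM_dil (mdiff_heckeProd ℓ hF.mdiff) (heckeProd_vadd ℓ hF.per) φ hφ h5
  refine ⟨hG, ?_⟩
  rw [← (isPM_dil hG φ hφ).2, e, qLaurentFun_mul h2.1 h4.1, h2.2, h1.2, h4.2]
  congr 1
  rw [Finset.prod_congr rfl (fun j _ => (h3 j).2),
    prod_range_pow_eq_of_isPrimitiveRoot hζ hζ₀ (fun η => S28.tw η (qLaurentFun F))]
  refine Finset.prod_nbij' (fun j : ZMod ℓ => j.val) (fun b : ℕ => (b : ZMod ℓ))
    (fun j _ => Finset.mem_range.mpr (ZMod.val_lt j)) (fun b _ => Finset.mem_univ _)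
    (fun j _ => ZMod.natCast_zmod_val j)
    (fun b hb => ZMod.val_cast_of_lt (Finset.mem_range.mp hb)) (fun j _ => rfl)

/-! ### transformation behaviour of the Hecke product -/

/-- `G (γ z) = ∏_x F (γ_x α_{γ x} z)`, with `γ_x ∈ Γ₀(N)` the coset cocycle. -/
theorem heckeProd_smul_eq {N ℓ : ℕ} [Fact ℓ.Prime] (hℓN : ¬ ℓ ∣ N) (F : ℍ → ℂ) (γ : Gam N)
    (z : ℍ) :
    heckeProd ℓ F ((γ : SL(2, ℤ)) • z) = ∏ x : OnePoint (ZMod ℓ),
      F ((gamT hℓN γ x : SL(2, ℤ)) • (hRep ℓ (redMat ℓ (γ : SL(2, ℤ)) • x) • z)) := by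
  unfold heckeProd
  refine Finset.prod_congr rfl fun x _ => ?_
  have h := gamT_spec hℓN γ x
  show F (hRep ℓ x • (Matrix.SpecialLinearGroup.mapGL ℝ (γ : SL(2, ℤ)) • z)) =
    F (Matrix.SpecialLinearGroup.mapGL ℝ (gamT hℓN γ x : SL(2, ℤ)) •
      (hRep ℓ (redMat ℓ (γ : SL(2, ℤ)) • x) • z))
  rw [← mul_smul, ← mul_smul, h]

/-- **(K4-mult)** the Hecke product of a function with multiplier `χ` has multiplier
`heckeChar χ`. -/
theorem heckeProd_smul {N ℓ : ℕ} [Fact ℓ.Prime] (hℓN : ¬ ℓ ∣ N) (χ : Gam N →* ℂˣ) {u : ℍ → ℂ}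
    (hu : ∀ (γ : Gam N) (z : ℍ), u ((γ : SL(2, ℤ)) • z) = (χ γ : ℂ) * u z) (γ : Gam N)
    (z : ℍ) :
    heckeProd ℓ u ((γ : SL(2, ℤ)) • z) = (Betti.heckeChar hℓN χ γ : ℂ) * heckeProd ℓ u z := by
  rw [heckeProd_smul_eq hℓN, Betti.heckeChar_apply, Units.coe_prod]
  have e : ∀ x : OnePoint (ZMod ℓ),
      u ((gamT hℓN γ x : SL(2, ℤ)) • (hRep ℓ (redMat ℓ (γ : SL(2, ℤ)) • x) • z)) =
        (χ (gamT hℓN γ x) : ℂ) * u (hRep ℓ (redMat ℓ (γ : SL(2, ℤ)) • x) • z) :=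
    fun x => hu _ _
  rw [Finset.prod_congr rfl fun x _ => e x, Finset.prod_mul_distrib]
  congr 1
  exact Equiv.prod_comp (MulAction.toPerm (redMat ℓ (γ : SL(2, ℤ))))
    (fun y : OnePoint (ZMod ℓ) => u (hRep ℓ y • z))

/-- The Hecke product of a `Γ₀(N)`-invariant function is `Γ₀(N)`-invariant. -/
theorem heckeProd_inv {N ℓ : ℕ} [Fact ℓ.Prime] (hℓN : ¬ ℓ ∣ N) {F : ℍ → ℂ}
    (hF : ∀ γ ∈ CongruenceSubgroup.Gamma0 N, ∀ z : ℍ, F (γ • z) = F z)
    (γ : SL(2, ℤ)) (hγ : γ ∈ CongruenceSubgroup.Gamma0 N) (z : ℍ) :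
    heckeProd ℓ F (γ • z) = heckeProd ℓ F z := by
  have h := heckeProd_smul_eq hℓN F ⟨γ, hγ⟩ z
  rw [show (((⟨γ, hγ⟩ : Gam N) : SL(2, ℤ))) = γ from rfl] at h
  rw [h, Finset.prod_congr rfl fun x _ => hF _ (gamT hℓN ⟨γ, hγ⟩ x).2 _]
  exact Equiv.prod_comp (MulAction.toPerm (redMat ℓ γ))
    (fun y : OnePoint (ZMod ℓ) => F (hRep ℓ y • z))

/-! ### growth at the cusps -/

theorem isBoundedAtImInfty_prod {ι : Type*} (s : Finset ι) (f : ι → ℍ → ℂ)
    (h : ∀ i ∈ s, IsBoundedAtImInfty (f i)) : IsBoundedAtImInfty (fun z => ∏ i ∈ s, f i z) := by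
  classical
  induction s using Finset.induction_on with
  | empty =>
    simp only [Finset.prod_empty]
    exact Filter.const_boundedAtFilter _ (1 : ℂ)
  | insert a s ha ih =>
    have ih' := ih fun i hi => h i (Finset.mem_insert_of_mem hi)
    have ha' := h a (Finset.mem_insert_self a s)
    have e : (fun z => ∏ i ∈ insert a s, f i z) = f a * fun z => ∏ i ∈ s, f i z := by
      funext z
      rw [Finset.prod_insert ha]
      rfl
    rw [e]
    exact ha'.mul ih'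

theorem im_hRep_smul_ge (ℓ : ℕ) [NeZero ℓ] (y : OnePoint (ZMod ℓ)) (z : ℍ) :
    z.im / ℓ ≤ (hRep ℓ y • z).im := by
  have hℓ : ℓ ≠ 0 := NeZero.ne ℓ
  have hℓR : (1 : ℝ) ≤ ℓ := by exact_mod_cast NeZero.one_le
  have hz := z.im_pos
  induction y using OnePoint.rec with
  | infty =>
    have h1 : (hRep ℓ (OnePoint.infty) • z).im = ℓ * z.im := by
      have := congrArg Complex.im (ModularForm.coe_heckeDiagMatrix_smul hℓ z)
      rw [show ((ℓ : ℂ) * (z : ℂ)) = (((ℓ : ℝ) : ℂ) * (z : ℂ)) by simp, Complex.im_ofReal_mul]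
        at this
      exact this
    rw [h1]
    calc z.im / ℓ ≤ z.im := div_le_self hz.le hℓR
      _ ≤ ℓ * z.im := le_mul_of_one_le_left hz.le hℓR
  | coe j =>
    have h1 : (hRep ℓ (j : OnePoint (ZMod ℓ)) • z).im = z.im / ℓ := by
      have := congrArg Complex.im (ModularForm.coe_heckeMatrix_smul hℓ j.val z)
      rw [show (((z : ℂ) + (j.val : ℂ)) / (ℓ : ℂ)) =
        (((z : ℂ) + ((j.val : ℝ) : ℂ)) / ((ℓ : ℝ) : ℂ)) by
          rw [Complex.ofReal_natCast, Complex.ofReal_natCast], Complex.div_ofReal_im,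
        Complex.add_im, Complex.ofReal_im, add_zero] at this
      exact this
    rw [h1]

/-- `‖q(z)‖ ^ ℓ ≤ ‖q(α_y z)‖`. -/
theorem norm_qH_pow_le (ℓ : ℕ) [NeZero ℓ] (y : OnePoint (ZMod ℓ)) (z : ℍ) :
    ‖qH z‖ ^ ℓ ≤ ‖qH (hRep ℓ y • z)‖ := by
  have hℓ : ℓ ≠ 0 := NeZero.ne ℓ
  have hℓC : (ℓ : ℂ) ≠ 0 := by exact_mod_cast hℓ
  induction y using OnePoint.rec with
  | infty =>
    have h1 : qH (hRep ℓ (OnePoint.infty) • z) = qH z ^ ℓ :=
      qH_dil (ModularForm.coe_heckeDiagMatrix_smul hℓ z)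
    rw [h1, norm_pow]
  | coe j =>
    have h1 : qH z = qH (hRep ℓ (j : OnePoint (ZMod ℓ)) • z) ^ ℓ := by
      rw [qH_eq_exp, qH_eq_exp, ← Complex.exp_nat_mul]
      have h2 : ((hRep ℓ (j : OnePoint (ZMod ℓ)) • z : ℍ) : ℂ) = ((z : ℂ) + (j.val : ℂ)) / ℓ :=
        ModularForm.coe_heckeMatrix_smul hℓ j.val z
      rw [h2]
      have h3 : (ℓ : ℂ) * (2 * Real.pi * I * (((z : ℂ) + (j.val : ℂ)) / ℓ)) =
          2 * Real.pi * I * z + (j.val : ℂ) * (2 * Real.pi * I) := by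
        field_simp
      rw [h3, Complex.exp_add, Complex.exp_nat_mul_two_pi_mul_I, mul_one]
    rw [h1, norm_pow, ← pow_mul]
    exact pow_le_of_le_one (norm_nonneg _) (norm_qH_lt_one _).le
      (Nat.mul_ne_zero hℓ hℓ)

/-- `Δ(z)^ℓ = O(Δ(α_y z))` at `i∞`, uniformly in the coset representative. -/
theorem exists_disc_pow_le (ℓ : ℕ) [NeZero ℓ] :
    ∃ C : ℝ, 0 ≤ C ∧ ∃ A : ℝ, ∀ (y : OnePoint (ZMod ℓ)) (z : ℍ), A ≤ z.im →
      ‖ModularForm.discriminant z‖ ^ ℓ ≤ C * ‖ModularForm.discriminant (hRep ℓ y • z)‖ := by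
  have hℓR : (0 : ℝ) < ℓ := by exact_mod_cast NeZero.pos ℓ
  -- `q = O(Δ)`
  obtain ⟨C₂, hC₂, h2⟩ := qH_isBigO_disc.exists_nonneg
  rw [Asymptotics.isBigOWith_iff] at h2
  obtain ⟨A₂, hA₂⟩ := (UpperHalfPlane.atImInfty_mem _).mp h2
  -- `Δ = O(q)`
  have h1' : (fun z : ℍ => ModularForm.discriminant z) =O[atImInfty] qH := by
    have h := CuspFormClass.exp_decay_atImInfty (h := 1) CuspForm.discriminant one_pos
      one_mem_strictPeriods_SL
    refine h.trans (Asymptotics.IsBigO.of_norm_right ?_)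
    have e : (fun z : ℍ => ‖qH z‖) = fun τ : ℍ => Real.exp (-2 * Real.pi * τ.im / 1) := by
      funext z
      simp [qH, Function.Periodic.qParam, Complex.norm_exp]
    rw [e]
    exact Asymptotics.isBigO_refl _ _
  obtain ⟨C₁, hC₁, h1⟩ := h1'.exists_nonneg
  rw [Asymptotics.isBigOWith_iff] at h1
  obtain ⟨A₁, hA₁⟩ := (UpperHalfPlane.atImInfty_mem _).mp h1
  refine ⟨C₁ ^ ℓ * C₂, mul_nonneg (pow_nonneg hC₁ _) hC₂, max A₁ (ℓ * A₂), fun y z hz => ?_⟩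
  have hz1 : A₁ ≤ z.im := le_trans (le_max_left _ _) hz
  have hz2 : A₂ ≤ (hRep ℓ y • z).im := by
    refine le_trans ?_ (im_hRep_smul_ge ℓ y z)
    rw [le_div_iff₀ hℓR]
    linarith [le_trans (le_max_right A₁ (ℓ * A₂)) hz]
  have e1 : ‖ModularForm.discriminant z‖ ≤ C₁ * ‖qH z‖ := hA₁ z hz1
  have e2 : ‖qH (hRep ℓ y • z)‖ ≤ C₂ * ‖ModularForm.discriminant (hRep ℓ y • z)‖ :=
    hA₂ _ hz2
  calc ‖ModularForm.discriminant z‖ ^ ℓ ≤ (C₁ * ‖qH z‖) ^ ℓ :=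
        pow_le_pow_left₀ (norm_nonneg _) e1 ℓ
    _ = C₁ ^ ℓ * ‖qH z‖ ^ ℓ := mul_pow _ _ _
    _ ≤ C₁ ^ ℓ * ‖qH (hRep ℓ y • z)‖ :=
        mul_le_mul_of_nonneg_left (norm_qH_pow_le ℓ y z) (pow_nonneg hC₁ _)
    _ ≤ C₁ ^ ℓ * (C₂ * ‖ModularForm.discriminant (hRep ℓ y • z)‖) :=
        mul_le_mul_of_nonneg_left e2 (pow_nonneg hC₁ _)
    _ = C₁ ^ ℓ * C₂ * ‖ModularForm.discriminant (hRep ℓ y • z)‖ := by ring

/-- A pole bound at `i∞` is preserved by composition with a coset representative. -/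
theorem isBoundedAtImInfty_comp_hRep (ℓ : ℕ) [NeZero ℓ] {F : ℍ → ℂ} {n : ℕ}
    (hb : IsBoundedAtImInfty (fun w : ℍ => F w * ModularForm.discriminant w ^ n))
    (y : OnePoint (ZMod ℓ)) :
    IsBoundedAtImInfty
      (fun z : ℍ => F (hRep ℓ y • z) * ModularForm.discriminant z ^ (ℓ * n)) := by
  have hℓR : (0 : ℝ) < ℓ := by exact_mod_cast NeZero.pos ℓ
  obtain ⟨C, hC, A', hA'⟩ := exists_disc_pow_le ℓ
  rw [UpperHalfPlane.isBoundedAtImInfty_iff] at hb ⊢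
  obtain ⟨M, A, hMA⟩ := hb
  refine ⟨C ^ n * M, max A' (ℓ * A), fun z hz => ?_⟩
  have hz1 : A' ≤ z.im := le_trans (le_max_left _ _) hz
  have hz2 : A ≤ (hRep ℓ y • z).im := by
    refine le_trans ?_ (im_hRep_smul_ge ℓ y z)
    rw [le_div_iff₀ hℓR]
    linarith [le_trans (le_max_right A' (ℓ * A)) hz]
  have e1 := hA' y z hz1
  have e2 := hMA _ hz2
  rw [norm_mul, norm_pow] at e2
  calc ‖F (hRep ℓ y • z) * ModularForm.discriminant z ^ (ℓ * n)‖
      = ‖F (hRep ℓ y • z)‖ * (‖ModularForm.discriminant z‖ ^ ℓ) ^ n := by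
        rw [norm_mul, norm_pow, pow_mul]
    _ ≤ ‖F (hRep ℓ y • z)‖ * (C * ‖ModularForm.discriminant (hRep ℓ y • z)‖) ^ n :=
        mul_le_mul_of_nonneg_left (pow_le_pow_left₀ (pow_nonneg (norm_nonneg _) _) e1 n)
          (norm_nonneg _)
    _ = C ^ n * (‖F (hRep ℓ y • z)‖ * ‖ModularForm.discriminant (hRep ℓ y • z)‖ ^ n) := by
        rw [mul_pow]
        ring
    _ ≤ C ^ n * M := mul_le_mul_of_nonneg_left e2 (pow_nonneg hC _)

/-- **The Hecke product of a weakly holomorphic `Γ₀(N)`-invariant function is weakly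
holomorphic.** -/
theorem isWH_heckeProd {N ℓ : ℕ} [Fact ℓ.Prime] (hℓN : ¬ ℓ ∣ N) {F : ℍ → ℂ}
    (hF : S20.IsWH (CongruenceSubgroup.Gamma0 N) F) :
    S20.IsWH (CongruenceSubgroup.Gamma0 N) (heckeProd ℓ F) := by
  refine ⟨mdiff_heckeProd ℓ hF.mdiff, fun γ hγ z => heckeProd_inv hℓN hF.inv γ hγ z, ?_⟩
  obtain ⟨n, hn⟩ := hF.bdd
  refine ⟨Fintype.card (OnePoint (ZMod ℓ)) * (ℓ * n), fun g => ?_⟩
  have hℓ1 : ¬ ℓ ∣ 1 := Nat.dvd_one.not.mpr (Fact.out : ℓ.Prime).ne_one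
  have hg : g ∈ CongruenceSubgroup.Gamma0 1 := by
    rw [CongruenceSubgroup.Gamma0_mem]
    exact Subsingleton.elim _ _
  have e : (fun z : ℍ => heckeProd ℓ F (g • z) *
      ModularForm.discriminant z ^ (Fintype.card (OnePoint (ZMod ℓ)) * (ℓ * n))) =
      fun z : ℍ => ∏ x : OnePoint (ZMod ℓ),
        (F ((gamT hℓ1 ⟨g, hg⟩ x : SL(2, ℤ)) • (hRep ℓ (redMat ℓ g • x) • z)) *
          ModularForm.discriminant z ^ (ℓ * n)) := by
    funext z
    have h := heckeProd_smul_eq hℓ1 F ⟨g, hg⟩ z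
    rw [show (((⟨g, hg⟩ : Gam 1) : SL(2, ℤ))) = g from rfl] at h
    rw [h, Finset.prod_mul_distrib, Finset.prod_const, Finset.card_univ, ← pow_mul, mul_comm (ℓ * n)]
  rw [e]
  exact isBoundedAtImInfty_prod _ _ fun x _ =>
    isBoundedAtImInfty_comp_hRep ℓ (F := fun w => F ((gamT hℓ1 ⟨g, hg⟩ x : SL(2, ℤ)) • w))
      (hn _) _

end Fermat.Agent.S29.K4
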