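import Mathlib
import Fermat.Agent.S29.KummerDatum
import Fermat.Agent.S29.HeckeChar
import Fermat.Agent.S29.K4Norm
import Fermat.Agent.S29.K4Analytic
import Fermat.Prelude.Def_ModularCurve_HeckeModule

/-!
# S29, package K, piece (KH): Hecke compatibility of Kummer data

If `(u, f₀)` is a Kummer datum for the character `χ` of `Γ₀(N)` and `ℓ ∤ N` is prime, then
`(U, h₀)` with `U z = ∏_x u (α_x z)` (the Hecke product) and `h₀ = N_α (β f₀)` is a Kummer datum
for `T_ℓ χ = heckeChar χ`, and `T_ℓ` maps root classes of `f₀` to root classes of `h₀`.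
-/

set_option autoImplicit false
set_option linter.style.haveILetI false

open scoped MatrixGroups Manifold
open UpperHalfPlane ModularCurve AlgebraicCurve

namespace Fermat.Agent.S29

local notation "Qb" => AlgebraicClosure ℚ

namespace Kummer

variable (N : ℕ) [NeZero N] (m : ℕ) [NeZero m] (ι : Qb →+* ℂ)

/-- (KH) = K4: Hecke compatibility -/
theorem hecke (ℓ : ℕ) [Fact ℓ.Prime] (hℓN : ¬ ℓ ∣ N) {χ : S22.Gam N →* ℂˣ} {u : ℍ → ℂ}
    {f₀ : modularFunctionFieldBar N} (h : IsKummerDatum N m ι χ u f₀) :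
    ∃ (U : ℍ → ℂ) (h₀ : modularFunctionFieldBar N),
      IsKummerDatum N m ι (Betti.heckeChar hℓN χ) U h₀ ∧
      ∀ x : JZero N, IsRootClass m f₀ x →
        IsRootClass m h₀ (heckeOperatorBar N ⟨ℓ, Fact.out⟩ x) := by
  have hℓ : ℓ.Prime := Fact.out
  have hm : m ≠ 0 := NeZero.ne m
  have hpm : S24.IsPM (fun z => u z ^ m) := S24.isPM_of_isWH N h.isWH
  -- `f₀ ≠ 0`
  have hf₀ : f₀ ≠ 0 := by
    rintro rfl
    have h1 := h.qexp
    rw [map_zero] at h1
    have h2 : (fun z => u z ^ m) = 0 := S24.qLaurentFun_eq_zero hpm h1.symm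
    apply h.ne_zero
    funext z
    have := congrFun h2 z
    simpa using (pow_eq_zero_iff hm).mp this
  -- a primitive root of unity
  obtain ⟨ζ', hζ'⟩ := HasEnoughRootsOfUnity.exists_primitiveRoot Qb ℓ
  obtain ⟨ζ, rfl⟩ : ∃ ζ : Qbˣ, (ζ : Qb) = ζ' :=
    ⟨Units.mk0 ζ' (hζ'.ne_zero hℓ.ne_zero), rfl⟩
  have hζ : IsPrimitiveRoot ζ ℓ := IsPrimitiveRoot.coe_units_iff.mp hζ'
  have hζC : IsPrimitiveRoot (Units.map (ι : Qb →* ℂ) ζ) ℓ :=
    hζ.map_of_injective (Units.map_injective (f := (ι : Qb →* ℂ)) ι.injective)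
  refine ⟨K4.heckeProd ℓ u, K4.normAlpha N ℓ (heckeBetaBar Qb N ℓ f₀), ?_, ?_⟩
  · have hh₀ : K4.normAlpha N ℓ (heckeBetaBar Qb N ℓ f₀) ≠ 0 :=
      K4.normAlpha_ne_zero N ℓ ((_root_.map_ne_zero _).mpr hf₀)
    have hpow : (fun z => K4.heckeProd ℓ u z ^ m) = K4.heckeProd ℓ (fun z => u z ^ m) := by
      funext z
      exact (K4.heckeProd_pow ℓ u m z).symm
    have hqexp : ((S24.CoeffBC.bc ι (modularFunctionFieldFull N)
        (K4.normAlpha N ℓ (heckeBetaBar Qb N ℓ f₀)) : S24.FF ℂ N) : LaurentSeries ℂ) =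
        S24.qLaurentFun (fun z => K4.heckeProd ℓ u z ^ m) := by
      apply qExpand_injective (R := ℂ) ℓ
      rw [hpow, (K4.isPM_heckeProd ℓ hpm _ hζC).2, ← h.qexp, S24.CoeffBC.coe_bc,
        S24.CoeffBC.coe_bc, ← S28.coeffMap_qExpand, K4.qExpand_normAlpha_beta N ℓ hℓ hℓN ζ hζ,
        map_mul, S28.coeffMap_qExpand, S28.coeffMap_qExpand, map_prod]
      congr 1
      refine Finset.prod_congr rfl fun b _ => ?_
      rw [S28.coeffMap_tw, map_pow]
    refine ⟨K4.mdiff_heckeProd ℓ h.mdiff, ?_, K4.heckeProd_smul hℓN χ h.mult, ?_, hqexp⟩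
    · intro hU
      apply hh₀
      have h1 : (fun z => K4.heckeProd ℓ u z ^ m) = fun _ => (0 : ℂ) := by
        funext z
        rw [hU]
        simp [hm]
      rw [h1, S24.qLaurentFun_const, map_zero, S24.CoeffBC.coe_bc] at hqexp
      have h3 : ((K4.normAlpha N ℓ (heckeBetaBar Qb N ℓ f₀) : modularFunctionFieldBar N) :
          LaurentSeries Qb) = 0 := by
        ext k
        have := congrArg (fun x : LaurentSeries ℂ => x.coeff k) hqexp
        simp only [coeffMap_coeff, HahnSeries.coeff_zero] at this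
        exact (map_eq_zero ι).mp this
      exact Subtype.ext h3
    · rw [hpow]
      exact K4.isWH_heckeProd hℓN h.isWH
  · rintro x ⟨D, rfl, hD⟩
    haveI : NeZero ℓ := ⟨hℓ.ne_zero⟩
    refine ⟨Pic0.degZeroCorrespondence (heckeBetaBar Qb N ℓ) (heckeAlphaBar Qb N ℓ)
      (S37.HeckeInputs.betaIntegral N ℓ) (S37.HeckeInputs.alphaIntegral N ℓ)
      (S37.HeckeInputs.betaFundamentalIdentity N ℓ) D, ?_, fun v => ?_⟩
    · exact (S37.HeckeInputs.heckeOperatorBar_mk N ⟨ℓ, Fact.out⟩ D).symm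
    · have hE : ∀ v : Place Qb (modularFunctionFieldBar N),
          (m • (D : Divisor Qb (modularFunctionFieldBar N))) v = v.ord f₀ := fun v => by
        rw [Finsupp.smul_apply, nsmul_eq_mul]
        exact hD v
      have h1 := K4.heckeDivBar_apply_of_ord N ℓ (S37.HeckeInputs.alphaIntegral N ℓ)
        (S37.HeckeInputs.betaIntegral N ℓ) hf₀ hE v
      rw [map_nsmul, Finsupp.smul_apply, nsmul_eq_mul] at h1
      exact h1

end Kummer

end Fermat.Agent.S29
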