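import Mathlib
import Fermat.Prelude.Def_GaloisRep_Residual

/-!
# S29 (wave 5): the top glue

The frozen statement S29 quantifies over an arbitrary level `N` (no `NeZero`) and an arbitrary
field `k` of characteristic `p` with a ring homomorphism `φ : ℤ̄ → k`.  The construction of the
representation works for `N ≠ 0` over an algebraically closed field.  This file bridges the two:

* `isMaximal_ker`, `isAlgClosed_quotient_ker` : `k₀ := ℤ̄ ⧸ ker φ` is an algebraically closed
  field (of characteristic `p`);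
* `isAttachedTo_baseChange`, `isUnramifiedAt_baseChange` : attachment and unramifiedness pass to
  the base change `k₀ → k`;
* `trivialRep` : the trivial two-dimensional representation (used for `N = 0`, where both
  clauses of S29 are vacuous);
* `s29_of_core` : the frozen statement S29 from its core (level `N ≠ 0`, algebraically closed
  coefficient field which is a `ZMod p`-algebra).
-/

set_option autoImplicit false
set_option linter.style.haveILetI false

noncomputable section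

namespace Fermat.Agent.S29.Top

open Polynomial
open scoped TensorProduct

local notation "Zb" => integralClosure ℤ ℂ
local notation "Qb" => AlgebraicClosure ℚ

/-! ### The residue field `ℤ̄ ⧸ ker φ` -/

/-- The kernel of a ring homomorphism from `ℤ̄` to a field of characteristic `p` is maximal. -/
theorem isMaximal_ker {p : ℕ} (hp : p.Prime) {k : Type} [Field k] [CharP k p] (φ : Zb →+* k) :
    (RingHom.ker φ).IsMaximal := by
  haveI : (RingHom.ker φ).IsPrime := RingHom.ker_isPrime φ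
  haveI : Fact p.Prime := ⟨hp⟩
  refine Ideal.isMaximal_of_isIntegral_of_isMaximal_comap (R := ℤ) (RingHom.ker φ) ?_
  have hker : (RingHom.ker φ).comap (algebraMap ℤ Zb) = Ideal.span {(p : ℤ)} := by
    ext n
    rw [Ideal.mem_comap, RingHom.mem_ker, Ideal.mem_span_singleton]
    have h1 : φ (algebraMap ℤ Zb n) = (n : k) := by
      rw [eq_intCast (algebraMap ℤ Zb) n, map_intCast]
    rw [h1]
    exact CharP.intCast_eq_zero_iff k p n
  rw [hker]
  exact PrincipalIdealRing.isMaximal_of_irreducible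
    (Nat.prime_iff_prime_int.mp hp).irreducible

/-- `ℤ̄` is integrally closed in `ℂ`: a complex number integral over `ℤ̄` lies in `ℤ̄`. -/
theorem mem_of_isIntegral {z : ℂ} (hz : IsIntegral Zb z) : z ∈ Zb :=
  isIntegral_trans (R := ℤ) (A := Zb) z hz

/-- Every monic polynomial of positive degree over `ℤ̄` has a root in `ℤ̄`. -/
theorem exists_root_of_monic {Q : Zb[X]} (hQ : Q.Monic) (hdeg : Q.degree ≠ 0) :
    ∃ z : Zb, Q.eval z = 0 := by
  have hdeg' : (Q.map (algebraMap Zb ℂ)).degree ≠ 0 := by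
    rwa [hQ.degree_map]
  obtain ⟨z, hz⟩ := IsAlgClosed.exists_root (Q.map (algebraMap Zb ℂ)) hdeg'
  have hint : IsIntegral Zb z := ⟨Q, hQ, by rwa [← eval_map]⟩
  refine ⟨⟨z, mem_of_isIntegral hint⟩, ?_⟩
  apply Subtype.ext
  have h2 : algebraMap Zb ℂ (Q.eval (⟨z, mem_of_isIntegral hint⟩ : Zb)) =
      (Q.map (algebraMap Zb ℂ)).eval z := by
    rw [eval_map]
    exact (Polynomial.eval₂_at_apply (algebraMap Zb ℂ) (⟨z, mem_of_isIntegral hint⟩ : Zb)).symm
  show algebraMap Zb ℂ (Q.eval (⟨z, mem_of_isIntegral hint⟩ : Zb)) = 0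
  rw [h2]
  exact hz

/-- The quotient of `ℤ̄` by a maximal ideal is algebraically closed. -/
theorem isAlgClosed_quotient (I : Ideal Zb) [I.IsMaximal] :
    letI : Field (Zb ⧸ I) := Ideal.Quotient.field I
    IsAlgClosed (Zb ⧸ I) := by
  letI : Field (Zb ⧸ I) := Ideal.Quotient.field I
  refine IsAlgClosed.of_exists_root _ ?_
  intro q hq hirr
  have hsurj : Function.Surjective (Ideal.Quotient.mk I) := Ideal.Quotient.mk_surjective
  have hlift : q ∈ Polynomial.lifts (Ideal.Quotient.mk I) :=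
    (Polynomial.mem_lifts q).mpr (Polynomial.map_surjective _ hsurj q)
  obtain ⟨Q, hQq, hQdeg, hQ⟩ := Polynomial.lifts_and_degree_eq_and_monic hlift hq
  have hdeg : Q.degree ≠ 0 := by
    rw [hQdeg]
    exact (Polynomial.degree_pos_of_irreducible hirr).ne'
  obtain ⟨z, hz⟩ := exists_root_of_monic hQ hdeg
  refine ⟨Ideal.Quotient.mk I z, ?_⟩
  rw [← hQq, Polynomial.eval_map, Polynomial.eval₂_at_apply, hz, map_zero]

/-! ### Base change of the coefficient field -/

section BaseChange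

variable {k₀ k : Type} [Field k₀] [Field k]

/-- Unramifiedness passes to the base change. -/
theorem isUnramifiedAt_baseChange [Algebra k₀ k] (ρ : ResidualGaloisRep k₀) {q : ℕ}
    (h : ρ.IsUnramifiedAt q) : (ρ.baseChange k).IsUnramifiedAt q := by
  intro A hA σ hσ
  show (ρ.ρ σ).baseChange k = 1
  rw [h A hA σ hσ, LinearMap.baseChange_one]

/-- Attachment passes to the base change. -/
theorem isAttachedTo_baseChange [Algebra k₀ k] (ρ : ResidualGaloisRep k₀) {N : ℕ}
    {g : CuspForm (CongruenceSubgroup.Gamma0 N) 2} (φ₀ : Zb →+* k₀) (φ : Zb →+* k)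
    (hφ : ∀ a, algebraMap k₀ k (φ₀ a) = φ a) (h : ρ.IsAttachedTo g φ₀) :
    (ρ.baseChange k).IsAttachedTo g φ := by
  intro ℓ hℓ hℓN hℓk A hA σ hσ
  have hℓk₀ : (ℓ : k₀) ≠ 0 := by
    intro h0
    apply hℓk
    rw [← map_natCast (algebraMap k₀ k), h0, map_zero]
  obtain ⟨a, ha, hchar⟩ := h ℓ hℓ hℓN hℓk₀ A hA σ hσ
  refine ⟨a, ha, ?_⟩
  have h1 : LinearMap.charpoly ((ρ.baseChange k).ρ σ) =
      (LinearMap.charpoly (ρ.ρ σ)).map (algebraMap k₀ k) :=
    LinearMap.charpoly_baseChange (ρ.ρ σ) k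
  rw [h1, hchar, Polynomial.map_add, Polynomial.map_sub, Polynomial.map_mul, Polynomial.map_pow,
    Polynomial.map_X, Polynomial.map_C, Polynomial.map_C, hφ, map_natCast]

/-- Unramifiedness passes to the base change along a ring homomorphism. -/
theorem isUnramifiedAt_baseChangeAlong (ι : k₀ →+* k) (ρ : ResidualGaloisRep k₀) {q : ℕ}
    (h : ρ.IsUnramifiedAt q) : (ρ.baseChangeAlong ι).IsUnramifiedAt q :=
  @isUnramifiedAt_baseChange k₀ k _ _ ι.toAlgebra ρ q h

/-- Attachment passes to the base change along a ring homomorphism. -/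
theorem isAttachedTo_baseChangeAlong (ι : k₀ →+* k) (ρ : ResidualGaloisRep k₀) {N : ℕ}
    {g : CuspForm (CongruenceSubgroup.Gamma0 N) 2} (φ₀ : Zb →+* k₀) (φ : Zb →+* k)
    (hφ : ∀ a, ι (φ₀ a) = φ a) (h : ρ.IsAttachedTo g φ₀) :
    (ρ.baseChangeAlong ι).IsAttachedTo g φ :=
  @isAttachedTo_baseChange k₀ k _ _ ι.toAlgebra ρ N g φ₀ φ hφ h

end BaseChange

/-! ### The trivial representation -/

/-- The trivial two-dimensional representation. -/
def trivialRep (k : Type) [Field k] : ResidualGaloisRep k where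
  V := Fin 2 → k
  finrank_eq := by simp
  ρ := 1
  factorsThroughFiniteLevel := ⟨⊥, inferInstance, fun _ _ => rfl⟩

/-! ### The frozen statement from its core -/

/-- The statement S29 for a level `N ≠ 0` and a coefficient field `k` receiving an algebraically
closed field `k₀` through which `φ` factors, from the core over `k₀`. -/
theorem exists_rep_of_factor
    (hcore : ∀ {N : ℕ} [NeZero N] {g : CuspForm (CongruenceSubgroup.Gamma0 N) 2}
      (_ : g.IsNormalizedEigenform) {p : ℕ} [Fact p.Prime] {k₀ : Type} [Field k₀]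
      [Algebra (ZMod p) k₀] [IsAlgClosed k₀] (φ₀ : Zb →+* k₀),
      ∃ ρ : ResidualGaloisRep k₀, ρ.IsAttachedTo g φ₀ ∧
        ∀ ℓ : ℕ, ℓ.Prime → ¬ ℓ ∣ N * p → ρ.IsUnramifiedAt ℓ)
    {N : ℕ} [NeZero N] {g : CuspForm (CongruenceSubgroup.Gamma0 N) 2}
    (hg : g.IsNormalizedEigenform)
    {p : ℕ} (hp : p.Prime) {k : Type} [Field k] [CharP k p] (φ : Zb →+* k)
    {k₀ : Type} [Field k₀] [IsAlgClosed k₀] (φ₀ : Zb →+* k₀) (ι : k₀ →+* k)
    (hι : ∀ a, ι (φ₀ a) = φ a) :
    ∃ ρ : ResidualGaloisRep k, ρ.IsAttachedTo g φ ∧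
      ∀ ℓ : ℕ, ℓ.Prime → ¬ ℓ ∣ N * p → ρ.IsUnramifiedAt ℓ := by
  haveI : Fact p.Prime := ⟨hp⟩
  haveI : CharP k₀ p := ι.charP ι.injective p
  obtain ⟨ρ₀, hatt, hunr⟩ := @hcore N _ g hg p _ k₀ _ (ZMod.algebra k₀ p) _ φ₀
  exact ⟨ρ₀.baseChangeAlong ι, isAttachedTo_baseChangeAlong ι ρ₀ φ₀ φ hι hatt,
    fun ℓ hℓ hℓNp => isUnramifiedAt_baseChangeAlong ι ρ₀ (hunr ℓ hℓ hℓNp)⟩

/-- **S29 from its core**: it suffices to construct the representation for levels `N ≠ 0` over
algebraically closed `ZMod p`-algebras. -/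
theorem s29_of_core
    (hcore : ∀ {N : ℕ} [NeZero N] {g : CuspForm (CongruenceSubgroup.Gamma0 N) 2}
      (_ : g.IsNormalizedEigenform) {p : ℕ} [Fact p.Prime] {k₀ : Type} [Field k₀]
      [Algebra (ZMod p) k₀] [IsAlgClosed k₀] (φ₀ : Zb →+* k₀),
      ∃ ρ : ResidualGaloisRep k₀, ρ.IsAttachedTo g φ₀ ∧
        ∀ ℓ : ℕ, ℓ.Prime → ¬ ℓ ∣ N * p → ρ.IsUnramifiedAt ℓ)
    {N : ℕ} {g : CuspForm (CongruenceSubgroup.Gamma0 N) 2} (hg : g.IsNormalizedEigenform)
    {p : ℕ} (hp : p.Prime) {k : Type} [Field k] [CharP k p]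
    (φ : Zb →+* k) :
    ∃ ρ : ResidualGaloisRep k, ρ.IsAttachedTo g φ ∧
      ∀ ℓ : ℕ, ℓ.Prime → ¬ ℓ ∣ N * p → ρ.IsUnramifiedAt ℓ := by
  rcases eq_or_ne N 0 with hN | hN
  · subst hN
    refine ⟨trivialRep k, ?_, ?_⟩
    · intro ℓ _ hℓN
      exact absurd (dvd_zero ℓ) hℓN
    · intro ℓ _ hℓN
      exact absurd (by rw [zero_mul]; exact dvd_zero ℓ) hℓN
  · haveI : NeZero N := ⟨hN⟩
    haveI hmax : (RingHom.ker φ).IsMaximal := isMaximal_ker hp φ
    exact @exists_rep_of_factor hcore N _ g hg p hp k _ _ φ (Zb ⧸ RingHom.ker φ)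
      (Ideal.Quotient.field (RingHom.ker φ)) (isAlgClosed_quotient (RingHom.ker φ))
      (Ideal.Quotient.mk (RingHom.ker φ))
      (Ideal.Quotient.lift (RingHom.ker φ) φ (fun _ ha => ha))
      (fun a => Ideal.Quotient.lift_mk (RingHom.ker φ) φ _)

end Fermat.Agent.S29.Top
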