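import Fermat.Agent.S14.Density

/-!
# Weak Chebotarev, package C1: the counting core

From the counting identity for fixed fields of subgroups (hypothesis `hcount`, package C2) and
the finiteness of the ramified primes (hypothesis `hbad`), every cyclic subgroup `⟨σ⟩` of
`Gal(M/ℚ)` is the decomposition group of some unramified prime of `M` outside any finite set
of rational primes.

The proof is the classical divisor induction of Frobenius: for `m ∣ n = orderOf σ` the primes
whose decomposition group is contained in the subgroup of order `m` of `⟨σ⟩` have weighted mass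
`m * log (1 / (s - 1)) + O(1)`, hence those with decomposition group exactly `⟨σ⟩` have
weighted mass `φ n * log (1 / (s - 1)) + O(1)`, which is unbounded.
-/

set_option autoImplicit false

open scoped NumberField Pointwise Topology
open IsDedekindDomain Filter

namespace Fermat.Agent.S29.WeakCheb

open Fermat.Agent.S14 Fermat.Agent.S14.MassUniv

namespace Core

/-- Möbius-free divisor induction: two-sided bounds for the divisor sums of `a` give two-sided
bounds for `a` itself, with `m` replaced by `φ m`. -/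
theorem divisor_induction (n : ℕ) (hn : 0 < n) (a : ℕ → ℝ → ℝ) (L : ℝ → ℝ) (l : Filter ℝ)
    (h : ∀ m, m ∣ n → ∃ C : ℝ, ∀ᶠ s in l, |∑ d ∈ m.divisors, a d s - m * L s| ≤ C) :
    ∀ m, m ∣ n → ∃ C : ℝ, ∀ᶠ s in l, |a m s - (Nat.totient m) * L s| ≤ C := by
  intro m
  induction m using Nat.strong_induction_on with
  | _ m ih =>
    intro hm
    have hm0 : m ≠ 0 := by
      rintro rfl
      exact hn.ne' (Nat.eq_zero_of_zero_dvd hm)
    obtain ⟨C, hC⟩ := h m hm
    have hih : ∀ d ∈ m.properDivisors, ∃ Cd : ℝ, ∀ᶠ s in l,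
        |a d s - (Nat.totient d) * L s| ≤ Cd := by
      intro d hd
      have hd' := Nat.mem_properDivisors.mp hd
      exact ih d hd'.2 (hd'.1.trans hm)
    choose! Cd hCd using hih
    refine ⟨C + ∑ d ∈ m.properDivisors, Cd d, ?_⟩
    have hall : ∀ᶠ s in l, ∀ d ∈ m.properDivisors, |a d s - (Nat.totient d) * L s| ≤ Cd d :=
      (Filter.eventually_all_finset _).mpr hCd
    filter_upwards [hC, hall] with s hs hs'
    have hsplit' : ∀ f : ℕ → ℝ,
        ∑ d ∈ m.divisors, f d = ∑ d ∈ m.properDivisors, f d + f m := by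
      intro f
      rw [← Nat.insert_self_properDivisors hm0,
        Finset.sum_insert Nat.self_notMem_properDivisors, add_comm]
    have htot : (m : ℝ) = ∑ d ∈ m.properDivisors, (Nat.totient d : ℝ) + Nat.totient m := by
      rw [← hsplit' (fun d => (Nat.totient d : ℝ))]
      have := Nat.sum_totient m
      exact_mod_cast this.symm
    have hsplit : ∑ d ∈ m.divisors, a d s = ∑ d ∈ m.properDivisors, a d s + a m s :=
      hsplit' (fun d => a d s)
    have key : a m s - (Nat.totient m) * L s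
        = (∑ d ∈ m.divisors, a d s - m * L s)
          - ∑ d ∈ m.properDivisors, (a d s - (Nat.totient d) * L s) := by
      rw [hsplit, Finset.sum_sub_distrib, ← Finset.sum_mul]
      conv_rhs => rw [htot]
      ring
    rw [key]
    calc |(∑ d ∈ m.divisors, a d s - m * L s)
          - ∑ d ∈ m.properDivisors, (a d s - (Nat.totient d) * L s)|
        ≤ |∑ d ∈ m.divisors, a d s - m * L s|
          + |∑ d ∈ m.properDivisors, (a d s - (Nat.totient d) * L s)| := abs_sub _ _
      _ ≤ C + ∑ d ∈ m.properDivisors, Cd d := by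
          refine add_le_add hs ?_
          exact (Finset.abs_sum_le_sum_abs _ _).trans (Finset.sum_le_sum hs')

/-- The subgroup of order `m` of a finite cyclic group `⟨σ⟩`. -/
theorem card_zpowers_pow {G : Type*} [Group G] [Finite G] (σ : G) {m : ℕ}
    (hm : m ∣ orderOf σ) : Nat.card (Subgroup.zpowers (σ ^ (orderOf σ / m))) = m := by
  have hn : 0 < orderOf σ := orderOf_pos σ
  have hm0 : 0 < m := Nat.pos_of_dvd_of_pos hm hn
  rw [Nat.card_zpowers, orderOf_pow_of_dvd (Nat.div_pos (Nat.le_of_dvd hn hm) hm0).ne'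
    (Nat.div_dvd_of_dvd hm), Nat.div_div_self hm hn.ne']

/-- A subgroup of a finite cyclic group `⟨σ⟩` lies in the subgroup of order `m` iff its order
divides `m`. -/
theorem le_zpowers_pow_iff {G : Type*} [Group G] [Finite G] (σ : G) {m : ℕ}
    (hm : m ∣ orderOf σ) (D : Subgroup G) (hD : D ≤ Subgroup.zpowers σ) :
    D ≤ Subgroup.zpowers (σ ^ (orderOf σ / m)) ↔ Nat.card D ∣ m := by
  have hn : 0 < orderOf σ := orderOf_pos σ
  have hm0 : 0 < m := Nat.pos_of_dvd_of_pos hm hn
  constructor
  · intro h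
    have := Subgroup.card_dvd_of_le h
    rwa [card_zpowers_pow σ hm] at this
  · intro hd x hx
    obtain ⟨k, rfl⟩ := Subgroup.mem_zpowers_iff.mp (hD hx)
    have h1 : (σ ^ k) ^ m = 1 := by
      obtain ⟨c, hc⟩ := hd
      have h2 : (⟨σ ^ k, hx⟩ : D) ^ Nat.card D = 1 := pow_card_eq_one'
      have h3 : (σ ^ k) ^ Nat.card D = 1 := by
        have h2' := congrArg Subtype.val h2
        rwa [Subgroup.coe_pow, Subgroup.coe_one] at h2'
      rw [hc, pow_mul, h3, one_pow]
    have h4 : σ ^ (k * (m : ℤ)) = 1 := by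
      rw [zpow_mul, zpow_natCast]
      exact h1
    have h5 : (orderOf σ : ℤ) ∣ k * m := orderOf_dvd_iff_zpow_eq_one.mpr h4
    obtain ⟨q, hq⟩ := hm
    have h6 : orderOf σ / m = q := by
      rw [hq]
      exact Nat.mul_div_cancel_left q hm0
    have h7 : (q : ℤ) ∣ k := by
      have h8 : (q : ℤ) * m ∣ k * m := by
        rw [hq] at h5
        push_cast at h5
        rwa [mul_comm (m : ℤ) q] at h5
      exact Int.dvd_of_mul_dvd_mul_right (by exact_mod_cast hm0.ne') h8
    obtain ⟨j, rfl⟩ := h7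
    rw [h6]
    exact Subgroup.mem_zpowers_iff.mpr ⟨j, by rw [← zpow_natCast, ← zpow_mul]⟩

section NF

variable (K : Type) [Field K] [NumberField K]

/-- Only finitely many primes lie over a finite set of rational primes. -/
theorem finite_below_mem (T : Finset ℕ) :
    {v : HeightOneSpectrum (𝓞 K) | below K v ∈ T}.Finite := by
  classical
  have h : {v : HeightOneSpectrum (𝓞 K) | below K v ∈ T}
      ⊆ ⋃ q ∈ (T.filter Nat.Prime : Finset ℕ),
        {v : HeightOneSpectrum (𝓞 K) | ((q : ℕ) : 𝓞 K) ∈ v.asIdeal} := by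
    intro v hv
    obtain ⟨hq, hmem, -⟩ := below_spec K v
    simp only [Set.mem_iUnion, Set.mem_ofPred_eq, exists_prop]
    exact ⟨below K v, Finset.mem_filter.mpr ⟨hv, hq⟩, hmem⟩
  refine Set.Finite.subset ?_ h
  refine Set.Finite.biUnion (Finset.finite_toSet _) (fun q hq => ?_)
  have hq' : q.Prime := (Finset.mem_filter.mp hq).2
  have hq0 : ((q : ℕ) : 𝓞 K) ≠ 0 := Nat.cast_ne_zero.mpr hq'.ne_zero
  have hfin := Ideal.finite_factors (I := Ideal.span {((q : ℕ) : 𝓞 K)}) (by simpa using hq0)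
  refine hfin.subset ?_
  intro v hv
  exact Ideal.dvd_span_singleton.mpr hv

/-- The mass of a subset of a finite set is bounded by its cardinality (for `s > 1`). -/
theorem mass_le_ncard_of_subset {T F : Set (HeightOneSpectrum (𝓞 K))} (hF : F.Finite)
    (hTF : T ⊆ F) {s : ℝ} (hs : 1 < s) : mass K T s ≤ F.ncard := by
  classical
  set f : HeightOneSpectrum (𝓞 K) → ℝ := fun v => (Ideal.absNorm v.asIdeal : ℝ) ^ (-s) with hf
  have hfs : Summable f := summable_prime_rpow K hs
  have hf0 : ∀ v, 0 ≤ f v := fun v => (MassUniv.term_pos K v s).le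
  have hf1 : ∀ v, f v ≤ 1 := fun v => (MassUniv.term_le_half K v hs.le).trans (by norm_num)
  rw [Density.mass_eq_tsum_indicator]
  have h1 : ∑' v, T.indicator f v ≤ ∑' v, F.indicator f v := by
    refine (hfs.indicator T).tsum_le_tsum (fun v => ?_) (hfs.indicator F)
    exact Set.indicator_le_indicator_of_subset hTF hf0 v
  refine h1.trans ?_
  rw [tsum_eq_sum (s := hF.toFinset) (fun v hv => by
    have : v ∉ F := fun h => hv (hF.mem_toFinset.mpr h)
    exact Set.indicator_of_notMem this _)]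
  rw [Set.ncard_eq_toFinset_card F hF]
  calc ∑ v ∈ hF.toFinset, F.indicator f v ≤ ∑ _v ∈ hF.toFinset, (1 : ℝ) :=
        Finset.sum_le_sum fun v hv => by
          rw [Set.indicator_of_mem (hF.mem_toFinset.mp hv)]
          exact hf1 v
    _ = (hF.toFinset.card : ℝ) := by simp

theorem mass_nonneg (A : Set (HeightOneSpectrum (𝓞 K))) (s : ℝ) : 0 ≤ mass K A s := by
  rw [Density.mass_eq_tsum_indicator]
  exact tsum_nonneg fun v => Set.indicator_nonneg (fun v _ => (MassUniv.term_pos K v s).le) v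

/-- The primes of prime norm outside a finite set of rational primes have mass
`log (1 / (s - 1)) + O(1)`. -/
theorem mass_good_bounds (T : Finset ℕ) :
    ∃ C : ℝ, ∀ᶠ s in 𝓝[>] (1 : ℝ),
      |mass K {v | below K v ∉ T ∧ (Ideal.absNorm v.asIdeal).Prime} s
        - Real.log (1 / (s - 1))| ≤ C := by
  classical
  obtain ⟨C₀, h₀⟩ := mass_univ_bounds K
  obtain ⟨C₁, h₁⟩ := mass_not_prime_norm_bounded K
  have hF := finite_below_mem K T
  set F : Set (HeightOneSpectrum (𝓞 K)) := {v | below K v ∈ T} with hFdef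
  set A : Set (HeightOneSpectrum (𝓞 K)) :=
    {v | below K v ∉ T ∧ (Ideal.absNorm v.asIdeal).Prime} with hAdef
  set B : Set (HeightOneSpectrum (𝓞 K)) := {v | ¬ (Ideal.absNorm v.asIdeal).Prime} with hBdef
  refine ⟨C₀ + |C₁| + F.ncard, ?_⟩
  filter_upwards [h₀, self_mem_nhdsWithin] with s hs hs1
  have hs1' : (1 : ℝ) < s := hs1
  set f : HeightOneSpectrum (𝓞 K) → ℝ := fun v => (Ideal.absNorm v.asIdeal : ℝ) ^ (-s) with hf
  have hfs : Summable f := summable_prime_rpow K hs1'
  have hf0 : ∀ v, 0 ≤ f v := fun v => (MassUniv.term_pos K v s).le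
  have hle : mass K A s ≤ mass K Set.univ s := by
    rw [Density.mass_eq_tsum_indicator, Density.mass_eq_tsum_indicator]
    refine (hfs.indicator A).tsum_le_tsum (fun v => ?_) (hfs.indicator _)
    exact Set.indicator_le_indicator_of_subset (Set.subset_univ _) hf0 v
  have hge : mass K Set.univ s ≤ mass K A s + mass K B s + mass K F s := by
    simp only [Density.mass_eq_tsum_indicator]
    rw [← (hfs.indicator A).tsum_add (hfs.indicator B),
      ← ((hfs.indicator A).add (hfs.indicator B)).tsum_add (hfs.indicator F)]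
    refine (hfs.indicator _).tsum_le_tsum (fun v => ?_)
      (((hfs.indicator A).add (hfs.indicator B)).add (hfs.indicator F))
    rw [Set.indicator_of_mem (Set.mem_univ v)]
    have hA0 := Set.indicator_nonneg (s := A) (fun v _ => hf0 v) v
    have hB0 := Set.indicator_nonneg (s := B) (fun v _ => hf0 v) v
    have hF0 := Set.indicator_nonneg (s := F) (fun v _ => hf0 v) v
    by_cases hvF : v ∈ F
    · rw [Set.indicator_of_mem hvF]
      linarith
    · by_cases hvB : v ∈ B
      · rw [Set.indicator_of_mem hvB]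
        linarith
      · have hvA : v ∈ A := ⟨hvF, not_not.mp hvB⟩
        rw [Set.indicator_of_mem hvA]
        linarith
  have hB := h₁ s hs1'
  have hFm := mass_le_ncard_of_subset K hF (subset_refl F) hs1'
  have hC1 := le_abs_self C₁
  have hncard : (0 : ℝ) ≤ F.ncard := Nat.cast_nonneg _
  rw [abs_le]
  constructor
  · linarith [hs.1]
  · linarith [hs.2, abs_nonneg C₁]

open Classical in
/-- The `ENNReal`-valued sum over a set of primes is the mass. -/
theorem tsum_ite_ofReal (c : HeightOneSpectrum (𝓞 K) → Prop) {s : ℝ} (hs : 1 < s) :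
    (∑' 𝔮 : HeightOneSpectrum (𝓞 K),
      if c 𝔮 then ENNReal.ofReal (((Ideal.absNorm 𝔮.asIdeal : ℕ) : ℝ) ^ (-s)) else 0)
    = ENNReal.ofReal (mass K {𝔮 | c 𝔮} s) := by
  set f : HeightOneSpectrum (𝓞 K) → ℝ := fun v => (Ideal.absNorm v.asIdeal : ℝ) ^ (-s) with hf
  have hfs : Summable f := summable_prime_rpow K hs
  have hf0 : ∀ v, 0 ≤ f v := fun v => (MassUniv.term_pos K v s).le
  rw [Density.mass_eq_tsum_indicator,
    ENNReal.ofReal_tsum_of_nonneg (fun v => Set.indicator_nonneg (fun v _ => hf0 v) v)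
      (hfs.indicator _)]
  refine tsum_congr fun v => ?_
  by_cases hv : c v
  · rw [if_pos hv, Set.indicator_of_mem (by exact hv)]
  · rw [if_neg hv, Set.indicator_of_notMem (by exact hv), ENNReal.ofReal_zero]

end NF

end Core

section Abstract

variable (M : Type) [Field M] [NumberField M] [IsGalois ℚ M]

open Classical in
/-- **(C1)** a prime with prescribed cyclic decomposition group, from the counting identity
`hcount` (C2b) and the finiteness of ramification `hbad` (C2a). -/
theorem exists_stabilizer_eq_of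
    (hbad : ∃ Bad : Finset ℕ, ∀ P : HeightOneSpectrum (𝓞 M), below M P ∉ Bad →
      Ideal.inertia Gal(M/ℚ) P.asIdeal = ⊥)
    (hcount : ∀ (H : Subgroup Gal(M/ℚ)) (good : ℕ → Prop) (w : ℕ → ENNReal),
      (∀ P : HeightOneSpectrum (𝓞 M), good (below M P) →
        Ideal.inertia Gal(M/ℚ) P.asIdeal = ⊥) →
      (∑' P : HeightOneSpectrum (𝓞 M),
        if good (below M P) ∧ MulAction.stabilizer Gal(M/ℚ) P.asIdeal ≤ H then
          (Nat.card (MulAction.stabilizer Gal(M/ℚ) P.asIdeal) : ENNReal) * w (below M P) else 0)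
      = (Nat.card H : ENNReal) *
        ∑' 𝔮 : HeightOneSpectrum (𝓞 (FixedPoints.intermediateField H : IntermediateField ℚ M)),
          if good (below _ 𝔮) ∧ (Ideal.absNorm 𝔮.asIdeal).Prime then w (Ideal.absNorm 𝔮.asIdeal)
          else 0)
    (σ : Gal(M/ℚ)) (S : Finset ℕ) :
    ∃ P : HeightOneSpectrum (𝓞 M), below M P ∉ S ∧
      Ideal.inertia Gal(M/ℚ) P.asIdeal = ⊥ ∧
      MulAction.stabilizer Gal(M/ℚ) P.asIdeal = Subgroup.zpowers σ := by
  obtain ⟨Bad, hBad⟩ := hbad
  set T : Finset ℕ := S ∪ Bad with hT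
  have hgood : ∀ P : HeightOneSpectrum (𝓞 M), below M P ∉ T →
      Ideal.inertia Gal(M/ℚ) P.asIdeal = ⊥ :=
    fun P h => hBad P (fun hb => h (Finset.mem_union_right _ hb))
  set n : ℕ := orderOf σ with hn
  have hn0 : 0 < n := orderOf_pos σ
  -- the weights
  set w : ℝ → ℕ → ENNReal := fun s m => ENNReal.ofReal ((m : ℝ) ^ (-s)) with hw
  -- the weighted masses of the primes with decomposition group of order `d` inside `⟨σ⟩`
  set b : ℕ → ℝ → ENNReal := fun d s =>
    ∑' P : HeightOneSpectrum (𝓞 M),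
      if below M P ∉ T ∧ MulAction.stabilizer Gal(M/ℚ) P.asIdeal ≤ Subgroup.zpowers σ ∧
          Nat.card (MulAction.stabilizer Gal(M/ℚ) P.asIdeal) = d then
        (d : ENNReal) * w s (below M P) else 0 with hb
  -- the divisor sums
  have hsum : ∀ m, m ∣ n → ∀ s : ℝ, 1 < s →
      ∑ d ∈ m.divisors, b d s = (m : ENNReal) * ENNReal.ofReal
        (mass (FixedPoints.intermediateField (Subgroup.zpowers (σ ^ (n / m))) :
          IntermediateField ℚ M)
          {𝔮 | below _ 𝔮 ∉ T ∧ (Ideal.absNorm 𝔮.asIdeal).Prime} s) := by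
    intro m hm s hs
    have hm0 : m ≠ 0 := by
      rintro rfl
      exact hn0.ne' (Nat.eq_zero_of_zero_dvd hm)
    have hc := hcount (Subgroup.zpowers (σ ^ (n / m))) (fun ℓ => ℓ ∉ T) (w s) hgood
    beta_reduce at hc
    rw [Core.card_zpowers_pow σ hm] at hc
    have hR := Core.tsum_ite_ofReal
      (FixedPoints.intermediateField (Subgroup.zpowers (σ ^ (n / m))) : IntermediateField ℚ M)
      (fun 𝔮 => below _ 𝔮 ∉ T ∧ (Ideal.absNorm 𝔮.asIdeal).Prime) hs
    refine Eq.trans ?_ (hc.trans ?_)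
    swap
    · rw [← hR]
      congr 1
      refine tsum_congr fun 𝔮 => ?_
      by_cases h𝔮 : below _ 𝔮 ∉ T ∧ (Ideal.absNorm 𝔮.asIdeal).Prime
      · rw [if_pos h𝔮, if_pos h𝔮]
      · rw [if_neg h𝔮, if_neg h𝔮]
    simp only [hb]
    rw [← Summable.tsum_finsetSum (fun d _ => ENNReal.summable)]
    refine tsum_congr fun P => ?_
    have hle : Subgroup.zpowers (σ ^ (n / m)) ≤ Subgroup.zpowers σ :=
      Subgroup.zpowers_le_of_mem (Subgroup.pow_mem _ (Subgroup.mem_zpowers σ) _)
    by_cases hP : below M P ∉ T ∧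
        MulAction.stabilizer Gal(M/ℚ) P.asIdeal ≤ Subgroup.zpowers (σ ^ (n / m))
    · rw [if_pos hP]
      have hdvd : Nat.card (MulAction.stabilizer Gal(M/ℚ) P.asIdeal) ∣ m :=
        (Core.le_zpowers_pow_iff σ hm _ (hP.2.trans hle)).mp hP.2
      rw [Finset.sum_eq_single (Nat.card (MulAction.stabilizer Gal(M/ℚ) P.asIdeal))]
      · rw [if_pos ⟨hP.1, hP.2.trans hle, rfl⟩]
      · intro d _ hd
        rw [if_neg (fun h => hd h.2.2.symm)]
      · intro h
        exact absurd (Nat.mem_divisors.mpr ⟨hdvd, hm0⟩) h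
    · rw [if_neg hP]
      refine Finset.sum_eq_zero fun d hd => ?_
      rw [if_neg]
      rintro ⟨h1, h2, h3⟩
      refine hP ⟨h1, (Core.le_zpowers_pow_iff σ hm _ h2).mpr ?_⟩
      rw [h3]
      exact (Nat.mem_divisors.mp hd).1
  -- finiteness
  have hfin : ∀ d, d ∣ n → ∀ s : ℝ, 1 < s → b d s ≠ ⊤ := by
    intro d hd s hs
    have h1 : b d s ≤ ∑ e ∈ n.divisors, b e s :=
      Finset.single_le_sum (f := fun e => b e s) (fun _ _ => zero_le)
        (Nat.mem_divisors.mpr ⟨hd, hn0.ne'⟩)
    rw [hsum n dvd_rfl s hs] at h1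
    exact ne_top_of_le_ne_top (ENNReal.mul_ne_top (ENNReal.natCast_ne_top n)
      ENNReal.ofReal_ne_top) h1
  -- real-valued version
  set a : ℕ → ℝ → ℝ := fun d s => (b d s).toReal with ha
  have hgt : ∀ᶠ s in 𝓝[>] (1 : ℝ), 1 < s := by
    filter_upwards [self_mem_nhdsWithin] with s hs using hs
  have hbound : ∀ m, m ∣ n → ∃ C : ℝ, ∀ᶠ s in 𝓝[>] (1 : ℝ),
      |∑ d ∈ m.divisors, a d s - m * Real.log (1 / (s - 1))| ≤ C := by
    intro m hm
    obtain ⟨C, hC⟩ := Core.mass_good_bounds
      (FixedPoints.intermediateField (Subgroup.zpowers (σ ^ (n / m))) : IntermediateField ℚ M) T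
    refine ⟨m * C, ?_⟩
    filter_upwards [hC, hgt] with s hs hs1
    have h1 : ∑ d ∈ m.divisors, a d s = (m : ℝ) *
        mass (FixedPoints.intermediateField (Subgroup.zpowers (σ ^ (n / m))) :
          IntermediateField ℚ M)
          {𝔮 | below _ 𝔮 ∉ T ∧ (Ideal.absNorm 𝔮.asIdeal).Prime} s := by
      simp only [ha]
      rw [← ENNReal.toReal_sum (fun d hd => hfin d ((Nat.mem_divisors.mp hd).1.trans hm) s hs1),
        hsum m hm s hs1, ENNReal.toReal_mul, ENNReal.toReal_natCast,
        ENNReal.toReal_ofReal (Core.mass_nonneg _ _ _)]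
    rw [h1, ← mul_sub, abs_mul, abs_of_nonneg (Nat.cast_nonneg m)]
    exact mul_le_mul_of_nonneg_left hs (Nat.cast_nonneg m)
  obtain ⟨C, hC⟩ := Core.divisor_induction n hn0 a (fun s => Real.log (1 / (s - 1)))
    (𝓝[>] (1 : ℝ)) hbound n dvd_rfl
  have hbig : ∀ᶠ s in 𝓝[>] (1 : ℝ), C + 1 ≤ Real.log (1 / (s - 1)) :=
    Density.tendsto_log_inv_sub_one.eventually_ge_atTop _
  obtain ⟨s, hs, hs1, hsbig⟩ := (hC.and (hgt.and hbig)).exists
  have hφ : (1 : ℝ) ≤ Nat.totient n := by
    exact_mod_cast Nat.totient_pos.mpr hn0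
  have hpos : 0 < a n s := by
    have h1 := (abs_le.mp hs).1
    have hL0 : 0 ≤ Real.log (1 / (s - 1)) := by
      have := abs_nonneg (a n s - (Nat.totient n) * Real.log (1 / (s - 1)))
      linarith
    nlinarith
  -- extract a prime
  have hne : b n s ≠ 0 := by
    intro h0
    simp only [ha] at hpos
    rw [h0] at hpos
    simp at hpos
  have hex : ∃ P : HeightOneSpectrum (𝓞 M), below M P ∉ T ∧
      MulAction.stabilizer Gal(M/ℚ) P.asIdeal ≤ Subgroup.zpowers σ ∧
      Nat.card (MulAction.stabilizer Gal(M/ℚ) P.asIdeal) = n := by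
    by_contra hcon
    apply hne
    simp only [hb]
    rw [ENNReal.tsum_eq_zero]
    intro P
    rw [if_neg]
    intro h
    exact hcon ⟨P, h⟩
  obtain ⟨P, hP1, hP2, hP3⟩ := hex
  refine ⟨P, fun h => hP1 (Finset.mem_union_left _ h), hgood P hP1, ?_⟩
  refine Subgroup.eq_of_le_of_card_ge hP2 ?_
  rw [hP3, Nat.card_zpowers]

end Abstract

end Fermat.Agent.S29.WeakCheb
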