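import Mathlib
import Fermat.Agent.S14.Density
import Fermat.Agent.Common.Frobenius
import Fermat.Prelude.Def_GaloisRep_Residual

set_option autoImplicit false
set_option linter.style.haveILetI false

open scoped NumberField Pointwise Topology
open IsDedekindDomain Filter

namespace Fermat.Agent.S29.WeakCheb

open Fermat.Agent.S14 Fermat.Agent.S14.MassUniv

section Field

/-- In a finite field in which every element satisfies `y ^ (q ^ k) = y` with `1 < q`, `0 < k`,
there are at most `q ^ k` elements. -/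
theorem lift_natCard_le_of_forall_pow_eq {κ : Type*} [Field κ] [Finite κ] (q k : ℕ) (hq : 1 < q)
    (hk : k ≠ 0) (h : ∀ y : κ, y ^ (q ^ k) = y) : Nat.card κ ≤ q ^ k := by
  classical
  haveI := Fintype.ofFinite κ
  have hne : (Polynomial.X ^ q ^ k - Polynomial.X : Polynomial κ) ≠ 0 :=
    FiniteField.X_pow_card_pow_sub_X_ne_zero κ hk hq
  have hdeg : (Polynomial.X ^ q ^ k - Polynomial.X : Polynomial κ).natDegree = q ^ k :=
    FiniteField.X_pow_card_pow_sub_X_natDegree_eq κ hk hq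
  have hsub : (Finset.univ : Finset κ) ⊆
      (Polynomial.X ^ q ^ k - Polynomial.X : Polynomial κ).roots.toFinset := by
    intro y _
    rw [Multiset.mem_toFinset, Polynomial.mem_roots hne, Polynomial.IsRoot.def,
      Polynomial.eval_sub, Polynomial.eval_pow, Polynomial.eval_X, h y, sub_self]
  calc Nat.card κ = (Finset.univ : Finset κ).card := by
        rw [Nat.card_eq_fintype_card, Finset.card_univ]
    _ ≤ (Polynomial.X ^ q ^ k - Polynomial.X : Polynomial κ).roots.toFinset.card :=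
        Finset.card_le_card hsub
    _ ≤ Multiset.card (Polynomial.X ^ q ^ k - Polynomial.X : Polynomial κ).roots :=
        Multiset.toFinset_card_le _
    _ ≤ (Polynomial.X ^ q ^ k - Polynomial.X : Polynomial κ).natDegree :=
        Polynomial.card_roots' _
    _ = q ^ k := hdeg

end Field

section Abstract

variable (M : Type) [Field M] [NumberField M] [IsGalois ℚ M]

/-- The rational prime below a prime of a number field, as a `LiesOver` statement. -/
theorem lift_liesOver_below (P : HeightOneSpectrum (𝓞 M)) :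
    P.asIdeal.LiesOver (Ideal.span {((below M P : ℕ) : ℤ)}) := by
  obtain ⟨hℓ, hℓmem, -⟩ := below_spec M P
  have hmax : (Ideal.span {((below M P : ℕ) : ℤ)}).IsMaximal :=
    PrincipalIdealRing.isMaximal_of_irreducible (Nat.prime_iff_prime_int.mp hℓ).irreducible
  have hprime : P.asIdeal.IsPrime := P.isPrime
  have hne : P.asIdeal.under ℤ ≠ ⊤ := (Ideal.IsPrime.under ℤ P.asIdeal).ne_top
  refine ⟨hmax.eq_of_le hne ?_⟩
  rw [Ideal.span_le, Set.singleton_subset_iff]
  show algebraMap ℤ (𝓞 M) ((below M P : ℕ) : ℤ) ∈ P.asIdeal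
  simpa using hℓmem

/-- (C3a) a Frobenius at a prime with trivial inertia generates the decomposition group. -/
theorem zpowers_eq_stabilizer (P : HeightOneSpectrum (𝓞 M))
    (hI : Ideal.inertia Gal(M/ℚ) P.asIdeal = ⊥) (τ : Gal(M/ℚ))
    (hτ : ∀ x : 𝓞 M, τ • x - x ^ (below M P) ∈ P.asIdeal) :
    Subgroup.zpowers τ = MulAction.stabilizer Gal(M/ℚ) P.asIdeal := by
  obtain ⟨hℓ, hℓmem, -⟩ := below_spec M P
  have hPprime : P.asIdeal.IsPrime := P.isPrime
  have hPmax : P.asIdeal.IsMaximal := P.isMaximal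
  have hpprime : (Ideal.span {((below M P : ℕ) : ℤ)}).IsPrime :=
    (PrincipalIdealRing.isMaximal_of_irreducible
      (Nat.prime_iff_prime_int.mp hℓ).irreducible).isPrime
  have hpmax : (Ideal.span {((below M P : ℕ) : ℤ)}).IsMaximal :=
    PrincipalIdealRing.isMaximal_of_irreducible (Nat.prime_iff_prime_int.mp hℓ).irreducible
  have hover := lift_liesOver_below M P
  -- `τ` stabilises `P`
  have hiff : ∀ y : 𝓞 M, τ • y ∈ P.asIdeal ↔ y ∈ P.asIdeal := by
    intro y
    have h1 := hτ y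
    constructor
    · intro h
      have h2 : y ^ below M P ∈ P.asIdeal := by
        have h3 := sub_mem h h1
        simpa using h3
      exact hPprime.mem_of_pow_mem _ h2
    · intro h
      have h2 : y ^ below M P ∈ P.asIdeal := Ideal.pow_mem_of_mem _ h _ hℓ.pos
      have h3 := add_mem h1 h2
      simpa using h3
  have hτstab : τ ∈ MulAction.stabilizer Gal(M/ℚ) P.asIdeal := by
    rw [MulAction.mem_stabilizer_iff]
    ext x
    rw [Ideal.mem_pointwise_smul_iff_inv_smul_mem, ← hiff, smul_inv_smul]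
  have hle : Subgroup.zpowers τ ≤ MulAction.stabilizer Gal(M/ℚ) P.asIdeal := by
    rw [Subgroup.zpowers_le]
    exact hτstab
  -- the `k`-th power of `τ` acts as the `ℓ ^ k`-th power map modulo `P`
  have hpow : ∀ (k : ℕ) (x : 𝓞 M), (τ ^ k) • x - x ^ (below M P ^ k) ∈ P.asIdeal := by
    intro k
    induction k with
    | zero => intro x; simp
    | succ k ih =>
      intro x
      have h1 := hτ ((τ ^ k) • x)
      have h3 : ((τ ^ k) • x) ^ below M P - (x ^ (below M P ^ k)) ^ below M P ∈ P.asIdeal :=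
        Ideal.mem_of_dvd _ (sub_dvd_pow_sub_pow _ _ _) (ih x)
      have e : (τ ^ (k + 1)) • x - x ^ (below M P ^ (k + 1))
          = (τ • (τ ^ k) • x - ((τ ^ k) • x) ^ below M P)
            + (((τ ^ k) • x) ^ below M P - (x ^ (below M P ^ k)) ^ below M P) := by
        rw [pow_succ' τ k, mul_smul, ← pow_mul, ← pow_succ]
        ring
      rw [e]
      exact add_mem h1 h3
  -- cardinality of the residue field
  have hcard1 : Nat.card (MulAction.stabilizer Gal(M/ℚ) P.asIdeal)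
      = P.asIdeal.inertiaDeg ℤ := by
    rw [Ideal.card_stabilizer_eq_card_inertia_mul_finrank
      (Ideal.span {((below M P : ℕ) : ℤ)}) P.asIdeal, hI]
    simp
  have hcard2 : Nat.card (𝓞 M ⧸ P.asIdeal) = below M P ^ P.asIdeal.inertiaDeg ℤ := by
    rw [← Ideal.inertiaDeg'_eq_inertiaDeg (Ideal.span {((below M P : ℕ) : ℤ)}) P.asIdeal,
      ← Ideal.absNorm_eq_pow_inertiaDeg' P.asIdeal hℓ, Ideal.absNorm_apply,
      Submodule.cardQuot_apply]
  -- the order of `τ` is at least the residue degree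
  have hord : P.asIdeal.inertiaDeg ℤ ≤ orderOf τ := by
    have hk : orderOf τ ≠ 0 := (orderOf_pos τ).ne'
    letI : Field (𝓞 M ⧸ P.asIdeal) := Ideal.Quotient.field P.asIdeal
    haveI : Finite (𝓞 M ⧸ P.asIdeal) := by
      apply Nat.finite_of_card_ne_zero
      rw [hcard2]
      exact pow_ne_zero _ hℓ.ne_zero
    have hall : ∀ y : 𝓞 M ⧸ P.asIdeal, y ^ (below M P ^ orderOf τ) = y := by
      intro y
      obtain ⟨x, rfl⟩ := Ideal.Quotient.mk_surjective y
      have h1 := hpow (orderOf τ) x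
      rw [pow_orderOf_eq_one, one_smul] at h1
      rw [← map_pow]
      exact (Ideal.Quotient.eq.mpr h1).symm
    have h2 := lift_natCard_le_of_forall_pow_eq (below M P) (orderOf τ) hℓ.one_lt hk hall
    rw [hcard2] at h2
    exact (Nat.pow_le_pow_iff_right hℓ.one_lt).mp h2
  refine Subgroup.eq_of_le_of_card_ge hle ?_
  rw [hcard1, Nat.card_zpowers]
  exact hord

end Abstract

section Lift

local notation "Qb" => AlgebraicClosure ℚ
local notation "GQ" => (AlgebraicClosure ℚ ≃ₐ[ℚ] AlgebraicClosure ℚ)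

/-- Frobenius elements reduce to the `ℓ`-power map modulo the maximal ideal. -/
theorem lift_valuation_frob_sub_pow_lt_one (A : ValuationSubring Qb) (φ : GQ) (ℓ : ℕ)
    (h : A.IsFrobeniusAt φ ℓ) (x : Qb) (hx : x ∈ A) : A.valuation (φ x - x ^ ℓ) < 1 := by
  obtain ⟨hσ, h⟩ := h
  have h1 := h (IsLocalRing.residue A ⟨x, hx⟩)
  rw [← IsLocalRing.ResidueField.residue_smul, ← map_pow, ← sub_eq_zero, ← map_sub,
    IsLocalRing.residue_eq_zero_iff, A.valuation_lt_one_iff] at h1
  exact h1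

/-- (C3b) for a finite normal level. -/
theorem exists_frobenius_pow_of_normal
    (hC1 : ∀ (M : Type) [Field M] [NumberField M] [IsGalois ℚ M] (σ : Gal(M/ℚ)) (S : Finset ℕ),
      ∃ P : HeightOneSpectrum (𝓞 M), below M P ∉ S ∧ Ideal.inertia Gal(M/ℚ) P.asIdeal = ⊥ ∧
        MulAction.stabilizer Gal(M/ℚ) P.asIdeal = Subgroup.zpowers σ)
    (Mn : IntermediateField ℚ Qb) [FiniteDimensional ℚ Mn] [Normal ℚ Mn] (S : Finset ℕ) (σ : GQ) :
    ∃ (ℓ : ℕ) (A : ValuationSubring Qb) (φ : GQ) (i : ℕ),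
      ℓ.Prime ∧ ℓ ∉ S ∧ A.LiesOverPrime ℓ ∧ A.IsFrobeniusAt φ ℓ ∧ ∀ x ∈ Mn, σ x = (φ ^ i) x := by
  haveI : NumberField Mn := NumberField.mk
  haveI : IsGalois ℚ Mn := IsGalois.mk
  obtain ⟨P, hPS, hI, hstab⟩ := hC1 Mn (AlgEquiv.restrictNormalHom Mn σ) S
  obtain ⟨hℓ, hℓmem, -⟩ := below_spec Mn P
  -- embedding of the ring of integers
  let φ₀ : 𝓞 Mn →+* Qb := (algebraMap Mn Qb).comp (algebraMap (𝓞 Mn) Mn)
  have hφ₀inj : Function.Injective φ₀ :=
    (algebraMap Mn Qb).injective.comp NumberField.RingOfIntegers.coe_injective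
  have hφ₀int : ∀ r, IsIntegral ℤ (φ₀ r) := fun r =>
    (NumberField.RingOfIntegers.isIntegral_coe r).map
      ((algebraMap Mn Qb).toIntAlgHom)
  -- valuation ring above `P`
  have hsurj : Function.Surjective φ₀.rangeRestrict := φ₀.rangeRestrict_surjective
  have hItop : Ideal.map φ₀.rangeRestrict P.asIdeal ≠ ⊤ := by
    intro h
    have h1 : (1 : φ₀.range) ∈ Ideal.map φ₀.rangeRestrict P.asIdeal := by rw [h]; trivial
    rw [Ideal.mem_map_iff_of_surjective _ hsurj] at h1
    obtain ⟨x, hx, hx1⟩ := h1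
    have h2 : φ₀ x = 1 := congrArg Subtype.val hx1
    have h3 : x = 1 := hφ₀inj (by rw [h2, map_one])
    exact P.isPrime.ne_top ((Ideal.eq_top_iff_one _).mpr (h3 ▸ hx))
  obtain ⟨B, -, hsub⟩ := Ideal.image_subset_nonunits_valuationSubring _ hItop
  have hPB : ∀ x ∈ P.asIdeal, B.valuation (φ₀ x) < 1 := by
    intro x hx
    have h1 : φ₀ x ∈ B.nonunits := hsub ⟨φ₀.rangeRestrict x, Ideal.mem_map_of_mem _ hx, rfl⟩
    rwa [B.mem_nonunits_iff] at h1
  have hPeq : P.asIdeal = Common.pullbackIdeal B φ₀ hφ₀int := by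
    have hprime := Common.pullbackIdeal_isPrime B φ₀ hφ₀int
    exact P.isMaximal.eq_of_le hprime.ne_top (fun x hx => hPB x hx)
  have hB : B.LiesOverPrime (below Mn P) := by
    show ((below Mn P : ℕ) : Qb) ∈ B.nonunits
    rw [B.mem_nonunits_iff]
    have h1 := hPB _ hℓmem
    simpa using h1
  obtain ⟨φF, hφF⟩ := Common.exists_isFrobeniusAt B (below Mn P) hℓ hB
  have hτ : ∀ x : 𝓞 Mn, (AlgEquiv.restrictNormalHom Mn φF) • x - x ^ (below Mn P) ∈ P.asIdeal := by
    intro x
    rw [hPeq, Common.mem_pullbackIdeal]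
    have hxB : φ₀ x ∈ B :=
      (B.valuation_le_one_iff _).mp (Common.valuation_le_one_of_isIntegral B (hφ₀int x))
    have h1 := lift_valuation_frob_sub_pow_lt_one B φF _ hφF (φ₀ x) hxB
    have h2 : φ₀ ((AlgEquiv.restrictNormalHom Mn φF) • x - x ^ below Mn P)
        = φF (φ₀ x) - φ₀ x ^ below Mn P := by
      rw [map_sub, map_pow]
      congr 1
      exact AlgEquiv.restrictNormal_commutes φF Mn (x : Mn)
    rw [h2]
    exact h1
  have hz := zpowers_eq_stabilizer Mn P hI (AlgEquiv.restrictNormalHom Mn φF) hτ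
  rw [hstab] at hz
  have hmem : AlgEquiv.restrictNormalHom Mn σ
      ∈ Subgroup.zpowers (AlgEquiv.restrictNormalHom Mn φF) := by
    rw [hz]
    exact Subgroup.mem_zpowers _
  obtain ⟨i, hi⟩ := mem_powers_iff_mem_zpowers.mpr hmem
  refine ⟨below Mn P, B, φF, i, hℓ, hPS, hB, hφF, ?_⟩
  intro x hx
  have h1 : (AlgEquiv.restrictNormalHom Mn (φF ^ i)) ⟨x, hx⟩
      = (AlgEquiv.restrictNormalHom Mn σ) ⟨x, hx⟩ := by
    rw [map_pow]
    exact congrArg (fun g : Gal(Mn/ℚ) => g ⟨x, hx⟩) hi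
  have h2 : algebraMap Mn Qb ((AlgEquiv.restrictNormalHom Mn σ) ⟨x, hx⟩) = σ x :=
    AlgEquiv.restrictNormal_commutes σ Mn ⟨x, hx⟩
  have h3 : algebraMap Mn Qb ((AlgEquiv.restrictNormalHom Mn (φF ^ i)) ⟨x, hx⟩) = (φF ^ i) x :=
    AlgEquiv.restrictNormal_commutes (φF ^ i) Mn ⟨x, hx⟩
  rw [← h2, ← h3, h1]

/-- (C3b) lifting a cyclic decomposition group to a Frobenius power in the absolute Galois
group. -/
theorem exists_frobenius_pow_of
    (hC1 : ∀ (M : Type) [Field M] [NumberField M] [IsGalois ℚ M] (σ : Gal(M/ℚ)) (S : Finset ℕ),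
      ∃ P : HeightOneSpectrum (𝓞 M), below M P ∉ S ∧ Ideal.inertia Gal(M/ℚ) P.asIdeal = ⊥ ∧
        MulAction.stabilizer Gal(M/ℚ) P.asIdeal = Subgroup.zpowers σ)
    (L : IntermediateField ℚ Qb) [FiniteDimensional ℚ L] (S : Finset ℕ) (σ : GQ) :
    ∃ (ℓ : ℕ) (A : ValuationSubring Qb) (φ : GQ) (i : ℕ),
      ℓ.Prime ∧ ℓ ∉ S ∧ A.LiesOverPrime ℓ ∧ A.IsFrobeniusAt φ ℓ ∧ ∀ x ∈ L, σ x = (φ ^ i) x := by
  haveI : Normal ℚ Qb := Common.isGalois_Qb.to_normal
  haveI hN : Normal ℚ ↥(IntermediateField.normalClosure ℚ L Qb) :=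
    normalClosure.normal ℚ L Qb
  haveI hF : FiniteDimensional ℚ ↥(IntermediateField.normalClosure ℚ L Qb) :=
    normalClosure.is_finiteDimensional ℚ L Qb
  obtain ⟨ℓ, A, φ, i, h1, h2, h3, h4, h5⟩ :=
    exists_frobenius_pow_of_normal hC1 (IntermediateField.normalClosure ℚ L Qb) S σ
  exact ⟨ℓ, A, φ, i, h1, h2, h3, h4, fun x hx => h5 x (IntermediateField.le_normalClosure L hx)⟩

end Lift

end Fermat.Agent.S29.WeakCheb
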