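import Fermat.Agent.S29.WeakChebCount
import Fermat.Agent.S29.WeakChebCore
import Fermat.Agent.S29.WeakChebLift
import Fermat.Prelude.Def_GaloisRep_Residual

/-!
# Weak Chebotarev (Frobenius' density theorem, existence form)

For a finite level `L ⊆ ℚ̄` and a finite set `S` of primes, every `σ ∈ Gal(ℚ̄/ℚ)` agrees on `L`
with a power of a Frobenius element at some prime `ℓ ∉ S`.
-/

set_option autoImplicit false

open scoped NumberField Pointwise
open IsDedekindDomain

namespace Fermat.Agent.S29.WeakCheb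

open Fermat.Agent.S14 Fermat.Agent.S14.MassUniv

/-- A prime with prescribed cyclic decomposition group and trivial inertia. -/
theorem exists_stabilizer_eq (M : Type) [Field M] [NumberField M] [IsGalois ℚ M]
    (σ : Gal(M/ℚ)) (S : Finset ℕ) :
    ∃ P : HeightOneSpectrum (𝓞 M), below M P ∉ S ∧
      Ideal.inertia Gal(M/ℚ) P.asIdeal = ⊥ ∧
      MulAction.stabilizer Gal(M/ℚ) P.asIdeal = Subgroup.zpowers σ :=
  exists_stabilizer_eq_of M (exists_bad_finset M)
    (fun H good w h => tsum_stabilizer_le M H good w h) σ S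

local notation "Qb" => AlgebraicClosure ℚ
local notation "GQ" => (AlgebraicClosure ℚ ≃ₐ[ℚ] AlgebraicClosure ℚ)

/-- **Weak Chebotarev**: on a finite level, every element of the absolute Galois group is a
power of a Frobenius element at a prime outside a given finite set. -/
theorem exists_frobenius_pow (L : IntermediateField ℚ Qb) [FiniteDimensional ℚ L]
    (S : Finset ℕ) (σ : GQ) :
    ∃ (ℓ : ℕ) (A : ValuationSubring Qb) (φ : GQ) (i : ℕ),
      ℓ.Prime ∧ ℓ ∉ S ∧ A.LiesOverPrime ℓ ∧ A.IsFrobeniusAt φ ℓ ∧ ∀ x ∈ L, σ x = (φ ^ i) x :=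
  exists_frobenius_pow_of (fun M _ _ _ σ S => exists_stabilizer_eq M σ S) L S σ

/-- Weak Chebotarev for a representation factoring through a finite level. -/
theorem exists_frobenius_pow_of_factors {Mo : Type} [Monoid Mo] (ρ : GQ →* Mo)
    (hρ : GaloisFactorsThroughFiniteLevel ρ) (S : Finset ℕ) (σ : GQ) :
    ∃ (ℓ : ℕ) (A : ValuationSubring Qb) (φ : GQ) (i : ℕ),
      ℓ.Prime ∧ ℓ ∉ S ∧ A.LiesOverPrime ℓ ∧ A.IsFrobeniusAt φ ℓ ∧ ρ σ = ρ φ ^ i := by
  obtain ⟨L, hL, hρL⟩ := hρ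
  obtain ⟨ℓ, A, φ, i, h1, h2, h3, h4, h5⟩ := exists_frobenius_pow L S σ
  refine ⟨ℓ, A, φ, i, h1, h2, h3, h4, ?_⟩
  have h6 : ρ (σ⁻¹ * φ ^ i) = 1 := by
    apply hρL
    intro x hx
    rw [AlgEquiv.mul_apply, ← h5 x hx]
    exact σ.symm_apply_apply x
  have h7 : ρ (φ ^ i) = ρ σ * ρ (σ⁻¹ * φ ^ i) := by
    rw [← map_mul, mul_inv_cancel_left]
  rw [← map_pow, h7, h6, mul_one]

end Fermat.Agent.S29.WeakCheb
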