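import Mathlib

/-!
# S29, package A (algebra): powers of quadratic elements (Dickson)

`pow_quadratic`: if `S² - a S + c = 0` in an algebra over a field, then every power `Sⁱ`
satisfies `(Sⁱ)² - t Sⁱ + cⁱ = 0` for some scalar `t`.
-/

set_option autoImplicit false

open Polynomial

namespace Fermat.Agent.S29.Dickson

/-- commutative version -/
theorem pow_quadratic_comm {k B : Type*} [CommRing k] [CommRing B] [Algebra k B] (x : B) (a c : k)
    (h : x * x - algebraMap k B a * x + algebraMap k B c = 0) (i : ℕ) :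
    ∃ t : k, x ^ i * x ^ i - algebraMap k B t * x ^ i + algebraMap k B (c ^ i) = 0 := by
  set x' : B := algebraMap k B a - x with hx'
  have hxx' : x * x' = algebraMap k B c := by rw [hx']; linear_combination -h
  have hsum : x + x' = algebraMap k B a := by rw [hx']; ring
  have key : ∀ n : ℕ, ∃ t : k, x ^ n + x' ^ n = algebraMap k B t := by
    intro n
    induction n using Nat.twoStepInduction with
    | zero => exact ⟨2, by rw [pow_zero, pow_zero, map_ofNat]; norm_num⟩
    | one => exact ⟨a, by rw [pow_one, pow_one, hsum]⟩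
    | more n ih1 ih2 =>
      obtain ⟨t1, ht1⟩ := ih1
      obtain ⟨t2, ht2⟩ := ih2
      refine ⟨a * t2 - c * t1, ?_⟩
      have e : x ^ (n + 2) + x' ^ (n + 2)
          = (x + x') * (x ^ (n + 1) + x' ^ (n + 1)) - (x * x') * (x ^ n + x' ^ n) := by ring
      rw [e, ht1, ht2, hxx', hsum, map_sub, map_mul, map_mul]
  obtain ⟨t, ht⟩ := key i
  refine ⟨t, ?_⟩
  have h1 : x ^ i * x' ^ i = algebraMap k B (c ^ i) := by rw [← mul_pow, hxx', map_pow]
  have h2 : x' ^ i = algebraMap k B t - x ^ i := by rw [← ht]; ring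
  rw [h2] at h1
  linear_combination -h1

/-- powers of a quadratic element are quadratic -/
theorem pow_quadratic {k A : Type*} [Field k] [Ring A] [Algebra k A] (S : A) (a c : k)
    (h : S * S - a • S + c • (1 : A) = 0) (i : ℕ) :
    ∃ t : k, S ^ i * S ^ i - t • S ^ i + c ^ i • (1 : A) = 0 := by
  classical
  let P : k[X] := X * X - C a * X + C c
  have hx : (Ideal.Quotient.mk (Ideal.span {P}) X) * (Ideal.Quotient.mk (Ideal.span {P}) X)
      - algebraMap k (k[X] ⧸ Ideal.span {P}) a * (Ideal.Quotient.mk (Ideal.span {P}) X)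
      + algebraMap k (k[X] ⧸ Ideal.span {P}) c = 0 := by
    have h0 : (Ideal.Quotient.mk (Ideal.span {P})) P = 0 :=
      Ideal.Quotient.eq_zero_iff_mem.mpr (Ideal.mem_span_singleton_self P)
    have e : ∀ b : k, algebraMap k (k[X] ⧸ Ideal.span {P}) b
        = Ideal.Quotient.mk (Ideal.span {P}) (C b) := fun b => rfl
    rw [e, e, ← map_mul, ← map_mul, ← map_sub, ← map_add]
    exact h0
  obtain ⟨t, ht⟩ := pow_quadratic_comm (B := k[X] ⧸ Ideal.span {P}) _ a c hx i
  refine ⟨t, ?_⟩
  have hmem : (X ^ i * X ^ i - C t * X ^ i + C (c ^ i) : k[X]) ∈ Ideal.span {P} := by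
    rw [← Ideal.Quotient.eq_zero_iff_mem]
    have e : ∀ b : k, algebraMap k (k[X] ⧸ Ideal.span {P}) b
        = Ideal.Quotient.mk (Ideal.span {P}) (C b) := fun b => rfl
    rw [e, e, ← map_pow, ← map_mul, ← map_mul, ← map_sub, ← map_add] at ht
    exact ht
  obtain ⟨Q, hQ⟩ := Ideal.mem_span_singleton'.mp hmem
  have hP : aeval S P = 0 := by
    simp only [P, map_add, map_sub, map_mul, aeval_X, aeval_C, Algebra.algebraMap_eq_smul_one,
      smul_mul_assoc, one_mul]
    exact h
  have h3 := congrArg (aeval S) hQ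
  rw [map_mul, hP, mul_zero] at h3
  simp only [map_add, map_sub, map_mul, map_pow, aeval_X, aeval_C, Algebra.algebraMap_eq_smul_one,
    smul_mul_assoc, one_mul, _root_.smul_pow, one_pow] at h3
  exact h3.symm

end Fermat.Agent.S29.Dickson
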