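import Mathlib
import Fermat.Agent.S29.Defs
import Fermat.Agent.S29.Dickson
import Fermat.Agent.S29.QuadCharpoly

/-!
# S29 (wave 5), package A: the residual representation from abstract inputs

`residualRep_of_inputs`: let `V` be an `𝔽_p`-vector space with commuting actions of `G_ℚ` (`r`)
and of operators `T ℓ`, such that every vector is fixed by an open subgroup, inertia at
`ℓ ∤ N p` acts trivially, Frobenius lifts `s` at `ℓ ∤ N p` satisfy `s² - T_ℓ s + ℓ = 0`, and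
`k₀ ⊗ V` (`k₀` algebraically closed) contains a nonzero eigenvector for the system
`φ₀ (a_ℓ(g))`.  Together with the mod `p` cyclotomic character and the weak Chebotarev theorem
(every element agrees, on a given finite level, with a power of a Frobenius lift at a prime
outside a given finite set), this yields a two-dimensional residual representation attached
to `g`, unramified outside `N p`.
-/

set_option autoImplicit false

open scoped TensorProduct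
open Polynomial

namespace Fermat.Agent.S29.Assembly

open Fermat.Agent.S29

local notation "Qb" => AlgebraicClosure ℚ

/-! ### Finite levels -/

/-- a function on `G_ℚ` which only depends on the restriction to a finite extension has finite
range -/
theorem finite_range_of_level {X : Type*} (a : GQ → X) (L : IntermediateField ℚ Qb)
    [FiniteDimensional ℚ L] (h : ∀ σ τ : GQ, (∀ y ∈ L, σ y = τ y) → a σ = a τ) :
    (Set.range a).Finite := by
  classical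
  have : Finite (L →ₐ[ℚ] Qb) := Fintype.finite (minpoly.AlgHom.fintype ℚ L Qb)
  let res : GQ → (L →ₐ[ℚ] Qb) := fun σ => (σ : Qb →ₐ[ℚ] Qb).comp L.val
  let b : (L →ₐ[ℚ] Qb) → X := fun e => if h : ∃ σ, res σ = e then a h.choose else a 1
  have hab : ∀ σ, a σ = b (res σ) := by
    intro σ
    have hex : ∃ τ, res τ = res σ := ⟨σ, rfl⟩
    show a σ = if h : ∃ τ, res τ = res σ then a h.choose else a 1
    rw [dif_pos hex]
    apply h
    intro y hy
    have := congrArg (fun e : L →ₐ[ℚ] Qb => e ⟨y, hy⟩) hex.choose_spec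
    exact this.symm
  refine (Set.finite_range b).subset ?_
  rintro _ ⟨σ, rfl⟩
  exact ⟨res σ, (hab σ).symm⟩

/-- if every vector has a finite level, so has every finitely generated submodule -/
theorem exists_level_of_fg {R X : Type*} [Semiring R] [AddCommMonoid X] [Module R X]
    (f : GQ → X →ₗ[R] X)
    (h : ∀ x : X, ∃ L : IntermediateField ℚ Qb, FiniteDimensional ℚ L ∧
      ∀ σ : GQ, (∀ y ∈ L, σ y = y) → f σ x = x)
    (W : Submodule R X) (hW : W.FG) :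
    ∃ L : IntermediateField ℚ Qb, FiniteDimensional ℚ L ∧
      ∀ σ : GQ, (∀ y ∈ L, σ y = y) → ∀ x ∈ W, f σ x = x := by
  classical
  obtain ⟨s, rfl⟩ := hW
  have key : ∃ L : IntermediateField ℚ Qb, FiniteDimensional ℚ L ∧
      ∀ σ : GQ, (∀ y ∈ L, σ y = y) → ∀ x ∈ s, f σ x = x := by
    induction s using Finset.induction_on with
    | empty => exact ⟨⊥, inferInstance, fun _ _ x hx => absurd hx (Finset.notMem_empty x)⟩
    | insert a s _ ih =>
      obtain ⟨L₁, hL₁, h₁⟩ := ih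
      obtain ⟨L₂, hL₂, h₂⟩ := h a
      refine ⟨L₁ ⊔ L₂, IntermediateField.finiteDimensional_sup L₁ L₂, fun σ hσ x hx => ?_⟩
      rcases Finset.mem_insert.mp hx with rfl | hx
      · exact h₂ σ fun y hy => hσ y ((le_sup_right : L₂ ≤ L₁ ⊔ L₂) hy)
      · exact h₁ σ (fun y hy => hσ y ((le_sup_left : L₁ ≤ L₁ ⊔ L₂) hy)) x hx
  obtain ⟨L, hL, hLs⟩ := key
  refine ⟨L, hL, fun σ hσ x hx => ?_⟩
  induction hx using Submodule.span_induction with
  | mem x hx => exact hLs σ hσ x hx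
  | zero => exact map_zero _
  | add x y _ _ hx hy => rw [map_add, hx, hy]
  | smul c x _ hx => rw [map_smul, hx]

section BaseChange

variable {p : ℕ} {k₀ : Type} [Field k₀] [Algebra (ZMod p) k₀]
  {V : Type} [AddCommGroup V] [Module (ZMod p) V]

/-- the base change of a representation -/
noncomputable def baseChangeRep (k₀ : Type) [Field k₀] [Algebra (ZMod p) k₀]
    (r : GQ →* Module.End (ZMod p) V) : GQ →* Module.End k₀ (k₀ ⊗[ZMod p] V) where
  toFun σ := (r σ).baseChange k₀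
  map_one' := by rw [map_one, LinearMap.baseChange_one]
  map_mul' σ τ := by rw [map_mul, LinearMap.baseChange_mul]

theorem baseChangeRep_apply (r : GQ →* Module.End (ZMod p) V) (σ : GQ) :
    baseChangeRep k₀ r σ = (r σ).baseChange k₀ := rfl

/-- every vector of the base change has a finite level -/
theorem exists_level_tensor (r : GQ →* Module.End (ZMod p) V)
    (hopen : ∀ x : V, ∃ L : IntermediateField ℚ Qb, FiniteDimensional ℚ L ∧
      ∀ σ : GQ, (∀ y ∈ L, σ y = y) → r σ x = x) (w : k₀ ⊗[ZMod p] V) :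
    ∃ L : IntermediateField ℚ Qb, FiniteDimensional ℚ L ∧
      ∀ σ : GQ, (∀ y ∈ L, σ y = y) → baseChangeRep k₀ r σ w = w := by
  induction w using TensorProduct.induction_on with
  | zero => exact ⟨⊥, inferInstance, fun σ _ => map_zero _⟩
  | tmul a x =>
    obtain ⟨L, hL, h⟩ := hopen x
    refine ⟨L, hL, fun σ hσ => ?_⟩
    rw [baseChangeRep_apply, LinearMap.baseChange_tmul, h σ hσ]
  | add w₁ w₂ h₁ h₂ =>
    obtain ⟨L₁, hL₁, h₁⟩ := h₁
    obtain ⟨L₂, hL₂, h₂⟩ := h₂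
    refine ⟨L₁ ⊔ L₂, IntermediateField.finiteDimensional_sup L₁ L₂, fun σ hσ => ?_⟩
    rw [map_add, h₁ σ fun y hy => hσ y ((le_sup_left : L₁ ≤ L₁ ⊔ L₂) hy),
      h₂ σ fun y hy => hσ y ((le_sup_right : L₂ ≤ L₁ ⊔ L₂) hy)]

/-- base change of a quadratic relation -/
theorem baseChange_quadratic (A B : Module.End (ZMod p) V) (ℓ : ℕ)
    (h : A * A - B * A + (ℓ : ZMod p) • (1 : Module.End (ZMod p) V) = 0)
    (w : k₀ ⊗[ZMod p] V) :
    A.baseChange k₀ (A.baseChange k₀ w) - B.baseChange k₀ (A.baseChange k₀ w)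
      + (ℓ : k₀) • w = 0 := by
  induction w using TensorProduct.induction_on with
  | zero => simp
  | tmul a x =>
    have hx : A (A x) - B (A x) + ℓ • x = 0 := by
      have := congrArg (fun f : Module.End (ZMod p) V => f x) h
      simpa [Nat.cast_smul_eq_nsmul] using this
    have e : (ℓ : k₀) • (a ⊗ₜ[ZMod p] x) = a ⊗ₜ[ZMod p] (ℓ • x) := by
      rw [Nat.cast_smul_eq_nsmul, ← Nat.cast_smul_eq_nsmul (ZMod p) ℓ x,
        TensorProduct.tmul_smul, Nat.cast_smul_eq_nsmul]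
    rw [LinearMap.baseChange_tmul, LinearMap.baseChange_tmul, LinearMap.baseChange_tmul,
      e, ← TensorProduct.tmul_sub, ← TensorProduct.tmul_add, hx, TensorProduct.tmul_zero]
  | add w₁ w₂ h₁ h₂ =>
    rw [map_add, map_add, map_add, smul_add]
    calc _ = (A.baseChange k₀ (A.baseChange k₀ w₁) - B.baseChange k₀ (A.baseChange k₀ w₁)
          + (ℓ : k₀) • w₁) + (A.baseChange k₀ (A.baseChange k₀ w₂)
          - B.baseChange k₀ (A.baseChange k₀ w₂) + (ℓ : k₀) • w₂) := by abel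
      _ = 0 := by rw [h₁, h₂, add_zero]

end BaseChange

/-- **The abstract assembly over `k₀`.**  `X` a `k₀`-vector space (`k₀` algebraically closed
of characteristic `p`) with commuting actions of `G_ℚ` (`rk`) and of operators `Tk ℓ`, such that
every vector is fixed by an open subgroup, inertia at `ℓ ∤ N p` acts trivially, Frobenius lifts
at `ℓ ∤ N p` satisfy `s² - T_ℓ s + ℓ = 0`, and `X` contains a nonzero eigenvector for the system
`φ₀ (a_ℓ(g))`.  Together with the cyclotomic character and the weak Chebotarev theorem this gives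
the residual representation attached to `g`. -/
theorem residualRep_of_rep
    {N : ℕ} {g : CuspForm (CongruenceSubgroup.Gamma0 N) 2} {p : ℕ} (hp : p.Prime)
    {k₀ : Type} [Field k₀] [IsAlgClosed k₀] (hpk : (p : k₀) = 0)
    (φ₀ : integralClosure ℤ ℂ →+* k₀)
    {X : Type} [AddCommGroup X] [Module k₀ X]
    (rk : GQ →* Module.End k₀ X) (Tk : Nat.Primes → Module.End k₀ X)
    (hTr : ∀ (ℓ : Nat.Primes) (σ : GQ), Tk ℓ * rk σ = rk σ * Tk ℓ)
    (hopen : ∀ x : X, ∃ L : IntermediateField ℚ Qb, FiniteDimensional ℚ L ∧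
      ∀ σ : GQ, (∀ y ∈ L, σ y = y) → rk σ x = x)
    (hunr : ∀ ℓ : ℕ, ℓ.Prime → ¬ ℓ ∣ N * p → ∀ A : ValuationSubring Qb, A.LiesOverPrime ℓ →
      ∀ σ ∈ A.inertiaSubgroupIn ℚ, rk σ = 1)
    (hES : ∀ (ℓ : ℕ) (hℓ : ℓ.Prime), ¬ ℓ ∣ N * p → ∀ A : ValuationSubring Qb,
      A.LiesOverPrime ℓ → ∀ s : GQ, A.IsFrobeniusAt s ℓ → ∀ x : X,
        rk s (rk s x) - Tk ⟨ℓ, hℓ⟩ (rk s x) + (ℓ : k₀) • x = 0)
    (heig : ∃ v : X, v ≠ 0 ∧ ∀ (ℓ : ℕ) (hℓ : ℓ.Prime), ¬ ℓ ∣ N * p →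
      ∃ a : integralClosure ℤ ℂ, (a : ℂ) = ModularFormClass.qCoeff g ℓ ∧
        Tk ⟨ℓ, hℓ⟩ v = φ₀ a • v)
    (hcyc : ∃ ωk : GQ →* k₀ˣ, GaloisFactorsThroughFiniteLevel ωk ∧
      ∀ ℓ : ℕ, ℓ.Prime → ℓ ≠ p → ∀ A : ValuationSubring Qb, A.LiesOverPrime ℓ →
        (∀ σ ∈ A.inertiaSubgroupIn ℚ, ωk σ = 1) ∧
        ∀ s : GQ, A.IsFrobeniusAt s ℓ → ((ωk s : k₀ˣ) : k₀) = (ℓ : k₀))
    (hcheb : ∀ {M : Type} [Monoid M] (ρ : GQ →* M), GaloisFactorsThroughFiniteLevel ρ →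
      ∀ (S : Finset ℕ) (σ : GQ), ∃ (ℓ : ℕ) (A : ValuationSubring Qb) (s : GQ) (i : ℕ),
        ℓ.Prime ∧ ℓ ∉ S ∧ A.LiesOverPrime ℓ ∧ A.IsFrobeniusAt s ℓ ∧ ρ σ = ρ s ^ i)
    (hNp : N * p ≠ 0) :
    ∃ ρ : ResidualGaloisRep k₀, ρ.IsAttachedTo g φ₀ ∧
      ∀ ℓ : ℕ, ℓ.Prime → ¬ ℓ ∣ N * p → ρ.IsUnramifiedAt ℓ := by
  classical
  obtain ⟨v, hv0, hv⟩ := heig
  obtain ⟨ωk, ⟨Lω, hLω, hωL⟩, hω⟩ := hcyc
  -- the eigenvalues
  let c : ℕ → k₀ := fun ℓ =>
    if h : ∃ a : integralClosure ℤ ℂ, (a : ℂ) = ModularFormClass.qCoeff g ℓ then φ₀ h.choose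
    else 0
  have hc : ∀ (ℓ : ℕ) (a : integralClosure ℤ ℂ), (a : ℂ) = ModularFormClass.qCoeff g ℓ →
      c ℓ = φ₀ a := by
    intro ℓ a ha
    have hex : ∃ a : integralClosure ℤ ℂ, (a : ℂ) = ModularFormClass.qCoeff g ℓ := ⟨a, ha⟩
    show (if h : ∃ a : integralClosure ℤ ℂ, (a : ℂ) = ModularFormClass.qCoeff g ℓ then
      φ₀ h.choose else 0) = φ₀ a
    rw [dif_pos hex]
    congr 1
    exact Subtype.ext (hex.choose_spec.trans ha.symm)
  -- the eigenspace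
  let E : Submodule k₀ X :=
    { carrier := {w | ∀ (ℓ : ℕ) (hℓ : ℓ.Prime), ¬ ℓ ∣ N * p → Tk ⟨ℓ, hℓ⟩ w = c ℓ • w}
      zero_mem' := fun ℓ hℓ _ => by rw [map_zero, smul_zero]
      add_mem' := fun {x y} hx hy ℓ hℓ h => by rw [map_add, hx ℓ hℓ h, hy ℓ hℓ h, smul_add]
      smul_mem' := fun a x hx ℓ hℓ h => by rw [map_smul, hx ℓ hℓ h, smul_comm] }
  have hvE : v ∈ E := by
    intro ℓ hℓ h
    obtain ⟨a, ha, hav⟩ := hv ℓ hℓ h
    rw [hav, hc ℓ a ha]
  have hEstab : ∀ (σ : GQ) (w : X), w ∈ E → rk σ w ∈ E := by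
    intro σ w hw ℓ hℓ h
    have h1 : Tk ⟨ℓ, hℓ⟩ (rk σ w) = rk σ (Tk ⟨ℓ, hℓ⟩ w) :=
      congrArg (fun f : Module.End k₀ X => f w) (hTr ⟨ℓ, hℓ⟩ σ)
    rw [h1, hw ℓ hℓ h, map_smul]
  -- the span of the orbit of `v`
  obtain ⟨Lv, hLv, hvL⟩ := hopen v
  have horb : (Set.range fun σ : GQ => rk σ v).Finite := by
    refine finite_range_of_level (fun σ : GQ => rk σ v) Lv ?_
    intro σ τ hστ
    have h1 : rk (τ⁻¹ * σ) v = v := by
      apply hvL
      intro y hy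
      rw [AlgEquiv.mul_apply, hστ y hy]
      exact τ.symm_apply_apply y
    have h2 : rk σ v = rk τ (rk (τ⁻¹ * σ) v) := by
      rw [← Module.End.mul_apply, ← map_mul, mul_inv_cancel_left]
    show rk σ v = rk τ v
    rw [h2, h1]
  obtain ⟨W₀, hW₀def⟩ : ∃ W : Submodule k₀ X,
      W = Submodule.span k₀ (Set.range fun σ : GQ => rk σ v) := ⟨_, rfl⟩
  have hW₀fin : FiniteDimensional k₀ W₀ := by
    rw [hW₀def]; exact FiniteDimensional.span_of_finite k₀ horb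
  have hvW : v ∈ W₀ := by
    rw [hW₀def]
    refine Submodule.subset_span ⟨1, ?_⟩
    show rk 1 v = v
    rw [map_one]; rfl
  have hWE : W₀ ≤ E := by
    rw [hW₀def]
    refine Submodule.span_le.mpr ?_
    rintro _ ⟨σ, rfl⟩
    exact hEstab σ v hvE
  have hWstab : ∀ (σ : GQ), ∀ w ∈ W₀, rk σ w ∈ W₀ := by
    intro σ w hw
    rw [hW₀def] at hw ⊢
    induction hw using Submodule.span_induction with
    | mem x hx =>
      obtain ⟨τ, rfl⟩ := hx
      refine Submodule.subset_span ⟨σ * τ, ?_⟩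
      show rk (σ * τ) v = rk σ (rk τ v)
      rw [map_mul, Module.End.mul_apply]
    | zero => rw [map_zero]; exact zero_mem _
    | add x y _ _ hx hy => rw [map_add]; exact add_mem hx hy
    | smul a x _ hx => rw [map_smul]; exact Submodule.smul_mem _ _ hx
  have hW₀nt : Nontrivial W₀ :=
    ⟨⟨⟨v, hvW⟩, 0, fun h => hv0 (congrArg Subtype.val h)⟩⟩
  let ρ₀ : GQ →* Module.End k₀ W₀ := QuadCharpoly.restrictRep rk W₀ hWstab
  have hρ₀ : ∀ (σ : GQ) (w : W₀), ((ρ₀ σ w : W₀) : X) = rk σ w := fun _ _ => rfl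
  -- the finite level of `W₀`
  obtain ⟨LW, hLW, hWL⟩ := exists_level_of_fg (fun σ : GQ => rk σ) hopen W₀
    (Submodule.fg_iff_finiteDimensional W₀ |>.mpr hW₀fin)
  have hρ₀L : ∀ σ : GQ, (∀ y ∈ LW, σ y = y) → ρ₀ σ = 1 := by
    intro σ hσ
    ext w
    rw [hρ₀]
    exact hWL σ hσ w w.2
  have hnotp : ∀ ℓ : ℕ, ¬ ℓ ∣ N * p → ℓ ≠ p := by
    rintro ℓ h rfl
    exact h (dvd_mul_left _ _)
  -- the joint finite level
  let Ψ : GQ →* Module.End k₀ W₀ × k₀ˣ := ρ₀.prod ωk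
  have hΨ : GaloisFactorsThroughFiniteLevel Ψ := by
    refine ⟨LW ⊔ Lω, IntermediateField.finiteDimensional_sup LW Lω, fun σ hσ => ?_⟩
    show (ρ₀ σ, ωk σ) = 1
    rw [hρ₀L σ fun y hy => hσ y ((le_sup_left : LW ≤ LW ⊔ Lω) hy),
      hωL σ fun y hy => hσ y ((le_sup_right : Lω ≤ LW ⊔ Lω) hy)]
    rfl
  -- Frobenius lifts are quadratic on `W₀`
  have hfrob : ∀ (ℓ : ℕ), ℓ.Prime → ¬ ℓ ∣ N * p → ∀ A : ValuationSubring Qb,
      A.LiesOverPrime ℓ → ∀ s : GQ, A.IsFrobeniusAt s ℓ →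
        ρ₀ s * ρ₀ s - c ℓ • ρ₀ s + (ℓ : k₀) • (1 : Module.End k₀ W₀) = 0 := by
    intro ℓ hℓ hℓNp A hA s hs
    ext w
    have h1 := hES ℓ hℓ hℓNp A hA s hs (w : X)
    have h2 : Tk ⟨ℓ, hℓ⟩ (rk s (w : X)) = c ℓ • rk s (w : X) :=
      hWE (hWstab s w w.2) ℓ hℓ hℓNp
    rw [h2] at h1
    simp only [LinearMap.add_apply, LinearMap.sub_apply, Module.End.mul_apply,
      LinearMap.smul_apply, Module.End.one_apply, LinearMap.zero_apply, Submodule.coe_add,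
      Submodule.coe_sub, Submodule.coe_smul, ZeroMemClass.coe_zero, hρ₀]
    exact h1
  -- every element is quadratic on `W₀`
  have hquad : ∀ σ : GQ, ∃ t : k₀,
      ρ₀ σ * ρ₀ σ - t • ρ₀ σ + ((ωk σ : k₀ˣ) : k₀) • (1 : Module.End k₀ W₀) = 0 := by
    intro σ
    obtain ⟨ℓ, A, s, i, hℓ, hℓS, hA, hs, hσs⟩ := hcheb Ψ hΨ (N * p).primeFactors σ
    have hℓNp : ¬ ℓ ∣ N * p := fun h => hℓS (Nat.mem_primeFactors.mpr ⟨hℓ, h, hNp⟩)
    have h1 : ρ₀ σ = ρ₀ s ^ i := congrArg Prod.fst hσs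
    have h2 : ωk σ = ωk s ^ i := congrArg Prod.snd hσs
    obtain ⟨t, ht⟩ := Dickson.pow_quadratic (ρ₀ s) (c ℓ) (ℓ : k₀) (hfrob ℓ hℓ hℓNp A hA s hs) i
    refine ⟨t, ?_⟩
    have h3 : ((ωk σ : k₀ˣ) : k₀) = (ℓ : k₀) ^ i := by
      rw [h2, Units.val_pow_eq_pow_val, (hω ℓ hℓ (hnotp ℓ hℓNp) A hA).2 s hs]
    rw [h1, h3]
    exact ht
  choose t ht using hquad
  have hq : ∀ σ : GQ, ρ₀ σ + ((ωk σ : k₀ˣ) : k₀) • ρ₀ σ⁻¹ = t σ • (1 : Module.End k₀ W₀) := by
    intro σ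
    have h1 : ρ₀ σ * ρ₀ σ⁻¹ = 1 := by rw [← map_mul, mul_inv_cancel, map_one]
    have h2 := congrArg (fun f : Module.End k₀ W₀ => f * ρ₀ σ⁻¹) (ht σ)
    simp only [add_mul, sub_mul, mul_assoc, h1, mul_one, smul_mul_assoc, one_mul, zero_mul]
      at h2
    rw [← sub_eq_zero, ← h2]
    abel
  obtain ⟨ρ', hchar, htriv⟩ := QuadCharpoly.exists_two_dim ρ₀ ωk t hq
  -- the representation
  let e : Matrix (Fin 2) (Fin 2) k₀ →* Module.End k₀ (Fin 2 → k₀) :=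
    (Matrix.toLinAlgEquiv' : Matrix (Fin 2) (Fin 2) k₀ ≃ₐ[k₀] Module.End k₀ (Fin 2 → k₀))
  have he : ∀ M : Matrix (Fin 2) (Fin 2) k₀, e M = Matrix.toLin' M := fun _ => rfl
  refine ⟨{ V := Fin 2 → k₀
            finrank_eq := by simp
            ρ := e.comp ρ'
            factorsThroughFiniteLevel := ⟨LW ⊔ Lω, IntermediateField.finiteDimensional_sup LW Lω,
              fun σ hσ => ?_⟩ }, ?_, ?_⟩
  · have h1 : ρ₀ σ = 1 := hρ₀L σ fun y hy => hσ y ((le_sup_left : LW ≤ LW ⊔ Lω) hy)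
    have h2 : ωk σ = 1 := hωL σ fun y hy => hσ y ((le_sup_right : Lω ≤ LW ⊔ Lω) hy)
    have h3 : ((ωk σ : k₀ˣ) : k₀) = 1 := by rw [h2, Units.val_one]
    rw [MonoidHom.comp_apply, htriv σ h1 h3, map_one]
  · -- attached to `g`
    intro ℓ hℓ hℓN hℓk A hA σ hσ
    have hℓp : ℓ ≠ p := by
      rintro rfl
      exact hℓk hpk
    have hℓNp : ¬ ℓ ∣ N * p := by
      intro h
      rcases (Nat.Prime.dvd_mul hℓ).mp h with h | h
      · exact hℓN h
      · exact hℓp ((Nat.prime_dvd_prime_iff_eq hℓ hp).mp h)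
    obtain ⟨a, ha, -⟩ := hv ℓ hℓ hℓNp
    refine ⟨a, ha, ?_⟩
    have h1 : ((ωk σ : k₀ˣ) : k₀) = (ℓ : k₀) := (hω ℓ hℓ hℓp A hA).2 σ hσ
    have h2 : t σ = c ℓ := by
      have h3 := ht σ
      have h4 := hfrob ℓ hℓ hℓNp A hA σ hσ
      rw [h1] at h3
      have h3' := congrArg (fun f : Module.End k₀ W₀ => f (⟨v, hvW⟩ : W₀)) h3
      have h4' := congrArg (fun f : Module.End k₀ W₀ => f (⟨v, hvW⟩ : W₀)) h4
      simp only [LinearMap.add_apply, LinearMap.sub_apply, Module.End.mul_apply,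
        LinearMap.smul_apply, Module.End.one_apply, LinearMap.zero_apply] at h3' h4'
      have h6 : (c ℓ - t σ) • ρ₀ σ (⟨v, hvW⟩ : W₀) = 0 := by
        calc (c ℓ - t σ) • ρ₀ σ (⟨v, hvW⟩ : W₀)
            = (ρ₀ σ (ρ₀ σ (⟨v, hvW⟩ : W₀)) - t σ • ρ₀ σ (⟨v, hvW⟩ : W₀)
                + (ℓ : k₀) • (⟨v, hvW⟩ : W₀))
              - (ρ₀ σ (ρ₀ σ (⟨v, hvW⟩ : W₀)) - c ℓ • ρ₀ σ (⟨v, hvW⟩ : W₀)
                + (ℓ : k₀) • (⟨v, hvW⟩ : W₀)) := by rw [sub_smul]; abel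
          _ = 0 := by rw [h3', h4', sub_zero]
      rcases smul_eq_zero.mp h6 with h7 | h7
      · exact (sub_eq_zero.mp h7).symm
      · exfalso
        have h8 : ρ₀ σ⁻¹ (ρ₀ σ (⟨v, hvW⟩ : W₀)) = (⟨v, hvW⟩ : W₀) := by
          rw [← Module.End.mul_apply, ← map_mul, inv_mul_cancel, map_one, Module.End.one_apply]
        rw [h7, map_zero] at h8
        exact hv0 (congrArg Subtype.val h8).symm
    show LinearMap.charpoly (e (ρ' σ)) = _
    rw [he, Matrix.charpoly_toLin', hchar σ, h1, h2, hc ℓ a ha]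
  · -- unramified outside `N p`
    intro ℓ hℓ hℓNp A hA σ hσ
    show e (ρ' σ) = 1
    have h1 : ρ₀ σ = 1 := by
      ext w
      rw [hρ₀, hunr ℓ hℓ hℓNp A hA σ hσ]
      rfl
    have h2 : ωk σ = 1 := (hω ℓ hℓ (hnotp ℓ hℓNp) A hA).1 σ hσ
    have h3 : ((ωk σ : k₀ˣ) : k₀) = 1 := by rw [h2, Units.val_one]
    rw [htriv σ h1 h3, map_one]

end Fermat.Agent.S29.Assembly
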