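import Fermat.Agent.S21.Prim
import Fermat.Agent.S22.Assembly
import Fermat.Agent.S23.Denoms
import Fermat.Agent.S23.ConjCore
import Fermat.Agent.S29.HeckeChar
import Fermat.Agent.S29.Defs
import Fermat.Prelude.Def_FLTPrelim_ModularRep

/-!
# Wave 5, package B (part 2): the complex period eigen-homomorphism

For a cusp form `f` of weight `2` on `Γ₀(N)` the prelude period map `periodMap N f : Γ₀(N) → ℂ`
* is `(2πi)⁻¹` times the weight-`2` period polynomial of S22 (`periodPoly_zero_eq`),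
* intertwines `T_ℓ` on forms with the transfer operator on characters (`periodMap_heckeT`),
* is nonzero for `f ≠ 0` (`periodMap_ne_zero`) and kills parabolic and finite-order elements
  (`isPE_periodMap`).
A normalised eigenform (in the `q`-coefficient sense of the prelude) is an eigenvector of `T_ℓ`
with eigenvalue `a_ℓ` (`heckeTLin_eigen`), and `a_ℓ` is an algebraic integer
(`isIntegral_qCoeff`, from the finiteness of the Hecke algebra, S22).
-/

set_option autoImplicit false
set_option linter.style.haveILetI false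
set_option linter.unusedSectionVars false

open UpperHalfPlane hiding I
open Complex Filter Function CongruenceSubgroup ModularCurve ModularCurve.Period
open scoped MatrixGroups ModularForm Topology Manifold Derivative
open Polynomial

namespace Fermat.Agent.S29.Betti

open Fermat.Agent.S22

variable {N : ℕ} [NeZero N]

/-- The Eichler integral of S22 in weight `2` is `2πi` times the prelude primitive. -/
theorem eichler_zero_eq (f : CuspForm (Gamma0 N) 2) {F : ℍ → ℂ}
    (hF : HasEquivariantPrimitive N f F) :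
    eichler 0 (f : CuspForm (Gamma0 N) (((0 : ℕ) : ℤ) + 2)) = (2 * Real.pi * I) • F := by
  symm
  have hFm : MDiff F := Fermat.Agent.S21.mdiff_of_hasEquivariantPrimitive hF
  apply eichler_unique
  · exact hFm.const_smul _
  · have h : Tendsto (fun τ => (2 * Real.pi * I) * F τ) atImInfty
        (𝓝 ((2 * Real.pi * I) * 0)) := Tendsto.const_mul _ hF.2.1
    rw [mul_zero] at h
    exact h
  · simp only [Function.iterate_one, zero_add]
    rw [Derivative.normalizedDerivOfComplex_smul _ _ hFm,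
      Fermat.Agent.S21.Prim.D_of_hasDerivAt hF.1]
    funext τ
    have hpi : (2 * (Real.pi : ℂ) * I) ≠ 0 := Complex.two_pi_I_ne_zero
    simp only [Pi.smul_apply, smul_eq_mul]
    field_simp

/-- The weight-`2` period polynomial of S22 is the constant `2πi · periodMap`. -/
theorem periodPoly_zero_eq (f : CuspForm (Gamma0 N) 2) (γ : Gam N) :
    periodPoly 0 (f : CuspForm (Gamma0 N) (((0 : ℕ) : ℤ) + 2)) γ =
      C ((2 * Real.pi * I) * periodMap N f (Additive.ofMul γ)) := by
  obtain ⟨F, hF⟩ := Fermat.Agent.S21.exists_hasEquivariantPrimitive f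
  obtain ⟨hdeg, hev⟩ := periodPoly_spec (m := 0) (f : CuspForm (Gamma0 N) (((0 : ℕ) : ℤ) + 2)) γ
  have hC := Polynomial.eq_C_of_natDegree_le_zero hdeg
  rw [hC]
  congr 1
  have h := hev UpperHalfPlane.I
  rw [hC, eval_C] at h
  rw [← h, eichler_zero_eq f hF, Fermat.Agent.S21.periodMap_apply hF γ UpperHalfPlane.I]
  simp only [Pi.sub_apply, Pi.smul_apply, smul_eq_mul, ModularForm.SL_slash_apply]
  simp
  ring

theorem coeff_zero_polyActRep (p : ℕ) (x : OnePoint (ZMod p)) (q : ℂ[X]) :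
    (polyActRep 0 p x q).coeff 0 = q.coeff 0 := by
  induction x using OnePoint.rec with
  | infty => simp [polyActRep, polyAct, polyBasis]
  | coe j => simp [polyActRep, polyAct, polyBasis]

/-- The period map intertwines `T_ℓ` with the transfer operator. -/
theorem periodMap_heckeT {ℓ : ℕ} [Fact ℓ.Prime] (hℓN : ¬ ℓ ∣ N) (f : CuspForm (Gamma0 N) 2)
    (γ : Gam N) :
    periodMap N (CuspForm.heckeTLin 2 Fact.out hℓN f) (Additive.ofMul γ) =
      ∑ x : OnePoint (ZMod ℓ), periodMap N f (Additive.ofMul (gamT hℓN γ x)) := by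
  have h := congrFun (periodPoly_heckeT (m := 0) hℓN
    (f : CuspForm (Gamma0 N) (((0 : ℕ) : ℤ) + 2))) γ
  have e1 := periodPoly_zero_eq (CuspForm.heckeTLin 2 Fact.out hℓN f) γ
  have h0 : (periodPoly 0 ((CuspForm.heckeTLin 2 Fact.out hℓN f :
      CuspForm (Gamma0 N) 2) : CuspForm (Gamma0 N) (((0 : ℕ) : ℤ) + 2)) γ).coeff 0 =
      (heckeTOp N 0 ℓ hℓN (periodPoly 0 (f : CuspForm (Gamma0 N) (((0 : ℕ) : ℤ) + 2))) γ).coeff 0 :=
    congrArg (fun q : ℂ[X] => q.coeff 0) h
  rw [e1, coeff_C_zero, heckeTOp_apply, finsetSum_coeff] at h0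
  have hpi : (2 * (Real.pi : ℂ) * I) ≠ 0 := Complex.two_pi_I_ne_zero
  apply mul_left_cancel₀ hpi
  rw [h0, Finset.mul_sum]
  refine Finset.sum_congr rfl fun x _ => ?_
  rw [coeff_zero_polyActRep, periodPoly_zero_eq, coeff_C_zero]

/-- The period map of a nonzero form is nonzero. -/
theorem periodMap_ne_zero {f : CuspForm (Gamma0 N) 2} (hf : f ≠ 0) : periodMap N f ≠ 0 := by
  intro h
  apply hf
  have h0 : periodPoly 0 (f : CuspForm (Gamma0 N) (((0 : ℕ) : ℤ) + 2)) = 0 := by
    funext γ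
    rw [periodPoly_zero_eq, h]
    simp
  exact periodPoly_eq_zero_imp (m := 0) (f : CuspForm (Gamma0 N) (((0 : ℕ) : ℤ) + 2)) h0

/-- The period map kills parabolic and finite-order elements. -/
theorem isPE_periodMap (f : CuspForm (Gamma0 N) 2) : IsPE (periodMap N f) := by
  rintro γ (hγ | hγ)
  · exact (mem_parabolicHoms_iff.mp (Fermat.Agent.S21.periodMap_mem_parabolicHoms f)) γ hγ
  · obtain ⟨n, hn, hγn⟩ := isOfFinOrder_iff_pow_eq_one.mp hγ
    have h : n • periodMap N f (Additive.ofMul γ) = 0 := by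
      rw [← map_nsmul, ← ofMul_pow, hγn]
      simp
    rcases smul_eq_zero.mp h with h1 | h1
    · exact absurd h1 hn.ne'
    · exact h1

/-! ### Normalised eigenforms are Hecke eigenvectors with integral eigenvalues -/

open ModularFormClass in
/-- A normalised eigenform in the `q`-coefficient sense is an eigenvector of `T_ℓ`, `ℓ ∤ N`. -/
theorem heckeTLin_eigen {g : CuspForm (Gamma0 N) 2} (hg : g.IsNormalizedEigenform) {ℓ : ℕ}
    (hℓ : ℓ.Prime) (hℓN : ¬ ℓ ∣ N) :
    CuspForm.heckeTLin 2 hℓ hℓN g = ModularFormClass.qCoeff g ℓ • g := by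
  set a := ModularFormClass.qCoeff g ℓ with ha
  have hcoef : ∀ n, qCoeff ⇑(CuspForm.heckeTLin 2 hℓ hℓN g) n = a * qCoeff ⇑g n := by
    intro n
    rw [Fermat.Agent.S23.Denoms.qc_heckeT]
    rcases Nat.eq_zero_or_pos n with rfl | hn
    · simp [Fermat.Agent.S23.Denoms.qc_cusp]
    · obtain ⟨r, m, hm, rfl⟩ := Nat.exists_eq_pow_mul_and_not_dvd hn.ne' ℓ hℓ.ne_one
      have hcop : ∀ s, (ℓ ^ s).Coprime m := fun s =>
        Nat.Coprime.pow_left s ((Nat.Prime.coprime_iff_not_dvd hℓ).mpr hm)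
      rcases r with _ | r
      · simp only [pow_zero, one_mul]
        rw [if_neg hm, add_zero, mul_comm m ℓ]
        have h1 := hg.qCoeff_mul_of_coprime ℓ m (by simpa using hcop 1)
        rw [h1]
      · have hdvd : ℓ ∣ ℓ ^ (r + 1) * m :=
          Dvd.dvd.mul_right (dvd_pow_self ℓ (Nat.succ_ne_zero r)) m
        rw [if_pos hdvd]
        have e1 : ℓ ^ (r + 1) * m * ℓ = ℓ ^ (r + 2) * m := by ring
        have e2 : ℓ ^ (r + 1) * m / ℓ = ℓ ^ r * m := by
          have : ℓ ^ (r + 1) * m = ℓ ^ r * m * ℓ := by ring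
          rw [this]
          exact Nat.mul_div_cancel _ hℓ.pos
        rw [e1, e2, hg.qCoeff_mul_of_coprime _ _ (hcop (r + 2)),
          hg.qCoeff_mul_of_coprime _ _ (hcop r), hg.qCoeff_mul_of_coprime _ _ (hcop (r + 1)),
          hg.qCoeff_prime_pow_of_not_dvd ℓ r hℓ hℓN]
        norm_num
        ring
  have hnice := Fermat.Agent.S23.Conj.nice_of_cuspForm (CuspForm.heckeTLin 2 hℓ hℓN g - a • g)
  have hq : qExpansion 1 ⇑(CuspForm.heckeTLin 2 hℓ hℓN g - a • g) = 0 := by
    ext n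
    have h1 : qCoeff ⇑(CuspForm.heckeTLin 2 hℓ hℓN g - a • g) n = 0 := by
      have e : CuspForm.heckeTLin 2 hℓ hℓN g - a • g =
          CuspForm.heckeTLin 2 hℓ hℓN g + (-a) • g := by
        rw [_root_.neg_smul, sub_eq_add_neg]
      rw [e, Fermat.Agent.S23.Denoms.qc_add, Fermat.Agent.S23.Denoms.qc_smul, hcoef]
      ring
    simpa [qCoeff] using h1
  have h0 := hnice.eq_zero_of_qExp hq
  have h1 : CuspForm.heckeTLin 2 hℓ hℓN g - a • g = 0 := DFunLike.coe_injective h0
  exact sub_eq_zero.mp h1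

/-- The Hecke eigenvalues of a normalised eigenform are algebraic integers. -/
theorem isIntegral_qCoeff {g : CuspForm (Gamma0 N) 2} (hg : g.IsNormalizedEigenform) {ℓ : ℕ}
    (hℓ : ℓ.Prime) (hℓN : ¬ ℓ ∣ N) : IsIntegral ℤ (ModularFormClass.qCoeff g ℓ) := by
  haveI hfin : Module.Finite ℤ (CuspForm.heckeAlgebra N 2 (∅ : Set ℕ)) :=
    finite_heckeAlgebra_main N 0 ∅
  let T : CuspForm.heckeAlgebra N 2 (∅ : Set ℕ) :=
    ⟨CuspForm.heckeTLin 2 hℓ hℓN, CuspForm.heckeTLin_mem_heckeAlgebra hℓ hℓN (Set.notMem_empty _)⟩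
  have hT : IsIntegral ℤ T := IsIntegral.of_finite ℤ T
  have hT' : IsIntegral ℤ (CuspForm.heckeTLin 2 hℓ hℓN) :=
    hT.map (CuspForm.heckeAlgebra N 2 (∅ : Set ℕ)).val
  obtain ⟨P, hPm, hP⟩ := hT'
  refine ⟨P, hPm, ?_⟩
  have hg0 : g ≠ 0 := hg.ne_zero
  have heig : Module.End.HasEigenvector (CuspForm.heckeTLin 2 hℓ hℓN)
      (ModularFormClass.qCoeff g ℓ) g :=
    ⟨Module.End.mem_eigenspace_iff.mpr (heckeTLin_eigen hg hℓ hℓN), hg0⟩
  have h1 := Module.End.aeval_apply_of_hasEigenvector (p := P.map (algebraMap ℤ ℂ)) heig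
  rw [Polynomial.aeval_map_algebraMap, Polynomial.eval_map] at h1
  have h2 : (Polynomial.aeval (CuspForm.heckeTLin 2 hℓ hℓN)) P = 0 := hP
  rw [h2, LinearMap.zero_apply] at h1
  exact (smul_eq_zero.mp h1.symm).resolve_right hg0

end Fermat.Agent.S29.Betti
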