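import Mathlib
import Fermat.Agent.S29.Assembly
import Fermat.Agent.S29.OpenStab
import Fermat.Agent.S29.GalES

/-!
# S29 (wave 5): the residual representation from the packages

`residualRep_of_packages`: the abstract assembly `Assembly.residualRep_of_rep` applied to
`k₀ ⊗ J₀(N)(ℚ̄)[p]` with its Galois action and Hecke operators.  The inputs which are already
available (open stabilisers, trivial inertia and the Eichler–Shimura relation on torsion) are
plugged in; the remaining ones (Galois-equivariance of the Hecke operators, the eigenvector, the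
cyclotomic character, the weak Chebotarev theorem) are hypotheses.
-/

set_option autoImplicit false

open scoped TensorProduct
open ModularCurve AlgebraicCurve

namespace Fermat.Agent.S29.CoreOf

open Fermat.Agent.S29

local notation "Qb" => AlgebraicClosure ℚ

theorem residualRep_of_packages
    {N : ℕ} [NeZero N] {g : CuspForm (CongruenceSubgroup.Gamma0 N) 2} {p : ℕ} [Fact p.Prime]
    {k₀ : Type} [Field k₀] [Algebra (ZMod p) k₀] [IsAlgClosed k₀]
    (φ₀ : integralClosure ℤ ℂ →+* k₀)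
    (hG1 : ∀ (ℓ : Nat.Primes) (σ : GQ) (x : JZero N),
      σ • heckeOperatorBar N ℓ x = heckeOperatorBar N ℓ (σ • x))
    (heig : ∃ v : k₀ ⊗[ZMod p] Jtors N p, v ≠ 0 ∧ ∀ (ℓ : ℕ) (hℓ : ℓ.Prime), ¬ ℓ ∣ N →
      ∃ a : integralClosure ℤ ℂ, (a : ℂ) = ModularFormClass.qCoeff g ℓ ∧
        (heckeTors N p ⟨ℓ, hℓ⟩).baseChange k₀ v = φ₀ a • v)
    (hcyc : ∃ ω : GQ →* (ZMod p)ˣ, GaloisFactorsThroughFiniteLevel ω ∧
      ∀ ℓ : ℕ, ℓ.Prime → ℓ ≠ p → ∀ A : ValuationSubring Qb, A.LiesOverPrime ℓ →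
        (∀ σ ∈ A.inertiaSubgroupIn ℚ, ω σ = 1) ∧
        ∀ s : GQ, A.IsFrobeniusAt s ℓ → ((ω s : (ZMod p)ˣ) : ZMod p) = (ℓ : ZMod p))
    (hcheb : ∀ {M : Type} [Monoid M] (ρ : GQ →* M), GaloisFactorsThroughFiniteLevel ρ →
      ∀ (S : Finset ℕ) (σ : GQ), ∃ (ℓ : ℕ) (A : ValuationSubring Qb) (s : GQ) (i : ℕ),
        ℓ.Prime ∧ ℓ ∉ S ∧ A.LiesOverPrime ℓ ∧ A.IsFrobeniusAt s ℓ ∧ ρ σ = ρ s ^ i) :
    ∃ ρ : ResidualGaloisRep k₀, ρ.IsAttachedTo g φ₀ ∧
      ∀ ℓ : ℕ, ℓ.Prime → ¬ ℓ ∣ N * p → ρ.IsUnramifiedAt ℓ := by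
  have hp : p.Prime := Fact.out
  have hpk : (p : k₀) = 0 := by
    have h1 : algebraMap (ZMod p) k₀ (p : ZMod p) = (p : k₀) := map_natCast _ p
    rw [← h1, ZMod.natCast_self, map_zero]
  -- the torsion representation
  let r : GQ →* Module.End (ZMod p) (Jtors N p) := JZero.torsionGaloisRep N p
  have hr : ∀ (σ : GQ) (x : Jtors N p), ((r σ x : Jtors N p) : JZero N) = σ • (x : JZero N) :=
    fun _ _ => rfl
  have htors : ∀ x : Jtors N p, p • (x : JZero N) = 0 := by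
    intro x
    have h := Pic0.mem_torsion.mp x.2
    rwa [natCast_zsmul] at h
  have hnotdvd : ∀ ℓ : ℕ, ℓ.Prime → ¬ ℓ ∣ N * p → ¬ ℓ ∣ N ∧ ¬ ℓ ∣ p :=
    fun ℓ _ h => ⟨fun h' => h (Dvd.dvd.mul_right h' p), fun h' => h (Dvd.dvd.mul_left h' N)⟩
  obtain ⟨ω, hωfl, hω⟩ := hcyc
  refine Assembly.residualRep_of_rep hp hpk φ₀
    (X := k₀ ⊗[ZMod p] Jtors N p) (Assembly.baseChangeRep k₀ r)
    (fun ℓ => (heckeTors N p ℓ).baseChange k₀) ?_ ?_ ?_ ?_ ?_ ?_ hcheb
    (mul_ne_zero (NeZero.ne N) hp.ne_zero)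
  · -- the Hecke operators commute with the Galois action
    intro ℓ σ
    have h1 : heckeTors N p ℓ * r σ = r σ * heckeTors N p ℓ := by
      ext x
      rw [Module.End.mul_apply, Module.End.mul_apply, coe_heckeTors, hr, hr, coe_heckeTors,
        hG1 ℓ σ]
    rw [Assembly.baseChangeRep_apply, ← LinearMap.baseChange_mul, h1, LinearMap.baseChange_mul]
  · -- open stabilisers
    refine Assembly.exists_level_tensor (k₀ := k₀) r fun x => ?_
    obtain ⟨L, hL, h⟩ := OpenStab.exists_finiteDimensional_fixing N (x : JZero N)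
    exact ⟨L, hL, fun σ hσ => Subtype.ext (by rw [hr, h σ hσ])⟩
  · -- inertia acts trivially
    intro ℓ hℓ hℓNp A hA σ hσ
    have h1 : r σ = 1 := by
      ext x
      rw [hr, Module.End.one_apply]
      exact GalES.inertia_smul_eq N hℓ (hnotdvd ℓ hℓ hℓNp).1 A hA hσ (hnotdvd ℓ hℓ hℓNp).2
        (htors x)
    rw [Assembly.baseChangeRep_apply, h1, LinearMap.baseChange_one]
  · -- the Eichler–Shimura relation
    intro ℓ hℓ hℓNp A hA s hs x
    refine Assembly.baseChange_quadratic (k₀ := k₀) (r s) (heckeTors N p ⟨ℓ, hℓ⟩) ℓ ?_ x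
    ext y
    have h := GalES.frobenius_quadratic N hℓ (hnotdvd ℓ hℓ hℓNp).1 A hA hs
      (hnotdvd ℓ hℓ hℓNp).2 (htors y)
    simp only [LinearMap.add_apply, LinearMap.sub_apply, Module.End.mul_apply,
      LinearMap.smul_apply, Module.End.one_apply, LinearMap.zero_apply, AddSubgroup.coe_add,
      AddSubgroup.coe_sub, ZeroMemClass.coe_zero, coe_heckeTors, hr, Nat.cast_smul_eq_nsmul,
      AddSubgroup.coe_nsmul]
    exact h
  · -- the eigenvector
    obtain ⟨v, hv0, hv⟩ := heig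
    exact ⟨v, hv0, fun ℓ hℓ hℓNp => hv ℓ hℓ (hnotdvd ℓ hℓ hℓNp).1⟩
  · -- the cyclotomic character
    obtain ⟨Lω, hLω, hωL⟩ := hωfl
    refine ⟨(Units.map (algebraMap (ZMod p) k₀ : ZMod p →* k₀)).comp ω,
      ⟨Lω, hLω, fun σ hσ => ?_⟩, fun ℓ hℓ hℓp A hA => ⟨fun σ hσ => ?_, fun s hs => ?_⟩⟩
    · rw [MonoidHom.comp_apply, hωL σ hσ, map_one]
    · rw [MonoidHom.comp_apply, (hω ℓ hℓ hℓp A hA).1 σ hσ, map_one]
    · show algebraMap (ZMod p) k₀ ((ω s : (ZMod p)ˣ) : ZMod p) = (ℓ : k₀)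
      rw [(hω ℓ hℓ hℓp A hA).2 s hs, map_natCast]

end Fermat.Agent.S29.CoreOf
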