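import Mathlib
import Fermat.Agent.S20.DictInf

/-!
# S29 (wave 5), slice CUSP-W: the strong cusp dictionary

`exists_cusp_of_prime`: every prime `𝔫` of the ring at infinity `Binf N` of the function field
of `X₀(N)` is the centre of a cusp `g • ∞`, and the cusp valuation `DictInf.v N ⟦g⁻¹⟧` (order in
the uniform parameter `q_N`) is the `(N / h)`-th power of the `𝔫`-adic valuation, where `h` is the
width of the cusp (the size of the `⟨T⟩`-orbit of the coset `⟦g⁻¹⟧`).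

Instantiation of the strong counting lemma `S20.places_of_valuations` at infinity.
-/

set_option autoImplicit false
set_option linter.unusedSectionVars false

open Fermat.Agent.S20 IsDedekindDomain CongruenceSubgroup
open scoped MatrixGroups WithZero RatFunc

namespace Fermat.Agent.S29.CuspDict

variable (N : ℕ) [NeZero N]

/-- the relation "same `⟨T⟩`-orbit" on `SL(2, ℤ) ⧸ Γ₀(N)` -/
abbrev rel : Setoid (SL(2, ℤ) ⧸ Gamma0 N) :=
  MulAction.orbitRel (Subgroup.zpowers ModularGroup.T) (SL(2, ℤ) ⧸ Gamma0 N)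

/-- the size of the `⟨T⟩`-orbit of a coset (= the width of the corresponding cusp) -/
noncomputable def orbSize (x : SL(2, ℤ) ⧸ Gamma0 N) : ℕ :=
  Nat.card {y // (rel N).r y x}

/-- the generator `T` of `⟨T⟩` -/
def tGen : Subgroup.zpowers ModularGroup.T := ⟨ModularGroup.T, Subgroup.mem_zpowers _⟩

theorem orbSize_eq_index (x : SL(2, ℤ) ⧸ Gamma0 N) :
    orbSize N x = (MulAction.stabilizer (Subgroup.zpowers ModularGroup.T) x).index := by
  rw [MulAction.index_stabilizer]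
  unfold orbSize
  rw [← Nat.card_coe_set_eq]
  rfl

theorem orbSize_pos (x : SL(2, ℤ) ⧸ Gamma0 N) : 0 < orbSize N x := by
  unfold orbSize
  have : Nonempty {y // (rel N).r y x} := ⟨⟨x, (rel N).refl x⟩⟩
  exact Nat.card_pos

theorem tGen_pow_smul (k : ℕ) (x : SL(2, ℤ) ⧸ Gamma0 N) :
    (tGen ^ k) • x = (ModularGroup.T ^ k : SL(2, ℤ)) • x := rfl

theorem T_pow_orbSize_smul (x : SL(2, ℤ) ⧸ Gamma0 N) :
    (ModularGroup.T ^ orbSize N x : SL(2, ℤ)) • x = x := by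
  have h := Subgroup.pow_index_mem (MulAction.stabilizer (Subgroup.zpowers ModularGroup.T) x) tGen
  rw [← orbSize_eq_index, MulAction.mem_stabilizer_iff] at h
  exact h

theorem T_pow_level_smul (x : SL(2, ℤ) ⧸ Gamma0 N) :
    (ModularGroup.T ^ N : SL(2, ℤ)) • x = x := by
  induction x using QuotientGroup.induction_on with
  | H a =>
    show (QuotientGroup.mk (ModularGroup.T ^ N * a) : SL(2, ℤ) ⧸ Gamma0 N) = QuotientGroup.mk a
    rw [eq_comm, QuotientGroup.eq]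
    have := OrdCusp.conj_T_pow_mem N a⁻¹
    simpa [mul_assoc] using this

theorem orbSize_dvd (x : SL(2, ℤ) ⧸ Gamma0 N) : orbSize N x ∣ N := by
  set H := MulAction.stabilizer (Subgroup.zpowers ModularGroup.T) x with hH
  have hgen : ∀ q : Subgroup.zpowers ModularGroup.T ⧸ H,
      q ∈ Subgroup.zpowers (QuotientGroup.mk tGen : Subgroup.zpowers ModularGroup.T ⧸ H) := by
    intro q
    induction q using QuotientGroup.induction_on with
    | H a =>
      obtain ⟨a, ha⟩ := a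
      obtain ⟨k, rfl⟩ := Subgroup.mem_zpowers_iff.mp ha
      refine Subgroup.mem_zpowers_iff.mpr ⟨k, ?_⟩
      rw [← QuotientGroup.mk_zpow]
      rfl
  have hord := orderOf_eq_card_of_forall_mem_zpowers hgen
  have hcard : Nat.card (Subgroup.zpowers ModularGroup.T ⧸ H) = orbSize N x := by
    rw [orbSize_eq_index]
    rfl
  rw [← hcard, ← hord, orderOf_dvd_iff_pow_eq_one, ← QuotientGroup.mk_pow,
    QuotientGroup.eq_one_iff, hH, MulAction.mem_stabilizer_iff]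
  exact T_pow_level_smul N x

theorem conj_mem (x : SL(2, ℤ) ⧸ Gamma0 N) :
    (Quotient.out x : SL(2, ℤ))⁻¹ * ModularGroup.T ^ orbSize N x * (Quotient.out x : SL(2, ℤ)) ∈
      Gamma0 N := by
  have h := T_pow_orbSize_smul N x
  have hx : (QuotientGroup.mk (Quotient.out x : SL(2, ℤ)) : SL(2, ℤ) ⧸ Gamma0 N) = x :=
    QuotientGroup.out_eq' x
  have h' : (QuotientGroup.mk (ModularGroup.T ^ orbSize N x * (Quotient.out x : SL(2, ℤ))) :
      SL(2, ℤ) ⧸ Gamma0 N) = QuotientGroup.mk (Quotient.out x : SL(2, ℤ)) := by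
    calc (QuotientGroup.mk (ModularGroup.T ^ orbSize N x * (Quotient.out x : SL(2, ℤ))) :
          SL(2, ℤ) ⧸ Gamma0 N)
        = (ModularGroup.T ^ orbSize N x : SL(2, ℤ)) •
            (QuotientGroup.mk (Quotient.out x : SL(2, ℤ)) : SL(2, ℤ) ⧸ Gamma0 N) := rfl
      _ = (ModularGroup.T ^ orbSize N x : SL(2, ℤ)) • x := by rw [hx]
      _ = x := h
      _ = _ := hx.symm
  rw [eq_comm, QuotientGroup.eq] at h'
  simpa [mul_assoc] using h'


/-- **(i)** the ring at infinity is finite over `Ainf ℂ`. -/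
theorem moduleFinite_Binf : Module.Finite (Ainf ℂ) (Binf N) :=
  IsIntegralClosure.finite (Ainf ℂ) (RatFunc ℂ) (FF N) (Binf N)

/-- **(ii)** the rank of the ring at infinity is the index of `Γ₀(N)`. -/
theorem card_eq_finrank :
    Nat.card (SL(2, ℤ) ⧸ Gamma0 N) = Module.finrank (Ainf ℂ) (Binf N) := by
  have := DictInf.faithfulSMul_Binf N
  have h := Algebra.IsAlgebraic.rank_of_isFractionRing (Ainf ℂ) (RatFunc ℂ) (Binf N) (FF N)
  have h2 : Module.finrank (RatFunc ℂ) (FF N) = Module.finrank (Ainf ℂ) (Binf N) := by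
    unfold Module.finrank
    rw [h]
  rw [← h2, finrank_FF, Subgroup.index_eq_card]

/-- **(iii)** the residue fields of the ring at infinity are `ℂ`. -/
theorem residue_surjective (𝔮 : Ideal (Binf N)) (h𝔮 : 𝔮.IsMaximal)
    (hmem : algebraMap (Ainf ℂ) (Binf N) Ainf.Xinv ∈ 𝔮) :
    Function.Surjective ((Ideal.Quotient.mk 𝔮).comp (algebraMap (Ainf ℂ) (Binf N))) := by
  let _ : Field (Binf N ⧸ 𝔮) := Ideal.Quotient.field 𝔮
  set ρ : Ainf ℂ →+* Binf N ⧸ 𝔮 := (Ideal.Quotient.mk 𝔮).comp (algebraMap (Ainf ℂ) (Binf N))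
    with hρ
  set ψ : ℂ →+* Binf N ⧸ 𝔮 := ρ.comp (Ainf.const : ℂ →+* Ainf ℂ) with hψ
  have hX : ρ Ainf.Xinv = 0 := Ideal.Quotient.eq_zero_iff_mem.mpr hmem
  -- every value of `ρ` is a value of `ψ`
  have hρψ : ∀ a : Ainf ℂ, ∃ c : ℂ, ρ a = ψ c := by
    intro a
    obtain ⟨c, hc⟩ := Ainf.exists_const_sub_mem a
    rw [Ainf.maximalIdeal_eq, Ideal.mem_span_singleton] at hc
    obtain ⟨d, hd⟩ := hc
    refine ⟨c, ?_⟩
    have : ρ (a - Ainf.const c) = 0 := by rw [hd, map_mul, hX, zero_mul]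
    rw [map_sub, sub_eq_zero] at this
    exact this
  let _ : Algebra ℂ (Binf N ⧸ 𝔮) := ψ.toAlgebra
  have hint : Algebra.IsIntegral ℂ (Binf N ⧸ 𝔮) := by
    refine ⟨fun y => ?_⟩
    obtain ⟨b, rfl⟩ := Ideal.Quotient.mk_surjective y
    obtain ⟨P, hPm, hP⟩ := Algebra.IsIntegral.isIntegral (R := Ainf ℂ) b
    have hlift : P.map ρ ∈ Polynomial.lifts ψ := by
      rw [Polynomial.lifts_iff_coeff_lifts]
      intro i
      obtain ⟨c, hc⟩ := hρψ (P.coeff i)
      exact ⟨c, by rw [Polynomial.coeff_map, hc]⟩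
    obtain ⟨Q, hQ, -, hQm⟩ := Polynomial.lifts_and_natDegree_eq_and_monic hlift (hPm.map ρ)
    refine ⟨Q, hQm, ?_⟩
    change Polynomial.eval₂ ψ _ Q = 0
    rw [← Polynomial.eval_map, hQ, Polynomial.eval_map, hρ, ← Polynomial.hom_eval₂, hP, map_zero]
  intro y
  obtain ⟨c, hc⟩ := (IsAlgClosed.algebraMap_bijective_of_isIntegral (k := ℂ)
    (K := Binf N ⧸ 𝔮)).2 y
  exact ⟨Ainf.const c, hc⟩


/-- **(iv)** units of `Ainf ℂ` have cusp valuation `1`. -/
theorem v_eq_one_of_notMem (x : SL(2, ℤ) ⧸ Gamma0 N) (a : Ainf ℂ)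
    (ha : a ∉ Ideal.span {(Ainf.Xinv : Ainf ℂ)}) :
    DictInf.v N x (algebraMap (Binf N) (FF N) (algebraMap (Ainf ℂ) (Binf N) a)) = 1 := by
  rw [← Ainf.maximalIdeal_eq] at ha
  have hu : IsUnit a := by
    by_contra h
    exact ha ((IsLocalRing.mem_maximalIdeal a).mpr h)
  obtain ⟨ha0, hdeg⟩ := (Ainf.isUnit_iff a).mp hu
  show DictInf.v N x (algebraMap (RatFunc ℂ) (FF N) (a : RatFunc ℂ)) = 1
  rw [DictInf.v_ratFunc N x ((AinfDVR.coe_ne_zero_iff a).mpr ha0), hdeg, mul_zero, WithZero.exp_zero]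

/-- the cusp order of a weakly holomorphic function is divisible by `N / width`. -/
theorem exists_w_eq_mul (x : SL(2, ℤ) ⧸ Gamma0 N) (c : WH (Gamma0 N)) (hc : c ≠ 0) :
    ∃ m : ℤ, DictInf.w N x c = ((N / orbSize N x : ℕ) : ℤ) * m := by
  have hg : (Quotient.out x : SL(2, ℤ))⁻¹ * ModularGroup.T ^ orbSize N x *
      ((Quotient.out x : SL(2, ℤ))⁻¹)⁻¹ ∈ Gamma0 N := by
    rw [inv_inv]
    exact conj_mem N x
  obtain ⟨m, hm⟩ := dvd_ordCusp c.2 (DictInf.coe_ne_zero N hc) (Quotient.out x : SL(2, ℤ))⁻¹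
    (orbSize_pos N x) (orbSize_dvd N x) hg
  refine ⟨m, ?_⟩
  unfold DictInf.w ordCuspZ
  rw [hm]
  rfl

/-- **(v)** the values of the cusp valuation are `(N / width)`-th powers. -/
theorem exists_pow_eq_v (x : SL(2, ℤ) ⧸ Gamma0 N) (f : FF N) :
    ∃ u : ℤᵐ⁰, DictInf.v N x f = u ^ (N / orbSize N x) := by
  have hn0 : N / orbSize N x ≠ 0 :=
    (Nat.div_pos (Nat.le_of_dvd (NeZero.pos N) (orbSize_dvd N x)) (orbSize_pos N x)).ne'
  have key : ∀ c : WH (Gamma0 N), ∃ u : ℤᵐ⁰,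
      DictInf.v N x (algebraMap (WH (Gamma0 N)) (FF N) c) = u ^ (N / orbSize N x) := by
    intro c
    by_cases hc : c = 0
    · exact ⟨0, by rw [hc, map_zero, map_zero, zero_pow hn0]⟩
    · obtain ⟨m, hm⟩ := exists_w_eq_mul N x c hc
      refine ⟨WithZero.exp (-m), ?_⟩
      rw [DictInf.v_algebraMap N x c hc, hm, ← WithZero.exp_nsmul]
      congr 1
      rw [nsmul_eq_mul]
      ring
  obtain ⟨a, b, -, rfl⟩ := IsFractionRing.div_surjective (A := WH (Gamma0 N)) f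
  obtain ⟨ua, hua⟩ := key a
  obtain ⟨ub, hub⟩ := key b
  exact ⟨ua / ub, by rw [map_div₀, hua, hub, div_pow]⟩

/-- The strong counting lemma at infinity: the primes of `Binf N` are the `⟨T⟩`-orbits of
cosets, and the cusp valuation is the `(N / width)`-th power of the adic valuation. -/
theorem main_strong :
    ∃ φ : Quotient (rel N) ≃ {𝔮 : HeightOneSpectrum (Binf N) //
        algebraMap (Ainf ℂ) (Binf N) Ainf.Xinv ∈ 𝔮.asIdeal},
      ∀ x : SL(2, ℤ) ⧸ Gamma0 N,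
        ((φ (Quotient.mk (rel N) x)).1.asIdeal.ramificationIdx (Ainf ℂ) *
            (N / orbSize N x) = N) ∧
        ∀ f : FF N, DictInf.v N x f =
          ((φ (Quotient.mk (rel N) x)).1.valuation (FF N) f) ^ (N / orbSize N x) := by
  have := DictInf.faithfulSMul_Binf N
  have := moduleFinite_Binf N
  have hmax : (Ideal.span {(Ainf.Xinv : Ainf ℂ)}).IsMaximal := by
    rw [← Ainf.maximalIdeal_eq]
    exact IsLocalRing.maximalIdeal.isMaximal _
  exact places_of_valuations (A := Ainf ℂ) Ainf.Xinv Ainf.Xinv_ne_zero hmax (B := Binf N)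
    (L := FF N) (residue_surjective N) (X := SL(2, ℤ) ⧸ Gamma0 N) (card_eq_finrank N)
    (DictInf.v N) (DictInf.v_Ainf_le N) (fun _ => N) (fun _ => NeZero.pos N) (DictInf.v_Xinv N)
    (v_eq_one_of_notMem N) (fun x => N / orbSize N x) (exists_pow_eq_v N) (rel N)
    (fun x => Nat.mul_div_cancel' (orbSize_dvd N x))
    (fun x y h b => by rw [DictInf.v_eq_of_rel N h]) (DictInf.hnorm N)

/-- **CUSP-W**: every prime of the ring at infinity is the centre of a cusp `g • ∞` of width `h`,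
and the cusp valuation (order in `q_N`) is the `(N / h)`-th power of its adic valuation. -/
theorem exists_cusp_of_prime (𝔫 : HeightOneSpectrum (Binf N)) :
    ∃ (g : SL(2, ℤ)) (h : ℕ), 0 < h ∧ h ∣ N ∧ g * ModularGroup.T ^ h * g⁻¹ ∈ Gamma0 N ∧
      ∀ f : FF N, DictInf.v N (QuotientGroup.mk g⁻¹ : SL(2, ℤ) ⧸ Gamma0 N) f =
        𝔫.valuation (FF N) f ^ (N / h) := by
  obtain ⟨φ, hφ⟩ := main_strong N
  obtain ⟨x, hx⟩ := Quotient.exists_rep (φ.symm ⟨𝔫, DictInf.Xinv_mem N 𝔫⟩)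
  have hφx : φ (Quotient.mk (rel N) x) = ⟨𝔫, DictInf.Xinv_mem N 𝔫⟩ := by
    rw [hx, Equiv.apply_symm_apply]
  have hmk : (QuotientGroup.mk ((Quotient.out x : SL(2, ℤ))⁻¹)⁻¹ : SL(2, ℤ) ⧸ Gamma0 N) = x := by
    rw [inv_inv]
    exact QuotientGroup.out_eq' x
  refine ⟨(Quotient.out x : SL(2, ℤ))⁻¹, orbSize N x, orbSize_pos N x, orbSize_dvd N x, ?_, ?_⟩
  · have h := conj_mem N x
    rwa [inv_inv]
  · intro f
    rw [hmk, (hφ x).2 f, hφx]

/-- The same with the ramification index: `e(𝔫 | ∞) = h`. -/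
theorem exists_cusp_of_prime' (𝔫 : HeightOneSpectrum (Binf N)) :
    ∃ (g : SL(2, ℤ)) (h : ℕ), 0 < h ∧ h ∣ N ∧ g * ModularGroup.T ^ h * g⁻¹ ∈ Gamma0 N ∧
      𝔫.asIdeal.ramificationIdx (Ainf ℂ) = h ∧
      ∀ f : FF N, DictInf.v N (QuotientGroup.mk g⁻¹ : SL(2, ℤ) ⧸ Gamma0 N) f =
        𝔫.valuation (FF N) f ^ (N / h) := by
  obtain ⟨φ, hφ⟩ := main_strong N
  obtain ⟨x, hx⟩ := Quotient.exists_rep (φ.symm ⟨𝔫, DictInf.Xinv_mem N 𝔫⟩)
  have hφx : φ (Quotient.mk (rel N) x) = ⟨𝔫, DictInf.Xinv_mem N 𝔫⟩ := by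
    rw [hx, Equiv.apply_symm_apply]
  have hmk : (QuotientGroup.mk ((Quotient.out x : SL(2, ℤ))⁻¹)⁻¹ : SL(2, ℤ) ⧸ Gamma0 N) = x := by
    rw [inv_inv]
    exact QuotientGroup.out_eq' x
  refine ⟨(Quotient.out x : SL(2, ℤ))⁻¹, orbSize N x, orbSize_pos N x, orbSize_dvd N x, ?_, ?_, ?_⟩
  · have h := conj_mem N x
    rwa [inv_inv]
  · have h1 := (hφ x).1
    rw [hφx] at h1
    have h2 : orbSize N x * (N / orbSize N x) = N := Nat.mul_div_cancel' (orbSize_dvd N x)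
    have hpos : 0 < N / orbSize N x :=
      Nat.div_pos (Nat.le_of_dvd (NeZero.pos N) (orbSize_dvd N x)) (orbSize_pos N x)
    exact Nat.eq_of_mul_eq_mul_right hpos (h1.trans h2.symm)
  · intro f
    rw [hmk, (hφ x).2 f, hφx]

/-- Converse direction: the cusp valuation of EVERY coset is a power of an adic valuation with
the exact exponent `N / width`. -/
theorem exists_prime_of_cusp_strong (g : SL(2, ℤ)) :
    ∃ (𝔫 : HeightOneSpectrum (Binf N)) (h : ℕ), 0 < h ∧ h ∣ N ∧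
      g * ModularGroup.T ^ h * g⁻¹ ∈ Gamma0 N ∧
      𝔫.asIdeal.ramificationIdx (Ainf ℂ) = h ∧
      ∀ f : FF N, DictInf.v N (QuotientGroup.mk g⁻¹ : SL(2, ℤ) ⧸ Gamma0 N) f =
        𝔫.valuation (FF N) f ^ (N / h) := by
  obtain ⟨φ, hφ⟩ := main_strong N
  set x : SL(2, ℤ) ⧸ Gamma0 N := QuotientGroup.mk g⁻¹ with hxdef
  have hT : (ModularGroup.T ^ orbSize N x : SL(2, ℤ)) • x = x := T_pow_orbSize_smul N x
  have hmem : g * ModularGroup.T ^ orbSize N x * g⁻¹ ∈ Gamma0 N := by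
    have h' : (QuotientGroup.mk (ModularGroup.T ^ orbSize N x * g⁻¹) : SL(2, ℤ) ⧸ Gamma0 N) =
        QuotientGroup.mk g⁻¹ := hT
    rw [eq_comm, QuotientGroup.eq] at h'
    simpa [mul_assoc] using h'
  refine ⟨(φ (Quotient.mk (rel N) x)).1, orbSize N x, orbSize_pos N x, orbSize_dvd N x, hmem,
    ?_, (hφ x).2⟩
  have h1 := (hφ x).1
  have h2 : orbSize N x * (N / orbSize N x) = N := Nat.mul_div_cancel' (orbSize_dvd N x)
  have hpos : 0 < N / orbSize N x :=
    Nat.div_pos (Nat.le_of_dvd (NeZero.pos N) (orbSize_dvd N x)) (orbSize_pos N x)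
  exact Nat.eq_of_mul_eq_mul_right hpos (h1.trans h2.symm)

end Fermat.Agent.S29.CuspDict
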