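import Mathlib
import Fermat.Agent.S22.Defs
import Fermat.Agent.S24.QIsoFinal
import Fermat.Agent.S29.PlaceAut
import Fermat.Agent.S29.RootQ

/-!
# S29 (wave 5), package K3, step (ii): the conjugate root under an automorphism of `ℂ`

Let `u` be a nonzero holomorphic function on `ℍ`, periodic and meromorphic at `i∞`, with
`u ^ m` weakly holomorphic on `Γ₀(N)` and `m ∣ ord_v (u ^ m)` at every place `v` of the function
field `FF ℂ N` (formal `q`-expansion model).  For a ring automorphism `σ` of `ℂ` there is a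
function `u'` with exactly the same properties whose `q`-expansion is the coefficientwise
`σ`-conjugate of the `q`-expansion of `u`; it has a multiplier `χ'` on `Γ₀(N)` with values in the
`m`-th roots of unity, trivial on `T`.

The three statements of the `WH ↔ places` dictionary which are used are taken as explicit
hypotheses `DictA`, `DictB`, `DictC` (they are the consumer forms (a), (b), (c) of the
dictionary file).
-/

set_option autoImplicit false

open UpperHalfPlane hiding I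
open Complex Filter Function ModularCurve AlgebraicCurve CongruenceSubgroup
open scoped Topology Manifold MatrixGroups

namespace Fermat.Agent.S29.DescConj

open Fermat.Agent.S20 Fermat.Agent.S24

local notation "Δ" => ModularForm.discriminant

/-- Dictionary (a): the elements of `FF ℂ N` integral over `ℂ[j]` are the `q`-expansions of
the weakly holomorphic functions on `Γ₀(N)`. -/
def DictA (N : ℕ) [NeZero N] : Prop :=
  ∀ x : S24.FF ℂ N, IsIntegral (Algebra.adjoin ℂ {S24.jBC ℂ N}) x ↔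
    ∃ f : ℍ → ℂ, IsWH (Gamma0 N) f ∧ (x : LaurentSeries ℂ) = qLaurentFun f

/-- Dictionary (b): divisibility of the orders at all places gives divisibility of the analytic
orders at all points of `ℍ`. -/
def DictB (N : ℕ) [NeZero N] (m : ℕ) : Prop :=
  ∀ f : ℍ → ℂ, IsWH (Gamma0 N) f → f ≠ 0 → ∀ x : S24.FF ℂ N,
    (x : LaurentSeries ℂ) = qLaurentFun f →
    (∀ v : Place ℂ (S24.FF ℂ N), (m : ℤ) ∣ v.ord x) → ∀ z : ℍ, m ∣ (ordAt f z).toNat

/-- Dictionary (c): the bound at the cusps with exponent `c` is the pole bound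
`c * ord_v j ≤ ord_v x` at the places over `j = ∞`. -/
def DictC (N : ℕ) [NeZero N] (c : ℕ) : Prop :=
  ∀ f : ℍ → ℂ, IsWH (Gamma0 N) f → ∀ x : S24.FF ℂ N,
    (x : LaurentSeries ℂ) = qLaurentFun f →
    ((∀ g : SL(2, ℤ), IsBoundedAtImInfty (fun z : ℍ => f (g • z) * Δ z ^ c)) ↔
      ∀ v : Place ℂ (S24.FF ℂ N), v.ord (S24.jBC ℂ N) < 0 →
        (c : ℤ) * v.ord (S24.jBC ℂ N) ≤ v.ord x)

/-- The `q`-expansion of the zero function is zero. -/
theorem qLaurentFun_zero : qLaurentFun (0 : ℍ → ℂ) = 0 := by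
  have h0 : IsPM (0 : ℍ → ℂ) := isPM_const 0
  have h := qLaurentFun_add h0 h0
  rw [add_zero] at h
  exact left_eq_add.mp h

/-- `coeffMap` of a ring automorphism is injective. -/
theorem coeffMap_ne_zero (σ : ℂ ≃+* ℂ) {w : LaurentSeries ℂ} (hw : w ≠ 0) :
    coeffMap (σ : ℂ →+* ℂ) w ≠ 0 := by
  intro h
  apply hw
  ext k
  have h1 := congrArg (fun s : LaurentSeries ℂ => s.coeff k) h
  simp only [coeffMap_coeff, HahnSeries.coeff_zero] at h1
  simpa using h1

/-- The element of `FF ℂ N` attached to a weakly holomorphic function. -/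
noncomputable def elt (N : ℕ) [NeZero N] (f : ℍ → ℂ) (hf : IsWH (Gamma0 N) f) : S24.FF ℂ N :=
  ⟨qLaurentFun f, qWH_mem_FF N ⟨f, hf⟩⟩

theorem coe_elt (N : ℕ) [NeZero N] (f : ℍ → ℂ) (hf : IsWH (Gamma0 N) f) :
    ((elt N f hf : S24.FF ℂ N) : LaurentSeries ℂ) = qLaurentFun f := rfl

/-- **The conjugate root.**  See the module docstring. -/
theorem exists_conj (N : ℕ) [NeZero N] (m : ℕ) (hm : 0 < m) (c : ℕ) (σ : ℂ ≃+* ℂ)
    (hA : DictA N) (hB : DictB N m) (hC : DictC N c)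
    (u : ℍ → ℂ) (hu0 : u ≠ 0) (hPM : IsPM u)
    (hWH : IsWH (Gamma0 N) (fun z => u z ^ m))
    (hbd : ∀ g : SL(2, ℤ), IsBoundedAtImInfty (fun z : ℍ => u (g • z) ^ m * Δ z ^ c))
    (hdiv : ∀ x : S24.FF ℂ N, (x : LaurentSeries ℂ) = qLaurentFun (fun z => u z ^ m) →
      ∀ v : Place ℂ (S24.FF ℂ N), (m : ℤ) ∣ v.ord x) :
    ∃ (χ' : S22.Gam N →* ℂˣ) (u' : ℍ → ℂ),
      (∀ γ, χ' γ ^ m = 1) ∧
      (∀ γ : S22.Gam N, (γ : SL(2, ℤ)) = ModularGroup.T → χ' γ = 1) ∧
      MDiff u' ∧ u' ≠ 0 ∧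
      (∀ (γ : S22.Gam N) (z : ℍ), u' ((γ : SL(2, ℤ)) • z) = (χ' γ : ℂ) * u' z) ∧
      IsWH (Gamma0 N) (fun z => u' z ^ m) ∧
      (∀ g : SL(2, ℤ), IsBoundedAtImInfty (fun z : ℍ => u' (g • z) ^ m * Δ z ^ c)) ∧
      IsPM u' ∧
      qLaurentFun u' = coeffMap (σ : ℂ →+* ℂ) (qLaurentFun u) ∧
      (∀ x : S24.FF ℂ N, (x : LaurentSeries ℂ) = qLaurentFun (fun z => u' z ^ m) →
        ∀ v : Place ℂ (S24.FF ℂ N), (m : ℤ) ∣ v.ord x) := by
  -- the element `x` of `FF ℂ N` attached to `f = u ^ m` and its conjugate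
  set f : ℍ → ℂ := fun z => u z ^ m with hf
  set x : S24.FF ℂ N := elt N f hWH with hx
  set τx : S24.FF ℂ N := arithmeticRingAut (modularFunctionFieldFull N) σ.toRatAlgEquiv x with hτx
  have hxint : IsIntegral (Algebra.adjoin ℂ {S24.jBC ℂ N}) x := (hA x).mpr ⟨f, hWH, rfl⟩
  have hτint : IsIntegral (Algebra.adjoin ℂ {S24.jBC ℂ N}) τx :=
    PlaceAut.isIntegral_arith N σ.toRatAlgEquiv x hxint
  obtain ⟨f', hf'WH, hf'q⟩ := (hA τx).mp hτint
  -- the `q`-expansion of `f'`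
  have hfq : qLaurentFun f = qLaurentFun u ^ m := RootQ.qLaurentFun_pow hPM m
  have hτq : (τx : LaurentSeries ℂ) = coeffMap (σ : ℂ →+* ℂ) (qLaurentFun u) ^ m := by
    have h1 : (τx : LaurentSeries ℂ) = coeffMap (σ : ℂ →+* ℂ) (x : LaurentSeries ℂ) :=
      PlaceAut.coe_arith_toRat N σ x
    rw [h1, coe_elt, hfq, map_pow]
  have hw : qLaurentFun f' = coeffMap (σ : ℂ →+* ℂ) (qLaurentFun u) ^ m := by
    rw [← hf'q, hτq]
  have hqu : qLaurentFun u ≠ 0 := fun h => hu0 (qLaurentFun_eq_zero hPM h)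
  have hf'0 : f' ≠ 0 := by
    rintro rfl
    rw [qLaurentFun_zero] at hw
    exact pow_ne_zero m (coeffMap_ne_zero σ hqu) hw.symm
  -- divisibility of the orders
  have hdivτ : ∀ v : Place ℂ (S24.FF ℂ N), (m : ℤ) ∣ v.ord τx :=
    PlaceAut.dvd_ord_arith N σ.toRatAlgEquiv (m : ℤ) x (hdiv x rfl)
  have hord : ∀ z : ℍ, m ∣ (ordAt f' z).toNat := hB f' hf'WH hf'0 τx hf'q hdivτ
  -- the root
  obtain ⟨u', hu'md, hu'pow, hu'PM, hu'q⟩ :=
    RootQ.exists_root_of_qLaurent_pow m hm (isPM_of_isWH N hf'WH) hf'0 hord hw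
  have hfun : (fun z => u' z ^ m) = f' := funext hu'pow
  have hu'0 : u' ≠ 0 := by
    rintro rfl
    apply hf'0
    funext z
    rw [← hu'pow z]
    simp [hm.ne']
  -- the multiplier
  obtain ⟨χ', hχ'm, hχ'⟩ := Root.exists_multiplier hm hu'md hu'0 (Gamma0 N) (fun γ hγ z => by
    rw [hu'pow, hu'pow]
    exact hf'WH.inv γ hγ z)
  obtain ⟨z₁, hz₁⟩ : ∃ z₁ : ℍ, u' z₁ ≠ 0 := by
    by_contra hcon
    push Not at hcon
    exact hu'0 (funext hcon)
  refine ⟨χ', u', hχ'm, ?_, hu'md, hu'0, hχ', ?_, ?_, hu'PM, hu'q, ?_⟩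
  · -- `χ' T = 1`
    intro γ hγ
    have h1 := hχ' γ z₁
    rw [hγ, UpperHalfPlane.modular_T_smul] at h1
    have h2 : u' ((1 : ℝ) +ᵥ z₁) = u' z₁ := by
      have h3 := hu'PM.per (z₁ : ℂ)
      simp only [comp_apply] at h3
      have h4 : (((1 : ℝ) +ᵥ z₁ : ℍ) : ℂ) = (z₁ : ℂ) + ((1 : ℝ) : ℂ) := by
        rw [UpperHalfPlane.coe_vadd]
        ring
      rw [← h4, UpperHalfPlane.ofComplex_apply, UpperHalfPlane.ofComplex_apply] at h3
      exact h3
    rw [h2] at h1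
    have h5 : ((χ' γ : ℂˣ) : ℂ) = 1 := by
      have h6 : ((χ' γ : ℂˣ) : ℂ) * u' z₁ = 1 * u' z₁ := by rw [one_mul]; exact h1.symm
      exact mul_right_cancel₀ hz₁ h6
    exact Units.ext h5
  · rw [hfun]
    exact hf'WH
  · -- the bound at the cusps
    have h1 : ∀ g : SL(2, ℤ), IsBoundedAtImInfty (fun z : ℍ => f (g • z) * Δ z ^ c) := hbd
    have h2 := (hC f hWH x rfl).mp h1
    have h3 := PlaceAut.pole_bound_arith N σ.toRatAlgEquiv (c : ℤ) x h2
    have h4 := (hC f' hf'WH τx hf'q).mpr h3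
    intro g
    have h5 := h4 g
    have h6 : (fun z : ℍ => u' (g • z) ^ m * Δ z ^ c) = fun z : ℍ => f' (g • z) * Δ z ^ c := by
      funext z
      rw [hu'pow]
    rw [h6]
    exact h5
  · intro x' hx' v
    have h1 : x' = τx := by
      apply Subtype.ext
      rw [hx', hfun, hf'q]
    rw [h1]
    exact hdivτ v

end Fermat.Agent.S29.DescConj
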