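import Mathlib
import Fermat.Agent.S29.DictWH
import Fermat.Agent.S24.QIsoFinal

/-!
# S29 (K3-dict), `q`-expansion currency

The three dictionary statements consumed by the descent `Desc.Inputs` (fields `int_iff`, `ord`,
`bdd`): an element `x` of the formal function field `S24.FF ℂ N` is tied to a weakly holomorphic
function `f` by `(x : LaurentSeries ℂ) = qLaurentFun f`; no isomorphism appears in the statements.
-/

set_option autoImplicit false

open UpperHalfPlane hiding I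
open Complex ModularForm Polynomial IsDedekindDomain CongruenceSubgroup AlgebraicCurve
open scoped MatrixGroups Manifold WithZero RatFunc

namespace Fermat.Agent.S29.DictQ

open Fermat.Agent.S20 Fermat.Agent.S20.FinitePlaces Fermat.Agent.S29.DictWH

variable (N : ℕ) [NeZero N]

omit [NeZero N] in
/-- an element of `S24.FF ℂ N` with the `q`-expansion of a weakly holomorphic function is the
image of that function under any `q`-expansion isomorphism -/
theorem eq_of_qLaurent (e : S20.FF N ≃ₐ[ℂ] S24.FF ℂ N)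
    (hq : ∀ f : WH (Gamma0 N),
      ((e (algebraMap (WH (Gamma0 N)) (S20.FF N) f) : S24.FF ℂ N) : LaurentSeries ℂ)
        = S24.qLaurentFun (f : ℍ → ℂ))
    {f : ℍ → ℂ} (hf : IsWH (Gamma0 N) f) {x : S24.FF ℂ N}
    (hx : (x : LaurentSeries ℂ) = S24.qLaurentFun f) :
    x = e (algebraMap (WH (Gamma0 N)) (S20.FF N) ⟨f, hf⟩) :=
  Subtype.ext (hx.trans (hq ⟨f, hf⟩).symm)

/-- **(a)** integrality over `ℂ[j]` in the formal function field = weak holomorphy. -/
theorem int_iff (x : S24.FF ℂ N) :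
    IsIntegral (Algebra.adjoin ℂ {S24.jBC ℂ N}) x ↔
      ∃ f : ℍ → ℂ, IsWH (Gamma0 N) f ∧ (x : LaurentSeries ℂ) = S24.qLaurentFun f := by
  obtain ⟨e, heX, hq⟩ := S24.exists_algEquiv_FF' N
  set ψ : ℂ[X] →+* S24.FF ℂ N :=
    (e : S20.FF N →+* S24.FF ℂ N).comp (algebraMap ℂ[X] (S20.FF N)) with hψdef
  have hψ : ∀ p : ℂ[X], ψ p = Polynomial.aeval (S24.jBC ℂ N) p := by
    have h1 : ψ = ((Polynomial.aeval (S24.jBC ℂ N) : ℂ[X] →ₐ[ℂ] S24.FF ℂ N) :
        ℂ[X] →+* S24.FF ℂ N) := by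
      apply Polynomial.ringHom_ext
      · intro a
        simp only [hψdef, RingHom.comp_apply, RingHom.coe_coe, Polynomial.aeval_C]
        rw [← Polynomial.algebraMap_eq, ← IsScalarTower.algebraMap_apply ℂ ℂ[X] (S20.FF N),
          AlgEquiv.commutes]
      · simp only [hψdef, RingHom.comp_apply, RingHom.coe_coe, Polynomial.aeval_X]
        exact heX
    intro p
    rw [h1]
    rfl
  have hmem : ∀ p : ℂ[X], ψ p ∈ Algebra.adjoin ℂ {S24.jBC ℂ N} := by
    intro p
    rw [hψ, Algebra.adjoin_singleton_eq_range_aeval]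
    exact ⟨p, rfl⟩
  let ψA : ℂ[X] →+* Algebra.adjoin ℂ {S24.jBC ℂ N} :=
    ψ.codRestrict (Algebra.adjoin ℂ {S24.jBC ℂ N}) hmem
  have hψA : (algebraMap (Algebra.adjoin ℂ {S24.jBC ℂ N}) (S24.FF ℂ N)).comp ψA = ψ :=
    RingHom.ext fun p => rfl
  constructor
  · rintro ⟨P, hPm, hP⟩
    have hsurj : Function.Surjective ψA := by
      intro a
      have ha : (a : S24.FF ℂ N) ∈ (Polynomial.aeval (R := ℂ) (S24.jBC ℂ N)).range := by
        rw [← Algebra.adjoin_singleton_eq_range_aeval]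
        exact a.2
      obtain ⟨p, hp⟩ := ha
      exact ⟨p, Subtype.ext ((hψ p).trans hp)⟩
    have hlift : P ∈ Polynomial.lifts ψA := by
      rw [Polynomial.lifts_iff_coeff_lifts]
      intro n
      exact hsurj _
    obtain ⟨Q, hQ, -, hQm⟩ := Polynomial.lifts_and_natDegree_eq_and_monic hlift hPm
    have h0 : Polynomial.eval₂ ψ x Q = 0 := by
      rw [← hQ, Polynomial.eval₂_map, hψA] at hP
      exact hP
    have hcomp : ((e.symm : S24.FF ℂ N ≃ₐ[ℂ] S20.FF N) : S24.FF ℂ N →+* S20.FF N).comp ψ =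
        algebraMap ℂ[X] (S20.FF N) := by
      refine RingHom.ext fun p => ?_
      show e.symm (e (algebraMap ℂ[X] (S20.FF N) p)) = _
      rw [AlgEquiv.symm_apply_apply]
    have hint : IsIntegral ℂ[X] (e.symm x) := by
      refine ⟨Q, hQm, ?_⟩
      have h1 := congrArg ((e.symm : S24.FF ℂ N ≃ₐ[ℂ] S20.FF N) : S24.FF ℂ N →+* S20.FF N) h0
      rw [map_zero, Polynomial.hom_eval₂, hcomp] at h1
      exact h1
    obtain ⟨b, hb⟩ := (DictWH.isIntegral_iff N (e.symm x)).mp hint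
    refine ⟨(b : ℍ → ℂ), b.2, ?_⟩
    rw [← hq b, hb, AlgEquiv.apply_symm_apply]
  · rintro ⟨f, hf, hx⟩
    have hxe := eq_of_qLaurent N e hq hf hx
    have hint : IsIntegral ℂ[X] (algebraMap (WH (Gamma0 N)) (S20.FF N) ⟨f, hf⟩) :=
      (DictWH.isIntegral_iff N _).mpr ⟨_, rfl⟩
    rw [hxe]
    exact IsIntegral.map_of_comp_eq ψA (e : S20.FF N →+* S24.FF ℂ N) hψA hint

/-- **(b)** if `m` divides the order of `x` at every place, then `m` divides the analytic order
of `f` at every point of `ℍ`. -/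
theorem ord (m : ℕ) (f : ℍ → ℂ) (hf : IsWH (Gamma0 N) f) (hf0 : f ≠ 0) (x : S24.FF ℂ N)
    (hx : (x : LaurentSeries ℂ) = S24.qLaurentFun f)
    (h : ∀ v : Place ℂ (S24.FF ℂ N), (m : ℤ) ∣ v.ord x) :
    ∀ z : ℍ, m ∣ (ordAt f z).toNat := by
  obtain ⟨e, -, hq⟩ := S24.exists_algEquiv_FF' N
  have hxe := eq_of_qLaurent N e hq hf hx
  have hb0 : (⟨f, hf⟩ : WH (Gamma0 N)) ≠ 0 := fun h0 => hf0 (congrArg Subtype.val h0)
  intro z
  obtain ⟨v, -, hv⟩ := exists_place_of_point N z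
  have h1 := h (S24.placeEquiv e v)
  rw [hxe, DictWH.ord_map] at h1
  have h2 := hv ⟨f, hf⟩ hb0
  have h3 : (m : ℤ) ∣ ordZ z (⟨f, hf⟩ : WH (Gamma0 N)) := by
    rw [h2]
    exact Dvd.dvd.mul_left h1 _
  unfold ordZ at h3
  exact Int.natCast_dvd_natCast.mp h3

/-- **(c)** growth at the cusps versus pole orders at the places over `j = ∞`, with the same
constant on both sides. -/
theorem bdd (c : ℕ) (f : ℍ → ℂ) (hf : IsWH (Gamma0 N) f) (x : S24.FF ℂ N)
    (hx : (x : LaurentSeries ℂ) = S24.qLaurentFun f) :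
    (∀ g : SL(2, ℤ), IsBoundedAtImInfty
        (fun z : ℍ => f (g • z) * ModularForm.discriminant z ^ c)) ↔
      ∀ v : Place ℂ (S24.FF ℂ N), v.ord (S24.jBC ℂ N) < 0 →
        (c : ℤ) * v.ord (S24.jBC ℂ N) ≤ v.ord x := by
  obtain ⟨e, heX, hq⟩ := S24.exists_algEquiv_FF' N
  have hxe := eq_of_qLaurent N e hq hf hx
  rw [hxe, ← heX]
  exact bdd_iff_ord_ge N e ⟨f, hf⟩ c

end Fermat.Agent.S29.DictQ
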