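import Mathlib
import Fermat.Agent.S29.DictQ
import Fermat.Agent.S29.DescCore
import Fermat.Agent.S29.SturmRoot
import Fermat.Agent.S29.RootQ
import Fermat.Agent.S29.DescMem

/-!
# S29 (K3): the inputs of the descent are all available

`inputs N : Desc.Inputs N` assembles the six slices (`DictQ.int_iff`, `DictQ.ord`, `DictQ.bdd`,
`SturmRoot.exists_bound`, `RootQ.exists_root_of_qLaurent_pow`, `DescMem.mem_FF_of_coeffMap_mem`),
and `exists_rational` is `Desc.exists_rational_of` with the inputs discharged.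
-/

set_option autoImplicit false

open UpperHalfPlane hiding I
open Complex Filter Function Polynomial ModularCurve CongruenceSubgroup AlgebraicCurve
open scoped Topology Manifold MatrixGroups

namespace Fermat.Agent.S29.DescInputs

open Fermat.Agent.S20 Fermat.Agent.S24 Fermat.Agent.S22

local notation "Qb" => AlgebraicClosure ℚ

/-- all the inputs of the descent argument -/
theorem inputs (N : ℕ) [NeZero N] : Desc.Inputs N where
  int_iff := DictQ.int_iff N
  ord := DictQ.ord N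
  bdd := DictQ.bdd N
  sturm := fun m hm M => SturmRoot.exists_bound N m hm M
  root := fun m hm _ hf hf0 hord _ hw => RootQ.exists_root_of_qLaurent_pow m hm hf hf0 hord hw
  mem := fun ι y h => DescMem.mem_FF_of_coeffMap_mem N ι y h

/-- **K3 (descent), unconditional.**  A multiplier function for a character `χ` of exponent `m`
(with `χ(T) = 1` and divisor divisible by `m`) can be chosen with `q`-expansion over `ℚ̄`. -/
theorem exists_rational (N : ℕ) [NeZero N] (m : ℕ) (hm : 0 < m)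
    (ι : Qb →+* ℂ)
    (χ : Gam N →* ℂˣ) (hχ : ∀ γ, χ γ ^ m = 1)
    (hT : ∀ γ : Gam N, (γ : SL(2, ℤ)) = ModularGroup.T → χ γ = 1)
    (u₁ : ℍ → ℂ) (hu₁ : MDiff u₁) (hu₁0 : u₁ ≠ 0)
    (hmult : ∀ (γ : Gam N) (z : ℍ), u₁ ((γ : SL(2, ℤ)) • z) = (χ γ : ℂ) * u₁ z)
    (hWH : IsWH (Gamma0 N) (fun z => u₁ z ^ m))
    (hdiv : ∀ x : S24.FF ℂ N, (x : LaurentSeries ℂ) = qLaurentFun (fun z => u₁ z ^ m) →
      ∀ v : Place ℂ (S24.FF ℂ N), (m : ℤ) ∣ v.ord x) :
    ∃ u : ℍ → ℂ, MDiff u ∧ u ≠ 0 ∧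
      (∀ (γ : Gam N) (z : ℍ), u ((γ : SL(2, ℤ)) • z) = (χ γ : ℂ) * u z) ∧
      IsWH (Gamma0 N) (fun z => u z ^ m) ∧
      ∃ (y : LaurentSeries Qb) (f₀ : S24.FF Qb N),
        coeffMap ι y = qLaurentFun u ∧ (f₀ : LaurentSeries Qb) = y ^ m ∧
        ((S24.CoeffBC.bc ι (modularFunctionFieldFull N) f₀ : S24.FF ℂ N) : LaurentSeries ℂ) =
          qLaurentFun (fun z => u z ^ m) :=
  Desc.exists_rational_of N (inputs N) m hm ι χ hχ hT u₁ hu₁ hu₁0 hmult hWH hdiv

end Fermat.Agent.S29.DescInputs
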