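import Mathlib
import Fermat.Agent.S20.FinitePlaces
import Fermat.Agent.S24.QIsoFinal
import Fermat.Agent.S29.DescConj

/-!
# S29 (wave 5), package K3: the `WH ↔ places` dictionary in the `q`-expansion spelling

The consumers of the dictionary (descent, K-fin) use the statements (a), (b), (c) for elements
`x` of the formal function field `S24.FF ℂ N` tied to a weakly holomorphic function `f` by
`(x : LaurentSeries ℂ) = qLaurentFun f` (the predicates `DescConj.DictA`, `DictB`, `DictC`).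

* `dictA` : (a) holds (integral closure of `ℂ[j]` = `q`-expansions of `WH`), unconditionally.
* `dictB_of` : (b) from the transport form of the finite-place dictionary.
* `dictC_of` : (c) from the transport form of the cusp dictionary.

The two transport forms are taken as hypotheses in the binder shapes of the dictionary file
(quantified over all `ℂ`-isomorphisms `e : S20.FF N ≃ₐ[ℂ] S24.FF ℂ N`).
-/

set_option autoImplicit false

open UpperHalfPlane hiding I
open Complex Filter Function ModularCurve AlgebraicCurve CongruenceSubgroup Polynomial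
open scoped Topology Manifold MatrixGroups

namespace Fermat.Agent.S29.DictAdapt

open Fermat.Agent.S20 Fermat.Agent.S24 Fermat.Agent.S29.DescConj

local notation "Δ" => ModularForm.discriminant

/-! ### Integrality over a singly generated subalgebra -/

section Generic

variable {K F : Type*} [Field K] [CommRing F] [Nontrivial F] [Algebra K F] (j : F)

/-- Integrality over `K[j] = Algebra.adjoin K {j}` is integrality along `p ↦ p(j)`. -/
theorem isIntegral_adjoin_iff (x : F) :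
    IsIntegral (Algebra.adjoin K {j}) x ↔
      ((Polynomial.aeval j : K[X] →ₐ[K] F) : K[X] →+* F).IsIntegralElem x := by
  let ψ : K[X] →ₐ[K] Algebra.adjoin K {j} :=
    Polynomial.aeval (⟨j, Algebra.self_mem_adjoin_singleton K j⟩ : Algebra.adjoin K {j})
  have hψ : ∀ p : K[X], ((ψ p : Algebra.adjoin K {j}) : F) = Polynomial.aeval j p := fun p =>
    Polynomial.aeval_subalgebra_coe p _ _
  have hcomp : (algebraMap (Algebra.adjoin K {j}) F).comp (ψ : K[X] →+* Algebra.adjoin K {j})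
      = ((Polynomial.aeval j : K[X] →ₐ[K] F) : K[X] →+* F) := RingHom.ext fun p => hψ p
  have hsurj : Function.Surjective (ψ : K[X] →+* Algebra.adjoin K {j}) := by
    rintro ⟨y, hy⟩
    rw [Algebra.adjoin_singleton_eq_range_aeval] at hy
    obtain ⟨p, rfl⟩ := hy
    exact ⟨p, Subtype.ext (hψ p)⟩
  constructor
  · rintro ⟨q, hq, hqx⟩
    have hlift : q ∈ Polynomial.lifts (ψ : K[X] →+* Algebra.adjoin K {j}) := by
      rw [Polynomial.mem_lifts]
      exact Polynomial.map_surjective _ hsurj q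
    obtain ⟨p, hpq, -, hp⟩ := Polynomial.lifts_and_degree_eq_and_monic hlift hq
    refine ⟨p, hp, ?_⟩
    rw [← hcomp, ← Polynomial.eval₂_map, hpq]
    exact hqx
  · rintro ⟨p, hp, hpx⟩
    refine ⟨p.map (ψ : K[X] →+* Algebra.adjoin K {j}), hp.map _, ?_⟩
    rw [Polynomial.eval₂_map, hcomp]
    exact hpx

end Generic

/-! ### (a) -/

/-- **Dictionary (a)**: the elements of `FF ℂ N` integral over `ℂ[j]` are exactly the
`q`-expansions of the weakly holomorphic functions on `Γ₀(N)`. -/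
theorem dictA (N : ℕ) [NeZero N] : DictA N := by
  obtain ⟨e, hej, heq⟩ := S24.exists_algEquiv_FF' N
  -- the two ring homomorphisms `ℂ[X] → FF ℂ N`
  have hcomp : ((e : S20.FF N ≃ₐ[ℂ] S24.FF ℂ N) : S20.FF N →+* S24.FF ℂ N).comp
      (algebraMap ℂ[X] (S20.FF N))
      = ((Polynomial.aeval (S24.jBC ℂ N) : ℂ[X] →ₐ[ℂ] S24.FF ℂ N) : ℂ[X] →+* S24.FF ℂ N) := by
    have h1 : ((e : S20.FF N ≃ₐ[ℂ] S24.FF ℂ N) : S20.FF N →ₐ[ℂ] S24.FF ℂ N).comp
        (IsScalarTower.toAlgHom ℂ ℂ[X] (S20.FF N))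
        = (Polynomial.aeval (S24.jBC ℂ N) : ℂ[X] →ₐ[ℂ] S24.FF ℂ N) := by
      apply Polynomial.algHom_ext
      simp only [AlgHom.comp_apply, IsScalarTower.coe_toAlgHom', AlgEquiv.coe_toAlgHom,
        Polynomial.aeval_X]
      exact hej
    exact congrArg (fun φ : ℂ[X] →ₐ[ℂ] S24.FF ℂ N => (φ : ℂ[X] →+* S24.FF ℂ N)) h1
  intro x
  rw [isIntegral_adjoin_iff]
  constructor
  · rintro ⟨p, hp, hpx⟩
    -- pull back along `e`
    have h1 : IsIntegral ℂ[X] (e.symm x) := by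
      refine ⟨p, hp, ?_⟩
      apply e.injective
      rw [map_zero]
      have h2 := Polynomial.hom_eval₂ p (algebraMap ℂ[X] (S20.FF N))
        ((e : S20.FF N ≃ₐ[ℂ] S24.FF ℂ N) : S20.FF N →+* S24.FF ℂ N) (e.symm x)
      rw [hcomp] at h2
      have h3 : ((e : S20.FF N ≃ₐ[ℂ] S24.FF ℂ N) : S20.FF N →+* S24.FF ℂ N) (e.symm x) = x :=
        e.apply_symm_apply x
      rw [h3, hpx] at h2
      exact h2
    obtain ⟨f, hf⟩ := (IsIntegralClosure.isIntegral_iff (A := WH (Gamma0 N))).mp h1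
    refine ⟨(f : ℍ → ℂ), mem_WH.mp f.2, ?_⟩
    rw [← heq f, hf, e.apply_symm_apply]
  · rintro ⟨f, hf, hx⟩
    have h1 : IsIntegral ℂ[X] (algebraMap (WH (Gamma0 N)) (S20.FF N) ⟨f, hf⟩) :=
      (IsIntegralClosure.isIntegral_iff (A := WH (Gamma0 N))).mpr ⟨_, rfl⟩
    obtain ⟨p, hp, hpx⟩ := h1
    have hxe : x = e (algebraMap (WH (Gamma0 N)) (S20.FF N) ⟨f, hf⟩) := by
      apply Subtype.ext
      rw [hx, heq]
    refine ⟨p, hp, ?_⟩
    have h2 := Polynomial.hom_eval₂ p (algebraMap ℂ[X] (S20.FF N))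
      ((e : S20.FF N ≃ₐ[ℂ] S24.FF ℂ N) : S20.FF N →+* S24.FF ℂ N)
      (algebraMap (WH (Gamma0 N)) (S20.FF N) ⟨f, hf⟩)
    rw [hcomp, hpx, map_zero] at h2
    rw [hxe]
    exact h2.symm

/-- (a), forward half, in the shape of the K-fin consumer. -/
theorem exists_isWH_of_isIntegral (N : ℕ) [NeZero N] (x : S24.FF ℂ N)
    (h : IsIntegral (Algebra.adjoin ℂ {S24.jBC ℂ N}) x) :
    ∃ f : ℍ → ℂ, IsWH (Gamma0 N) f ∧ (x : LaurentSeries ℂ) = qLaurentFun f :=
  (dictA N x).mp h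

/-! ### (b) -/

/-- **Dictionary (b)** from the transport form of the finite-place dictionary
(`DictWH.dvd_ordZ_of_forall`, with `s = stabIdx N`). -/
theorem dictB_of (N : ℕ) [NeZero N] (m : ℕ) (s : ℍ → ℕ)
    (h9 : ∀ (e : S20.FF N ≃ₐ[ℂ] S24.FF ℂ N) (m' : ℤ) (a b : WH (Gamma0 N)), a ≠ 0 → b ≠ 0 →
      (∀ v : Place ℂ (S24.FF ℂ N), m' ∣ v.ord (e (algebraMap (WH (Gamma0 N)) (S20.FF N) a /
        algebraMap (WH (Gamma0 N)) (S20.FF N) b))) →
      ∀ z : ℍ, m' * (s z : ℤ) ∣ FinitePlaces.ordZ z a - FinitePlaces.ordZ z b) :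
    DictB N m := by
  obtain ⟨e, hej, heq⟩ := S24.exists_algEquiv_FF' N
  intro f hf hf0 x hx hdiv z
  have ha : (⟨f, hf⟩ : WH (Gamma0 N)) ≠ 0 := by
    intro h
    apply hf0
    exact congrArg (fun w : WH (Gamma0 N) => (w : ℍ → ℂ)) h
  have hxe : x = e (algebraMap (WH (Gamma0 N)) (S20.FF N) ⟨f, hf⟩ /
      algebraMap (WH (Gamma0 N)) (S20.FF N) 1) := by
    rw [map_one, div_one]
    apply Subtype.ext
    rw [hx, heq]
  have h1 := h9 e (m : ℤ) ⟨f, hf⟩ 1 ha one_ne_zero (fun v => by rw [← hxe]; exact hdiv v) z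
  have h2 : FinitePlaces.ordZ z (1 : WH (Gamma0 N)) = 0 := by
    unfold FinitePlaces.ordZ
    have h3 : ((1 : WH (Gamma0 N)) : ℍ → ℂ) = 1 := rfl
    rw [h3, ordAt_one]
    rfl
  rw [h2, sub_zero] at h1
  have h4 : (m : ℤ) ∣ FinitePlaces.ordZ z (⟨f, hf⟩ : WH (Gamma0 N)) :=
    dvd_trans (dvd_mul_right _ _) h1
  unfold FinitePlaces.ordZ at h4
  exact Int.natCast_dvd_natCast.mp h4

/-! ### (c) -/

/-- **Dictionary (c)** from the transport form of the cusp dictionary
(`DictWH.bdd_iff_ord_ge`). -/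
theorem dictC_of (N : ℕ) [NeZero N] (c : ℕ)
    (h9 : ∀ (e : S20.FF N ≃ₐ[ℂ] S24.FF ℂ N) (f : WH (Gamma0 N)) (c : ℕ),
      (∀ g : SL(2, ℤ), IsBoundedAtImInfty
          (fun z : ℍ => (f : ℍ → ℂ) (g • z) * ModularForm.discriminant z ^ c)) ↔
        ∀ v : Place ℂ (S24.FF ℂ N), v.ord (e (algebraMap ℂ[X] (S20.FF N) X)) < 0 →
          (c : ℤ) * v.ord (e (algebraMap ℂ[X] (S20.FF N) X)) ≤
            v.ord (e (algebraMap (WH (Gamma0 N)) (S20.FF N) f))) :
    DictC N c := by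
  obtain ⟨e, hej, heq⟩ := S24.exists_algEquiv_FF' N
  intro f hf x hx
  have hxe : x = e (algebraMap (WH (Gamma0 N)) (S20.FF N) ⟨f, hf⟩) := by
    apply Subtype.ext
    rw [hx, heq]
  have h1 := h9 e ⟨f, hf⟩ c
  rw [hej, ← hxe] at h1
  exact h1

end Fermat.Agent.S29.DictAdapt
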