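import Mathlib
import Fermat.Agent.S29.DictAdapt
import Fermat.Agent.S29.DictWH

/-!
# S29 (wave 5), package K3: the `WH ↔ places` dictionary in the `q`-expansion spelling,
unconditional forms

Hypothesis-free versions of `DictAdapt.dictB_of` and `DictAdapt.dictC_of` (inputs from
`DictWH`), and the three consumer statements (a), (b), (c) for an element `x` of the formal
function field `S24.FF ℂ N` tied to a weakly holomorphic function `f` by its `q`-expansion.
-/

set_option autoImplicit false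

open UpperHalfPlane hiding I
open Complex Filter Function ModularCurve AlgebraicCurve CongruenceSubgroup Polynomial
open scoped Topology Manifold MatrixGroups

namespace Fermat.Agent.S29.DictAdapt

open Fermat.Agent.S20 Fermat.Agent.S24 Fermat.Agent.S29.DescConj

/-- **Dictionary (b)**, unconditional. -/
theorem dictB (N : ℕ) [NeZero N] (m : ℕ) : DictB N m :=
  dictB_of N m (DictWH.stabIdx N)
    (fun e m' a b ha hb h z => DictWH.dvd_ordZ_of_forall N e m' a b ha hb h z)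

/-- **Dictionary (c)**, unconditional. -/
theorem dictC (N : ℕ) [NeZero N] (c : ℕ) : DictC N c :=
  dictC_of N c (fun e f c => DictWH.bdd_iff_ord_ge N e f c)

/-- (a): an element of `FF ℂ N` is integral over `ℂ[j]` iff it is the `q`-expansion of a weakly
holomorphic function on `Γ₀(N)`. -/
theorem isIntegral_iff (N : ℕ) [NeZero N] (x : S24.FF ℂ N) :
    IsIntegral (Algebra.adjoin ℂ {S24.jBC ℂ N}) x ↔
      ∃ f : ℍ → ℂ, IsWH (Gamma0 N) f ∧ (x : LaurentSeries ℂ) = qLaurentFun f :=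
  dictA N x

/-- (b): divisibility of the orders at all places gives divisibility of the analytic orders at
all points of `ℍ`. -/
theorem dvd_ordAt_of_dvd_ord (N : ℕ) [NeZero N] (m : ℕ) (f : ℍ → ℂ) (hf : IsWH (Gamma0 N) f)
    (hf0 : f ≠ 0) (x : S24.FF ℂ N) (hx : (x : LaurentSeries ℂ) = qLaurentFun f)
    (h : ∀ v : Place ℂ (S24.FF ℂ N), (m : ℤ) ∣ v.ord x) :
    ∀ z : ℍ, m ∣ (ordAt f z).toNat :=
  dictB N m f hf hf0 x hx h

/-- (c): the bound at all cusps with exponent `c` is the pole bound `c * ord_v j ≤ ord_v x` at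
the places over `j = ∞`. -/
theorem bdd_iff_pole_bound (N : ℕ) [NeZero N] (c : ℕ) (f : ℍ → ℂ) (hf : IsWH (Gamma0 N) f)
    (x : S24.FF ℂ N) (hx : (x : LaurentSeries ℂ) = qLaurentFun f) :
    (∀ g : SL(2, ℤ), IsBoundedAtImInfty
        (fun z : ℍ => f (g • z) * ModularForm.discriminant z ^ c)) ↔
      ∀ v : Place ℂ (S24.FF ℂ N), v.ord (S24.jBC ℂ N) < 0 →
        (c : ℤ) * v.ord (S24.jBC ℂ N) ≤ v.ord x :=
  dictC N c f hf x hx

/-- The conjugate root under an automorphism of `ℂ`, unconditional form of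
`DescConj.exists_conj`. -/
theorem exists_conj (N : ℕ) [NeZero N] (m : ℕ) (hm : 0 < m) (c : ℕ) (σ : ℂ ≃+* ℂ)
    (u : ℍ → ℂ) (hu0 : u ≠ 0) (hPM : IsPM u)
    (hWH : IsWH (Gamma0 N) (fun z => u z ^ m))
    (hbd : ∀ g : SL(2, ℤ), IsBoundedAtImInfty
      (fun z : ℍ => u (g • z) ^ m * ModularForm.discriminant z ^ c))
    (hdiv : ∀ x : S24.FF ℂ N, (x : LaurentSeries ℂ) = qLaurentFun (fun z => u z ^ m) →
      ∀ v : Place ℂ (S24.FF ℂ N), (m : ℤ) ∣ v.ord x) :
    ∃ (χ' : S22.Gam N →* ℂˣ) (u' : ℍ → ℂ),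
      (∀ γ, χ' γ ^ m = 1) ∧
      (∀ γ : S22.Gam N, (γ : SL(2, ℤ)) = ModularGroup.T → χ' γ = 1) ∧
      MDiff u' ∧ u' ≠ 0 ∧
      (∀ (γ : S22.Gam N) (z : ℍ), u' ((γ : SL(2, ℤ)) • z) = (χ' γ : ℂ) * u' z) ∧
      IsWH (Gamma0 N) (fun z => u' z ^ m) ∧
      (∀ g : SL(2, ℤ), IsBoundedAtImInfty
        (fun z : ℍ => u' (g • z) ^ m * ModularForm.discriminant z ^ c)) ∧
      IsPM u' ∧
      qLaurentFun u' = coeffMap (σ : ℂ →+* ℂ) (qLaurentFun u) ∧
      (∀ x : S24.FF ℂ N, (x : LaurentSeries ℂ) = qLaurentFun (fun z => u' z ^ m) →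
        ∀ v : Place ℂ (S24.FF ℂ N), (m : ℤ) ∣ v.ord x) :=
  DescConj.exists_conj N m hm c σ (dictA N) (dictB N m) (dictC N c) u hu0 hPM hWH hbd hdiv

end Fermat.Agent.S29.DictAdapt
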