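import Mathlib
import Fermat.Prelude.Def_FreyPackage_EigenformResidualAttachment
import Fermat.Prelude.Def_GaloisRep_Residual
import Fermat.Agent.S13.RatPoly
import Fermat.Agent.S13.FreyTwo

/-!
# S42, the field clause

For a Frey package `P` and a representation `ρ` of the absolute Galois group of `ℚ` which
factors through a finite level, there is a finite Galois extension `F/ℚ` inside the algebraic
closure such that every automorphism restricting to the identity on `F` acts trivially both on
the `p`-torsion of the Frey curve and through `ρ`.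

* `frey_torsion_finite`: the `p`-torsion of the Frey curve is finite.
* `frey_ker_isOpen`: the kernel of the mod `p` representation of the Frey curve is a
  Krull-topology neighbourhood of each of its points.
* `exists_numberField_of_isOpen`: such a subgroup contains the kernel of the restriction to a
  finite Galois extension, stated in the binder shape of the attachment statement.
* `exists_frey_field`: the field clause.
-/

set_option autoImplicit false
set_option linter.unusedSectionVars false
set_option linter.style.haveILetI false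

open WeierstrassCurve WeierstrassCurve.Affine WeierstrassCurve.Affine.Point

namespace Fermat.Agent.S29.FreyField

local notation "Qb" => AlgebraicClosure ℚ
local notation "GQ" => (AlgebraicClosure ℚ ≃ₐ[ℚ] AlgebraicClosure ℚ)

/-- The `p`-torsion of the Frey curve is finite. -/
theorem frey_torsion_finite (P : FreyPackage) :
    Finite ↥(Submodule.torsionBy ℤ (P.freyCurve⁄Qb).Point P.p) := by
  have : Fact P.p.Prime := ⟨P.pp⟩
  have hmem : ∀ T : (P.freyCurve⁄Qb).Point, P.p • T = 0 →
      T ∈ Submodule.torsionBy ℤ (P.freyCurve⁄Qb).Point P.p := by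
    intro T hT
    rw [Submodule.mem_torsionBy_iff, natCast_zsmul]
    exact hT
  have htors : ∀ x : Submodule.torsionBy ℤ (P.freyCurve⁄Qb).Point P.p,
      P.p • (x : (P.freyCurve⁄Qb).Point) = 0 := by
    intro x
    have := x.2
    rw [Submodule.mem_torsionBy_iff, natCast_zsmul] at this
    exact this
  obtain ⟨T₁, T₂, hT₁, hT₂, hgenT⟩ := Fermat.Agent.S13.frey_dim_two P
  have hgen : ∀ v : Submodule.torsionBy ℤ (P.freyCurve⁄Qb).Point P.p, ∃ a b : ZMod P.p,
      v = a • (⟨T₁, hmem T₁ hT₁⟩ : Submodule.torsionBy ℤ (P.freyCurve⁄Qb).Point P.p) +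
        b • (⟨T₂, hmem T₂ hT₂⟩ : Submodule.torsionBy ℤ (P.freyCurve⁄Qb).Point P.p) := by
    intro v
    obtain ⟨i, j, hij⟩ := hgenT v (htors v)
    refine ⟨(i : ZMod P.p), (j : ZMod P.p), ?_⟩
    rw [Nat.cast_smul_eq_nsmul, Nat.cast_smul_eq_nsmul]
    apply Subtype.ext
    rw [hij]
    rfl
  exact Finite.of_surjective (fun ab : ZMod P.p × ZMod P.p =>
      ab.1 • (⟨T₁, hmem T₁ hT₁⟩ : Submodule.torsionBy ℤ (P.freyCurve⁄Qb).Point P.p) +
        ab.2 • (⟨T₂, hmem T₂ hT₂⟩ : Submodule.torsionBy ℤ (P.freyCurve⁄Qb).Point P.p))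
      (fun v => by
        obtain ⟨a, b, h⟩ := hgen v
        exact ⟨(a, b), h.symm⟩)

/-- The kernel of the mod `p` representation of the Frey curve is open. -/
theorem frey_ker_isOpen (P : FreyPackage) :
    IsOpen ((galoisRepModuleEnd (S := ℚ) (K := Qb) P.freyCurve P.p).ker : Set GQ) := by
  have hfin := frey_torsion_finite P
  have hstab_open : ∀ x : Submodule.torsionBy ℤ (P.freyCurve⁄Qb).Point P.p,
      IsOpen ((MulAction.stabilizer GQ x : Subgroup GQ) : Set GQ) := by
    intro x
    have h := Fermat.Agent.S13.isOpen_stabilizer_point P.freyCurve (x : (P.freyCurve⁄Qb).Point)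
    convert h using 1
    ext σ
    change σ • x = x ↔ σ • (x : (P.freyCurve⁄Qb).Point) = (x : (P.freyCurve⁄Qb).Point)
    exact Subtype.ext_iff
  refine Subgroup.isOpen_mono
    (H₁ := ⨅ x : Submodule.torsionBy ℤ (P.freyCurve⁄Qb).Point P.p,
      MulAction.stabilizer GQ x) ?_ ?_
  · intro σ hσ
    rw [Subgroup.mem_iInf] at hσ
    rw [MonoidHom.mem_ker]
    apply LinearMap.ext
    intro x
    have := hσ x
    rw [MulAction.mem_stabilizer_iff] at this
    rw [galoisRepModuleEnd_apply, this]
    rfl
  · rw [Subgroup.coe_iInf]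
    exact isOpen_iInter_of_finite hstab_open

/-- A finite normal subextension of `Qb/ℚ`, packaged in the binder shape of the field clause. -/
theorem exists_numberField_of_fixingSubgroup_le (E : IntermediateField ℚ Qb)
    (hfin : FiniteDimensional ℚ E) (hnorm : Normal ℚ E) (H : Subgroup GQ)
    (hH : E.fixingSubgroup ≤ H) :
    ∃ (F : Type) (_ : Field F) (_ : NumberField F) (_ : IsGalois ℚ F)
      (_ : Algebra F Qb) (_ : IsScalarTower ℚ F Qb),
      (AlgEquiv.restrictNormalHom (F := ℚ) (K₁ := Qb) F).ker ≤ H := by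
  refine ⟨E, inferInstance, ?_, ?_, inferInstance, ?_, ?_⟩
  · exact { to_charZero := inferInstance, to_finiteDimensional := hfin }
  · exact { to_isSeparable := inferInstance, to_normal := hnorm }
  · infer_instance
  · intro σ hσ
    apply hH
    rw [IntermediateField.mem_fixingSubgroup_iff]
    intro x hx
    rw [MonoidHom.mem_ker] at hσ
    have h1 := AlgEquiv.restrictNormal_commutes σ E ⟨x, hx⟩
    have h2 : (AlgEquiv.restrictNormal σ ↥E) = 1 := hσ
    rw [h2] at h1
    exact h1.symm

/-- Every open subgroup of the absolute Galois group of `ℚ` contains the kernel of the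
restriction to a finite Galois extension (binder shape of the field clause). -/
theorem exists_numberField_of_isOpen (H : Subgroup GQ) (hH : IsOpen (H : Set GQ)) :
    ∃ (F : Type) (_ : Field F) (_ : NumberField F) (_ : IsGalois ℚ F)
      (_ : Algebra F Qb) (_ : IsScalarTower ℚ F Qb),
      (AlgEquiv.restrictNormalHom (F := ℚ) (K₁ := Qb) F).ker ≤ H := by
  have hnhds : (H : Set GQ) ∈ nhds (1 : GQ) := hH.mem_nhds H.one_mem
  have halg : Algebra.IsAlgebraic ℚ Qb := AlgebraicClosure.isAlgebraic ℚ
  have hcl : IsAlgClosure ℚ Qb := ⟨AlgebraicClosure.isAlgClosed ℚ, halg⟩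
  have hnormal : Normal ℚ Qb := IsAlgClosure.normal ℚ Qb
  obtain ⟨E, hfin, hnorm, hE⟩ := (krullTopology_mem_nhds_one_iff_of_normal ℚ Qb _).mp hnhds
  exact exists_numberField_of_fixingSubgroup_le E hfin hnorm H hE

/-- A subgroup containing the fixing subgroup of a finite subextension is open. -/
theorem isOpen_of_fixingSubgroup_le (L : IntermediateField ℚ Qb) (hL : FiniteDimensional ℚ L)
    (H : Subgroup GQ) (hH : L.fixingSubgroup ≤ H) : IsOpen (H : Set GQ) :=
  Subgroup.isOpen_mono hH L.fixingSubgroup_isOpen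

/-- The kernel of a monoid hom factoring through a finite level is open. -/
theorem isOpen_ker_of_factors {M : Type} [Monoid M] (ρ : GQ →* M)
    (hρ : GaloisFactorsThroughFiniteLevel ρ) : IsOpen ((ρ.ker : Subgroup GQ) : Set GQ) := by
  obtain ⟨L, hL, h⟩ := hρ
  refine isOpen_of_fixingSubgroup_le L hL _ ?_
  intro σ hσ
  rw [IntermediateField.mem_fixingSubgroup_iff] at hσ
  exact MonoidHom.mem_ker.mpr (h σ hσ)

/-- The intersection of two open subgroups, in the `⊓` shape. -/
theorem isOpen_inf (H₁ H₂ : Subgroup GQ) (h₁ : IsOpen (H₁ : Set GQ))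
    (h₂ : IsOpen (H₂ : Set GQ)) : IsOpen ((H₁ ⊓ H₂ : Subgroup GQ) : Set GQ) := by
  rw [Subgroup.coe_inf]
  exact h₁.inter h₂

/-- **The field clause of S42**, from openness of the kernel of `ρ`. -/
theorem exists_frey_field_of_isOpen (P : FreyPackage) {K V : Type} [Field K] [AddCommGroup V]
    [Module K V] (ρ : Representation K GQ V) (hρ : IsOpen ((ρ.ker : Subgroup GQ) : Set GQ)) :
    ∃ (F : Type) (_ : Field F) (_ : NumberField F) (_ : IsGalois ℚ F)
      (_ : Algebra F (AlgebraicClosure ℚ)) (_ : IsScalarTower ℚ F (AlgebraicClosure ℚ)),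
      (AlgEquiv.restrictNormalHom (F := ℚ) (K₁ := AlgebraicClosure ℚ) F).ker ≤
        (galoisRepModuleEnd (S := ℚ) (K := AlgebraicClosure ℚ) P.freyCurve P.p).ker ⊓ ρ.ker :=
  exists_numberField_of_isOpen _ (isOpen_inf _ _ (frey_ker_isOpen P) hρ)

/-- **The field clause of S42**, for a representation factoring through a finite level. -/
theorem exists_frey_field (P : FreyPackage) {K V : Type} [Field K] [AddCommGroup V]
    [Module K V] (ρ : Representation K GQ V) (hρ : GaloisFactorsThroughFiniteLevel ρ) :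
    ∃ (F : Type) (_ : Field F) (_ : NumberField F) (_ : IsGalois ℚ F)
      (_ : Algebra F (AlgebraicClosure ℚ)) (_ : IsScalarTower ℚ F (AlgebraicClosure ℚ)),
      (AlgEquiv.restrictNormalHom (F := ℚ) (K₁ := AlgebraicClosure ℚ) F).ker ≤
        (galoisRepModuleEnd (S := ℚ) (K := AlgebraicClosure ℚ) P.freyCurve P.p).ker ⊓ ρ.ker :=
  exists_frey_field_of_isOpen P ρ (isOpen_ker_of_factors ρ hρ)

/-- **S42 without its field clause**: it suffices to produce, for every normalized eigenform
and every maximal ideal over `p`, a two-dimensional representation factoring through a finite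
level with the trace and determinant clauses. -/
theorem attachmentAt_of_rep (P : FreyPackage) (M : ℕ)
    (h : ∀ (g : CuspForm (CongruenceSubgroup.Gamma0 M) 2), g.IsNormalizedEigenform →
      ∀ (𝔪 : Ideal (integralClosure ℤ ℂ)), 𝔪.IsMaximal → (P.p : integralClosure ℤ ℂ) ∈ 𝔪 →
        ∃ (K : Type) (_ : Field K) (_ : Algebra (ZMod P.p) K)
          (V : Type) (_ : AddCommGroup V) (_ : Module K V)
          (ρ : Representation K (AlgebraicClosure ℚ ≃ₐ[ℚ] AlgebraicClosure ℚ) V)
          (ψ : integralClosure ℤ ℂ →+* K),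
          GaloisFactorsThroughFiniteLevel ρ ∧
          𝔪 ≤ RingHom.ker ψ ∧
          Module.finrank K V = 2 ∧
          (∀ ℓ : ℕ, ℓ.Prime → ¬ ℓ ∣ M → ℓ ≠ P.p →
            ∀ A : ValuationSubring (AlgebraicClosure ℚ), A.LiesOverPrime ℓ →
              ∀ τ : AlgebraicClosure ℚ ≃ₐ[ℚ] AlgebraicClosure ℚ, A.IsFrobeniusAt τ ℓ →
                ∃ a : integralClosure ℤ ℂ, (a : ℂ) = ModularFormClass.qCoeff g ℓ ∧
                  LinearMap.trace K V (ρ τ) = ψ a) ∧
          (∀ ℓ : ℕ, ℓ.Prime → ¬ ℓ ∣ M → ℓ ≠ P.p →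
            ∀ A : ValuationSubring (AlgebraicClosure ℚ), A.LiesOverPrime ℓ →
              ∀ τ : AlgebraicClosure ℚ ≃ₐ[ℚ] AlgebraicClosure ℚ, A.IsFrobeniusAt τ ℓ →
                LinearMap.det (ρ τ) = (ℓ : K))) :
    P.EigenformResidualAttachmentAt M := by
  intro g hg 𝔪 h𝔪 hp
  obtain ⟨K, iK, iA, V, iV, iM, ρ, ψ, hfac, h1, h2, h3, h4⟩ := h g hg 𝔪 h𝔪 hp
  obtain ⟨F, i1, i2, i3, i4, i5, hF⟩ := exists_frey_field P ρ hfac
  exact ⟨K, iK, iA, V, iV, iM, ρ, ψ, F, i1, i2, i3, i4, i5, h1, h2, hF, h3, h4⟩

end Fermat.Agent.S29.FreyField
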