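/-
S29 (wave 5), package H/GAL, part G3 (helper12): Eichler–Shimura and trivial inertia on torsion.

For a prime `ℓ ∤ N`, a valuation subring `A` of `ℚ̄` over `ℓ` and a point `x` of `J₀(N)(ℚ̄)`
killed by an integer `m` prime to `ℓ`: the inertia group of `A` fixes `x` (`inertia_smul_eq`),
and every Frobenius lift `s` at `A` satisfies `s² x - T_ℓ (s x) + ℓ x = 0`
(`frobenius_quadratic`, `frobenius_quadratic_along`).  No commutativity of the Hecke operators
is used.  (Part G1, the Galois action commutes with the Hecke operators, is in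
`S29/GalHeckeComm.lean`, same namespace.)
-/
import Mathlib
import Fermat.Prelude.Def_ModularCurve_HeckeModule
import Fermat.Agent.S37.HeckeInputs
import Fermat.Agent.S37.Final
import Fermat.Agent.S37.KA
import Fermat.Agent.S37.KBAll
import Fermat.Agent.S37.WTopC
import Fermat.Agent.S18.KummerFinal

set_option autoImplicit false

namespace Fermat.Agent.S29.GalHecke

open ModularCurve AlgebraicCurve

noncomputable section

local notation "Qb" => AlgebraicClosure ℚ

/-! ### G3: inertia and Frobenius on torsion prime to `ℓ` -/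

section G3

variable (N : ℕ) [NeZero N] {ℓ : ℕ}

/-- the torsion-freeness clause for the centre subgroup, for multiples prime to `ℓ` -/
theorem principal_of_smul_centre (hℓ : ℓ.Prime) (hℓN : ¬ ℓ ∣ N) (A : ValuationSubring Qb)
    (hA : A.LiesOverPrime ℓ) {m : ℕ} (hm : ¬ ℓ ∣ m)
    (D : Divisor Qb (modularFunctionFieldBar N))
    (hD : D ∈ Fermat.Agent.S37.Centre.centreSubgroup A N)
    (hpr : m • D ∈ Divisor.principal (K := Qb) (F := modularFunctionFieldBar N)) :
    D ∈ Divisor.principal (K := Qb) (F := modularFunctionFieldBar N) :=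
  Fermat.Agent.S37.TorsionFree.principal_of_smul
    (Fermat.Agent.S37.WTopC.constReduction N hℓ hℓN A hA)
    (Fermat.Agent.S18.KummerFinal.kummerCore N hℓ hℓN A hA) m hm D hD hpr

/-- a class of the centre subgroup killed by an integer prime to `ℓ` vanishes -/
theorem eq_zero_of_mem_classesOf_centre (hℓ : ℓ.Prime) (hℓN : ¬ ℓ ∣ N) (A : ValuationSubring Qb)
    (hA : A.LiesOverPrime ℓ) {m : ℕ} (hm : ¬ ℓ ∣ m) {x : JZero N}
    (hx : x ∈ Fermat.Agent.S37.DivisorForm.classesOf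
      (Fermat.Agent.S37.Centre.centreSubgroup A N))
    (hmx : m • x = 0) : x = 0 := by
  refine Fermat.Agent.S37.DivisorForm.eq_zero_of_mem_classesOf
    (Fermat.Agent.S37.Centre.centreSubgroup A N) m (fun D hD _ n hpr => ?_) hx
    ⟨1, by rwa [pow_one]⟩
  exact principal_of_smul_centre N hℓ hℓN A hA
    (fun h => hm (hℓ.dvd_of_dvd_pow h)) D hD hpr

omit [NeZero N] in
/-- the Galois action preserves the points killed by `m` -/
theorem galois_nsmul_eq_zero (σ : Qb ≃ₐ[ℚ] Qb) {m : ℕ} {x : JZero N} (hx : m • x = 0) :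
    m • (σ • x) = 0 := by
  have h := map_nsmul (DistribSMul.toAddMonoidHom (JZero N) σ) m x
  rw [DistribSMul.toAddMonoidHom_apply, DistribSMul.toAddMonoidHom_apply] at h
  rw [← h, hx, smul_zero]

/-- **G3a.** The inertia group at `A | ℓ`, `ℓ ∤ N`, acts trivially on the torsion of `J₀(N)` of
order prime to `ℓ`. -/
theorem inertia_smul_eq (hℓ : ℓ.Prime) (hℓN : ¬ ℓ ∣ N) (A : ValuationSubring Qb)
    (hA : A.LiesOverPrime ℓ) {σ : Qb ≃ₐ[ℚ] Qb} (hσ : σ ∈ A.inertiaSubgroupIn ℚ)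
    {m : ℕ} (hm : ¬ ℓ ∣ m) {x : JZero N} (hx : m • x = 0) : σ • x = x := by
  have h1 : σ • x - x ∈ Fermat.Agent.S37.DivisorForm.classesOf
      (Fermat.Agent.S37.Centre.centreSubgroup A N) := by
    rw [galois_smul_pic0_def]
    exact Fermat.Agent.S37.DivisorForm.smul_sub_mem_classesOf _ _
      (Fermat.Agent.S37.KA.inertiaInput N hℓ hℓN A hA σ hσ) x
  have h2 : m • (σ • x - x) = 0 := by
    rw [nsmul_sub, galois_nsmul_eq_zero N σ hx, hx, sub_zero]
  exact sub_eq_zero.mp (eq_zero_of_mem_classesOf_centre N hℓ hℓN A hA hm h1 h2)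

/-- **G3b** (Eichler–Shimura on torsion), in terms of the total Hecke operator
`heckeOperatorAlong`. -/
theorem frobenius_quadratic_along [NeZero ℓ] (hℓ : ℓ.Prime) (hℓN : ¬ ℓ ∣ N)
    (A : ValuationSubring Qb) (hA : A.LiesOverPrime ℓ) {s : Qb ≃ₐ[ℚ] Qb}
    (hs : A.IsFrobeniusAt s ℓ) {m : ℕ} (hm : ¬ ℓ ∣ m) {x : JZero N} (hx : m • x = 0) :
    s • s • x - heckeOperatorAlong Qb N ℓ (s • x) + ℓ • x = 0 := by
  have hIn := Fermat.Agent.S37.HeckeInputs.heckeInputsAlong N ℓ
  have hKb : Fermat.Agent.S37.Final.HeckeInput A N ℓ s :=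
    Fermat.Agent.S37.KB.heckeInput_all N ℓ hℓ hℓN A hA s hs
  have h1 : s • s • x - heckeOperatorAlong Qb N ℓ (s • x) + ℓ • x ∈
      Fermat.Agent.S37.DivisorForm.classesOf (Fermat.Agent.S37.Centre.centreSubgroup A N) := by
    have := hIn.snd.snd.fst
    exact Fermat.Agent.S37.DivisorForm.quad_mem_classesOf
      (Fermat.Agent.S37.Centre.centreSubgroup A N)
      (arithmeticGalois (modularFunctionFieldFull N) s) ℓ
      (heckeOperatorAlong Qb N ℓ) (heckeDivBar hIn.fst hIn.snd.fst)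
      (fun D => Fermat.Agent.S37.DivisorForm.heckeOperatorAlong_mk N ℓ hIn D)
      (hKb hIn.fst hIn.snd.fst hIn.snd.snd.fst) x
  have h2 : m • (s • s • x - heckeOperatorAlong Qb N ℓ (s • x) + ℓ • x) = 0 := by
    have e1 : m • (s • x) = 0 := galois_nsmul_eq_zero N s hx
    have e2 : m • (s • s • x) = 0 := galois_nsmul_eq_zero N s e1
    rw [nsmul_add, nsmul_sub, ← map_nsmul (heckeOperatorAlong Qb N ℓ), e1, e2, map_zero,
      sub_zero, zero_add, nsmul_left_comm, hx, nsmul_zero]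
  exact eq_zero_of_mem_classesOf_centre N hℓ hℓN A hA hm h1 h2

/-- **G3b** (Eichler–Shimura on torsion), in terms of `heckeOperatorBar`. -/
theorem frobenius_quadratic (hℓ : ℓ.Prime) (hℓN : ¬ ℓ ∣ N)
    (A : ValuationSubring Qb) (hA : A.LiesOverPrime ℓ) {s : Qb ≃ₐ[ℚ] Qb}
    (hs : A.IsFrobeniusAt s ℓ) {m : ℕ} (hm : ¬ ℓ ∣ m) {x : JZero N} (hx : m • x = 0) :
    s • s • x - heckeOperatorBar N (⟨ℓ, hℓ⟩ : Nat.Primes) (s • x) + ℓ • x = 0 := by
  have : NeZero ℓ := ⟨hℓ.ne_zero⟩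
  have e : heckeOperatorBar N (⟨ℓ, hℓ⟩ : Nat.Primes) (s • x)
      = heckeOperatorAlong Qb N ℓ (s • x) := heckeOperatorBar_apply N ⟨ℓ, hℓ⟩ _
  rw [e]
  exact frobenius_quadratic_along N hℓ hℓN A hA hs hm hx

end G3

end

end Fermat.Agent.S29.GalHecke
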