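import Mathlib

/-!
# S29 package R: holomorphic `p`-th roots on the upper half plane (Mathlib only)

* `exists_root_ball_of_ne_zero`: nonvanishing holomorphic functions on a disc have `p`-th roots
  (primitive of the logarithmic derivative, `DifferentiableOn.isExactOn_ball`).
* `exists_root_ball`: same with zeros of order divisible by `p`, on a disc whose closure lies in
  the domain (`MeromorphicOn.extract_zeros_poles`).
* `eqOn_of_pow_eq`: uniqueness of a normalised `p`-th root on a connected open set.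
* `exists_root_upper` / `exists_root_upperHalfPlane`: `p`-th roots on `ℍ` (exhaustion by discs
  `B(iR, R - 1/R)` and gluing of normalised roots).
* `exists_root_div`: the quotient form (`A₁ / A₂` with `ord A₁ ≡ ord A₂ mod p`).
-/

set_option autoImplicit false

open Complex Metric Set Filter Topology
open scoped Manifold

namespace Fermat.Agent.S29.HRoot

/-- A nonvanishing holomorphic function on a disc has a holomorphic `p`-th root. -/
theorem exists_root_ball_of_ne_zero {c : ℂ} {r : ℝ} {g : ℂ → ℂ}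
    (hg : DifferentiableOn ℂ g (ball c r)) (hg0 : ∀ z ∈ ball c r, g z ≠ 0) (p : ℕ) (hp : p ≠ 0) :
    ∃ w : ℂ → ℂ, DifferentiableOn ℂ w (ball c r) ∧ ∀ z ∈ ball c r, w z ^ p = g z := by
  have hφ : DifferentiableOn ℂ (logDeriv g) (ball c r) := by
    unfold logDeriv
    exact (hg.deriv isOpen_ball).div hg hg0
  obtain ⟨L, hL⟩ := hφ.isExactOn_ball
  have hLd : DifferentiableOn ℂ L (ball c r) :=
    fun z hz => (hL z hz).differentiableAt.differentiableWithinAt
  have hE : DifferentiableOn ℂ (fun z => Complex.exp (L z)) (ball c r) := hLd.cexp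
  have hE0 : ∀ z ∈ ball c r, (fun z => Complex.exp (L z)) z ≠ 0 := fun z _ => Complex.exp_ne_zero _
  have hlog : EqOn (logDeriv g) (logDeriv (fun z => Complex.exp (L z))) (ball c r) := by
    intro z hz
    have h1 : HasDerivAt (fun z => Complex.exp (L z)) (Complex.exp (L z) * logDeriv g z) z :=
      (hL z hz).cexp
    simp only [logDeriv_apply (fun z => Complex.exp (L z)), h1.deriv]
    rw [mul_div_cancel_left₀ _ (Complex.exp_ne_zero _)]
  obtain ⟨a, ha0, ha⟩ := (logDeriv_eqOn_iff hg hE isOpen_ball (convex_ball c r).isPreconnected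
    hE0 hg0).mp hlog
  refine ⟨fun z => Complex.exp ((L z + Complex.log a) / p), ?_, ?_⟩
  · exact ((hLd.add_const _).div_const _).cexp
  · intro z hz
    have hp' : (p : ℂ) ≠ 0 := Nat.cast_ne_zero.mpr hp
    simp only
    rw [← Complex.exp_nat_mul, mul_div_cancel₀ _ hp', Complex.exp_add, Complex.exp_log ha0, ha hz]
    simp [mul_comm]

/-- A holomorphic function on a neighbourhood of a closed disc, nowhere locally zero, all of
whose vanishing orders are divisible by `p`, has a holomorphic `p`-th root on the open disc. -/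
theorem exists_root_ball {c : ℂ} {r : ℝ} {A : ℂ → ℂ}
    (hA : AnalyticOnNhd ℂ A (closedBall c r))
    (p : ℕ) (hp : p ≠ 0)
    (hord : ∀ z ∈ closedBall c r, ∃ m : ℕ, analyticOrderAt A z = ((p * m : ℕ) : ℕ∞)) :
    ∃ v : ℂ → ℂ, DifferentiableOn ℂ v (ball c r) ∧ ∀ z ∈ ball c r, v z ^ p = A z := by
  classical
  set K : Set ℂ := closedBall c r with hKdef
  have hK : IsCompact K := isCompact_closedBall c r
  have hM : MeromorphicOn A K := fun z hz => (hA z hz).meromorphicAt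
  have hordK : ∀ u ∈ K, ∃ m : ℕ, meromorphicOrderAt A u = ((p * m : ℕ) : ℤ) := by
    intro u hu
    obtain ⟨m, hm⟩ := hord u hu
    refine ⟨m, ?_⟩
    rw [(hA u hu).meromorphicOrderAt_eq, hm]
    rfl
  have h2 : ∀ u : K, meromorphicOrderAt A u ≠ ⊤ := by
    rintro ⟨u, hu⟩
    obtain ⟨m, hm⟩ := hordK u hu
    rw [hm]
    exact WithTop.coe_ne_top
  have h3 : (MeromorphicOn.divisor A K).support.Finite :=
    (MeromorphicOn.divisor A K).finiteSupport hK
  obtain ⟨g, hgA, hg0, hfg⟩ := hM.extract_zeros_poles h2 h3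
  have hD : ∀ u : ℂ, ∃ m : ℕ, MeromorphicOn.divisor A K u = (p : ℤ) * m := by
    intro u
    by_cases hu : u ∈ K
    · obtain ⟨m, hm⟩ := hordK u hu
      refine ⟨m, ?_⟩
      rw [MeromorphicOn.divisor_apply hM hu, hm]
      simp
    · exact ⟨0, by simp [hu]⟩
  choose m hm using hD
  set E : ℂ → ℤ := fun u => (m u : ℤ) with hE
  have hEsupp : E.support ⊆ (MeromorphicOn.divisor A K).support := by
    intro u hu
    simp only [Function.mem_support, ne_eq, hE] at hu ⊢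
    rw [hm u]
    have : (p : ℤ) ≠ 0 := by exact_mod_cast hp
    exact mul_ne_zero this hu
  have hEfin : E.support.Finite := h3.subset hEsupp
  set P : ℂ → ℂ := ∏ᶠ u, (· - u) ^ E u with hP
  have hPan : ∀ x, AnalyticAt ℂ P x := fun x =>
    Function.FactorizedRational.analyticAt (d := E) (by simp [hE])
  have hPp : P ^ p = ∏ᶠ u, (· - u) ^ (MeromorphicOn.divisor A K u) := by
    rw [hP, finprod_pow]
    · congr 1
      funext u
      funext x
      simp only [Pi.pow_apply]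
      rw [hm u, ← zpow_natCast, ← zpow_mul, hE, mul_comm]
    · show (Function.mulSupport fun u => (fun x : ℂ => x - u) ^ E u).Finite
      rw [Function.FactorizedRational.mulSupport]
      exact hEfin
  have hgd : DifferentiableOn ℂ g (ball c r) := fun z hz =>
    (hgA z (ball_subset_closedBall hz)).differentiableAt.differentiableWithinAt
  obtain ⟨w, hwd, hw⟩ := exists_root_ball_of_ne_zero hgd
    (fun z hz => hg0 ⟨z, ball_subset_closedBall hz⟩) p hp
  refine ⟨fun z => P z * w z, ?_, ?_⟩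
  · have hPd : DifferentiableOn ℂ P (ball c r) :=
      fun z _ => (hPan z).differentiableAt.differentiableWithinAt
    exact hPd.mul hwd
  · intro z hz
    have hzK : z ∈ K := ball_subset_closedBall hz
    -- the identity `A = P^p * g` at `z`
    have hcA : ContinuousAt A z := (hA z hzK).continuousAt
    have hcR : ContinuousAt ((P ^ p) * g) z :=
      (((hPan z).continuousAt).pow p).mul (hgA z hzK).continuousAt
    have hev : A =ᶠ[𝓝[≠] z] (P ^ p) * g := by
      have h1 := (mem_codiscreteWithin_iff_forall_mem_nhdsNE.mp hfg) z hzK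
      have h2 : K ∈ 𝓝[≠] z :=
        mem_nhdsWithin_of_mem_nhds (Filter.mem_of_superset (isOpen_ball.mem_nhds hz)
          ball_subset_closedBall)
      filter_upwards [h1, h2] with y hy hyK
      rcases hy with hy | hy
      · rw [hPp]
        simpa using hy
      · exact absurd hyK hy
    have hev' : A =ᶠ[𝓝 z] (P ^ p) * g :=
      (hcA.eventuallyEq_nhds_iff_eventuallyEq_nhdsNE hcR).mp hev
    have hz' : A z = (P z) ^ p * g z := by simpa using hev'.eq_of_nhds
    rw [hz', mul_pow, hw z hz]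

/-- normalised version of `exists_root_ball` -/
theorem exists_root_ball_normalized {c : ℂ} {r : ℝ} {A : ℂ → ℂ}
    (hA : AnalyticOnNhd ℂ A (closedBall c r))
    (p : ℕ) (hp : p ≠ 0)
    (hord : ∀ z ∈ closedBall c r, ∃ m : ℕ, analyticOrderAt A z = ((p * m : ℕ) : ℕ∞))
    {z₀ : ℂ} (hz₀ : z₀ ∈ ball c r) {a₀ : ℂ} (ha₀ : a₀ ^ p = A z₀) (hAz₀ : A z₀ ≠ 0) :
    ∃ v : ℂ → ℂ, DifferentiableOn ℂ v (ball c r) ∧ (∀ z ∈ ball c r, v z ^ p = A z) ∧
      v z₀ = a₀ := by
  obtain ⟨v, hvd, hv⟩ := exists_root_ball hA p hp hord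
  have hv0 : v z₀ ≠ 0 := by
    intro h
    have := hv z₀ hz₀
    rw [h, zero_pow hp] at this
    exact hAz₀ this.symm
  refine ⟨fun z => (a₀ / v z₀) * v z, hvd.const_mul _, fun z hz => ?_, ?_⟩
  · simp only
    rw [mul_pow, div_pow, ha₀, hv z₀ hz₀, div_self hAz₀, one_mul, hv z hz]
  · simp only
    rw [div_mul_cancel₀ _ hv0]

/-- uniqueness of normalised `p`-th roots on a connected open set -/
theorem eqOn_of_pow_eq {D : Set ℂ} (hD : IsOpen D) (hDc : IsPreconnected D) {f₁ f₂ : ℂ → ℂ}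
    (h₁ : DifferentiableOn ℂ f₁ D) (h₂ : DifferentiableOn ℂ f₂ D) {p : ℕ} (hp : p ≠ 0)
    (hpow : ∀ z ∈ D, f₁ z ^ p = f₂ z ^ p) {z₀ : ℂ} (hz₀ : z₀ ∈ D) (h0 : f₁ z₀ = f₂ z₀)
    (hne : f₁ z₀ ≠ 0) : EqOn f₁ f₂ D := by
  set S : ℂ → ℂ := fun z => ∑ i ∈ Finset.range p, f₁ z ^ i * f₂ z ^ (p - 1 - i) with hS
  have hSmul : ∀ z ∈ D, S z * (f₁ z - f₂ z) = 0 := by
    intro z hz
    rw [hS]
    simp only
    rw [geom_sum₂_mul, hpow z hz, sub_self]
  have hS0 : S z₀ ≠ 0 := by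
    have : S z₀ = p * f₁ z₀ ^ (p - 1) := by
      rw [hS]
      simp only
      rw [← h0]
      have : ∀ i ∈ Finset.range p, f₁ z₀ ^ i * f₁ z₀ ^ (p - 1 - i) = f₁ z₀ ^ (p - 1) := by
        intro i hi
        rw [← pow_add]
        congr 1
        have := Finset.mem_range.mp hi
        omega
      rw [Finset.sum_congr rfl this, Finset.sum_const, Finset.card_range, nsmul_eq_mul]
    rw [this]
    exact mul_ne_zero (Nat.cast_ne_zero.mpr hp) (pow_ne_zero _ hne)
  have hc₁ : ContinuousAt f₁ z₀ := (h₁.differentiableAt (hD.mem_nhds hz₀)).continuousAt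
  have hc₂ : ContinuousAt f₂ z₀ := (h₂.differentiableAt (hD.mem_nhds hz₀)).continuousAt
  have hSc : ContinuousAt S z₀ := by
    rw [hS]
    exact tendsto_finsetSum _ fun i _ => (hc₁.pow i).mul (hc₂.pow _)
  have hev : f₁ =ᶠ[𝓝 z₀] f₂ := by
    filter_upwards [hSc.eventually_ne hS0, hD.mem_nhds hz₀] with z hz hzD
    have := hSmul z hzD
    rcases mul_eq_zero.mp this with h | h
    · exact absurd h hz
    · exact sub_eq_zero.mp h
  exact (h₁.analyticOnNhd hD).eqOn_of_preconnected_of_eventuallyEq (h₂.analyticOnNhd hD) hDc hz₀ hev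

theorem isOpen_upper : IsOpen {z : ℂ | 0 < z.im} :=
  isOpen_lt continuous_const Complex.continuous_im

theorem closedBall_subset_upper {R : ℝ} (hR : 0 < R) :
    closedBall ((R : ℂ) * I) (R - 1 / R) ⊆ {z : ℂ | 0 < z.im} := by
  intro z hz
  rw [mem_closedBall, dist_eq_norm] at hz
  have h1 : |(z - (R : ℂ) * I).im| ≤ ‖z - (R : ℂ) * I‖ := Complex.abs_im_le_norm _
  have h2 : (z - (R : ℂ) * I).im = z.im - R := by simp
  rw [h2] at h1
  have h3 := (abs_le.mp (h1.trans hz)).1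
  have h4 : 0 < 1 / R := by positivity
  show 0 < z.im
  linarith

theorem mem_ball_upper {z : ℂ} (hz : 0 < z.im) {R : ℝ} (hR1 : 1 ≤ R)
    (hR : (‖z‖ ^ 2 + 2) / (2 * z.im) < R) : z ∈ ball ((R : ℂ) * I) (R - 1 / R) := by
  rw [mem_ball, dist_eq_norm]
  have hR0 : 0 < R := by linarith
  have hr : 0 ≤ R - 1 / R := by
    have : 1 / R ≤ 1 := by
      rw [div_le_one hR0]; exact hR1
    linarith
  have hsq : ‖z - (R : ℂ) * I‖ ^ 2 = z.re ^ 2 + (z.im - R) ^ 2 := by
    rw [Complex.sq_norm, Complex.normSq_apply]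
    simp
    ring
  have hz2 : ‖z‖ ^ 2 = z.re ^ 2 + z.im ^ 2 := by
    rw [Complex.sq_norm, Complex.normSq_apply]; ring
  have hlt : ‖z‖ ^ 2 + 2 < R * (2 * z.im) := by
    have := (div_lt_iff₀ (by positivity : (0:ℝ) < 2 * z.im)).mp hR
    linarith
  have hsq' : (R - 1 / R) ^ 2 = R ^ 2 - 2 + (1 / R) ^ 2 := by
    field_simp
    ring
  have h1R : 0 ≤ (1 / R) ^ 2 := by positivity
  have : ‖z - (R : ℂ) * I‖ ^ 2 < (R - 1 / R) ^ 2 := by
    rw [hsq, hsq']
    nlinarith
  exact lt_of_pow_lt_pow_left₀ 2 hr this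

theorem eventually_mem_ball_upper {z : ℂ} (hz : 0 < z.im) :
    ∀ᶠ n : ℕ in atTop, z ∈ ball (((n + 2 : ℕ) : ℝ) * I : ℂ) (((n + 2 : ℕ) : ℝ) - 1 / ((n + 2 : ℕ) : ℝ)) := by
  obtain ⟨N, hN⟩ := exists_nat_gt ((‖z‖ ^ 2 + 2) / (2 * z.im))
  filter_upwards [eventually_ge_atTop N] with n hn
  have h1 : (1 : ℝ) ≤ ((n + 2 : ℕ) : ℝ) := by
    have : (1 : ℕ) ≤ n + 2 := by omega
    exact_mod_cast this
  have h2 : (N : ℝ) ≤ ((n + 2 : ℕ) : ℝ) := by
    have : N ≤ n + 2 := by omega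
    exact_mod_cast this
  exact mem_ball_upper hz h1 (lt_of_lt_of_le hN h2)

/-- **`p`-th roots on the upper half plane.** A holomorphic function on the upper half plane
all of whose vanishing orders are (finite and) divisible by `p` is the `p`-th power of a
holomorphic function. -/
theorem exists_root_upper {A : ℂ → ℂ} (hA : DifferentiableOn ℂ A {z : ℂ | 0 < z.im})
    (p : ℕ) (hp : p ≠ 0)
    (hord : ∀ z : ℂ, 0 < z.im → ∃ m : ℕ, analyticOrderAt A z = ((p * m : ℕ) : ℕ∞)) :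
    ∃ v : ℂ → ℂ, DifferentiableOn ℂ v {z : ℂ | 0 < z.im} ∧ ∀ z : ℂ, 0 < z.im → v z ^ p = A z := by
  classical
  set U : Set ℂ := {z : ℂ | 0 < z.im} with hU
  have hUo : IsOpen U := isOpen_upper
  have hAan : AnalyticOnNhd ℂ A U := hA.analyticOnNhd hUo
  -- base point
  obtain ⟨z₀, hz₀U, hAz₀⟩ : ∃ z₀ ∈ U, A z₀ ≠ 0 := by
    have hI : (I : ℂ) ∈ U := by simp [hU]
    obtain ⟨m, hm⟩ := hord I (by simp)
    have hnt : analyticOrderAt A I ≠ ⊤ := by rw [hm]; exact ENat.natCast_ne_top _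
    rw [Ne, analyticOrderAt_eq_top] at hnt
    have hfr : ∃ᶠ w in 𝓝 I, A w ≠ 0 := Filter.not_eventually.mp hnt
    obtain ⟨w, hw, hwU⟩ := (hfr.and_eventually (hUo.mem_nhds hI)).exists
    exact ⟨w, hwU, hw⟩
  obtain ⟨a₀, ha₀⟩ : ∃ a₀ : ℂ, a₀ ^ p = A z₀ := by
    refine ⟨Complex.exp (Complex.log (A z₀) / p), ?_⟩
    rw [← Complex.exp_nat_mul, mul_div_cancel₀ _ (Nat.cast_ne_zero.mpr hp), Complex.exp_log hAz₀]
  have ha₀0 : a₀ ≠ 0 := by
    intro h
    rw [h, zero_pow hp] at ha₀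
    exact hAz₀ ha₀.symm
  set cn : ℕ → ℂ := fun n => (((n + 2 : ℕ) : ℝ) * I : ℂ) with hcn
  set rn : ℕ → ℝ := fun n => ((n + 2 : ℕ) : ℝ) - 1 / ((n + 2 : ℕ) : ℝ) with hrn
  have hsub : ∀ n, closedBall (cn n) (rn n) ⊆ U := fun n =>
    closedBall_subset_upper (by positivity)
  have key : ∀ n, z₀ ∈ ball (cn n) (rn n) → ∃ v : ℂ → ℂ, DifferentiableOn ℂ v (ball (cn n) (rn n)) ∧
      (∀ z ∈ ball (cn n) (rn n), v z ^ p = A z) ∧ v z₀ = a₀ := fun n hn =>
    exists_root_ball_normalized (hAan.mono (hsub n)) p hp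
      (fun z hz => hord z (hsub n hz)) hn ha₀ hAz₀
  choose V hVd hVp hV0 using key
  -- compatibility
  have compat : ∀ n m (hn : z₀ ∈ ball (cn n) (rn n)) (hm : z₀ ∈ ball (cn m) (rn m)),
      ∀ z ∈ ball (cn n) (rn n) ∩ ball (cn m) (rn m), V n hn z = V m hm z := by
    intro n m hn hm
    have hD : IsOpen (ball (cn n) (rn n) ∩ ball (cn m) (rn m)) := isOpen_ball.inter isOpen_ball
    have hDc : IsPreconnected (ball (cn n) (rn n) ∩ ball (cn m) (rn m)) :=
      ((convex_ball _ _).inter (convex_ball _ _)).isPreconnected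
    refine eqOn_of_pow_eq hD hDc ((hVd n hn).mono inter_subset_left)
      ((hVd m hm).mono inter_subset_right) hp (fun z hz => ?_) ⟨hn, hm⟩ ?_ ?_
    · rw [hVp n hn z hz.1, hVp m hm z hz.2]
    · rw [hV0 n hn, hV0 m hm]
    · rw [hV0 n hn]; exact ha₀0
  have hex : ∀ z : ℂ, 0 < z.im → ∃ n, z₀ ∈ ball (cn n) (rn n) ∧ z ∈ ball (cn n) (rn n) := by
    intro z hz
    exact ((eventually_mem_ball_upper hz₀U).and (eventually_mem_ball_upper hz)).exists
  set v : ℂ → ℂ := fun z => if h : 0 < z.im then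
    V (Classical.choose (hex z h)) (Classical.choose_spec (hex z h)).1 z else 0 with hv
  have hveq : ∀ n (hn : z₀ ∈ ball (cn n) (rn n)), ∀ z ∈ ball (cn n) (rn n), v z = V n hn z := by
    intro n hn z hz
    have hzU : 0 < z.im := hsub n (ball_subset_closedBall hz)
    rw [hv]
    simp only [dif_pos hzU]
    exact compat _ n _ hn z ⟨(Classical.choose_spec (hex z hzU)).2, hz⟩
  refine ⟨v, ?_, ?_⟩
  · intro z hz
    obtain ⟨n, hn, hzn⟩ := hex z hz
    have h1 : DifferentiableAt ℂ (V n hn) z := (hVd n hn).differentiableAt (isOpen_ball.mem_nhds hzn)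
    have h2 : v =ᶠ[𝓝 z] V n hn := by
      filter_upwards [isOpen_ball.mem_nhds hzn] with y hy using hveq n hn y hy
    exact (h1.congr_of_eventuallyEq h2).differentiableWithinAt
  · intro z hz
    obtain ⟨n, hn, hzn⟩ := hex z hz
    rw [hveq n hn z hzn, hVp n hn z hzn]


open UpperHalfPlane in
/-- **`p`-th roots on `ℍ`.** A holomorphic function `A : ℍ → ℂ` all of whose vanishing orders
are finite and divisible by `p` is the `p`-th power of a holomorphic function on `ℍ`. -/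
theorem exists_root_upperHalfPlane {A : ℍ → ℂ} (hA : MDifferentiable 𝓘(ℂ) 𝓘(ℂ) A)
    (p : ℕ) (hp : p ≠ 0)
    (hord : ∀ z : ℍ, ∃ m : ℕ, analyticOrderAt (A ∘ ofComplex) (z : ℂ) = ((p * m : ℕ) : ℕ∞)) :
    ∃ v : ℍ → ℂ, MDifferentiable 𝓘(ℂ) 𝓘(ℂ) v ∧ ∀ z : ℍ, v z ^ p = A z := by
  obtain ⟨V, hVd, hV⟩ := exists_root_upper (UpperHalfPlane.mdifferentiable_iff.mp hA) p hp
    (fun z hz => hord ⟨z, hz⟩)
  refine ⟨fun z => V (z : ℂ), ?_, fun z => ?_⟩
  · rw [UpperHalfPlane.mdifferentiable_iff]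
    refine hVd.congr fun z hz => ?_
    simp only [Function.comp_apply]
    rw [ofComplex_apply_of_im_pos hz]
  · have := hV (z : ℂ) z.im_pos
    rw [this, Function.comp_apply, ofComplex_apply]

open UpperHalfPlane in
/-- **`p`-th roots of quotients on `ℍ`.** If `A₁, A₂` are holomorphic on `ℍ` with finite
vanishing orders and `ord_z A₁ ≡ ord_z A₂ mod p` at every point, then `A₁ * A₂ ^ (p - 1)` is a
`p`-th power of a holomorphic function `v`; so `(v / A₂) ^ p = A₁ / A₂` wherever `A₂ ≠ 0`. -/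
theorem exists_root_div {A₁ A₂ : ℍ → ℂ} (hA₁ : MDifferentiable 𝓘(ℂ) 𝓘(ℂ) A₁)
    (hA₂ : MDifferentiable 𝓘(ℂ) 𝓘(ℂ) A₂) (p : ℕ) (hp : p ≠ 0)
    (hord : ∀ z : ℍ, ∃ a b : ℕ, analyticOrderAt (A₁ ∘ ofComplex) (z : ℂ) = (a : ℕ∞) ∧
      analyticOrderAt (A₂ ∘ ofComplex) (z : ℂ) = (b : ℕ∞) ∧ (p : ℤ) ∣ (a : ℤ) - b) :
    ∃ v : ℍ → ℂ, MDifferentiable 𝓘(ℂ) 𝓘(ℂ) v ∧ (∀ z : ℍ, v z ^ p = A₁ z * A₂ z ^ (p - 1)) ∧
      ∀ z : ℍ, A₂ z ≠ 0 → (v z / A₂ z) ^ p = A₁ z / A₂ z := by
  have hB : MDifferentiable 𝓘(ℂ) 𝓘(ℂ) (A₁ * A₂ ^ (p - 1)) := hA₁.mul (hA₂.pow _)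
  have han : ∀ {f : ℍ → ℂ}, MDifferentiable 𝓘(ℂ) 𝓘(ℂ) f → ∀ z : ℍ,
      AnalyticAt ℂ (f ∘ ofComplex) (z : ℂ) := fun {f} hf z =>
    (UpperHalfPlane.mdifferentiable_iff.mp hf).analyticAt
      (isOpen_upperHalfPlaneSet.mem_nhds z.im_pos)
  obtain ⟨v, hvd, hv⟩ := exists_root_upperHalfPlane hB p hp (fun z => by
    obtain ⟨a, b, ha, hb, k, hk⟩ := hord z
    have hfun : (A₁ * A₂ ^ (p - 1)) ∘ ofComplex = (A₁ ∘ ofComplex) * (A₂ ∘ ofComplex) ^ (p - 1) := by
      funext w; simp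
    rw [hfun, analyticOrderAt_mul (han hA₁ z) ((han hA₂ z).pow _),
      analyticOrderAt_pow (han hA₂ z), ha, hb]
    -- a + (p - 1) * b = p * (k + b)
    have hp1 : 1 ≤ p := Nat.one_le_iff_ne_zero.mpr hp
    have hkb : (0 : ℤ) ≤ k + b := by
      by_contra hneg
      have hneg' : k + (b : ℤ) ≤ -1 := by omega
      have h1 : (a : ℤ) + ((p : ℤ) - 1) * b = p * (k + b) := by
        have : (a : ℤ) = p * k + b := by linarith
        rw [this]; ring
      have h2 : (0 : ℤ) ≤ (a : ℤ) + ((p : ℤ) - 1) * b := by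
        have : (0 : ℤ) ≤ (p : ℤ) - 1 := by
          have : (1 : ℤ) ≤ p := by exact_mod_cast hp1
          linarith
        positivity
      have h3 : (p : ℤ) * (k + b) ≤ p * (-1) :=
        mul_le_mul_of_nonneg_left hneg' (by positivity)
      have : (1 : ℤ) ≤ p := by exact_mod_cast hp1
      linarith
    refine ⟨(k + b).toNat, ?_⟩
    have hnat : a + (p - 1) * b = p * (k + b).toNat := by
      have h1 : ((a + (p - 1) * b : ℕ) : ℤ) = ((p * (k + b).toNat : ℕ) : ℤ) := by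
        push_cast [Int.toNat_of_nonneg hkb, Nat.cast_sub hp1]
        have : (a : ℤ) = p * k + b := by linarith
        rw [this]; ring
      exact_mod_cast h1
    rw [← hnat]
    simp [nsmul_eq_mul])
  refine ⟨v, hvd, fun z => by simpa using hv z, fun z hz => ?_⟩
  have h1 := hv z
  simp only [Pi.mul_apply, Pi.pow_apply] at h1
  have hp1 : 1 ≤ p := Nat.one_le_iff_ne_zero.mpr hp
  rw [div_pow, h1, div_eq_div_iff (pow_ne_zero _ hz) hz, mul_assoc, ← pow_succ,
    Nat.sub_add_cancel hp1]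

end Fermat.Agent.S29.HRoot
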