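import Mathlib
import Fermat.Agent.S29.HRoot
import Fermat.Agent.S20.Elliptic
import Fermat.Agent.S20.Conjugates

/-!
# S29 package R in `S20` currency: roots, uniqueness of roots, multiplier characters

* `exists_root` (R1): a holomorphic `f ≠ 0` on `ℍ` with `p ∣ ordAt f z` everywhere is a `p`-th
  power of a holomorphic function.
* `root_unique` (R2): two holomorphic functions on `ℍ` with the same `p`-th power differ by a
  `p`-th root of unity.
* `exists_multiplier` (R3): if `u ≠ 0` is holomorphic on `ℍ` and `u ^ p` is invariant under a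
  subgroup `Γ ≤ SL(2, ℤ)`, then `u (γ • z) = χ γ * u z` for a character `χ : Γ →* ℂˣ` with
  `χ ^ p = 1`.
-/

set_option autoImplicit false

open UpperHalfPlane hiding I
open Complex Filter Topology
open scoped Manifold MatrixGroups

namespace Fermat.Agent.S29.HRootChar

open Fermat.Agent.S20

/-- (R1) holomorphic `p`-th roots on `ℍ`, in `S20.ordAt` currency. -/
theorem exists_root (p : ℕ) (hp : 0 < p) (f : ℍ → ℂ) (hf : MDiff f) (hf0 : f ≠ 0)
    (hord : ∀ z : ℍ, p ∣ (ordAt f z).toNat) :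
    ∃ u : ℍ → ℂ, MDiff u ∧ ∀ z : ℍ, u z ^ p = f z := by
  refine HRoot.exists_root_upperHalfPlane hf p hp.ne' (fun z => ?_)
  obtain ⟨m, hm⟩ := hord z
  refine ⟨m, ?_⟩
  have hne : ordAt f z ≠ ⊤ := fun h => hf0 ((ordAt_eq_top_iff hf).mp h)
  have h1 : ordAt f z = ((ordAt f z).toNat : ℕ∞) := (ENat.natCast_toNat hne).symm
  show ordAt f z = _
  rw [h1, hm]

/-- (R2) uniqueness of `p`-th roots on `ℍ` up to a `p`-th root of unity. -/
theorem root_unique {p : ℕ} (hp : p ≠ 0) {u v : ℍ → ℂ} (hu : MDiff u) (hv : MDiff v)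
    (hu0 : u ≠ 0) (h : ∀ z : ℍ, u z ^ p = v z ^ p) :
    ∃ ζ : ℂ, ζ ^ p = 1 ∧ ∀ z : ℍ, v z = ζ * u z := by
  obtain ⟨z₀, hz₀⟩ : ∃ z₀ : ℍ, u z₀ ≠ 0 := by
    by_contra hcon
    push Not at hcon
    exact hu0 (funext hcon)
  have hpow0 : u z₀ ^ p ≠ 0 := pow_ne_zero _ hz₀
  refine ⟨v z₀ / u z₀, ?_, ?_⟩
  · rw [div_pow, ← h z₀, div_self hpow0]
  · have hud := UpperHalfPlane.mdifferentiable_iff.mp hu
    have hvd := UpperHalfPlane.mdifferentiable_iff.mp hv
    have key := HRoot.eqOn_of_pow_eq (D := {z : ℂ | 0 < z.im}) isOpen_upperHalfPlaneSet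
      (convex_halfSpace_im_gt 0).isPreconnected hvd (hud.const_mul (v z₀ / u z₀)) hp
      (fun w hw => by
        simp only [Function.comp_apply]
        rw [mul_pow, div_pow, ← h z₀, div_self hpow0, one_mul, h])
      (z₀ := (z₀ : ℂ)) z₀.im_pos
      (by simp only [Function.comp_apply, ofComplex_apply]; rw [div_mul_cancel₀ _ hz₀])
      (by
        simp only [Function.comp_apply, ofComplex_apply]
        intro h0
        have := h z₀
        rw [h0, zero_pow hp] at this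
        exact hpow0 this)
    intro z
    have := key z.im_pos
    simpa only [Function.comp_apply, ofComplex_apply] using this

/-- (R3) the multiplier character of a root of a `Γ`-invariant function. -/
theorem exists_multiplier {p : ℕ} (hp : p ≠ 0) (Γ : Subgroup SL(2, ℤ)) {u : ℍ → ℂ} (hu : MDiff u)
    (hu0 : u ≠ 0) (h : ∀ γ ∈ Γ, ∀ z : ℍ, u (γ • z) ^ p = u z ^ p) :
    ∃ χ : Γ →* ℂˣ, (∀ γ : Γ, χ γ ^ p = 1) ∧
      ∀ (γ : Γ) (z : ℍ), u ((γ : SL(2, ℤ)) • z) = (χ γ : ℂ) * u z := by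
  obtain ⟨z₀, hz₀⟩ : ∃ z₀ : ℍ, u z₀ ≠ 0 := by
    by_contra hcon
    push Not at hcon
    exact hu0 (funext hcon)
  -- the multiplier of a single element
  have hone : ∀ γ : Γ, ∃ ζ : ℂ, ζ ^ p = 1 ∧ ∀ z : ℍ, u ((γ : SL(2, ℤ)) • z) = ζ * u z := by
    intro γ
    exact root_unique hp hu (mdiff_comp_smul hu (γ : SL(2, ℤ))) hu0
      (fun z => (h γ γ.2 z).symm)
  choose c hc1 hc using hone
  have hc0 : ∀ γ : Γ, c γ ≠ 0 := fun γ h0 => by
    have := hc1 γ
    rw [h0, zero_pow hp] at this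
    exact zero_ne_one this
  have hmul : ∀ γ₁ γ₂ : Γ, c (γ₁ * γ₂) = c γ₁ * c γ₂ := by
    intro γ₁ γ₂
    have h1 := hc (γ₁ * γ₂) z₀
    rw [Subgroup.coe_mul, mul_smul, hc γ₁, hc γ₂, ← mul_assoc] at h1
    exact (mul_right_cancel₀ hz₀ h1).symm
  refine ⟨MonoidHom.mk' (fun γ => Units.mk0 (c γ) (hc0 γ)) (fun a b => ?_), fun γ => ?_,
    fun γ z => ?_⟩
  · ext
    simp [hmul]
  · ext
    simp [hc1]
  · simpa using hc γ z

end Fermat.Agent.S29.HRootChar
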