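import Fermat.Agent.S29.HeckeChar
import Fermat.Agent.S29.KummerDatum

/-!
# Wave 5, package B (add-on): the transfer Hecke operator on `peHoms` and on `expChar`

* `isPE_heckeHom` : `T_ℓ` preserves the characters killing parabolic and finite-order elements;
  `heckePE hℓN : peHoms N A →+ peHoms N A` is the induced endomorphism;
* `eq_heckeHom_of_forall` : the pointwise formula `ψ' γ = ∑ x, ψ (gamT γ x)` characterises
  `heckeHom hℓN ψ`;
* `expChar_heckeHom` : `expChar N m (heckeHom hℓN ψ) = heckeChar hℓN (expChar N m ψ)`.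
-/

set_option autoImplicit false
set_option linter.unusedSectionVars false

open scoped MatrixGroups

namespace Fermat.Agent.S29.Betti

open Fermat.Agent.S22

variable {N ℓ : ℕ} [Fact ℓ.Prime]

/-- `T_ℓ` preserves the characters killing the parabolic and the finite-order elements. -/
theorem isPE_heckeHom (hℓN : ¬ ℓ ∣ N) {A : Type*} [AddCommGroup A]
    {ψ : Additive (Gam N) →+ A} (hψ : IsPE ψ) : IsPE (heckeHom hℓN ψ) := by
  rintro γ (hγ | hγ)
  · exact heckeHom_parabolic hℓN (fun γ' hγ' => hψ γ' (Or.inl hγ')) γ hγ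
  · exact heckeHom_finOrder hℓN (fun γ' hγ' => hψ γ' (Or.inr hγ')) γ hγ

/-- The Hecke operator `T_ℓ` on `peHoms N A`. -/
noncomputable def heckePE (hℓN : ¬ ℓ ∣ N) (A : Type*) [AddCommGroup A] :
    peHoms N A →+ peHoms N A where
  toFun ψ := ⟨heckeHom hℓN (ψ : Additive (Gam N) →+ A), isPE_heckeHom hℓN ψ.2⟩
  map_zero' := by
    apply Subtype.ext
    refine AddMonoidHom.ext fun γ => ?_
    obtain ⟨γ, rfl⟩ := Additive.ofMul.surjective γ
    show heckeHom hℓN (0 : Additive (Gam N) →+ A) (Additive.ofMul γ) = 0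
    rw [heckeHom_apply]
    simp
  map_add' ψ₁ ψ₂ := by
    apply Subtype.ext
    exact heckeHom_add hℓN _ _

@[simp] theorem coe_heckePE (hℓN : ¬ ℓ ∣ N) (A : Type*) [AddCommGroup A] (ψ : peHoms N A) :
    ((heckePE hℓN A ψ : peHoms N A) : Additive (Gam N) →+ A) =
      heckeHom hℓN (ψ : Additive (Gam N) →+ A) := rfl

theorem heckePE_apply (hℓN : ¬ ℓ ∣ N) (A : Type*) [AddCommGroup A] (ψ : peHoms N A)
    (γ : Gam N) :
    ((heckePE hℓN A ψ : peHoms N A) : Additive (Gam N) →+ A) (Additive.ofMul γ) =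
      ∑ x : OnePoint (ZMod ℓ),
        (ψ : Additive (Gam N) →+ A) (Additive.ofMul (gamT hℓN γ x)) :=
  heckeHom_apply hℓN _ γ

/-- The pointwise formula characterises `heckeHom`. -/
theorem eq_heckeHom_of_forall (hℓN : ¬ ℓ ∣ N) {A : Type*} [AddCommGroup A]
    (ψ ψ' : Additive (Gam N) →+ A)
    (h : ∀ γ : Gam N, ψ' (Additive.ofMul γ) =
      ∑ x : OnePoint (ZMod ℓ), ψ (Additive.ofMul (gamT hℓN γ x))) :
    ψ' = heckeHom hℓN ψ := by
  refine AddMonoidHom.ext fun γ => ?_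
  obtain ⟨γ, rfl⟩ := Additive.ofMul.surjective γ
  rw [h γ, heckeHom_apply]

/-- The same on `peHoms`. -/
theorem eq_heckePE_of_forall (hℓN : ¬ ℓ ∣ N) {A : Type*} [AddCommGroup A]
    (χ χ' : peHoms N A)
    (h : ∀ γ : Gam N, (χ' : Additive (Gam N) →+ A) (Additive.ofMul γ) =
      ∑ x : OnePoint (ZMod ℓ), (χ : Additive (Gam N) →+ A) (Additive.ofMul (gamT hℓN γ x))) :
    χ' = heckePE hℓN A χ :=
  Subtype.ext (eq_heckeHom_of_forall hℓN _ _ h)

/-- `expChar` intertwines the additive and the multiplicative transfer operators. -/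
theorem expChar_heckeHom (hℓN : ¬ ℓ ∣ N) (m : ℕ) [NeZero m]
    (ψ : Additive (Gam N) →+ ZMod m) :
    expChar N m (heckeHom hℓN ψ) = heckeChar hℓN (expChar N m ψ) :=
  (heckeChar_comp hℓN _ _).symm

theorem expChar_eq_heckeChar_of_forall (hℓN : ¬ ℓ ∣ N) (m : ℕ) [NeZero m]
    (ψ ψ' : Additive (Gam N) →+ ZMod m)
    (h : ∀ γ : Gam N, ψ' (Additive.ofMul γ) =
      ∑ x : OnePoint (ZMod ℓ), ψ (Additive.ofMul (gamT hℓN γ x))) :
    expChar N m ψ' = heckeChar hℓN (expChar N m ψ) := by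
  rw [eq_heckeHom_of_forall hℓN ψ ψ' h, expChar_heckeHom]

end Fermat.Agent.S29.Betti
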