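import Mathlib
import Fermat.Agent.S29.RootClass
import Fermat.Agent.S29.KummerDatum
import Fermat.Agent.S29.BCUnram
import Fermat.Agent.S18.Witness

/-!
# S29 (wave 5), (K-fin), algebraic part

* `isRootClass_iff` : `IsRootClass m f x` in terms of `RootClass.rootClass`;
* `exists_isRootClass_of_torsion` : every `m`-torsion class is a root class;
* `isRootClass_mul_pow`, `eq_of_isRootClass` : root classes modulo `m`-th powers;
* `exists_integral_mul_pow` : clearing the finite poles by an `m`-th power;
* `isIntegral_bc` : integrality over `K[j]` is preserved by the coefficient extension `ℚ̄ → ℂ`.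
-/

set_option autoImplicit false

open AlgebraicCurve ModularCurve

namespace Fermat.Agent.S29.KFin

local notation "Qb" => AlgebraicClosure ℚ

section Generic

variable {K F : Type*} [Field K] [Field F] [Algebra K F] [HasPrincipalDivisors K F]

/-- `IsRootClass` in the `rootClass` currency. -/
theorem isRootClass_iff {m : ℕ} (hm : 0 < m) {f : F} (hf : f ≠ 0) {x : Pic0 K F} :
    IsRootClass m f x ↔ RootClass.IsDivisible K m f ∧ x = RootClass.rootClass K m f := by
  constructor
  · rintro ⟨D, rfl, hD⟩
    exact ⟨⟨hf, fun v => ⟨_, (hD v).symm⟩⟩, (RootClass.rootClass_eq_mk_of hm hf D hD).symm⟩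
  · rintro ⟨hdiv, rfl⟩
    obtain ⟨D, hD, hD'⟩ := RootClass.rootClass_spec hm hdiv
    exact ⟨D, hD.symm, hD'⟩

/-- every `m`-torsion class is the root class of some function -/
theorem exists_isRootClass_of_torsion {m : ℕ} (x : Pic0 K F) (hx : (m : ℤ) • x = 0) :
    ∃ f : F, f ≠ 0 ∧ IsRootClass m f x := by
  obtain ⟨D, rfl⟩ := QuotientAddGroup.mk_surjective x
  have h1 : Pic0.mk ((m : ℤ) • D) = 0 := hx
  rw [RootClass.mk_eq_zero_iff] at h1
  obtain ⟨f, hf, hfD⟩ := h1
  refine ⟨f, hf, D, rfl, fun v => ?_⟩
  rw [← hfD v]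
  simp

/-- multiplying by an `m`-th power does not change the root class -/
theorem isRootClass_mul_pow {m : ℕ} (hm : 0 < m) {f h : F} (hf : f ≠ 0) (hh : h ≠ 0)
    {x : Pic0 K F} (hx : IsRootClass m f x) : IsRootClass m (f * h ^ m) x := by
  obtain ⟨hdiv, rfl⟩ := (isRootClass_iff hm hf).mp hx
  rw [isRootClass_iff hm (mul_ne_zero hf (pow_ne_zero m hh))]
  refine ⟨hdiv.mul (RootClass.isDivisible_pow_self m hh), ?_⟩
  rw [RootClass.rootClass_mul hm hdiv (RootClass.isDivisible_pow_self m hh),
    RootClass.rootClass_pow_self hm hh, add_zero]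

/-- two functions differing by an `m`-th power have the same root class -/
theorem eq_of_isRootClass {m : ℕ} (hm : 0 < m) {f f' h : F} (hf' : f' ≠ 0) (hh : h ≠ 0)
    (hff : f = f' * h ^ m) {x y : Pic0 K F} (hx : IsRootClass m f x)
    (hy : IsRootClass m f' y) : x = y := by
  have hy' := isRootClass_mul_pow hm hf' hh hy
  rw [← hff] at hy'
  have hf : f ≠ 0 := hff ▸ mul_ne_zero hf' (pow_ne_zero m hh)
  rw [((isRootClass_iff hm hf).mp hx).2, ((isRootClass_iff hm hf).mp hy').2]

end Generic

section GenericAlg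

open IntermediateField
open scoped IntermediateField.algebraAdjoinAdjoin

/-- a finite extension of `K(x)` is algebraic over `K[x]` -/
theorem isAlgebraic_adjoin_of_finite {K F : Type*} [Field K] [Field F] [Algebra K F] (x : F)
    [FiniteDimensional K⟮x⟯ F] (f : F) : IsAlgebraic (Algebra.adjoin K {x}) f := by
  have h1 : IsAlgebraic K⟮x⟯ f := Algebra.IsAlgebraic.isAlgebraic f
  exact (IsFractionRing.isAlgebraic_iff (Algebra.adjoin K {x}) K⟮x⟯ F).mpr h1

/-- an algebraic element becomes integral after multiplication by an `m`-th power of a nonzero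
element of the base -/
theorem exists_integral_mul_pow_of_isAlgebraic {R F : Type*} [CommRing R] [Field F]
    [Algebra R F] (hinj : Function.Injective (algebraMap R F))
    (m : ℕ) (hm : 0 < m) {f : F} (hf : IsAlgebraic R f) :
    ∃ h : F, h ≠ 0 ∧ IsIntegral R (f * h ^ m) := by
  obtain ⟨y, hy, hint⟩ := hf.exists_integral_multiple
  refine ⟨algebraMap R F y, fun h => hy (hinj (h.trans (map_zero _).symm)), ?_⟩
  obtain ⟨k, rfl⟩ := Nat.exists_eq_succ_of_ne_zero hm.ne'
  have hy' : IsIntegral R (algebraMap R F y) := isIntegral_algebraMap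
  have e : f * algebraMap R F y ^ (k + 1) = (y • f) * algebraMap R F y ^ k := by
    rw [pow_succ, Algebra.smul_def]
    ring
  rw [e]
  exact hint.mul (hy'.pow k)

end GenericAlg

section Modular

open IntermediateField

variable (N : ℕ) [NeZero N]

/-- the instance of principal divisors on the modular function field over `ℚ̄` -/
theorem hasPrincipalDivisors : HasPrincipalDivisors Qb (modularFunctionFieldBar N) :=
  ⟨fun f hf => S18.Witness.bar_exists_divisor N f hf⟩

/-- the function field is algebraic over `ℚ̄[j]` -/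
theorem isAlgebraic_adjoin_j (f : S24.FF Qb N) :
    IsAlgebraic (Algebra.adjoin Qb {S24.jBC Qb N}) f := by
  obtain ⟨-, hfd⟩ := S18.Witness.bar_transcendental_finite N
  exact isAlgebraic_adjoin_of_finite (S24.jBC Qb N) f

/-- **Clearing the finite poles**: every function becomes integral over `ℚ̄[j]` after
multiplication by a suitable `m`-th power. -/
theorem exists_integral_mul_pow (m : ℕ) (hm : 0 < m) (f : S24.FF Qb N) :
    ∃ h : S24.FF Qb N, h ≠ 0 ∧ IsIntegral (Algebra.adjoin Qb {S24.jBC Qb N}) (f * h ^ m) :=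
  exists_integral_mul_pow_of_isAlgebraic Subtype.val_injective m hm (isAlgebraic_adjoin_j N f)

/-- integrality over `K[j]` is preserved by the coefficient extension -/
theorem isIntegral_bc (ι : Qb →+* ℂ) {f : S24.FF Qb N}
    (hf : IsIntegral (Algebra.adjoin Qb {S24.jBC Qb N}) f) :
    IsIntegral (Algebra.adjoin ℂ {S24.jBC ℂ N})
      (S24.CoeffBC.bc ι (modularFunctionFieldFull N) f) := by
  have hmem : ∀ x ∈ Algebra.adjoin Qb {S24.jBC Qb N},
      S24.CoeffBC.bc ι (modularFunctionFieldFull N) x ∈ Algebra.adjoin ℂ {S24.jBC ℂ N} := by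
    intro x hx
    induction hx using Algebra.adjoin_induction with
    | mem x hx =>
      rw [Set.mem_singleton_iff] at hx
      rw [hx, BCUnram.bc_jBC]
      exact Algebra.self_mem_adjoin_singleton ℂ _
    | algebraMap a =>
      rw [S24.CoeffBC.bc_algebraMap]
      exact Subalgebra.algebraMap_mem _ _
    | add x y _ _ hx hy =>
      rw [map_add]
      exact Subalgebra.add_mem _ hx hy
    | mul x y _ _ hx hy =>
      rw [map_mul]
      exact Subalgebra.mul_mem _ hx hy
  exact hf.map_of_comp_eq
    ((S24.CoeffBC.bc ι (modularFunctionFieldFull N)).restrict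
      (Algebra.adjoin Qb {S24.jBC Qb N}) (Algebra.adjoin ℂ {S24.jBC ℂ N}) hmem)
    (S24.CoeffBC.bc ι (modularFunctionFieldFull N)) (RingHom.ext fun x => rfl)

end Modular

end Fermat.Agent.S29.KFin
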