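import Mathlib
import Fermat.Agent.S29.KFinAlg
import Fermat.Agent.S29.Root

/-!
# S29 (wave 5), (K-fin): finiteness of the torsion of `J₀(N)(ℚ̄)` — reduction

`finite_Jtors_of` : `Jtors N m` is finite, from

* `ha` (dictionary): the elements of `FF ℂ N` integral over `ℂ[j]` are the `q`-expansions of
  weakly holomorphic functions;
* `hb` (dictionary): `m ∣ ord_v` at all places of `FF ℂ N` implies `m ∣ ord_z` at all points of
  the upper half plane;
* `hKU` (Kummer uniqueness): two Kummer data with the same character differ by an `m`-th power.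

Proof: every `m`-torsion class `x` is the root class of a function `f₀` (an `m`-th root of the
divisor), which may be taken integral over `ℚ̄[j]` (clear the finite poles by an `m`-th power);
its complex avatar is weakly holomorphic with all orders divisible by `m`, hence has a
holomorphic `m`-th root `u` on the upper half plane, which transforms under `Γ₀(N)` by a
character `χ_x` with values in the `m`-th roots of unity.  By `hKU` the class `x` is determined
by `χ_x`, and `Γ₀(N)` is finitely generated.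
-/

set_option autoImplicit false

open scoped MatrixGroups Manifold
open UpperHalfPlane AlgebraicCurve ModularCurve

namespace Fermat.Agent.S29.KFin

local notation "Qb" => AlgebraicClosure ℚ

variable (N : ℕ) [NeZero N] (m : ℕ) (ι : Qb →+* ℂ)

/-- **Existence of a Kummer datum for every torsion class** (the character need not be PE). -/
theorem exists_datum_of_torsion (hm : 0 < m)
    (ha : ∀ x : S24.FF ℂ N, IsIntegral (Algebra.adjoin ℂ {S24.jBC ℂ N}) x →
      ∃ f : ℍ → ℂ, S20.IsWH (CongruenceSubgroup.Gamma0 N) f ∧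
        (x : LaurentSeries ℂ) = S24.qLaurentFun f)
    (hb : ∀ (f : ℍ → ℂ), S20.IsWH (CongruenceSubgroup.Gamma0 N) f → f ≠ 0 →
      ∀ x : S24.FF ℂ N, (x : LaurentSeries ℂ) = S24.qLaurentFun f →
        (∀ v : Place ℂ (S24.FF ℂ N), (m : ℤ) ∣ v.ord x) →
          ∀ z : ℍ, m ∣ (S20.ordAt f z).toNat)
    (x : JZero N) (hx : (m : ℤ) • x = 0) :
    ∃ (χ : S22.Gam N →* ℂˣ) (u : ℍ → ℂ) (f₀ : modularFunctionFieldBar N),
      f₀ ≠ 0 ∧ (∀ γ, χ γ ^ m = 1) ∧ IsKummerDatum N m ι χ u f₀ ∧ IsRootClass m f₀ x := by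
  have := hasPrincipalDivisors N
  obtain ⟨f, hf, hfx⟩ := exists_isRootClass_of_torsion (m := m) x hx
  obtain ⟨h, hh, hint⟩ := exists_integral_mul_pow N m hm f
  have hf₁ : f * h ^ m ≠ 0 := mul_ne_zero hf (pow_ne_zero m hh)
  have hroot : IsRootClass m (f * h ^ m) x := isRootClass_mul_pow hm hf hh hfx
  have hintC := isIntegral_bc N ι hint
  obtain ⟨G, hG, hGq⟩ := ha _ hintC
  have hbc0 : S24.CoeffBC.bc ι (modularFunctionFieldFull N) (f * h ^ m) ≠ 0 := by
    intro h0
    exact hf₁ ((map_eq_zero _).mp h0)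
  have hG0 : G ≠ 0 := by
    rintro rfl
    apply hbc0
    apply Subtype.ext
    rw [hGq]
    have := S24.qLaurentFun_const 0
    rw [map_zero] at this
    exact this
  have hdvdQ : ∀ v : Place Qb (S24.FF Qb N), (m : ℤ) ∣ v.ord (f * h ^ m) := by
    obtain ⟨D, -, hD⟩ := hroot
    exact fun v => ⟨_, (hD v).symm⟩
  have hdvd := BCUnram.dvd_ord_bc N ι (m : ℤ) (f * h ^ m) hdvdQ
  have hord := hb G hG hG0 _ hGq hdvd
  obtain ⟨u, hu, hupow, χ, hχ, hmult⟩ :=
    Root.exists_root_multiplier m hm G hG.mdiff hG0 hord (CongruenceSubgroup.Gamma0 N) hG.inv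
  have hfun : (fun z => u z ^ m) = G := funext hupow
  refine ⟨χ, u, f * h ^ m, hf₁, hχ, ⟨hu, ?_, hmult, ?_, ?_⟩, hroot⟩
  · rintro rfl
    apply hG0
    funext z
    rw [← hupow z]
    simp [zero_pow hm.ne']
  · rw [hfun]
    exact hG
  · rw [hfun]
    exact hGq

/-- the characters of `Γ₀(N)` with values in the `m`-th roots of unity are determined by
finitely many values in a finite set -/
theorem finite_of_char_injective (hm : 0 < m) {X : Type*}
    (c : X → (S22.Gam N →* ℂˣ)) (hc : ∀ x γ, c x γ ^ m = 1) (hinj : Function.Injective c) :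
    Finite X := by
  have : NeZero m := ⟨hm.ne'⟩
  obtain ⟨S, hS⟩ := S22.exists_finset_closure N
  let Φ : X → (S → rootsOfUnity m ℂ) := fun x s =>
    ⟨c x s, (mem_rootsOfUnity m _).mpr (hc x s)⟩
  refine Finite.of_injective Φ fun x y hxy => hinj ?_
  refine MonoidHom.eq_of_eqOn_dense hS fun s hs => ?_
  have := congrFun hxy ⟨s, hs⟩
  exact congrArg (fun r : rootsOfUnity m ℂ => (r : ℂˣ)) this

/-- **(K-fin), reduction**: the `m`-torsion of `J₀(N)(ℚ̄)` is finite. -/
theorem finite_Jtors_of (hm : 0 < m)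
    (ha : ∀ x : S24.FF ℂ N, IsIntegral (Algebra.adjoin ℂ {S24.jBC ℂ N}) x →
      ∃ f : ℍ → ℂ, S20.IsWH (CongruenceSubgroup.Gamma0 N) f ∧
        (x : LaurentSeries ℂ) = S24.qLaurentFun f)
    (hb : ∀ (f : ℍ → ℂ), S20.IsWH (CongruenceSubgroup.Gamma0 N) f → f ≠ 0 →
      ∀ x : S24.FF ℂ N, (x : LaurentSeries ℂ) = S24.qLaurentFun f →
        (∀ v : Place ℂ (S24.FF ℂ N), (m : ℤ) ∣ v.ord x) →
          ∀ z : ℍ, m ∣ (S20.ordAt f z).toNat)
    (hKU : ∀ {χ : S22.Gam N →* ℂˣ} {u u' : ℍ → ℂ} {f₀ f₀' : modularFunctionFieldBar N},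
      IsKummerDatum N m ι χ u f₀ → IsKummerDatum N m ι χ u' f₀' →
        ∃ h₀ : modularFunctionFieldBar N, h₀ ≠ 0 ∧ f₀ = f₀' * h₀ ^ m) :
    Finite (Jtors N m) := by
  have := hasPrincipalDivisors N
  have hex : ∀ x : Jtors N m, ∃ (χ : S22.Gam N →* ℂˣ) (u : ℍ → ℂ)
      (f₀ : modularFunctionFieldBar N), f₀ ≠ 0 ∧ (∀ γ, χ γ ^ m = 1) ∧
        IsKummerDatum N m ι χ u f₀ ∧ IsRootClass m f₀ (x : JZero N) := fun x =>
    exists_datum_of_torsion N m ι hm ha hb (x : JZero N) (Pic0.mem_torsion.mp x.2)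
  choose χ u f₀ hf₀ hχ hdat hroot using hex
  refine finite_of_char_injective N m hm χ hχ fun x y hxy => Subtype.ext ?_
  have hy := hdat y
  rw [← hxy] at hy
  obtain ⟨h₀, hh₀, heq⟩ := hKU (hdat x) hy
  exact eq_of_isRootClass hm (hf₀ y) hh₀ heq (hroot x) (hroot y)

end Fermat.Agent.S29.KFin
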