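import Mathlib
import Fermat.Agent.S29.KFin

/-!
# S29 (wave 5), (K-fin): the uniform bound `#J₀(N)[m] ≤ m ^ r`

`exists_card_bound_of` : under the hypotheses of `KFin.finite_Jtors_of` for every `m > 0`, there
is `r` (the number of generators of `Γ₀(N)`) with `Nat.card (Jtors N m) ≤ m ^ r` for all `m > 0`.
-/

set_option autoImplicit false

open scoped MatrixGroups Manifold
open UpperHalfPlane AlgebraicCurve ModularCurve

namespace Fermat.Agent.S29.KFin

local notation "Qb" => AlgebraicClosure ℚ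

variable (N : ℕ) [NeZero N] (m : ℕ) (ι : Qb →+* ℂ)

omit [NeZero N] in
/-- a family of characters with values in the `m`-th roots of unity, injectively parametrised by
`X`, has at most `m ^ (number of generators)` members -/
theorem card_le_of_char_injective (hm : 0 < m) (S : Finset (S22.Gam N))
    (hS : Subgroup.closure (S : Set (S22.Gam N)) = ⊤) {X : Type*}
    (c : X → (S22.Gam N →* ℂˣ)) (hc : ∀ x γ, c x γ ^ m = 1) (hinj : Function.Injective c) :
    Nat.card X ≤ m ^ S.card := by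
  have : NeZero m := ⟨hm.ne'⟩
  let Φ : X → (S → rootsOfUnity m ℂ) := fun x s =>
    ⟨c x s, (mem_rootsOfUnity m _).mpr (hc x s)⟩
  have hΦ : Function.Injective Φ := by
    intro x y hxy
    refine hinj (MonoidHom.eq_of_eqOn_dense hS fun s hs => ?_)
    have := congrFun hxy ⟨s, hs⟩
    exact congrArg (fun r : rootsOfUnity m ℂ => (r : ℂˣ)) this
  have h1 := Nat.card_le_card_of_injective Φ hΦ
  have h2 : Nat.card (S → rootsOfUnity m ℂ) = m ^ S.card := by
    rw [Nat.card_fun, Complex.card_rootsOfUnity, Nat.card_eq_fintype_card, Fintype.card_coe]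
  rwa [h2] at h1

/-- **(K-fin), uniform bound, reduction**: `#J₀(N)[m] ≤ m ^ r` with `r` independent of `m`. -/
theorem exists_card_bound_of
    (ha : ∀ x : S24.FF ℂ N, IsIntegral (Algebra.adjoin ℂ {S24.jBC ℂ N}) x →
      ∃ f : ℍ → ℂ, S20.IsWH (CongruenceSubgroup.Gamma0 N) f ∧
        (x : LaurentSeries ℂ) = S24.qLaurentFun f)
    (hb : ∀ m : ℕ, 0 < m → ∀ (f : ℍ → ℂ), S20.IsWH (CongruenceSubgroup.Gamma0 N) f → f ≠ 0 →
      ∀ x : S24.FF ℂ N, (x : LaurentSeries ℂ) = S24.qLaurentFun f →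
        (∀ v : Place ℂ (S24.FF ℂ N), (m : ℤ) ∣ v.ord x) →
          ∀ z : ℍ, m ∣ (S20.ordAt f z).toNat)
    (hKU : ∀ m : ℕ, 0 < m → ∀ {χ : S22.Gam N →* ℂˣ} {u u' : ℍ → ℂ}
      {f₀ f₀' : modularFunctionFieldBar N},
      IsKummerDatum N m ι χ u f₀ → IsKummerDatum N m ι χ u' f₀' →
        ∃ h₀ : modularFunctionFieldBar N, h₀ ≠ 0 ∧ f₀ = f₀' * h₀ ^ m) :
    ∃ r : ℕ, ∀ m : ℕ, 0 < m → Nat.card (Jtors N m) ≤ m ^ r := by
  have := hasPrincipalDivisors N
  obtain ⟨S, hS⟩ := S22.exists_finset_closure N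
  refine ⟨S.card, fun m hm => ?_⟩
  have hex : ∀ x : Jtors N m, ∃ (χ : S22.Gam N →* ℂˣ) (u : ℍ → ℂ)
      (f₀ : modularFunctionFieldBar N), f₀ ≠ 0 ∧ (∀ γ, χ γ ^ m = 1) ∧
        IsKummerDatum N m ι χ u f₀ ∧ IsRootClass m f₀ (x : JZero N) := fun x =>
    exists_datum_of_torsion N m ι hm ha (hb m hm) (x : JZero N) (Pic0.mem_torsion.mp x.2)
  choose χ u f₀ hf₀ hχ hdat hroot using hex
  refine card_le_of_char_injective N m hm S hS χ hχ fun x y hxy => Subtype.ext ?_
  have hy := hdat y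
  rw [← hxy] at hy
  obtain ⟨h₀, hh₀, heq⟩ := hKU m hm (hdat x) hy
  exact eq_of_isRootClass hm (hf₀ y) hh₀ heq (hroot x) (hroot y)

end Fermat.Agent.S29.KFin
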