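import Mathlib
import Fermat.Agent.S29.BCUnram
import Fermat.Agent.S29.KummerDatum
import Fermat.Agent.S29.Root

/-!
# S29 (wave 5), K-fin, the complex side: a Kummer datum from an integral `m`-divisible function

For `f₁` in the function field of `X₀(N)` over `ℚ̄`, nonzero, integral over `ℚ̄[j]` and with all
orders divisible by `m`, the base change of `f₁` to `ℂ` is the `q`-expansion of a weakly
holomorphic function `F` all of whose orders on `ℍ` are divisible by `m`; its holomorphic `m`-th
root `u` has a multiplier `χ` with `χ ^ m = 1`, and `(χ, u, f₁)` is a Kummer datum.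

* `bc_mem_adjoin`, `isIntegral_bc` : integrality over `ℚ̄[j]` passes to integrality over `ℂ[j]`;
* `exists_datum_of_integral_of` : the statement, with the two dictionary inputs
  (integral elements are `q`-expansions of weakly holomorphic functions; divisibility of the
  orders at all places gives divisibility of the analytic orders) as explicit hypotheses.
-/

set_option autoImplicit false
set_option linter.unusedSectionVars false

open scoped MatrixGroups Manifold
open UpperHalfPlane ModularCurve AlgebraicCurve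

namespace Fermat.Agent.S29.KFinDatum

local notation "Qb" => AlgebraicClosure ℚ

open Fermat.Agent.S24

variable (N : ℕ) [NeZero N] (ι : Qb →+* ℂ)

/-- the coefficient extension maps `ℚ̄[j]` into `ℂ[j]` -/
theorem bc_mem_adjoin {y : FF Qb N} (hy : y ∈ Algebra.adjoin Qb {jBC Qb N}) :
    CoeffBC.bc ι (modularFunctionFieldFull N) y ∈ Algebra.adjoin ℂ {jBC ℂ N} := by
  induction hy using Algebra.adjoin_induction with
  | mem x hx =>
    rw [Set.mem_singleton_iff] at hx
    rw [hx, Fermat.Agent.S29.BCUnram.bc_jBC]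
    exact Algebra.subset_adjoin (Set.mem_singleton _)
  | algebraMap r =>
    rw [CoeffBC.bc_algebraMap]
    exact Subalgebra.algebraMap_mem _ _
  | add x y _ _ hx hy =>
    rw [map_add]
    exact add_mem hx hy
  | mul x y _ _ hx hy =>
    rw [map_mul]
    exact mul_mem hx hy

/-- integrality over `ℚ̄[j]` passes to integrality over `ℂ[j]` -/
theorem isIntegral_bc {x : FF Qb N} (h : IsIntegral (Algebra.adjoin Qb {jBC Qb N}) x) :
    IsIntegral (Algebra.adjoin ℂ {jBC ℂ N}) (CoeffBC.bc ι (modularFunctionFieldFull N) x) := by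
  let A := Algebra.adjoin Qb {jBC Qb N}
  let B := Algebra.adjoin ℂ {jBC ℂ N}
  let ρ : A →+* B :=
    { toFun := fun y => ⟨CoeffBC.bc ι (modularFunctionFieldFull N) y, bc_mem_adjoin N ι y.2⟩
      map_one' := Subtype.ext (map_one _)
      map_mul' := fun a b => Subtype.ext (map_mul _ _ _)
      map_zero' := Subtype.ext (map_zero _)
      map_add' := fun a b => Subtype.ext (map_add _ _ _) }
  exact IsIntegral.map_of_comp_eq ρ (CoeffBC.bc ι (modularFunctionFieldFull N))
    (RingHom.ext fun r => rfl) h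

/-- the coefficient extension is injective -/
theorem bc_ne_zero {x : FF Qb N} (hx : x ≠ 0) :
    CoeffBC.bc ι (modularFunctionFieldFull N) x ≠ 0 :=
  (map_ne_zero (CoeffBC.bc ι (modularFunctionFieldFull N))).mpr hx

/-- **K-fin, the complex side** (dictionary inputs as hypotheses): an integral function over
`ℚ̄` with `m`-divisible divisor is the rational function of a Kummer datum. -/
theorem exists_datum_of_integral_of (m : ℕ) [NeZero m]
    (ha : ∀ x : FF ℂ N, IsIntegral (Algebra.adjoin ℂ {jBC ℂ N}) x →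
      ∃ f : ℍ → ℂ, Fermat.Agent.S20.IsWH (CongruenceSubgroup.Gamma0 N) f ∧
        (x : LaurentSeries ℂ) = qLaurentFun f)
    (hb : ∀ f : ℍ → ℂ, Fermat.Agent.S20.IsWH (CongruenceSubgroup.Gamma0 N) f → f ≠ 0 →
      ∀ x : FF ℂ N, (x : LaurentSeries ℂ) = qLaurentFun f →
        (∀ v : Place ℂ (FF ℂ N), (m : ℤ) ∣ v.ord x) →
          ∀ z : ℍ, m ∣ (Fermat.Agent.S20.ordAt f z).toNat)
    (f₁ : modularFunctionFieldBar N) (hf₁ : f₁ ≠ 0)
    (hint : IsIntegral (Algebra.adjoin Qb {jBC Qb N}) f₁)
    (hdiv : ∀ v : Place Qb (modularFunctionFieldBar N), (m : ℤ) ∣ v.ord f₁) :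
    ∃ (χ : Fermat.Agent.S22.Gam N →* ℂˣ) (u : ℍ → ℂ),
      (∀ γ, χ γ ^ m = 1) ∧ IsKummerDatum N m ι χ u f₁ := by
  have hm : 0 < m := NeZero.pos m
  set x : FF ℂ N := CoeffBC.bc ι (modularFunctionFieldFull N) f₁ with hx
  have hx0 : x ≠ 0 := bc_ne_zero N ι hf₁
  obtain ⟨F, hF, hxF⟩ := ha x (isIntegral_bc N ι hint)
  have hF0 : F ≠ 0 := by
    rintro rfl
    apply hx0
    apply Subtype.ext
    rw [hxF]
    have h0 := qLaurentFun_const 0
    rw [map_zero] at h0
    exact h0
  have hdivC : ∀ v : Place ℂ (FF ℂ N), (m : ℤ) ∣ v.ord x :=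
    Fermat.Agent.S29.BCUnram.dvd_ord_bc N ι (m : ℤ) f₁ hdiv
  have hord : ∀ z : ℍ, m ∣ (Fermat.Agent.S20.ordAt F z).toNat := hb F hF hF0 x hxF hdivC
  obtain ⟨u, hu, hup, χ, hχ, hmult⟩ :=
    Fermat.Agent.S29.Root.exists_root_multiplier m hm F hF.mdiff hF0 hord
      (CongruenceSubgroup.Gamma0 N) hF.inv
  have hfun : (fun z => u z ^ m) = F := funext hup
  refine ⟨χ, u, hχ, ?_⟩
  refine ⟨hu, ?_, hmult, ?_, ?_⟩
  · rintro rfl
    apply hF0
    rw [← hfun]
    funext z
    simp [zero_pow hm.ne']
  · rw [hfun]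
    exact hF
  · rw [hfun]
    exact hxF

end Fermat.Agent.S29.KFinDatum
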