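import Mathlib
import Fermat.Agent.S29.KFin
import Fermat.Agent.S29.KFinCard
import Fermat.Agent.S29.Desc
import Fermat.Agent.S29.KummerCore

/-!
# S29 (wave 5), (K-fin): the torsion of `J₀(N)(ℚ̄)` is finite

* `finite_Jtors N m : Finite (Jtors N m)`;
* `exists_card_bound N : ∃ r, ∀ m > 0, Nat.card (Jtors N m) ≤ m ^ r`;
* `exists_datum N m ι x hx` : every `m`-torsion class has a Kummer datum.

The reductions `KFin.finite_Jtors_of` / `KFin.exists_card_bound_of` with their inputs discharged: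
the dictionary `Desc.inputs` (weakly holomorphic functions ↔ integral elements, orders at places ↔
orders at points) and the Kummer uniqueness `Kummer.exists_eq_mul_pow`.
-/

set_option autoImplicit false

open scoped MatrixGroups Manifold
open UpperHalfPlane AlgebraicCurve ModularCurve

namespace Fermat.Agent.S29.KFin

local notation "Qb" => AlgebraicClosure ℚ

/-- an embedding `ℚ̄ → ℂ` -/
theorem nonempty_embedding : Nonempty (Qb →+* ℂ) := by
  let _ : Algebra ℚ (AlgebraicClosure ℚ) :=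
    @AlgebraicClosure.instAlgebra ℚ _ ℚ _ (Algebra.id ℚ)
  exact ⟨(IsAlgClosed.lift : AlgebraicClosure ℚ →ₐ[ℚ] ℂ).toRingHom⟩

/-- every `m`-torsion class of `J₀(N)(ℚ̄)` has a Kummer datum -/
theorem exists_datum (N : ℕ) [NeZero N] (m : ℕ) [NeZero m] (ι : Qb →+* ℂ) (x : JZero N)
    (hx : (m : ℤ) • x = 0) :
    ∃ (χ : S22.Gam N →* ℂˣ) (u : ℍ → ℂ) (f₀ : modularFunctionFieldBar N),
      f₀ ≠ 0 ∧ (∀ γ, χ γ ^ m = 1) ∧ IsKummerDatum N m ι χ u f₀ ∧ IsRootClass m f₀ x :=
  exists_datum_of_torsion N m ι (NeZero.pos m)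
    (fun y hy => ((Desc.inputs N).int_iff y).mp hy) ((Desc.inputs N).ord m) x hx

/-- **(K-fin)**: the `m`-torsion of `J₀(N)(ℚ̄)` is finite. -/
theorem finite_Jtors (N : ℕ) [NeZero N] (m : ℕ) [NeZero m] : Finite (Jtors N m) := by
  obtain ⟨ι⟩ := nonempty_embedding
  exact finite_Jtors_of N m ι (NeZero.pos m)
    (fun y hy => ((Desc.inputs N).int_iff y).mp hy) ((Desc.inputs N).ord m)
    (fun h h' => Kummer.exists_eq_mul_pow N m ι h h')

/-- **(K-fin), uniform bound**: `#J₀(N)[m] ≤ m ^ r` with `r` independent of `m`. -/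
theorem exists_card_bound (N : ℕ) [NeZero N] :
    ∃ r : ℕ, ∀ m : ℕ, 0 < m → Nat.card (Jtors N m) ≤ m ^ r := by
  obtain ⟨ι⟩ := nonempty_embedding
  refine exists_card_bound_of N ι (fun y hy => ((Desc.inputs N).int_iff y).mp hy)
    (fun m _ => (Desc.inputs N).ord m) ?_
  intro m hm χ u u' f₀ f₀' h h'
  have : NeZero m := ⟨hm.ne'⟩
  exact Kummer.exists_eq_mul_pow N m ι h h'

end Fermat.Agent.S29.KFin
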