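import Mathlib
import Fermat.Agent.S29.Defs
import Fermat.Agent.S20.Defs
import Fermat.Agent.S24.Defs
import Fermat.Agent.S24.QLaurent
import Fermat.Agent.S24.CoeffBC

/-!
# S29 (wave 5), package K: the Kummer datum

For a character `χ : Γ₀(N) → ℂˣ` a *Kummer datum* of exponent `m` is a holomorphic function
`u ≠ 0` on the upper half plane with `u (γ z) = χ γ * u z`, whose `m`-th power is a weakly
holomorphic modular function with `ℚ̄`-rational `q`-expansion, namely the base change of an
element `f₀` of the function field of `X₀(N)` over `ℚ̄`.  The class `x ∈ J₀(N)(ℚ̄)` of a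
degree-zero divisor `D` with `m • D = div f₀` is then a *Kummer class* of `χ`.
-/

set_option autoImplicit false

open scoped MatrixGroups Manifold
open UpperHalfPlane ModularCurve AlgebraicCurve

namespace Fermat.Agent.S29.Kummer

local notation "Qb" => AlgebraicClosure ℚ

/-- `(u, f₀)` is a Kummer datum of exponent `m` for the character `χ : Γ₀(N) → ℂˣ` (with
respect to the embedding `ι : ℚ̄ → ℂ`). -/
structure IsDatum (N m : ℕ) (ι : Qb →+* ℂ) (χ : S22.Gam N →* ℂˣ) (u : ℍ → ℂ)
    (f₀ : modularFunctionFieldBar N) : Prop where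
  mdiff : MDiff u
  ne_zero : u ≠ 0
  mult : ∀ (γ : S22.Gam N) (z : ℍ), u ((γ : SL(2, ℤ)) • z) = (χ γ : ℂ) * u z
  wh : S20.IsWH (CongruenceSubgroup.Gamma0 N) (fun z => u z ^ m)
  qexp : ((S24.CoeffBC.bc ι (modularFunctionFieldFull N) f₀ : S24.FF ℂ N) : LaurentSeries ℂ)
    = S24.qLaurentFun (fun z => u z ^ m)

/-- `x ∈ J₀(N)(ℚ̄)` is a Kummer class of exponent `m` of the character `χ`: the class of
`(1/m) div f₀` for a Kummer datum `(u, f₀)` of `χ`. -/
def IsKummer (N m : ℕ) (ι : Qb →+* ℂ) (χ : S22.Gam N →* ℂˣ) (x : JZero N) : Prop :=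
  ∃ (u : ℍ → ℂ) (f₀ : modularFunctionFieldBar N)
    (D : Divisor.degZero (K := Qb) (F := modularFunctionFieldBar N)),
    IsDatum N m ι χ u f₀ ∧
    (∀ v : Place Qb (modularFunctionFieldBar N),
      (m : ℤ) * (D : Divisor Qb (modularFunctionFieldBar N)) v = v.ord f₀) ∧
    x = Pic0.mk D

end Fermat.Agent.S29.Kummer
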