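import Mathlib
import Fermat.Agent.S29.KummerDiv
import Fermat.Agent.S29.CuspDict
import Fermat.Agent.S29.BCUnram
import Fermat.Agent.S29.KummerDatum

/-!
# S29 (KD) = K1-div: the divisor of the function of a Kummer datum is divisible by `m`

* `KummerDiv.trace_conj_T_pow`, `KummerDiv.invariant_of_isPE` : a multiplier function for the
  character of a PE homomorphism is invariant under the elliptic and the unipotent elements;
* `Kummer.dvd_ord_complex'` : the statement over `ℂ`;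
* `Kummer.dvd_ord` : the interface statement (KD) over `ℚ̄`.
-/

set_option autoImplicit false
set_option linter.unusedSectionVars false

open UpperHalfPlane hiding I
open ModularForm Polynomial IsDedekindDomain CongruenceSubgroup AlgebraicCurve ModularCurve
open scoped MatrixGroups Manifold RatFunc WithZero

namespace Fermat.Agent.S29

local notation "Qb" => AlgebraicClosure ℚ

namespace KummerDiv

/-- conjugates of powers of `T` have trace `2` -/
theorem trace_conj_T_pow (g : SL(2, ℤ)) (k : ℕ) :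
    ((g * ModularGroup.T ^ k * g⁻¹ : SL(2, ℤ)) : Matrix (Fin 2) (Fin 2) ℤ).trace = 2 := by
  rw [Matrix.SpecialLinearGroup.coe_mul, Matrix.trace_mul_comm, ← Matrix.SpecialLinearGroup.coe_mul,
    ← mul_assoc, inv_mul_cancel, one_mul, ← zpow_natCast, ModularGroup.coe_T_zpow,
    Matrix.trace_fin_two_of]
  norm_num

variable {N : ℕ} {m : ℕ} [NeZero m]

/-- a function with multiplier `expChar ψ`, `ψ` a PE homomorphism, is invariant under the
elements of finite order of `Γ₀(N)` -/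
theorem invariant_of_isOfFinOrder {ψ : Additive (S22.Gam N) →+ ZMod m} (hψ : IsPE ψ)
    {u : ℍ → ℂ}
    (hmult : ∀ (γ : S22.Gam N) (z : ℍ), u ((γ : SL(2, ℤ)) • z) = (expChar N m ψ γ : ℂ) * u z)
    (γ : SL(2, ℤ)) (hγ : γ ∈ Gamma0 N) (hfin : IsOfFinOrder γ) (z : ℍ) : u (γ • z) = u z := by
  have h1 : IsOfFinOrder (⟨γ, hγ⟩ : S22.Gam N) :=
    (Submonoid.isOfFinOrder_coe (H := (Gamma0 N).toSubmonoid) (x := ⟨γ, hγ⟩)).mp hfin
  have h2 : expChar N m ψ ⟨γ, hγ⟩ = 1 :=
    (expChar_eq_one_iff N m ψ ⟨γ, hγ⟩).mpr (hψ ⟨γ, hγ⟩ (Or.inr h1))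
  have h3 := hmult ⟨γ, hγ⟩ z
  rw [h2, Units.val_one, one_mul] at h3
  exact h3

/-- a function with multiplier `expChar ψ`, `ψ` a PE homomorphism, is invariant under the
unipotent elements of `Γ₀(N)` -/
theorem invariant_of_conj_T_pow {ψ : Additive (S22.Gam N) →+ ZMod m} (hψ : IsPE ψ)
    {u : ℍ → ℂ}
    (hmult : ∀ (γ : S22.Gam N) (z : ℍ), u ((γ : SL(2, ℤ)) • z) = (expChar N m ψ γ : ℂ) * u z)
    (g : SL(2, ℤ)) (k : ℕ) (hγ : g * ModularGroup.T ^ k * g⁻¹ ∈ Gamma0 N) (z : ℍ) :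
    u ((g * ModularGroup.T ^ k * g⁻¹) • z) = u z := by
  have h1 : ((((⟨g * ModularGroup.T ^ k * g⁻¹, hγ⟩ : S22.Gam N) : SL(2, ℤ)) :
      Matrix (Fin 2) (Fin 2) ℤ).trace ^ 2 = 4) := by
    show ((g * ModularGroup.T ^ k * g⁻¹ : SL(2, ℤ)) : Matrix (Fin 2) (Fin 2) ℤ).trace ^ 2 = 4
    rw [trace_conj_T_pow]
    norm_num
  have h2 : expChar N m ψ ⟨g * ModularGroup.T ^ k * g⁻¹, hγ⟩ = 1 :=
    (expChar_eq_one_iff N m ψ _).mpr (hψ _ (Or.inl h1))
  have h3 := hmult ⟨g * ModularGroup.T ^ k * g⁻¹, hγ⟩ z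
  rw [h2, Units.val_one, one_mul] at h3
  exact h3

end KummerDiv

namespace Kummer

variable (N : ℕ) [NeZero N] (m : ℕ) [NeZero m] (ι : Qb →+* ℂ)

/-- (KD) over `ℂ`: for a holomorphic nonzero `u` with multiplier the character of a PE
homomorphism mod `m` and `u ^ m` weakly holomorphic of level `Γ₀(N)`, the element of the function
field with the `q`-expansion of `u ^ m` has all its orders divisible by `m`. -/
theorem dvd_ord_complex' (ψ : peHoms N (ZMod m)) {u : ℍ → ℂ} (hu : MDiff u) (hu0 : u ≠ 0)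
    (hmult : ∀ (γ : S22.Gam N) (z : ℍ), u ((γ : SL(2, ℤ)) • z) = (expChar N m ψ γ : ℂ) * u z)
    (hWH : S20.IsWH (Gamma0 N) (fun z => u z ^ m))
    (F : S24.FF ℂ N) (hF : (F : LaurentSeries ℂ) = S24.qLaurentFun (fun z => u z ^ m))
    (w : Place ℂ (S24.FF ℂ N)) : (m : ℤ) ∣ w.ord F :=
  KummerDiv.dvd_ord_complex (NeZero.pos m) hu hu0
    (fun γ hγ hfin z => KummerDiv.invariant_of_isOfFinOrder ψ.2 hmult γ hγ hfin z)
    (fun g k hγ z => KummerDiv.invariant_of_conj_T_pow ψ.2 hmult g k hγ z)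
    (CuspDict.exists_cusp_of_prime N) hWH F hF w

/-- the function of a Kummer datum is nonzero -/
theorem ne_zero_of_isKummerDatum {χ : S22.Gam N →* ℂˣ} {u : ℍ → ℂ}
    {f₀ : modularFunctionFieldBar N} (h : IsKummerDatum N m ι χ u f₀) : f₀ ≠ 0 := by
  rintro rfl
  have h1 := h.qexp
  rw [map_zero] at h1
  have h2 : (fun z => u z ^ m) = 0 :=
    S24.qLaurentFun_eq_zero (S24.isPM_of_isWH N h.isWH) h1.symm
  apply h.ne_zero
  funext z
  exact pow_eq_zero_iff (NeZero.ne m) |>.mp (congrFun h2 z)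

/-- **(KD) = K1-div**: the divisor of the rational function of a Kummer datum of a PE character
is divisible by `m`. -/
theorem dvd_ord (ψ : peHoms N (ZMod m)) {u : ℍ → ℂ} {f₀ : modularFunctionFieldBar N}
    (h : IsKummerDatum N m ι (expChar N m ψ) u f₀) :
    f₀ ≠ 0 ∧ ∀ v : Place Qb (modularFunctionFieldBar N), (m : ℤ) ∣ v.ord f₀ :=
  ⟨ne_zero_of_isKummerDatum N m ι h,
    BCUnram.dvd_ord_of_bc N ι (m : ℤ) f₀ (fun v' =>
      dvd_ord_complex' N m ψ h.mdiff h.ne_zero h.mult h.isWH _ h.qexp v')⟩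

end Kummer

end Fermat.Agent.S29
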