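import Mathlib
import Fermat.Agent.S29.KummerDivTop

/-!
# S29 (KD), character form over `ℂ`

`KummerDiv.dvd_ord_complex_of_char` : for a character `χ` of `Γ₀(N)` killing the elements of
trace `±2` and the elements of finite order, and a nonzero holomorphic `u` with multiplier `χ`
such that `u ^ m` is weakly holomorphic of level `Γ₀(N)`, the element of the function field of
`X₀(N)` over `ℂ` with the `q`-expansion of `u ^ m` has all its orders divisible by `m`.
-/

set_option autoImplicit false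
set_option linter.unusedSectionVars false

open UpperHalfPlane hiding I
open ModularForm Polynomial IsDedekindDomain CongruenceSubgroup AlgebraicCurve ModularCurve
open scoped MatrixGroups Manifold RatFunc WithZero

namespace Fermat.Agent.S29.KummerDiv

/-- **(KD) over `ℂ`, character form.** -/
theorem dvd_ord_complex_of_char (N : ℕ) [NeZero N] (m : ℕ) (hm : 0 < m) (χ : S22.Gam N →* ℂˣ)
    (hpar : ∀ γ : S22.Gam N,
      ((γ : SL(2, ℤ)) : Matrix (Fin 2) (Fin 2) ℤ).trace ^ 2 = 4 → χ γ = 1)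
    (hfin : ∀ γ : S22.Gam N, IsOfFinOrder γ → χ γ = 1)
    (u : ℍ → ℂ) (hu : MDiff u) (hu0 : u ≠ 0)
    (hmult : ∀ (γ : S22.Gam N) (z : ℍ), u ((γ : SL(2, ℤ)) • z) = (χ γ : ℂ) * u z)
    (hWH : S20.IsWH (Gamma0 N) (fun z => u z ^ m))
    (x : S24.FF ℂ N) (hx : (x : LaurentSeries ℂ) = S24.qLaurentFun (fun z => u z ^ m)) :
    ∀ v : Place ℂ (S24.FF ℂ N), (m : ℤ) ∣ v.ord x := by
  intro v
  refine dvd_ord_complex hm hu hu0 ?_ ?_ (CuspDict.exists_cusp_of_prime N) hWH x hx v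
  · intro γ hγ hγfin z
    have h1 : IsOfFinOrder (⟨γ, hγ⟩ : S22.Gam N) :=
      (Submonoid.isOfFinOrder_coe (H := (Gamma0 N).toSubmonoid) (x := ⟨γ, hγ⟩)).mp hγfin
    have h3 := hmult ⟨γ, hγ⟩ z
    rw [hfin _ h1, Units.val_one, one_mul] at h3
    exact h3
  · intro g k hγ z
    have h1 : ((((⟨g * ModularGroup.T ^ k * g⁻¹, hγ⟩ : S22.Gam N) : SL(2, ℤ)) :
        Matrix (Fin 2) (Fin 2) ℤ).trace ^ 2 = 4) := by
      show ((g * ModularGroup.T ^ k * g⁻¹ : SL(2, ℤ)) : Matrix (Fin 2) (Fin 2) ℤ).trace ^ 2 = 4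
      rw [trace_conj_T_pow]
      norm_num
    have h3 := hmult ⟨g * ModularGroup.T ^ k * g⁻¹, hγ⟩ z
    rw [hpar _ h1, Units.val_one, one_mul] at h3
    exact h3

end Fermat.Agent.S29.KummerDiv
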