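import Mathlib
import Fermat.Agent.S29.Desc
import Fermat.Agent.S29.TwistedEis
import Fermat.Agent.S29.KummerDivTop
import Fermat.Agent.S29.KummerDatum

/-!
# S29 (wave 5), package K, piece (KE): existence of Kummer data

For every additive character `ψ : Γ₀(N) → ℤ/m` killing the parabolic and the finite-order
elements there is a Kummer datum for the character `expChar N m ψ`: the twisted Eisenstein
series (`TwistedEis`) gives a multiplier function `u₁` over `ℂ`, its `m`-th power has divisor
divisible by `m` (`KummerDiv`), and the descent (`Desc.exists_rational`) replaces `u₁` by a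
multiplier function whose `q`-expansion is defined over `ℚ̄`.
-/

set_option autoImplicit false

open scoped MatrixGroups Manifold
open UpperHalfPlane ModularCurve AlgebraicCurve

namespace Fermat.Agent.S29

local notation "Qb" => AlgebraicClosure ℚ

namespace Kummer

variable (N : ℕ) [NeZero N] (m : ℕ) [NeZero m] (ι : Qb →+* ℂ)

/-- (KE) = K2 + K3: existence of a Kummer datum for every PE character mod `m` -/
theorem exists_datum (ψ : peHoms N (ZMod m)) :
    ∃ (u : ℍ → ℂ) (f₀ : modularFunctionFieldBar N),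
      IsKummerDatum N m ι (expChar N m ψ) u f₀ := by
  have hm : 0 < m := NeZero.pos m
  have hχ : ∀ γ, expChar N m ψ γ ^ m = 1 := expChar_pow N m ψ
  have hT : ∀ γ : S22.Gam N, (γ : SL(2, ℤ)) = ModularGroup.T → expChar N m ψ γ = 1 := by
    intro γ hγ
    rw [expChar_eq_one_iff]
    apply ψ.2
    left
    rw [hγ]
    simp [ModularGroup.T, Matrix.trace_fin_two]
  have hneg : ∀ γ : S22.Gam N, (γ : SL(2, ℤ)) = -1 → expChar N m ψ γ = 1 := by
    intro γ hγ
    rw [expChar_eq_one_iff]
    apply ψ.2
    left
    rw [hγ]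
    simp
  obtain ⟨u₁, hu₁, hu₁0, hmult, hWH⟩ :=
    TwistedEis.exists_multiplier_function N m hm (expChar N m ψ) hχ hT hneg
  obtain ⟨u, hu, hu0, hmu, hWHu, y, f₀, -, -, hbc⟩ :=
    Desc.exists_rational N m hm ι (expChar N m ψ) hχ hT u₁ hu₁ hu₁0 hmult hWH
      (fun x hx v => dvd_ord_complex' N m ψ hu₁ hu₁0 hmult hWH x hx v)
  exact ⟨u, f₀, ⟨hu, hu0, hmu, hWHu, hbc⟩⟩

end Kummer

end Fermat.Agent.S29
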