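import Mathlib
import Fermat.Agent.S29.KummerDatum
import Fermat.Agent.S29.RootClass
import Fermat.Agent.S29.ConstOfOrd
import Fermat.Agent.S37.HeckeInputs

/-!
# S29 (wave 5), package K, slice (KR): the calculus of root classes

The statements of the K-package interface about `IsRootClass m f x` (`x` is the class in
`Pic⁰` of `(1/m) div f`), as thin wrappers of `S29/RootClass.lean` (generic divisor calculus on
the prelude `Pic0` API) and `S29/ConstOfOrd.lean` (trivial divisor ⇒ constant over `ℚ̄`):

* `exists_isRootClass`, `isRootClass_unique`, `isRootClass_mul`, `isRootClass_pow`,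
  `exists_pow_of_isRootClass_zero` (interface names), and
* generic versions `isRootClass_rootClass`, `isRootClass_iff`, `IsRootClass.smul`, ... in the
  namespace `Fermat.Agent.S29.KummerRoot`.
-/

set_option autoImplicit false
set_option linter.unusedSectionVars false

open ModularCurve AlgebraicCurve

namespace Fermat.Agent.S29

namespace KummerRoot

open Fermat.Agent.S29.RootClass

variable {K F : Type*} [Field K] [Field F] [Algebra K F]

/-- An `m`-divisible function has the root class `rootClass K m f`. -/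
theorem isRootClass_rootClass [HasPrincipalDivisors K F] {m : ℕ} (hm : 0 < m) {f : F}
    (hf : IsDivisible K m f) : IsRootClass m f (rootClass K m f) := by
  obtain ⟨D, hD, hord⟩ := rootClass_spec hm hf
  exact ⟨D, hD.symm, hord⟩

/-- A function with a root class is `m`-divisible. -/
theorem IsRootClass.isDivisible {m : ℕ} {f : F} {x : Pic0 K F} (hf : f ≠ 0)
    (hx : IsRootClass m f x) : IsDivisible K m f := by
  obtain ⟨D, -, hD⟩ := hx
  exact ⟨hf, fun v => ⟨_, (hD v).symm⟩⟩

/-- The root class is unique. -/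
theorem IsRootClass.unique {m : ℕ} (hm : 0 < m) {f : F} {x y : Pic0 K F}
    (hx : IsRootClass m f x) (hy : IsRootClass m f y) : x = y := by
  obtain ⟨D, rfl, hD⟩ := hx
  obtain ⟨E, rfl, hE⟩ := hy
  congr 1
  apply Subtype.ext
  refine Finsupp.ext fun v => ?_
  have h := (hD v).trans (hE v).symm
  exact mul_left_cancel₀ (by exact_mod_cast hm.ne' : (m : ℤ) ≠ 0) h

/-- `IsRootClass m f x ↔ x = rootClass K m f` for `m`-divisible `f`. -/
theorem isRootClass_iff [HasPrincipalDivisors K F] {m : ℕ} (hm : 0 < m) {f : F}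
    (hf : IsDivisible K m f) (x : Pic0 K F) :
    IsRootClass m f x ↔ x = rootClass K m f :=
  ⟨fun hx => IsRootClass.unique hm hx (isRootClass_rootClass hm hf),
    fun hx => hx ▸ isRootClass_rootClass hm hf⟩

/-- Root classes multiply. -/
theorem IsRootClass.mul {m : ℕ} {f g : F} (hf : f ≠ 0) (hg : g ≠ 0) {x y : Pic0 K F}
    (hx : IsRootClass m f x) (hy : IsRootClass m g y) : IsRootClass m (f * g) (x + y) := by
  obtain ⟨D, rfl, hD⟩ := hx
  obtain ⟨E, rfl, hE⟩ := hy
  refine ⟨D + E, rfl, fun v => ?_⟩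
  rw [v.ord_mul hf hg, ← hD v, ← hE v]
  show (m : ℤ) * ((D : Divisor K F) + (E : Divisor K F)) v = _
  rw [Finsupp.add_apply, mul_add]

/-- `m`-th powers have trivial root class. -/
theorem isRootClass_pow_self [HasPrincipalDivisors K F] (m : ℕ) {h : F} (hh : h ≠ 0) :
    IsRootClass m (h ^ m) (0 : Pic0 K F) := by
  refine ⟨⟨divOf K h, degree_divOf K h⟩, ?_, fun v => ?_⟩
  · rw [mk_eq_zero_iff]
    exact divOf_mem_principal hh
  · show (m : ℤ) * divOf K h v = _
    rw [divOf_apply_eq, ← zpow_natCast, v.ord_zpow]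

/-- The root class is `m`-torsion. -/
theorem IsRootClass.nsmul_eq_zero {m : ℕ} {f : F} (hf : f ≠ 0) {x : Pic0 K F}
    (hx : IsRootClass m f x) : m • x = 0 := by
  obtain ⟨D, rfl, hD⟩ := hx
  show Pic0.mk (m • D) = 0
  unfold Pic0.mk
  rw [QuotientAddGroup.eq_zero_iff, AddSubgroup.mem_addSubgroupOf]
  refine ⟨f, hf, fun v => ?_⟩
  rw [← hD v, AddSubgroup.coe_nsmul, Finsupp.smul_apply, nsmul_eq_mul]

/-- Semilinear automorphisms transport root classes. -/
theorem IsRootClass.smul (g : SemilinearAut K F) {m : ℕ} {f : F} {x : Pic0 K F}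
    (hx : IsRootClass m f x) : IsRootClass m (g • f) (g • x) := by
  obtain ⟨D, rfl, hD⟩ := hx
  refine ⟨SemilinearAut.degZeroSMulHom g D, (SemilinearAut.pic0_smul_mk g D).symm, fun w => ?_⟩
  rw [SemilinearAut.coe_degZeroSMulHom, SemilinearAut.divisor_smul_apply, hD]
  have h := SemilinearAut.ord_smul g (g⁻¹ • w) f
  rw [smul_inv_smul] at h
  exact h.symm

/-- Compatibility in the level: if `x` is the class of `(1/(m d)) div f`, then `d • x` is the
class of `(1/m) div f`. -/
theorem IsRootClass.nsmul_level {m d : ℕ} {f : F} {x : Pic0 K F}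
    (hx : IsRootClass (m * d) f x) : IsRootClass m f (d • x) := by
  obtain ⟨D, rfl, hD⟩ := hx
  refine ⟨d • D, rfl, fun v => ?_⟩
  rw [← hD v, AddSubgroup.coe_nsmul, Finsupp.smul_apply, nsmul_eq_mul]
  push_cast
  ring

end KummerRoot

namespace Kummer

local notation "Qb" => AlgebraicClosure ℚ

variable (N : ℕ) [NeZero N] (m : ℕ) [NeZero m]

/-- (KR) divisor side: an `m`-divisible principal divisor has a root class -/
theorem exists_isRootClass {f₀ : modularFunctionFieldBar N} (hf : f₀ ≠ 0)
    (hdiv : ∀ v : Place Qb (modularFunctionFieldBar N), (m : ℤ) ∣ v.ord f₀) :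
    ∃ x : JZero N, IsRootClass m f₀ x :=
  ⟨_, KummerRoot.isRootClass_rootClass (NeZero.pos m) ⟨hf, hdiv⟩⟩

/-- (KR) divisor side: calculus of root classes -/
theorem isRootClass_unique {f₀ : modularFunctionFieldBar N} {x y : JZero N}
    (hx : IsRootClass m f₀ x) (hy : IsRootClass m f₀ y) : x = y :=
  KummerRoot.IsRootClass.unique (NeZero.pos m) hx hy

theorem isRootClass_mul {f₀ g₀ : modularFunctionFieldBar N} (hf : f₀ ≠ 0) (hg : g₀ ≠ 0)
    {x y : JZero N} (hx : IsRootClass m f₀ x) (hy : IsRootClass m g₀ y) :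
    IsRootClass m (f₀ * g₀) (x + y) :=
  KummerRoot.IsRootClass.mul hf hg hx hy

theorem isRootClass_pow {h₀ : modularFunctionFieldBar N} (hh : h₀ ≠ 0) :
    IsRootClass m (h₀ ^ m) (0 : JZero N) :=
  KummerRoot.isRootClass_pow_self m hh

/-- (KR) + constants: a root class is zero only for `m`-th powers -/
theorem exists_pow_of_isRootClass_zero {f₀ : modularFunctionFieldBar N} (hf : f₀ ≠ 0)
    (h : IsRootClass m f₀ (0 : JZero N)) :
    ∃ h₀ : modularFunctionFieldBar N, f₀ = h₀ ^ m :=
  ConstOfOrd.exists_pow_of_isRootClass_zero N m hf h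

end Kummer

end Fermat.Agent.S29
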