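import Mathlib
import Fermat.Agent.S29.KummerTop
import Fermat.Agent.S29.KummerExist
import Fermat.Agent.S29.KummerDivTop
import Fermat.Agent.S29.KummerRoot
import Fermat.Agent.S29.KummerCore
import Fermat.Agent.S29.KummerHecke

/-!
# S29 (wave 5), package K: the Kummer map

`Kummer.exists_theta` : for `N ≥ 1` and `m ≥ 1` there is an injective homomorphism
`Θ : peHoms N (ℤ/m) →+ J₀(N)(ℚ̄)` from the additive characters of `Γ₀(N)` with values in
`ℤ/m` killing parabolic and finite-order elements to the Jacobian, which intertwines the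
transfer (Hecke) operator on characters with the Hecke operator `T_ℓ` of the Jacobian for
every prime `ℓ ∤ N`.

This is the interface statement (K) of the S29 assembly; it is `Kummer.exists_theta_of`
(`KummerTop.lean`) applied to the eleven pieces of the K package.
-/

set_option autoImplicit false

open scoped MatrixGroups Manifold
open UpperHalfPlane ModularCurve AlgebraicCurve

namespace Fermat.Agent.S29

local notation "Qb" => AlgebraicClosure ℚ

namespace Kummer

/-- an embedding of `ℚ̄` into `ℂ` -/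
noncomputable def embQbar : Qb →+* ℂ :=
  haveI : Algebra.IsAlgebraic ℚ Qb := AlgebraicClosure.isAlgebraic ℚ
  ((IsAlgClosed.lift : Qb →ₐ[ℚ] ℂ) : Qb →+* ℂ)

/-- (K) the Kummer map for a fixed embedding `ι : ℚ̄ → ℂ`. -/
theorem exists_theta_emb (N : ℕ) [NeZero N] (m : ℕ) [NeZero m] (ι : Qb →+* ℂ) :
    ∃ Θ : peHoms N (ZMod m) →+ JZero N, Function.Injective Θ ∧
      ∀ (ℓ : ℕ) [Fact ℓ.Prime] (hℓN : ¬ ℓ ∣ N) (χ χ' : peHoms N (ZMod m)),
        (∀ γ : S22.Gam N, (χ' : Additive (S22.Gam N) →+ ZMod m) (Additive.ofMul γ) =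
          ∑ x : OnePoint (ZMod ℓ),
            (χ : Additive (S22.Gam N) →+ ZMod m) (Additive.ofMul (S22.gamT hℓN γ x))) →
        Θ χ' = heckeOperatorBar N ⟨ℓ, Fact.out⟩ (Θ χ) :=
  exists_theta_of N m ι
    (fun ψ => exists_datum N m ι ψ)
    (fun ψ _ _ h => dvd_ord N m ι ψ h)
    (fun hf hdiv => exists_isRootClass N m hf hdiv)
    (fun hx hy => isRootClass_unique N m hx hy)
    (fun hf hg _ _ hx hy => isRootClass_mul N m hf hg hx hy)
    (fun hh => isRootClass_pow N m hh)
    (fun hf h => exists_pow_of_isRootClass_zero N m hf h)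
    (fun h h' => isKummerDatum_mul N m ι h h')
    (fun h h' => exists_eq_mul_pow N m ι h h')
    (fun h h₀ hh => eq_one_of_pow N m ι h h₀ hh)
    (fun ℓ _ hℓN _ _ _ h => hecke N m ι ℓ hℓN h)

/-- **(K) The Kummer map**: PE characters mod `m` inject Hecke-equivariantly into
`J₀(N)(ℚ̄)`. -/
theorem exists_theta (N : ℕ) [NeZero N] (m : ℕ) (hm : 0 < m) :
    ∃ Θ : peHoms N (ZMod m) →+ JZero N, Function.Injective Θ ∧
      ∀ (ℓ : ℕ) [Fact ℓ.Prime] (hℓN : ¬ ℓ ∣ N) (χ χ' : peHoms N (ZMod m)),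
        (∀ γ : S22.Gam N, (χ' : Additive (S22.Gam N) →+ ZMod m) (Additive.ofMul γ) =
          ∑ x : OnePoint (ZMod ℓ),
            (χ : Additive (S22.Gam N) →+ ZMod m) (Additive.ofMul (S22.gamT hℓN γ x))) →
        Θ χ' = heckeOperatorBar N ⟨ℓ, Fact.out⟩ (Θ χ) :=
  haveI : NeZero m := ⟨hm.ne'⟩
  exists_theta_emb N m embQbar

end Kummer

end Fermat.Agent.S29
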