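import Mathlib
import Fermat.Agent.S29.Defs
import Fermat.Agent.S29.HeckeChar
import Fermat.Agent.S29.RootClass
import Fermat.Agent.S37.HeckeInputs
import Fermat.Agent.S24.CoeffBC
import Fermat.Agent.S24.QIso
import Fermat.Agent.S20.Elliptic

/-!
# The Kummer map `Θ`: final glue

* `exists_hom_of_datum` : abstract construction of an injective additive map from a
  "datum relation" (existence, additivity, well-definedness, injectivity);
* `expHom`, `charOf` : the `μ_m`-valued character `γ ↦ ζ ^ ψ(γ)` of an additive character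
  `ψ : Γ₀(N) → ℤ/m`;
* `IsKummerDatum N m ι ζ hζ ψ u f` : `u` is a nonzero holomorphic function on `ℍ` with multiplier
  `charOf ζ hζ ψ` whose `m`-th power is weakly holomorphic with `q`-expansion the base change
  of `f ∈ F_{ℚ̄}`;
* `IsKummerDatum.mul`, `isKummerDatum_one` : additivity of data;
* `exists_theta_of` : the statement `Kummer.exists_theta` of the wave-5 interface, from the
  packages (existence of data, divisibility, well-definedness, injectivity, Hecke).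
-/

set_option autoImplicit false

open scoped MatrixGroups Manifold
open UpperHalfPlane ModularCurve AlgebraicCurve

namespace Fermat.Agent.S29.KummerGlue

open Fermat.Agent.S22 Fermat.Agent.S29.Betti Fermat.Agent.S29.RootClass

local notation "Qb" => AlgebraicClosure ℚ

/-! ### Abstract glue -/

section Abstract

variable {X J F : Type*} [AddCommGroup X] [AddCommGroup J]

/-- An injective additive map from a datum relation. -/
theorem exists_hom_of_datum (rc : F → J) (Dat : X → F → Prop)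
    (hE : ∀ χ, ∃ f, Dat χ f)
    (hA : ∀ χ χ' f f', Dat χ f → Dat χ' f' → ∃ g, Dat (χ + χ') g ∧ rc g = rc f + rc f')
    (hW : ∀ χ f f', Dat χ f → Dat χ f' → rc f = rc f')
    (hI : ∀ χ f, Dat χ f → rc f = 0 → χ = 0) :
    ∃ Θ : X →+ J, Function.Injective Θ ∧ ∀ χ f, Dat χ f → Θ χ = rc f := by
  classical
  have hsp : ∀ χ f, Dat χ f → rc (hE χ).choose = rc f := fun χ f hf =>
    hW χ _ _ (hE χ).choose_spec hf
  have hadd : ∀ χ χ', rc (hE (χ + χ')).choose = rc (hE χ).choose + rc (hE χ').choose := by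
    intro χ χ'
    obtain ⟨g, hg, hrc⟩ := hA χ χ' _ _ (hE χ).choose_spec (hE χ').choose_spec
    rw [hsp _ g hg, hrc]
  have hzero : rc (hE (0 : X)).choose = 0 := by
    have h := hadd 0 0
    rw [add_zero] at h
    exact left_eq_add.mp h
  let Θ : X →+ J :=
    { toFun := fun χ => rc (hE χ).choose
      map_zero' := hzero
      map_add' := hadd }
  refine ⟨Θ, ?_, fun χ f hf => hsp χ f hf⟩
  rw [injective_iff_map_eq_zero]
  intro χ hχ
  exact hI χ _ (hE χ).choose_spec hχ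

/-- Well-definedness from the vanishing at the trivial character. -/
theorem wellDefined_of_zero (m : ℕ) (hm : 0 < m) (hX : ∀ χ : X, m • χ = 0)
    (rc : F → J) (Dat : X → F → Prop)
    (hE0 : ∃ f, Dat 0 f)
    (hA : ∀ χ χ' f f', Dat χ f → Dat χ' f' → ∃ g, Dat (χ + χ') g ∧ rc g = rc f + rc f')
    (h0 : ∀ f, Dat 0 f → rc f = 0)
    (hm_rc : ∀ χ f, Dat χ f → m • rc f = 0) :
    ∀ χ f f', Dat χ f → Dat χ f' → rc f = rc f' := by
  intro χ f f' hf hf'
  have hpow : ∀ n : ℕ, ∃ g, Dat (n • χ) g ∧ rc g = n • rc f := by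
    intro n
    induction n with
    | zero =>
      obtain ⟨g, hg⟩ := hE0
      exact ⟨g, by rwa [zero_smul], by rw [h0 g hg, zero_smul]⟩
    | succ n ih =>
      obtain ⟨g, hg, hrc⟩ := ih
      obtain ⟨g', hg', hrc'⟩ := hA _ _ _ _ hg hf
      exact ⟨g', by rwa [succ_nsmul], by rw [hrc', hrc, succ_nsmul]⟩
  obtain ⟨g, hg, hrc⟩ := hpow (m - 1)
  obtain ⟨g', hg', hrc'⟩ := hA _ _ _ _ hf' hg
  have hχ : χ + (m - 1) • χ = 0 := by
    rw [← succ_nsmul', Nat.sub_add_cancel hm]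
    exact hX χ
  rw [hχ] at hg'
  have h1 := h0 g' hg'
  rw [hrc', hrc] at h1
  have h2 : rc f + (m - 1) • rc f = 0 := by
    rw [← succ_nsmul', Nat.sub_add_cancel hm]
    exact hm_rc χ f hf
  have h3 : rc f' - rc f = 0 := by
    have e : rc f' - rc f = (rc f' + (m - 1) • rc f) - (rc f + (m - 1) • rc f) := by abel
    rw [e, h1, h2, sub_zero]
  exact (sub_eq_zero.mp h3).symm

end Abstract

/-! ### The exponential character -/

section ExpChar

variable {m : ℕ} [NeZero m]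

/-- `a ↦ ζ ^ a` on `ℤ/m` for an `m`-th root of unity `ζ`. -/
noncomputable def expHom (m : ℕ) [NeZero m] (ζ : ℂˣ) (hζ : ζ ^ m = 1) :
    Multiplicative (ZMod m) →* ℂˣ where
  toFun a := ζ ^ (Multiplicative.toAdd a).val
  map_one' := by simp
  map_mul' a b := by
    rw [toAdd_mul, ZMod.val_add, ← pow_add, ← pow_eq_pow_mod _ hζ]

theorem expHom_apply (ζ : ℂˣ) (hζ : ζ ^ m = 1) (a : Multiplicative (ZMod m)) :
    expHom m ζ hζ a = ζ ^ (Multiplicative.toAdd a).val := rfl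

theorem expHom_pow (ζ : ℂˣ) (hζ : ζ ^ m = 1) (a : Multiplicative (ZMod m)) :
    expHom m ζ hζ a ^ m = 1 := by
  rw [expHom_apply, ← pow_mul, mul_comm, pow_mul, hζ, one_pow]

theorem expHom_eq_one_iff {ζ : ℂˣ} (hζ : IsPrimitiveRoot ζ m) (a : Multiplicative (ZMod m)) :
    expHom m ζ hζ.pow_eq_one a = 1 ↔ a = 1 := by
  rw [expHom_apply, hζ.pow_eq_one_iff_dvd]
  constructor
  · intro h
    have h0 : (Multiplicative.toAdd a).val = 0 :=
      Nat.eq_zero_of_dvd_of_lt h (ZMod.val_lt _)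
    rw [ZMod.val_eq_zero] at h0
    exact Multiplicative.toAdd.injective h0
  · rintro rfl
    simp

/-- The `μ_m`-valued character `γ ↦ ζ ^ ψ(γ)` attached to `ψ : Γ₀(N) → ℤ/m`. -/
noncomputable def charOf {N : ℕ} (ζ : ℂˣ) (hζ : ζ ^ m = 1) (ψ : Additive (Gam N) →+ ZMod m) :
    Gam N →* ℂˣ :=
  (expHom m ζ hζ).comp (AddMonoidHom.toMultiplicativeRight ψ)

variable {N : ℕ}

theorem charOf_apply (ζ : ℂˣ) (hζ : ζ ^ m = 1) (ψ : Additive (Gam N) →+ ZMod m) (γ : Gam N) :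
    charOf ζ hζ ψ γ = ζ ^ (ψ (Additive.ofMul γ)).val := rfl

theorem charOf_pow (ζ : ℂˣ) (hζ : ζ ^ m = 1) (ψ : Additive (Gam N) →+ ZMod m) (γ : Gam N) :
    charOf ζ hζ ψ γ ^ m = 1 :=
  expHom_pow ζ hζ _

theorem charOf_zero (ζ : ℂˣ) (hζ : ζ ^ m = 1) :
    charOf ζ hζ (0 : Additive (Gam N) →+ ZMod m) = 1 := by
  ext γ
  simp [charOf_apply]

theorem charOf_add (ζ : ℂˣ) (hζ : ζ ^ m = 1) (ψ ψ' : Additive (Gam N) →+ ZMod m) :
    charOf ζ hζ (ψ + ψ') = charOf ζ hζ ψ * charOf ζ hζ ψ' := by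
  refine MonoidHom.ext fun γ => ?_
  rw [MonoidHom.mul_apply]
  exact map_mul (expHom m ζ hζ) (Multiplicative.ofAdd (ψ (Additive.ofMul γ)))
    (Multiplicative.ofAdd (ψ' (Additive.ofMul γ)))

theorem charOf_eq_one_iff {ζ : ℂˣ} (hζ : IsPrimitiveRoot ζ m) (ψ : Additive (Gam N) →+ ZMod m)
    (γ : Gam N) : charOf ζ hζ.pow_eq_one ψ γ = 1 ↔ ψ (Additive.ofMul γ) = 0 := by
  show expHom m ζ hζ.pow_eq_one (Multiplicative.ofAdd (ψ (Additive.ofMul γ))) = 1 ↔ _
  rw [expHom_eq_one_iff hζ]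
  exact ⟨fun h => Multiplicative.ofAdd.injective h, fun h => congrArg Multiplicative.ofAdd h⟩

theorem charOf_eq_one_of_eq_zero (ζ : ℂˣ) (hζ : ζ ^ m = 1) (ψ : Additive (Gam N) →+ ZMod m)
    (γ : Gam N) (h : ψ (Additive.ofMul γ) = 0) : charOf ζ hζ ψ γ = 1 := by
  rw [charOf_apply, h]; simp

/-- Hecke compatibility of `ψ ↦ charOf ψ`. -/
theorem charOf_heckeHom {ℓ : ℕ} [Fact ℓ.Prime] (hℓN : ¬ ℓ ∣ N) (ζ : ℂˣ) (hζ : ζ ^ m = 1)
    (ψ : Additive (Gam N) →+ ZMod m) :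
    charOf ζ hζ (heckeHom hℓN ψ) = heckeChar hℓN (charOf ζ hζ ψ) := by
  unfold charOf
  rw [heckeChar_comp]
  rfl

end ExpChar

/-! ### Kummer data -/

section Datum

/-- `(u, f)` is a Kummer datum for `ψ`: `u` is a nonzero holomorphic function on `ℍ` with
`u ∘ γ = ζ ^ ψ(γ) · u` on `Γ₀(N)`, `u ^ m` is weakly holomorphic, and the `q`-expansion of
`u ^ m` is the base change along `ι : ℚ̄ → ℂ` of `f ∈ F_{ℚ̄}`. -/
structure IsKummerDatum (N m : ℕ) [NeZero m] (ι : Qb →+* ℂ) (ζ : ℂˣ) (hζ : ζ ^ m = 1)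
    (ψ : Additive (Gam N) →+ ZMod m) (u : ℍ → ℂ) (f : modularFunctionFieldBar N) : Prop where
  mdiff : MDiff u
  ne_zero : u ≠ 0
  mult : ∀ (γ : Gam N) (z : ℍ), u ((γ : SL(2, ℤ)) • z) = (charOf ζ hζ ψ γ : ℂ) * u z
  isWH : S20.IsWH (CongruenceSubgroup.Gamma0 N) (fun z => u z ^ m)
  bc_eq : ((S24.CoeffBC.bc ι (modularFunctionFieldFull N) f : S24.FF ℂ N) : LaurentSeries ℂ) =
    S24.qLaurentFun (fun z => u z ^ m)

variable {N m : ℕ} [NeZero m] {ι : Qb →+* ℂ} {ζ : ℂˣ} {hζ : ζ ^ m = 1}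

theorem mul_ne_zero_of_mdiff {u u' : ℍ → ℂ} (hu : MDiff u) (hu' : MDiff u') (h : u ≠ 0)
    (h' : u' ≠ 0) : u * u' ≠ 0 := by
  intro h0
  have h1 := S20.ordAt_mul (z := UpperHalfPlane.I) hu hu'
  rw [(S20.ordAt_eq_top_iff (z := UpperHalfPlane.I) (hu.mul hu')).mpr h0] at h1
  rcases WithTop.add_eq_top.mp h1.symm with h2 | h2
  · exact h ((S20.ordAt_eq_top_iff hu).mp h2)
  · exact h' ((S20.ordAt_eq_top_iff hu').mp h2)

theorem isPM_of_isWH {g : ℍ → ℂ} (hg : S20.IsWH (CongruenceSubgroup.Gamma0 N) g) : S24.IsPM g :=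
  S24.mem_PM.mp (S24.WH_le_PM N (S20.mem_WH.mpr hg))

/-- Additivity of Kummer data. -/
theorem IsKummerDatum.mul {ψ ψ' : Additive (Gam N) →+ ZMod m} {u u' : ℍ → ℂ}
    {f f' : modularFunctionFieldBar N}
    (h : IsKummerDatum N m ι ζ hζ ψ u f) (h' : IsKummerDatum N m ι ζ hζ ψ' u' f') :
    IsKummerDatum N m ι ζ hζ (ψ + ψ') (u * u') (f * f') where
  mdiff := h.mdiff.mul h'.mdiff
  ne_zero := mul_ne_zero_of_mdiff h.mdiff h'.mdiff h.ne_zero h'.ne_zero
  mult γ z := by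
    rw [Pi.mul_apply, Pi.mul_apply, h.mult γ z, h'.mult γ z, charOf_add, MonoidHom.mul_apply,
      Units.val_mul]
    ring
  isWH := by
    have e : (fun z => (u * u') z ^ m) = (fun z => u z ^ m) * (fun z => u' z ^ m) := by
      funext z
      simp only [Pi.mul_apply, mul_pow]
    rw [e]
    exact h.isWH.mul h'.isWH
  bc_eq := by
    have e : (fun z => (u * u') z ^ m) = (fun z => u z ^ m) * (fun z => u' z ^ m) := by
      funext z
      simp only [Pi.mul_apply, mul_pow]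
    rw [e, S24.qLaurentFun_mul (isPM_of_isWH h.isWH) (isPM_of_isWH h'.isWH), ← h.bc_eq,
      ← h'.bc_eq, map_mul]
    rfl

end Datum

/-! ### The final glue -/

section Final

variable (N : ℕ) [NeZero N] (m : ℕ) [NeZero m]

/-- **The Kummer map from its packages.**  Given, for every PE character `ψ : Γ₀(N) → ℤ/m`,
a Kummer datum (existence `hE`), divisibility of the divisor of its function by `m` (`hDv`),
independence of the root class of the datum (`hW`), injectivity (`hI`) and the Hecke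
compatibility (`hH`), the root classes define an injective Hecke-equivariant additive map
`Θ : peHoms N (ZMod m) →+ J₀(N)(ℚ̄)`. -/
theorem exists_theta_of (ι : Qb →+* ℂ) (ζ : ℂˣ) (hζ : ζ ^ m = 1)
    (hE : ∀ ψ : peHoms N (ZMod m), ∃ (u : ℍ → ℂ) (f : modularFunctionFieldBar N),
      IsKummerDatum N m ι ζ hζ (ψ : Additive (Gam N) →+ ZMod m) u f)
    (hDv : ∀ (ψ : peHoms N (ZMod m)) (u : ℍ → ℂ) (f : modularFunctionFieldBar N),
      IsKummerDatum N m ι ζ hζ (ψ : Additive (Gam N) →+ ZMod m) u f → IsDivisible Qb m f)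
    (hW : ∀ (ψ : peHoms N (ZMod m)) (u : ℍ → ℂ) (f : modularFunctionFieldBar N) (u' : ℍ → ℂ)
      (f' : modularFunctionFieldBar N),
      IsKummerDatum N m ι ζ hζ (ψ : Additive (Gam N) →+ ZMod m) u f →
      IsKummerDatum N m ι ζ hζ (ψ : Additive (Gam N) →+ ZMod m) u' f' →
      rootClass Qb m f = rootClass Qb m f')
    (hI : ∀ (ψ : peHoms N (ZMod m)) (u : ℍ → ℂ) (f : modularFunctionFieldBar N),
      IsKummerDatum N m ι ζ hζ (ψ : Additive (Gam N) →+ ZMod m) u f →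
      rootClass Qb m f = 0 → ψ = 0)
    (hH : ∀ (ℓ : ℕ) [Fact ℓ.Prime] (hℓN : ¬ ℓ ∣ N) (ψ : peHoms N (ZMod m)) (u : ℍ → ℂ)
      (f : modularFunctionFieldBar N),
      IsKummerDatum N m ι ζ hζ (ψ : Additive (Gam N) →+ ZMod m) u f →
      ∃ (u' : ℍ → ℂ) (f' : modularFunctionFieldBar N),
        IsKummerDatum N m ι ζ hζ (heckeHom hℓN (ψ : Additive (Gam N) →+ ZMod m)) u' f' ∧
        rootClass Qb m f' = heckeOperatorBar N ⟨ℓ, Fact.out⟩ (rootClass Qb m f)) :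
    ∃ Θ : peHoms N (ZMod m) →+ JZero N, Function.Injective Θ ∧
      ∀ (ℓ : ℕ) [Fact ℓ.Prime] (hℓN : ¬ ℓ ∣ N) (χ χ' : peHoms N (ZMod m)),
        (∀ γ : S22.Gam N, (χ' : Additive (S22.Gam N) →+ ZMod m) (Additive.ofMul γ) =
          ∑ x : OnePoint (ZMod ℓ),
            (χ : Additive (S22.Gam N) →+ ZMod m) (Additive.ofMul (S22.gamT hℓN γ x))) →
        Θ χ' = heckeOperatorBar N ⟨ℓ, Fact.out⟩ (Θ χ) := by
  have hm : 0 < m := Nat.pos_of_ne_zero (NeZero.ne m)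
  obtain ⟨Θ, hinj, hΘ⟩ := exists_hom_of_datum
    (X := peHoms N (ZMod m)) (J := JZero N) (F := (ℍ → ℂ) × modularFunctionFieldBar N)
    (fun p => rootClass Qb m p.2)
    (fun ψ p => IsKummerDatum N m ι ζ hζ (ψ : Additive (Gam N) →+ ZMod m) p.1 p.2)
    (fun ψ => by
      obtain ⟨u, f, h⟩ := hE ψ
      exact ⟨(u, f), h⟩)
    (fun ψ ψ' p p' h h' => ⟨(p.1 * p'.1, p.2 * p'.2), h.mul h',
      rootClass_mul hm (hDv ψ _ _ h) (hDv ψ' _ _ h')⟩)
    (fun ψ p p' h h' => hW ψ _ _ _ _ h h')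
    (fun ψ p h h0 => hI ψ _ _ h h0)
  refine ⟨Θ, hinj, ?_⟩
  intro ℓ _ hℓN χ χ' hχ
  obtain ⟨u, f, h⟩ := hE χ
  obtain ⟨u', f', h', hrc⟩ := hH ℓ hℓN χ u f h
  have e : (χ' : Additive (Gam N) →+ ZMod m) =
      heckeHom hℓN (χ : Additive (Gam N) →+ ZMod m) := by
    refine AddMonoidHom.ext fun γ => ?_
    obtain ⟨γ, rfl⟩ := Additive.ofMul.surjective γ
    rw [hχ γ, heckeHom_apply]
  rw [← e] at h'
  rw [hΘ χ' (u', f') h', hΘ χ (u, f) h]
  exact hrc

/-- Variant of `exists_theta_of` where well-definedness is only asked at the trivial character: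
a datum for `ψ = 0` has trivial root class. -/
theorem exists_theta_of_zero (ι : Qb →+* ℂ) (ζ : ℂˣ) (hζ : ζ ^ m = 1)
    (hE : ∀ ψ : peHoms N (ZMod m), ∃ (u : ℍ → ℂ) (f : modularFunctionFieldBar N),
      IsKummerDatum N m ι ζ hζ (ψ : Additive (Gam N) →+ ZMod m) u f)
    (hDv : ∀ (ψ : peHoms N (ZMod m)) (u : ℍ → ℂ) (f : modularFunctionFieldBar N),
      IsKummerDatum N m ι ζ hζ (ψ : Additive (Gam N) →+ ZMod m) u f → IsDivisible Qb m f)
    (h0 : ∀ (u : ℍ → ℂ) (f : modularFunctionFieldBar N),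
      IsKummerDatum N m ι ζ hζ (0 : Additive (Gam N) →+ ZMod m) u f → rootClass Qb m f = 0)
    (hI : ∀ (ψ : peHoms N (ZMod m)) (u : ℍ → ℂ) (f : modularFunctionFieldBar N),
      IsKummerDatum N m ι ζ hζ (ψ : Additive (Gam N) →+ ZMod m) u f →
      rootClass Qb m f = 0 → ψ = 0)
    (hH : ∀ (ℓ : ℕ) [Fact ℓ.Prime] (hℓN : ¬ ℓ ∣ N) (ψ : peHoms N (ZMod m)) (u : ℍ → ℂ)
      (f : modularFunctionFieldBar N),
      IsKummerDatum N m ι ζ hζ (ψ : Additive (Gam N) →+ ZMod m) u f →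
      ∃ (u' : ℍ → ℂ) (f' : modularFunctionFieldBar N),
        IsKummerDatum N m ι ζ hζ (heckeHom hℓN (ψ : Additive (Gam N) →+ ZMod m)) u' f' ∧
        rootClass Qb m f' = heckeOperatorBar N ⟨ℓ, Fact.out⟩ (rootClass Qb m f)) :
    ∃ Θ : peHoms N (ZMod m) →+ JZero N, Function.Injective Θ ∧
      ∀ (ℓ : ℕ) [Fact ℓ.Prime] (hℓN : ¬ ℓ ∣ N) (χ χ' : peHoms N (ZMod m)),
        (∀ γ : S22.Gam N, (χ' : Additive (S22.Gam N) →+ ZMod m) (Additive.ofMul γ) =
          ∑ x : OnePoint (ZMod ℓ),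
            (χ : Additive (S22.Gam N) →+ ZMod m) (Additive.ofMul (S22.gamT hℓN γ x))) →
        Θ χ' = heckeOperatorBar N ⟨ℓ, Fact.out⟩ (Θ χ) := by
  have hm : 0 < m := Nat.pos_of_ne_zero (NeZero.ne m)
  refine exists_theta_of N m ι ζ hζ hE hDv ?_ hI hH
  intro ψ u f u' f' h h'
  exact wellDefined_of_zero (X := peHoms N (ZMod m)) (J := JZero N)
    (F := (ℍ → ℂ) × modularFunctionFieldBar N) m hm
    (fun χ => by
      apply Subtype.ext
      refine AddMonoidHom.ext fun γ => ?_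
      show (m • (χ : Additive (Gam N) →+ ZMod m)) γ = 0
      rw [AddMonoidHom.nsmul_apply, nsmul_eq_mul, ZMod.natCast_self, zero_mul])
    (fun p => rootClass Qb m p.2)
    (fun ψ p => IsKummerDatum N m ι ζ hζ (ψ : Additive (Gam N) →+ ZMod m) p.1 p.2)
    (by
      obtain ⟨u, f, h⟩ := hE 0
      exact ⟨(u, f), h⟩)
    (fun ψ ψ' p p' h h' => ⟨(p.1 * p'.1, p.2 * p'.2), h.mul h',
      rootClass_mul hm (hDv ψ _ _ h) (hDv ψ' _ _ h')⟩)
    (fun p h => h0 _ _ h)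
    (fun ψ p h => nsmul_rootClass hm (hDv ψ _ _ h))
    ψ (u, f) (u', f') h h'

end Final

end Fermat.Agent.S29.KummerGlue
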