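import Mathlib
import Fermat.Prelude.Def_ModularCurve_LaurentCoeff

/-!
# S29 (wave 5): roots of rational Laurent series are rational

Let `K` be an algebraically closed field of characteristic zero and `ι : K → C` a field
embedding.  If `x ∈ C((q))` has `x ^ m = ι(z)` for a Laurent series `z` with coefficients in
`K`, then `x` itself has coefficients in `K` (`exists_coeffMap_eq_of_pow`).

Ingredients: Hensel's lemma in `K⟦X⟧` (`exists_powerSeries_pow_eq`), roots of Laurent series
whose order is divisible by `m` (`exists_pow_eq`), and the fact that the `m`-th roots of unity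
of the field `C((q))` are constants coming from `K`.
-/

set_option autoImplicit false

open ModularCurve

namespace Fermat.Agent.S29.LaurentRoot

open Polynomial in
/-- Hensel: a power series with nonzero constant coefficient over an algebraically closed
field of characteristic zero is an `m`-th power. -/
theorem exists_powerSeries_pow_eq {K : Type*} [Field K] [IsAlgClosed K] [CharZero K]
    {m : ℕ} (hm : 0 < m) (P : PowerSeries K) (hP : PowerSeries.constantCoeff P ≠ 0) :
    ∃ R : PowerSeries K, R ^ m = P := by
  obtain ⟨a, ha⟩ := IsAlgClosed.exists_pow_nat_eq (PowerSeries.constantCoeff P) hm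
  have ha0 : a ≠ 0 := by
    rintro rfl
    rw [zero_pow hm.ne'] at ha
    exact hP ha.symm
  have hH : HenselianRing (PowerSeries K) (Ideal.span {(PowerSeries.X : PowerSeries K)}) :=
    inferInstance
  have hmonic : (X ^ m - C P : (PowerSeries K)[X]).Monic := monic_X_pow_sub_C P hm.ne'
  have h1 : (X ^ m - C P : (PowerSeries K)[X]).eval (PowerSeries.C a) ∈
      Ideal.span {(PowerSeries.X : PowerSeries K)} := by
    rw [Ideal.mem_span_singleton, PowerSeries.X_dvd_iff]
    simp only [eval_sub, eval_pow, eval_X, eval_C, map_sub, map_pow,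
      PowerSeries.constantCoeff_C]
    rw [ha, sub_self]
  have h2 : IsUnit (Ideal.Quotient.mk (Ideal.span {(PowerSeries.X : PowerSeries K)})
      ((X ^ m - C P : (PowerSeries K)[X]).derivative.eval (PowerSeries.C a))) := by
    apply IsUnit.map
    rw [PowerSeries.isUnit_iff_constantCoeff]
    simp only [derivative_sub, derivative_X_pow, derivative_C, sub_zero, eval_mul,
      eval_pow, eval_X, eval_natCast, map_mul, map_pow, PowerSeries.constantCoeff_C, map_natCast]
    exact isUnit_iff_ne_zero.mpr
      (mul_ne_zero (Nat.cast_ne_zero.mpr hm.ne') (pow_ne_zero _ ha0))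
  obtain ⟨R, hR, -⟩ := hH.is_henselian _ hmonic (PowerSeries.C a) h1 h2
  refine ⟨R, ?_⟩
  have h3 : (X ^ m - C P : (PowerSeries K)[X]).eval R = 0 := hR
  simp only [eval_sub, eval_pow, eval_X, eval_C] at h3
  exact sub_eq_zero.mp h3

/-- A nonzero Laurent series over an algebraically closed field of characteristic zero whose
order is divisible by `m` is an `m`-th power. -/
theorem exists_pow_eq {K : Type*} [Field K] [IsAlgClosed K] [CharZero K] {m : ℕ} (hm : 0 < m)
    (z : LaurentSeries K) (hz : z ≠ 0) (hdvd : (m : ℤ) ∣ z.order) :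
    ∃ y : LaurentSeries K, y ^ m = z := by
  obtain ⟨k, hk⟩ := hdvd
  have hP : PowerSeries.constantCoeff z.powerSeriesPart ≠ 0 := by
    rw [← PowerSeries.coeff_zero_eq_constantCoeff_apply, LaurentSeries.powerSeriesPart_coeff]
    simp only [Nat.cast_zero, add_zero]
    exact HahnSeries.coeff_order_eq_zero.not.mpr hz
  obtain ⟨R, hR⟩ := exists_powerSeries_pow_eq hm z.powerSeriesPart hP
  refine ⟨HahnSeries.single k (1 : K) * (R : LaurentSeries K), ?_⟩
  rw [mul_pow, HahnSeries.single_pow, one_pow, ← PowerSeries.coe_pow, hR, nsmul_eq_mul, ← hk]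
  exact LaurentSeries.single_order_mul_powerSeriesPart z

/-- the coefficient map of an injective homomorphism preserves the order -/
theorem order_coeffMap {K C : Type*} [Field K] [Field C] (ι : K →+* C) (z : LaurentSeries K) :
    (coeffMap ι z).order = z.order := by
  by_cases hz : z = 0
  · rw [hz, map_zero, HahnSeries.order_zero, HahnSeries.order_zero]
  have hz' : coeffMap ι z ≠ 0 := by
    intro h
    apply hz
    ext k
    have := congrArg (fun s : LaurentSeries C => s.coeff k) h
    simp only [coeffMap_coeff, HahnSeries.coeff_zero] at this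
    simpa using (map_eq_zero ι).mp this
  apply le_antisymm
  · apply HahnSeries.order_le_of_coeff_ne_zero
    rw [coeffMap_coeff]
    exact (map_ne_zero ι).mpr (HahnSeries.coeff_order_eq_zero.not.mpr hz)
  · apply HahnSeries.order_le_of_coeff_ne_zero
    have h := HahnSeries.coeff_order_eq_zero.not.mpr hz'
    rw [coeffMap_coeff] at h
    exact fun h0 => h (by rw [h0, map_zero])

theorem coeffMap_injective {K C : Type*} [Field K] [Field C] (ι : K →+* C) :
    Function.Injective (coeffMap ι) := by
  rw [injective_iff_map_eq_zero]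
  intro z h
  ext k
  have := congrArg (fun s : LaurentSeries C => s.coeff k) h
  simp only [coeffMap_coeff, HahnSeries.coeff_zero] at this
  simpa using (map_eq_zero ι).mp this

theorem coeffMap_C {K C : Type*} [Field K] [Field C] (ι : K →+* C) (a : K) :
    coeffMap ι (HahnSeries.C a) = HahnSeries.C (ι a) := by
  exact coeffMap_single ι 0 a

/-- **Roots of rational Laurent series are rational.**  If `K` is algebraically closed of
characteristic zero, `ι : K → C` a field embedding and `x ^ m = ι(z)` in `C((q))`, then
`x = ι(y)` for a Laurent series `y` over `K`. -/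
theorem exists_coeffMap_eq_of_pow {K C : Type*} [Field K] [IsAlgClosed K] [CharZero K]
    [Field C] (ι : K →+* C) {m : ℕ} (hm : 0 < m) (x : LaurentSeries C) (z : LaurentSeries K)
    (h : x ^ m = coeffMap ι z) : ∃ y : LaurentSeries K, coeffMap ι y = x := by
  by_cases hz : z = 0
  · refine ⟨0, ?_⟩
    rw [hz, map_zero] at h
    rw [map_zero, (pow_eq_zero_iff hm.ne').mp h]
  have hx : x ≠ 0 := by
    rintro rfl
    rw [zero_pow hm.ne'] at h
    exact hz (coeffMap_injective ι (by rw [← h, map_zero]))
  -- the order of `z` is divisible by `m`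
  have hdvd : (m : ℤ) ∣ z.order := by
    have h1 := congrArg HahnSeries.order h
    rw [HahnSeries.order_pow, order_coeffMap, nsmul_eq_mul] at h1
    exact ⟨x.order, h1.symm⟩
  obtain ⟨y₀, hy₀⟩ := exists_pow_eq hm z hz hdvd
  have hy₀0 : coeffMap ι y₀ ≠ 0 := by
    intro h0
    apply hz
    rw [← hy₀, (coeffMap_injective ι (by rw [h0, map_zero]) : y₀ = 0), zero_pow hm.ne']
  -- the quotient is an `m`-th root of unity of the field `C((q))`
  have hζ : (x / coeffMap ι y₀) ^ m = 1 := by
    rw [div_pow, h, ← hy₀, map_pow]
    exact div_self (pow_ne_zero m hy₀0)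
  -- a primitive `m`-th root of unity of `K`
  have : NeZero (m : K) := ⟨Nat.cast_ne_zero.mpr hm.ne'⟩
  have : NeZero m := ⟨hm.ne'⟩
  obtain ⟨ζ₀, hζ₀⟩ := HasEnoughRootsOfUnity.exists_primitiveRoot K m
  have hprim : IsPrimitiveRoot (HahnSeries.C (ι ζ₀) : LaurentSeries C) m := by
    have h1 : IsPrimitiveRoot (ι ζ₀) m := hζ₀.map_of_injective ι.injective
    exact h1.map_of_injective (HahnSeries.C_injective (Γ := ℤ) (R := C))
  obtain ⟨i, -, hi⟩ := hprim.eq_pow_of_pow_eq_one hζ
  refine ⟨HahnSeries.C (ζ₀ ^ i) * y₀, ?_⟩
  rw [map_mul, coeffMap_C, map_pow, map_pow, hi]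
  exact div_mul_cancel₀ x hy₀0

end Fermat.Agent.S29.LaurentRoot
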