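import Mathlib
import Fermat.Agent.S24.BaseChange
import Fermat.Agent.S24.Hurwitz
import Fermat.Agent.S24.CoeffBC
import Fermat.Agent.S18.RamJ

/-!
# S29 (UNR): the constant-field extension of a function field is unramified at places

Setting of `S24.BaseChange`: `K ⊆ K'` algebraically closed of characteristic zero,
`φ : F →+* F'` semilinear over `ι : K →+* K'`, preserving linear independence, with
`F' = K'(φ F)`.  If `v'` is a place of `F'` over the place `v` of `F` then
`v'.ord (φ f) = v.ord f` for every `f` (the ramification index is one), and the places of `F'`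
at which some `φ f` has a zero or a pole are exactly the places over places of `F`.

Instantiated for `FF ℚ̄ N → FF ℂ N` (coefficient extension along any `ι : ℚ̄ →+* ℂ`).
-/

set_option autoImplicit false
set_option linter.unusedSectionVars false

namespace Fermat.Agent.S29.Unram

open AlgebraicCurve IntermediateField ModularCurve
open Fermat.Agent.S24
open scoped Polynomial

section Generic

variable {K K' F F' : Type*} [Field K] [IsAlgClosed K] [CharZero K]
  [Field K'] [IsAlgClosed K'] [CharZero K'] [Field F] [Field F'] [Algebra K F] [Algebra K' F']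

/-- an element with a zero or a pole is transcendental over the constants -/
theorem transcendental_of_ord_ne_zero (v : Place K F) {y : F} (hy : v.ord y ≠ 0) :
    Transcendental K y := by
  intro halg
  obtain ⟨a, rfl⟩ := Hurwitz.exists_algebraMap_eq_of_isAlgebraic y halg
  exact hy (Hurwitz.ord_algebraMap v a)

/-- two places of `F` under the same place of `F'` coincide -/
theorem place_eq_of_over (φ : F →+* F') {v w : Place K F} {v' : Place K' F'}
    (hv : ∀ f : F, f ∈ v.toValuationSubring ↔ φ f ∈ v'.toValuationSubring)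
    (hw : ∀ f : F, f ∈ w.toValuationSubring ↔ φ f ∈ v'.toValuationSubring) : v = w := by
  apply Place.ext
  ext f
  rw [hv f, hw f]

/-- **(U1)** the constant-field extension is unramified: orders do not change. -/
theorem ord_map_eq (ι : K →+* K') (φ : F →+* F')
    (hφ : ∀ a : K, φ (algebraMap K F a) = algebraMap K' F' (ι a))
    (hLD : ∀ (n : ℕ) (f : Fin n → F), LinearIndependent K f → LinearIndependent K' (φ ∘ f))
    (hgen : IntermediateField.adjoin K' (Set.range φ) = ⊤)
    (x : F) (hx : Transcendental K x) [FiniteDimensional K⟮x⟯ F]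
    (v : Place K F) (v' : Place K' F')
    (hR : ∀ f : F, f ∈ v.toValuationSubring ↔ φ f ∈ v'.toValuationSubring) (f : F) :
    v'.ord (φ f) = v.ord f := by
  classical
  obtain ⟨e, he, hord⟩ := BaseChange.exists_ord_eq_mul φ v v' hR
  suffices h1 : e = 1 by rw [hord, h1, one_mul]
  obtain ⟨π, hπ⟩ := IsDiscreteValuationRing.exists_irreducible v.toValuationSubring
  obtain ⟨y, hy⟩ : ∃ y : F, y = (π : F) := ⟨_, rfl⟩
  have hy1 : v.ord y = 1 := by rw [hy]; exact v.ord_coe_irreducible hπ
  have hytr : Transcendental K y :=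
    transcendental_of_ord_ne_zero v (by rw [hy1]; exact one_ne_zero)
  have hFy : FiniteDimensional K⟮y⟯ F := finiteDimensional_of_transcendental x y hx hytr
  obtain ⟨hx', hfin', -⟩ := BaseChange.finrank_ascent ι φ hφ hLD hgen x hx
  obtain ⟨hy', hfiny', hdeg⟩ := BaseChange.finrank_ascent ι φ hφ hLD hgen y hytr
  obtain ⟨S, hS, hSsum⟩ := exists_finset_zeros y hytr
  obtain ⟨S', hS', hS'sum⟩ := exists_finset_zeros (φ y) hy'
  -- a place over every place, equal to `v'` over `v`
  have hover : ∀ w : Place K F, ∃ w' : Place K' F',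
      (∀ f : F, f ∈ w.toValuationSubring ↔ φ f ∈ w'.toValuationSubring) ∧ (w = v → w' = v') := by
    intro w
    by_cases hwv : w = v
    · exact ⟨v', by rw [hwv]; exact hR, fun _ => rfl⟩
    · obtain ⟨w', hw'⟩ := BaseChange.exists_place_over ι φ hφ hLD (φ x) hx' w
      exact ⟨w', hw', fun h => absurd h hwv⟩
  choose ov hov hovv using hover
  have hinj : Function.Injective ov := fun w₁ w₂ h =>
    place_eq_of_over φ (hov w₁) (by rw [h]; exact hov w₂)
  have hge : ∀ w ∈ S, w.ord y ≤ (ov w).ord (φ y) := by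
    intro w hw
    obtain ⟨e', he', hord'⟩ := BaseChange.exists_ord_eq_mul φ w (ov w) (hov w)
    rw [hord']
    have hpos : 0 < w.ord y := (hS w).mp hw
    nlinarith
  have himg : S.image ov ⊆ S' := by
    intro w' hw'
    obtain ⟨w, hw, rfl⟩ := Finset.mem_image.mp hw'
    rw [hS']
    exact lt_of_lt_of_le ((hS w).mp hw) (hge w hw)
  have hvS : v ∈ S := by rw [hS, hy1]; exact one_pos
  have hsum : ∑ w ∈ S, (ov w).ord (φ y) ≤ ∑ w ∈ S, w.ord y := by
    calc ∑ w ∈ S, (ov w).ord (φ y)
        = ∑ w' ∈ S.image ov, w'.ord (φ y) :=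
          (Finset.sum_image (f := fun w' : Place K' F' => w'.ord (φ y))
            (fun a _ b _ h => hinj h)).symm
      _ ≤ ∑ w' ∈ S', w'.ord (φ y) :=
          Finset.sum_le_sum_of_subset_of_nonneg himg fun w' hw' _ => ((hS' w').mp hw').le
      _ = (Module.finrank K'⟮φ y⟯ F' : ℤ) := hS'sum
      _ = (Module.finrank K⟮y⟯ F : ℤ) := by rw [hdeg]
      _ = ∑ w ∈ S, w.ord y := hSsum.symm
  have hvle : (ov v).ord (φ y) ≤ v.ord y := by
    by_contra hlt
    push Not at hlt
    have := Finset.sum_lt_sum hge ⟨v, hvS, hlt⟩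
    exact absurd hsum (not_le.mpr this)
  rw [hovv v rfl, hord, hy1, mul_one] at hvle
  omega

/-- **(U2)** over every place of `F` there is a place of `F'` with the same order function. -/
theorem exists_place_over_ord (ι : K →+* K') (φ : F →+* F')
    (hφ : ∀ a : K, φ (algebraMap K F a) = algebraMap K' F' (ι a))
    (hLD : ∀ (n : ℕ) (f : Fin n → F), LinearIndependent K f → LinearIndependent K' (φ ∘ f))
    (hgen : IntermediateField.adjoin K' (Set.range φ) = ⊤)
    (x : F) (hx : Transcendental K x) [FiniteDimensional K⟮x⟯ F] (v : Place K F) :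
    ∃ v' : Place K' F', (∀ f : F, f ∈ v.toValuationSubring ↔ φ f ∈ v'.toValuationSubring) ∧
      ∀ f : F, v'.ord (φ f) = v.ord f := by
  obtain ⟨hx', hfin', -⟩ := BaseChange.finrank_ascent ι φ hφ hLD hgen x hx
  obtain ⟨v', hv'⟩ := BaseChange.exists_place_over ι φ hφ hLD (φ x) hx' v
  exact ⟨v', hv', fun f => ord_map_eq ι φ hφ hLD hgen x hx v v' hv' f⟩

/-- **(U3)** a place of `F'` at which some `φ f` has a zero or a pole lies over a place of `F`
(with the same order function). -/
theorem exists_place_under_of_ord_ne_zero (ι : K →+* K') (φ : F →+* F')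
    (hφ : ∀ a : K, φ (algebraMap K F a) = algebraMap K' F' (ι a))
    (hLD : ∀ (n : ℕ) (f : Fin n → F), LinearIndependent K f → LinearIndependent K' (φ ∘ f))
    (hgen : IntermediateField.adjoin K' (Set.range φ) = ⊤)
    (x : F) (hx : Transcendental K x) [FiniteDimensional K⟮x⟯ F] (v' : Place K' F') (f : F)
    (h : v'.ord (φ f) ≠ 0) :
    ∃ v : Place K F, (∀ g : F, g ∈ v.toValuationSubring ↔ φ g ∈ v'.toValuationSubring) ∧
      ∀ g : F, v'.ord (φ g) = v.ord g := by
  obtain ⟨y, hy⟩ : ∃ y : F, 0 < v'.ord (φ y) := by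
    rcases lt_or_gt_of_ne h with hlt | hgt
    · refine ⟨f⁻¹, ?_⟩
      rw [map_inv₀, v'.ord_inv]
      omega
    · exact ⟨f, hgt⟩
  obtain ⟨v, hv⟩ := BaseChange.exists_place_under ι φ hφ x hx v' y hy
  exact ⟨v, hv, fun g => ord_map_eq ι φ hφ hLD hgen x hx v v' hv g⟩

/-- **(U4)** divisibility of all orders can be tested on either side. -/
theorem dvd_ord_iff (ι : K →+* K') (φ : F →+* F')
    (hφ : ∀ a : K, φ (algebraMap K F a) = algebraMap K' F' (ι a))
    (hLD : ∀ (n : ℕ) (f : Fin n → F), LinearIndependent K f → LinearIndependent K' (φ ∘ f))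
    (hgen : IntermediateField.adjoin K' (Set.range φ) = ⊤)
    (x : F) (hx : Transcendental K x) [FiniteDimensional K⟮x⟯ F] (m : ℤ) (f : F) :
    (∀ v' : Place K' F', m ∣ v'.ord (φ f)) ↔ ∀ v : Place K F, m ∣ v.ord f := by
  constructor
  · intro h v
    obtain ⟨v', -, hv'⟩ := exists_place_over_ord ι φ hφ hLD hgen x hx v
    rw [← hv' f]
    exact h v'
  · intro h v'
    by_cases h0 : v'.ord (φ f) = 0
    · rw [h0]; exact dvd_zero m
    · obtain ⟨v, -, hv⟩ := exists_place_under_of_ord_ne_zero ι φ hφ hLD hgen x hx v' f h0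
      rw [hv f]
      exact h v

end Generic

/-! ### the modular function fields `FF ℚ̄ N → FF ℂ N` -/

section Modular

variable (N : ℕ) [NeZero N] (ι : AlgebraicClosure ℚ →+* ℂ)

/-- orders at a place of `FF ℂ N` over a place of `FF ℚ̄ N` -/
theorem ord_bc_eq (v : Place (AlgebraicClosure ℚ) (FF (AlgebraicClosure ℚ) N))
    (v' : Place ℂ (FF ℂ N))
    (hR : ∀ f : FF (AlgebraicClosure ℚ) N, f ∈ v.toValuationSubring ↔
      CoeffBC.bc ι (modularFunctionFieldFull N) f ∈ v'.toValuationSubring)
    (f : FF (AlgebraicClosure ℚ) N) :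
    v'.ord (CoeffBC.bc ι (modularFunctionFieldFull N) f) = v.ord f := by
  obtain ⟨hx, hfd⟩ := Fermat.Agent.S18.RamJ.bar_transcendental N
  exact ord_map_eq ι (CoeffBC.bc ι (modularFunctionFieldFull N))
    (fun c => CoeffBC.bc_algebraMap ι _ c) (fun n f hf => CoeffBC.bc_linearIndependent ι _ n f hf)
    (CoeffBC.adjoin_range_bc ι _) (jBC (AlgebraicClosure ℚ) N) hx v v' hR f

/-- over every place of `FF ℚ̄ N` there is a place of `FF ℂ N` with the same orders -/
theorem exists_place_over_ord_bc (v : Place (AlgebraicClosure ℚ) (FF (AlgebraicClosure ℚ) N)) :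
    ∃ v' : Place ℂ (FF ℂ N),
      (∀ f : FF (AlgebraicClosure ℚ) N, f ∈ v.toValuationSubring ↔
        CoeffBC.bc ι (modularFunctionFieldFull N) f ∈ v'.toValuationSubring) ∧
      ∀ f : FF (AlgebraicClosure ℚ) N,
        v'.ord (CoeffBC.bc ι (modularFunctionFieldFull N) f) = v.ord f := by
  obtain ⟨hx, hfd⟩ := Fermat.Agent.S18.RamJ.bar_transcendental N
  exact exists_place_over_ord ι (CoeffBC.bc ι (modularFunctionFieldFull N))
    (fun c => CoeffBC.bc_algebraMap ι _ c) (fun n f hf => CoeffBC.bc_linearIndependent ι _ n f hf)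
    (CoeffBC.adjoin_range_bc ι _) (jBC (AlgebraicClosure ℚ) N) hx v

/-- a place of `FF ℂ N` at which some element of `FF ℚ̄ N` has a zero or pole lies over a place
of `FF ℚ̄ N` -/
theorem exists_place_under_bc (v' : Place ℂ (FF ℂ N)) (f : FF (AlgebraicClosure ℚ) N)
    (h : v'.ord (CoeffBC.bc ι (modularFunctionFieldFull N) f) ≠ 0) :
    ∃ v : Place (AlgebraicClosure ℚ) (FF (AlgebraicClosure ℚ) N),
      (∀ g : FF (AlgebraicClosure ℚ) N, g ∈ v.toValuationSubring ↔
        CoeffBC.bc ι (modularFunctionFieldFull N) g ∈ v'.toValuationSubring) ∧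
      ∀ g : FF (AlgebraicClosure ℚ) N,
        v'.ord (CoeffBC.bc ι (modularFunctionFieldFull N) g) = v.ord g := by
  obtain ⟨hx, hfd⟩ := Fermat.Agent.S18.RamJ.bar_transcendental N
  exact exists_place_under_of_ord_ne_zero ι (CoeffBC.bc ι (modularFunctionFieldFull N))
    (fun c => CoeffBC.bc_algebraMap ι _ c) (fun n f hf => CoeffBC.bc_linearIndependent ι _ n f hf)
    (CoeffBC.adjoin_range_bc ι _) (jBC (AlgebraicClosure ℚ) N) hx v' f h

/-- `m ∣ div f₀` over `ℚ̄` iff `m ∣ div (bc f₀)` over `ℂ` -/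
theorem dvd_ord_bc_iff (m : ℤ) (f₀ : FF (AlgebraicClosure ℚ) N) :
    (∀ v' : Place ℂ (FF ℂ N), m ∣ v'.ord (CoeffBC.bc ι (modularFunctionFieldFull N) f₀)) ↔
      ∀ v : Place (AlgebraicClosure ℚ) (FF (AlgebraicClosure ℚ) N), m ∣ v.ord f₀ := by
  obtain ⟨hx, hfd⟩ := Fermat.Agent.S18.RamJ.bar_transcendental N
  exact dvd_ord_iff ι (CoeffBC.bc ι (modularFunctionFieldFull N))
    (fun c => CoeffBC.bc_algebraMap ι _ c) (fun n f hf => CoeffBC.bc_linearIndependent ι _ n f hf)
    (CoeffBC.adjoin_range_bc ι _) (jBC (AlgebraicClosure ℚ) N) hx m f₀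

end Modular

end Fermat.Agent.S29.Unram
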