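import Mathlib
import Fermat.Agent.S14.MassUniv

/-!
# Weak Chebotarev, package C2: counting primes by decomposition group

For a finite Galois extension `M / ℚ` with group `G`, a subgroup `H ≤ G` with fixed field `K`,
and primes `P` of `M` with trivial inertia:

* `exists_bad_finset` : outside a finite set of rational primes all inertia groups are trivial;
* `tsum_stabilizer_le` : the weighted count of the primes `P` of `M` with decomposition group
  contained in `H` equals `|H|` times the count of the primes of `K` of prime norm.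
-/

set_option autoImplicit false
set_option linter.unusedSectionVars false

open scoped NumberField Pointwise
open IsDedekindDomain

namespace Fermat.Agent.S29.WeakCheb

open Fermat.Agent.S14 Fermat.Agent.S14.MassUniv

section Gen

variable (K M : Type) [Field K] [NumberField K] [Field M] [NumberField M] [Algebra K M]
  (Γ : Type) [Group Γ] [Finite Γ] [MulSemiringAction Γ M] [IsGaloisGroup Γ K M]

theorem card_stab_gen (P : HeightOneSpectrum (𝓞 M)) (hI : Ideal.inertia Γ P.asIdeal = ⊥) :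
    Nat.card (MulAction.stabilizer Γ P.asIdeal) = P.asIdeal.inertiaDeg (𝓞 K) := by
  have h := Ideal.card_stabilizer_eq_card_inertia_mul_finrank (G := Γ)
    (P.asIdeal.under (𝓞 K)) P.asIdeal
  rw [hI] at h
  simpa using h

theorem ncard_mul_gen (P : HeightOneSpectrum (𝓞 M)) (hI : Ideal.inertia Γ P.asIdeal = ⊥) :
    ((P.asIdeal.under (𝓞 K)).primesOver (𝓞 M)).ncard * P.asIdeal.inertiaDeg (𝓞 K)
      = Nat.card Γ := by
  have h := Ideal.ncard_primesOver_mul_card_inertia_mul_finrank (G := Γ)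
    (P.asIdeal.under (𝓞 K)) P.asIdeal
  rw [hI] at h
  simpa using h

variable [IsGalois ℚ M] (ι : Γ →* Gal(M/ℚ)) (hι : ∀ (g : Γ) (x : M), g • x = ι g x)

include hι in
theorem smul_eq_gen (g : Γ) (x : 𝓞 M) : g • x = ι g • x :=
  Subtype.ext (hι g x)

include hι in
theorem smul_ideal_eq_gen (g : Γ) (I : Ideal (𝓞 M)) : g • I = ι g • I := by
  ext x
  rw [Ideal.mem_pointwise_smul_iff_inv_smul_mem, Ideal.mem_pointwise_smul_iff_inv_smul_mem,
    smul_eq_gen M Γ ι hι, map_inv]

include hι in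
theorem stab_eq_gen (I : Ideal (𝓞 M)) :
    MulAction.stabilizer Γ I = (MulAction.stabilizer Gal(M/ℚ) I).comap ι := by
  ext g
  rw [Subgroup.mem_comap, MulAction.mem_stabilizer_iff, MulAction.mem_stabilizer_iff,
    smul_ideal_eq_gen M Γ ι hι]

include hι in
theorem inertia_eq_gen (I : Ideal (𝓞 M)) :
    Ideal.inertia Γ I = (Ideal.inertia Gal(M/ℚ) I).comap ι := by
  ext g
  rw [Subgroup.mem_comap, AddSubgroup.mem_inertia, AddSubgroup.mem_inertia]
  refine forall_congr' fun x => ?_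
  rw [smul_eq_gen M Γ ι hι]

end Gen

section Below

variable (K : Type) [Field K] [NumberField K]

theorem below_eq_of_mem (v : HeightOneSpectrum (𝓞 K)) {q : ℕ} (hq : q.Prime)
    (hmem : ((q : ℕ) : 𝓞 K) ∈ v.asIdeal) : below K v = q := by
  obtain ⟨j, hj1, hj⟩ := absNorm_eq_pow K v hq hmem
  unfold below
  rw [hj]
  exact hq.pow_minFac (by omega)

theorem below_prime (v : HeightOneSpectrum (𝓞 K)) : (below K v).Prime := (below_spec K v).1

theorem below_mem (v : HeightOneSpectrum (𝓞 K)) : ((below K v : ℕ) : 𝓞 K) ∈ v.asIdeal :=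
  (below_spec K v).2.1

/-- the norm of a prime is the rational prime below to the power the inertia degree -/
theorem absNorm_eq_below_pow (v : HeightOneSpectrum (𝓞 K)) :
    Ideal.absNorm v.asIdeal = below K v ^ v.asIdeal.inertiaDeg ℤ := by
  have h := Ideal.absNorm_pow_inertiaDeg (v.asIdeal.under ℤ) v.asIdeal
  rw [← h]
  congr 1
  symm
  have hp : Prime (v.asIdeal.under ℤ) :=
    Ideal.prime_of_isPrime (v.under ℤ).ne_bot (v.under ℤ).isPrime
  have hn : (Ideal.absNorm (v.asIdeal.under ℤ)).Prime := (Int.prime_absNorm _).mpr hp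
  apply below_eq_of_mem K v hn
  have hmem : ((Ideal.absNorm (v.asIdeal.under ℤ) : ℕ) : ℤ) ∈ v.asIdeal.under ℤ :=
    Ideal.absNorm_mem _
  have h2 : algebraMap ℤ (𝓞 K) ((Ideal.absNorm (v.asIdeal.under ℤ) : ℕ) : ℤ) ∈ v.asIdeal := hmem
  rwa [eq_intCast, Int.cast_natCast] at h2

theorem inertiaDeg_int_pos (v : HeightOneSpectrum (𝓞 K)) : 0 < v.asIdeal.inertiaDeg ℤ :=
  Ideal.inertiaDeg_pos _ _

theorem absNorm_prime_iff (v : HeightOneSpectrum (𝓞 K)) :
    (Ideal.absNorm v.asIdeal).Prime ↔ v.asIdeal.inertiaDeg ℤ = 1 := by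
  rw [absNorm_eq_below_pow]
  constructor
  · intro h
    have hq := below_prime K v
    have hf := inertiaDeg_int_pos K v
    rcases h.eq_one_or_self_of_dvd (below K v) (dvd_pow_self _ (by omega)) with h1 | h1
    · exact absurd h1 hq.one_lt.ne'
    · have h2 : below K v ^ 1 = below K v ^ v.asIdeal.inertiaDeg ℤ := by rw [pow_one]; exact h1
      exact (Nat.pow_right_injective hq.two_le h2).symm
  · intro h
    rw [h, pow_one]
    exact below_prime K v

end Below

section Abs

variable (M : Type) [Field M] [NumberField M] [IsGalois ℚ M]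

theorem card_stab_int (P : HeightOneSpectrum (𝓞 M))
    (hI : Ideal.inertia Gal(M/ℚ) P.asIdeal = ⊥) :
    Nat.card (MulAction.stabilizer Gal(M/ℚ) P.asIdeal) = P.asIdeal.inertiaDeg ℤ := by
  have h := Ideal.card_stabilizer_eq_card_inertia_mul_finrank (G := Gal(M/ℚ))
    (P.asIdeal.under ℤ) P.asIdeal
  rw [hI] at h
  simpa using h

variable (H : Subgroup Gal(M/ℚ))

/-- the fixed field of `H` -/
abbrev KH : IntermediateField ℚ M := FixedPoints.intermediateField H

theorem below_under (P : HeightOneSpectrum (𝓞 M)) :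
    below (KH M H) (P.under (𝓞 (KH M H))) = below M P := by
  apply below_eq_of_mem _ _ (below_prime M P)
  have h := below_mem M P
  show algebraMap (𝓞 (KH M H)) (𝓞 M) ((below M P : ℕ) : 𝓞 (KH M H)) ∈ P.asIdeal
  rwa [map_natCast]

theorem card_subgroupOf (P : HeightOneSpectrum (𝓞 M))
    (hI : Ideal.inertia Gal(M/ℚ) P.asIdeal = ⊥) :
    Nat.card ((MulAction.stabilizer Gal(M/ℚ) P.asIdeal).subgroupOf H)
      = P.asIdeal.inertiaDeg (𝓞 (KH M H)) := by
  have hI' := inertia_eq_gen M H H.subtype (fun _ _ => rfl) P.asIdeal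
  rw [hI] at hI'
  have hI'' := hI'.trans ((MonoidHom.ker_eq_bot_iff H.subtype).mpr H.subtype_injective)
  have h := card_stab_gen (KH M H) M H P hI''
  rw [stab_eq_gen M H H.subtype (fun _ _ => rfl)] at h
  exact h

theorem ncard_mul (P : HeightOneSpectrum (𝓞 M))
    (hI : Ideal.inertia Gal(M/ℚ) P.asIdeal = ⊥) :
    ((P.asIdeal.under (𝓞 (KH M H))).primesOver (𝓞 M)).ncard
      * P.asIdeal.inertiaDeg (𝓞 (KH M H)) = Nat.card H := by
  have hI' := inertia_eq_gen M H H.subtype (fun _ _ => rfl) P.asIdeal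
  rw [hI] at hI'
  have hI'' := hI'.trans ((MonoidHom.ker_eq_bot_iff H.subtype).mpr H.subtype_injective)
  exact ncard_mul_gen (KH M H) M H P hI''

theorem inertiaDeg_tower_KH (P : HeightOneSpectrum (𝓞 M)) :
    P.asIdeal.inertiaDeg ℤ
      = (P.asIdeal.under (𝓞 (KH M H))).inertiaDeg ℤ * P.asIdeal.inertiaDeg (𝓞 (KH M H)) :=
  Ideal.inertiaDeg_tower (P.asIdeal.under (𝓞 (KH M H))) P.asIdeal

theorem inertiaDeg_KH_pos (P : HeightOneSpectrum (𝓞 M)) :
    0 < P.asIdeal.inertiaDeg (𝓞 (KH M H)) :=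
  Ideal.inertiaDeg_pos _ _

theorem stab_le_iff (P : HeightOneSpectrum (𝓞 M))
    (hI : Ideal.inertia Gal(M/ℚ) P.asIdeal = ⊥) :
    MulAction.stabilizer Gal(M/ℚ) P.asIdeal ≤ H ↔
      (Ideal.absNorm (P.under (𝓞 (KH M H))).asIdeal).Prime := by
  have ha := card_stab_int M P hI
  have hb := card_subgroupOf M H P hI
  have ht := inertiaDeg_tower_KH M H P
  have hpos := inertiaDeg_KH_pos M H P
  rw [absNorm_prime_iff]
  show _ ↔ (P.asIdeal.under (𝓞 (KH M H))).inertiaDeg ℤ = 1
  set D := MulAction.stabilizer Gal(M/ℚ) P.asIdeal with hD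
  constructor
  · intro hle
    have h1 : Nat.card (D.subgroupOf H) = Nat.card D :=
      Nat.card_congr (Subgroup.subgroupOfEquivOfLe hle).toEquiv
    rw [hb, ha, ht] at h1
    nlinarith [h1, hpos]
  · intro h1
    rw [h1, one_mul] at ht
    have h2 : Nat.card (D.subgroupOf H) = Nat.card D := by rw [hb, ha, ht]
    have h3 : Nat.card ↥(D ⊓ H) = Nat.card D := by
      rw [← h2, ← Subgroup.inf_subgroupOf_right]
      exact (Nat.card_congr (Subgroup.subgroupOfEquivOfLe inf_le_right).toEquiv).symm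
    have h4 : D ⊓ H = D := Subgroup.eq_of_le_of_card_ge inf_le_left h3.ge
    exact inf_eq_left.mp h4

end Abs

section Count

variable (M : Type) [Field M] [NumberField M] [IsGalois ℚ M] (H : Subgroup Gal(M/ℚ))

/-- the primes of `M` above a prime of the fixed field, as height-one primes -/
noncomputable def fibreEquiv (𝔮 : HeightOneSpectrum (𝓞 (KH M H))) :
    {P : HeightOneSpectrum (𝓞 M) // P.under (𝓞 (KH M H)) = 𝔮} ≃
      ↥(𝔮.asIdeal.primesOver (𝓞 M)) where
  toFun P := ⟨P.1.asIdeal, P.1.isPrime, ⟨(congrArg HeightOneSpectrum.asIdeal P.2).symm⟩⟩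
  invFun Q := ⟨⟨Q.1, Q.2.1, Ideal.ne_bot_of_mem_primesOver 𝔮.ne_bot Q.2⟩,
    HeightOneSpectrum.ext Q.2.2.over.symm⟩
  left_inv _ := rfl
  right_inv _ := rfl

theorem fibre_card (𝔮 : HeightOneSpectrum (𝓞 (KH M H))) :
    Nat.card {P : HeightOneSpectrum (𝓞 M) // P.under (𝓞 (KH M H)) = 𝔮}
      = (𝔮.asIdeal.primesOver (𝓞 M)).ncard := by
  rw [Nat.card_congr (fibreEquiv M H 𝔮), Nat.card_coe_set_eq]

theorem fibre_nonempty (𝔮 : HeightOneSpectrum (𝓞 (KH M H))) :
    Nonempty {P : HeightOneSpectrum (𝓞 M) // P.under (𝓞 (KH M H)) = 𝔮} := by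
  have h : Nonempty ↥(𝔮.asIdeal.primesOver (𝓞 M)) := inferInstance
  exact h.map (fibreEquiv M H 𝔮).symm

theorem fibre_finite (𝔮 : HeightOneSpectrum (𝓞 (KH M H))) :
    Finite {P : HeightOneSpectrum (𝓞 M) // P.under (𝓞 (KH M H)) = 𝔮} :=
  Finite.of_equiv _ (fibreEquiv M H 𝔮).symm

end Count

section Main

variable (M : Type) [Field M] [NumberField M] [IsGalois ℚ M]

open Classical in
/-- (C2b) the counting identity for the fixed field of a subgroup. -/
theorem tsum_stabilizer_le (H : Subgroup Gal(M/ℚ)) (good : ℕ → Prop) (w : ℕ → ENNReal)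
    (hgood : ∀ P : HeightOneSpectrum (𝓞 M), good (below M P) →
      Ideal.inertia Gal(M/ℚ) P.asIdeal = ⊥) :
    (∑' P : HeightOneSpectrum (𝓞 M),
      if good (below M P) ∧ MulAction.stabilizer Gal(M/ℚ) P.asIdeal ≤ H then
        (Nat.card (MulAction.stabilizer Gal(M/ℚ) P.asIdeal) : ENNReal) * w (below M P) else 0)
    = (Nat.card H : ENNReal) *
      ∑' 𝔮 : HeightOneSpectrum (𝓞 (FixedPoints.intermediateField H : IntermediateField ℚ M)),
        if good (below _ 𝔮) ∧ (Ideal.absNorm 𝔮.asIdeal).Prime then w (Ideal.absNorm 𝔮.asIdeal)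
        else 0 := by
  rw [← ENNReal.tsum_fiberwise _ (fun P : HeightOneSpectrum (𝓞 M) => P.under (𝓞 (KH M H))),
    ← ENNReal.tsum_mul_left]
  refine tsum_congr fun 𝔮 => ?_
  show (∑' P : {P : HeightOneSpectrum (𝓞 M) // P.under (𝓞 (KH M H)) = 𝔮}, _) = _
  have hfin := fibre_finite M H 𝔮
  have hne := fibre_nonempty M H 𝔮
  by_cases hc : good (below (KH M H) 𝔮) ∧ (Ideal.absNorm 𝔮.asIdeal).Prime
  · rw [if_pos hc]
    obtain ⟨hg, hpr⟩ := hc
    -- facts for every prime in the fibre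
    have key : ∀ P : {P : HeightOneSpectrum (𝓞 M) // P.under (𝓞 (KH M H)) = 𝔮},
        (good (below M P.1) ∧ MulAction.stabilizer Gal(M/ℚ) P.1.asIdeal ≤ H) ∧
        below M P.1 = Ideal.absNorm 𝔮.asIdeal ∧
        (𝔮.asIdeal.primesOver (𝓞 M)).ncard *
          Nat.card (MulAction.stabilizer Gal(M/ℚ) P.1.asIdeal) = Nat.card H := by
      rintro ⟨P, hP⟩
      have hb : below M P = below (KH M H) 𝔮 := by rw [← hP, below_under]
      have hgP : good (below M P) := hb ▸ hg
      have hI := hgood P hgP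
      have hle : MulAction.stabilizer Gal(M/ℚ) P.asIdeal ≤ H := by
        rw [stab_le_iff M H P hI, hP]; exact hpr
      have h1 : 𝔮.asIdeal.inertiaDeg ℤ = 1 := (absNorm_prime_iff _ 𝔮).mp hpr
      refine ⟨⟨hgP, hle⟩, ?_, ?_⟩
      · rw [absNorm_eq_below_pow, h1, pow_one, hb]
      · have h2 := ncard_mul M H P hI
        have h3 := inertiaDeg_tower_KH M H P
        have h4 := card_stab_int M P hI
        have h5 : P.asIdeal.under (𝓞 (KH M H)) = 𝔮.asIdeal :=
          congrArg HeightOneSpectrum.asIdeal hP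
        rw [h5] at h2 h3
        rw [h1, one_mul] at h3
        rw [h4, h3, h2]
    obtain ⟨P₀⟩ := hne
    set c := Nat.card (MulAction.stabilizer Gal(M/ℚ) P₀.1.asIdeal) with hc
    have hcard : ∀ P : {P : HeightOneSpectrum (𝓞 M) // P.under (𝓞 (KH M H)) = 𝔮},
        Nat.card (MulAction.stabilizer Gal(M/ℚ) P.1.asIdeal) = c := by
      intro P
      have h1 := (key P).2.2
      have h2 := (key P₀).2.2
      have h3 : (𝔮.asIdeal.primesOver (𝓞 M)).ncard ≠ 0 := by
        intro h0
        rw [h0, zero_mul] at h2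
        exact (Nat.card_pos (α := H)).ne' h2.symm
      exact Nat.eq_of_mul_eq_mul_left (Nat.pos_of_ne_zero h3) (h1.trans h2.symm)
    have hterm : ∀ P : {P : HeightOneSpectrum (𝓞 M) // P.under (𝓞 (KH M H)) = 𝔮},
        (if good (below M P.1) ∧ MulAction.stabilizer Gal(M/ℚ) P.1.asIdeal ≤ H then
          (Nat.card (MulAction.stabilizer Gal(M/ℚ) P.1.asIdeal) : ENNReal) * w (below M P.1)
          else 0) = (c : ENNReal) * w (Ideal.absNorm 𝔮.asIdeal) := by
      intro P
      rw [if_pos (key P).1, (key P).2.1, hcard P]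
    rw [tsum_congr hterm]
    have := Fintype.ofFinite {P : HeightOneSpectrum (𝓞 M) // P.under (𝓞 (KH M H)) = 𝔮}
    rw [tsum_fintype, Finset.sum_const, Finset.card_univ, ← Nat.card_eq_fintype_card,
      fibre_card, nsmul_eq_mul, ← mul_assoc]
    congr 1
    have h2 := (key P₀).2.2
    rw [← hc] at h2
    rw [← h2]
    push_cast
    ring
  · rw [if_neg hc, mul_zero]
    have hterm : ∀ P : {P : HeightOneSpectrum (𝓞 M) // P.under (𝓞 (KH M H)) = 𝔮},
        (if good (below M P.1) ∧ MulAction.stabilizer Gal(M/ℚ) P.1.asIdeal ≤ H then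
          (Nat.card (MulAction.stabilizer Gal(M/ℚ) P.1.asIdeal) : ENNReal) * w (below M P.1)
          else 0) = 0 := by
      rintro ⟨P, hP⟩
      rw [if_neg]
      rintro ⟨hgP, hle⟩
      have hb : below M P = below (KH M H) 𝔮 := by rw [← hP, below_under]
      have hI := hgood P hgP
      rw [stab_le_iff M H P hI, hP] at hle
      exact hc ⟨hb ▸ hgP, hle⟩
    rw [tsum_congr hterm, tsum_zero]

end Main

section Bad

variable (M : Type) [Field M] [NumberField M] [IsGalois ℚ M]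

theorem exists_not_fixed (τ : Gal(M/ℚ)) (hτ : τ ≠ 1) : ∃ x : 𝓞 M, τ • x ≠ x := by
  by_contra hcon
  simp only [not_exists, not_not] at hcon
  apply hτ
  ext y
  obtain ⟨a, b, hb, rfl⟩ := IsFractionRing.div_surjective (A := 𝓞 M) y
  have ha' : τ (algebraMap (𝓞 M) M a) = algebraMap (𝓞 M) M a :=
    congrArg (algebraMap (𝓞 M) M) (hcon a)
  have hb' : τ (algebraMap (𝓞 M) M b) = algebraMap (𝓞 M) M b :=
    congrArg (algebraMap (𝓞 M) M) (hcon b)
  rw [AlgEquiv.one_apply, map_div₀, ha', hb']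

open Classical in
/-- (C2a) outside a finite set of rational primes the inertia groups are trivial. -/
theorem exists_bad_finset :
    ∃ Bad : Finset ℕ, ∀ P : HeightOneSpectrum (𝓞 M), below M P ∉ Bad →
      Ideal.inertia Gal(M/ℚ) P.asIdeal = ⊥ := by
  have hex : ∀ τ : Gal(M/ℚ), ∃ x : 𝓞 M, τ ≠ 1 → τ • x ≠ x := by
    intro τ
    by_cases hτ : τ = 1
    · exact ⟨0, fun h => absurd hτ h⟩
    · obtain ⟨x, hx⟩ := exists_not_fixed M τ hτ
      exact ⟨x, fun _ => hx⟩
  choose xf hxf using hex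
  have := Fintype.ofFinite Gal(M/ℚ)
  set d : 𝓞 M := ∏ τ ∈ (Finset.univ : Finset Gal(M/ℚ)).filter (fun τ => τ ≠ 1),
    (τ • xf τ - xf τ) with hd
  have hd0 : d ≠ 0 := by
    rw [hd, Finset.prod_ne_zero_iff]
    intro τ hτ
    rw [Finset.mem_filter] at hτ
    exact sub_ne_zero.mpr (hxf τ hτ.2)
  have hN0 : Ideal.absNorm (Ideal.span {d}) ≠ 0 := by
    rw [Ne, Ideal.absNorm_eq_zero_iff, Ideal.span_singleton_eq_bot]
    exact hd0
  refine ⟨(Ideal.absNorm (Ideal.span {d})).primeFactors, fun P hP => ?_⟩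
  rw [Subgroup.eq_bot_iff_forall]
  intro τ hτ
  by_contra hτ1
  apply hP
  have h1 : τ • xf τ - xf τ ∈ P.asIdeal := hτ (xf τ)
  have h2 : d ∈ P.asIdeal := by
    have hdvd : (τ • xf τ - xf τ) ∣ d :=
      Finset.dvd_prod_of_mem _ (Finset.mem_filter.mpr ⟨Finset.mem_univ _, hτ1⟩)
    exact Ideal.mem_of_dvd _ hdvd h1
  have h3 : Ideal.span {d} ≤ P.asIdeal := (Ideal.span_singleton_le_iff_mem _).mpr h2
  have h4 := Ideal.absNorm_dvd_absNorm_of_le h3
  have h5 : below M P ∣ Ideal.absNorm P.asIdeal := Nat.minFac_dvd _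
  exact Nat.mem_primeFactors.mpr ⟨below_prime M P, h5.trans h4, hN0⟩

end Bad

end Fermat.Agent.S29.WeakCheb
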