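import Mathlib

set_option autoImplicit false
set_option linter.unusedSectionVars false

namespace Fermat.Agent.S29.WeakCheb

section Cyclic

variable {G : Type*} [Group G] [Finite G]

/-- the subgroup of order `m` of the cyclic group generated by `σ` -/
theorem card_zpowers_pow_div (σ : G) {m : ℕ} (hm : m ∣ orderOf σ) :
    Nat.card (Subgroup.zpowers (σ ^ (orderOf σ / m))) = m := by
  rw [Nat.card_zpowers]
  have hn : 0 < orderOf σ := orderOf_pos σ
  obtain ⟨k, hk⟩ := hm
  have hm0 : 0 < m := by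
    rcases Nat.eq_zero_or_pos m with h | h
    · rw [h, zero_mul] at hk; omega
    · exact h
  have hk0 : 0 < k := by
    rcases Nat.eq_zero_or_pos k with h | h
    · rw [h, mul_zero] at hk; omega
    · exact h
  rw [orderOf_pow' σ (by rw [hk, Nat.mul_div_cancel_left k hm0]; omega), hk,
    Nat.mul_div_cancel_left k hm0, Nat.gcd_mul_left_left]
  exact Nat.mul_div_cancel m hk0

theorem zpowers_pow_div_le (σ : G) (m : ℕ) :
    Subgroup.zpowers (σ ^ (orderOf σ / m)) ≤ Subgroup.zpowers σ :=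
  Subgroup.zpowers_le.mpr (Subgroup.pow_mem _ (Subgroup.mem_zpowers σ) _)

/-- a subgroup `D` of the cyclic group `⟨σ⟩` lies in the subgroup of order `m` iff its order
divides `m` -/
theorem le_zpowers_pow_div_iff (σ : G) {m : ℕ} (hm : m ∣ orderOf σ) (D : Subgroup G)
    (hD : D ≤ Subgroup.zpowers σ) :
    D ≤ Subgroup.zpowers (σ ^ (orderOf σ / m)) ↔ Nat.card D ∣ m := by
  constructor
  · intro h
    have := Subgroup.card_dvd_of_le h
    rwa [card_zpowers_pow_div σ hm] at this
  · intro hdvd x hx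
    have hn : 0 < orderOf σ := orderOf_pos σ
    obtain ⟨k, hk⟩ := hm
    have hm0 : 0 < m := by
      rcases Nat.eq_zero_or_pos m with h | h
      · rw [h, zero_mul] at hk; omega
      · exact h
    -- x ^ m = 1
    have hxm : x ^ m = 1 := by
      obtain ⟨c, hc⟩ := hdvd
      have h1 : (⟨x, hx⟩ : D) ^ Nat.card D = 1 := pow_card_eq_one'
      have h2 : x ^ Nat.card D = 1 := by
        have h1' := congrArg (Subtype.val) h1
        rwa [Subgroup.coe_pow] at h1'
      rw [hc, pow_mul, h2, one_pow]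
    obtain ⟨j, rfl⟩ := (Subgroup.mem_zpowers_iff).mp (hD hx)
    -- σ ^ (j * m) = 1, so orderOf σ ∣ j * m, so k ∣ j
    have h3 : σ ^ (j * (m : ℤ)) = 1 := by rw [zpow_mul]; exact_mod_cast hxm
    have h4 : (orderOf σ : ℤ) ∣ j * m := (orderOf_dvd_iff_zpow_eq_one).mpr h3
    rw [hk] at h4
    have h5 : (k : ℤ) ∣ j := by
      have h6 : (m : ℤ) * k ∣ (m : ℤ) * j := by
        rw [mul_comm (m : ℤ) j]; exact_mod_cast h4
      exact (mul_dvd_mul_iff_left (by exact_mod_cast hm0.ne')).mp h6
    obtain ⟨i, rfl⟩ := h5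
    rw [hk, Nat.mul_div_cancel_left k hm0, Subgroup.mem_zpowers_iff]
    refine ⟨i, ?_⟩
    rw [← zpow_natCast, ← zpow_mul]

end Cyclic

end Fermat.Agent.S29.WeakCheb
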